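import Mathlib

/-!
# S52, brick (Fam): Klein's icosahedral forms and the 5-congruent family

Conventions (frozen):
* `kf, kH, kT` are Klein's forms `f, H, T` (degrees 12, 20, 30), `kT² + kH³ = 1728 kf⁵`.
* The universal curve over `X(5)` is `E_v : Y² = X³ + 27 H(v) X + 54 T(v)`, i.e.
  `c₄(v) = -H(v)`, `c₆(v) = -T(v)`, `Δ(v) = -f(v)⁵`.
* `wX, wY` are the coordinates of the covariant `w(v) = (-∂f/∂y, ∂f/∂x)(v)`.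
* `famD, famC4, famC6` are polynomials in `c₄, c₆, t` (degrees 12, 20, 30 in `t`, integer
  coefficients) with `famC4³ - famC6² = (c₄³ - c₆²) famD⁵` and
  `c₄(v + t w(v)) = famC4 (c₄ v) (c₆ v) t`, `c₆(v + t w(v)) = famC6 (c₄ v) (c₆ v) t`,
  `f(v + t w(v)) = f(v) famD (c₄ v) (c₆ v) t`.
-/

set_option autoImplicit false
set_option linter.unusedVariables false
set_option linter.unusedSimpArgs false

namespace Fermat.Agent.S52.Fam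

variable {R : Type*} [CommRing R]

/-- Klein's icosahedral invariant of degree 12. -/
def kf (x y : R) : R := x * y * (x ^ 10 + 11 * x ^ 5 * y ^ 5 - y ^ 10)

/-- Klein's icosahedral invariant of degree 20. -/
def kH (x y : R) : R :=
  -(x ^ 20 + y ^ 20) + 228 * (x ^ 15 * y ^ 5 - x ^ 5 * y ^ 15) - 494 * x ^ 10 * y ^ 10

/-- Klein's icosahedral invariant of degree 30. -/
def kT (x y : R) : R :=
  x ^ 30 + y ^ 30 + 522 * (x ^ 25 * y ^ 5 - x ^ 5 * y ^ 25)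
    - 10005 * (x ^ 20 * y ^ 10 + x ^ 10 * y ^ 20)

/-- First coordinate of the covariant `w = (-f_y, f_x)`. -/
def wX (x y : R) : R := -(x ^ 11 + 66 * x ^ 6 * y ^ 5 - 11 * x * y ^ 10)

/-- Second coordinate of the covariant `w = (-f_y, f_x)`. -/
def wY (x y : R) : R := 11 * x ^ 10 * y + 66 * x ^ 5 * y ^ 6 - y ^ 11

theorem klein_rel (x y : R) : kT x y ^ 2 + kH x y ^ 3 = 1728 * kf x y ^ 5 := by
  unfold kT kH kf; ring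

/-- Part 0 of `famD`. -/
def famD_0 (c4 c6 t : R) : R :=
  1 - 66 * c4 * t ^ 2 - 440 * c6 * t ^ 3 - 1485 * c4 ^ 2 * t ^ 4 - 3168 * c4 * c6 * t ^ 5 -
    10560 * c6 ^ 2 * t ^ 6

/-- Part 1 of `famD`. -/
def famD_1 (c4 c6 t : R) : R :=
  5940 * c4 ^ 3 * t ^ 6 - 4752 * c4 ^ 2 * c6 * t ^ 7 + 63360 * c4 * c6 ^ 2 * t ^ 8 - 66825 * c4
    ^ 4 * t ^ 8 + 140800 * c6 ^ 3 * t ^ 9 - 142560 * c4 ^ 3 * c6 * t ^ 9

/-- Part 2 of `famD`. -/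
def famD_2 (c4 c6 t : R) : R :=
  133056 * c4 ^ 2 * c6 ^ 2 * t ^ 10 - 133650 * c4 ^ 5 * t ^ 10 + 61440 * c4 * c6 ^ 3 * t ^ 11 -
    61560 * c4 ^ 4 * c6 * t ^ 11 + 102400 * c6 ^ 4 * t ^ 12 - 193536 * c4 ^ 3 * c6 ^ 2 * t ^ 12

/-- Part 3 of `famD`. -/
def famD_3 (c4 c6 t : R) : R :=
  91125 * c4 ^ 6 * t ^ 12

/-- `D(t)`, of degree 12 in `t`: `f(v + t w(v)) = f(v) D(t)`. -/
def famD (c4 c6 t : R) : R :=
  famD_0 c4 c6 t + famD_1 c4 c6 t + famD_2 c4 c6 t + famD_3 c4 c6 t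

/-- Part 0 of `famC4`. -/
def famC4_0 (c4 c6 t : R) : R :=
  c4 + 20 * c6 * t + 190 * c4 ^ 2 * t ^ 2 + 1140 * c4 * c6 * t ^ 3 + 5700 * c6 ^ 2 * t ^ 4 -
    855 * c4 ^ 3 * t ^ 4

/-- Part 1 of `famC4`. -/
def famC4_1 (c4 c6 t : R) : R :=
  15504 * c4 ^ 2 * c6 * t ^ 5 - 63840 * c4 * c6 ^ 2 * t ^ 6 + 102600 * c4 ^ 4 * t ^ 6 - 182400
    * c6 ^ 3 * t ^ 7 + 259920 * c4 ^ 3 * c6 * t ^ 7 + 1126320 * c4 ^ 2 * c6 ^ 2 * t ^ 8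

/-- Part 2 of `famC4`. -/
def famC4_2 (c4 c6 t : R) : R :=
  -1000350 * c4 ^ 5 * t ^ 8 + 7904000 * c4 * c6 ^ 3 * t ^ 9 - 7736040 * c4 ^ 4 * c6 * t ^ 9 +
    15808000 * c6 ^ 4 * t ^ 10 - 5619744 * c4 ^ 3 * c6 ^ 2 * t ^ 10 - 10003500 * c4 ^ 6 * t ^
    10

/-- Part 3 of `famC4`. -/
def famC4_3 (c4 c6 t : R) : R :=
  54853760 * c4 ^ 2 * c6 ^ 3 * t ^ 11 - 54685800 * c4 ^ 5 * c6 * t ^ 11 + 37939200 * c4 * c6 ^
    4 * t ^ 12 + 7202520 * c4 ^ 4 * c6 ^ 2 * t ^ 12 - 45015750 * c4 ^ 7 * t ^ 12 + 58368000 *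
    c6 ^ 5 * t ^ 13

/-- Part 4 of `famC4`. -/
def famC4_4 (c4 c6 t : R) : R :=
  -23201280 * c4 ^ 3 * c6 ^ 3 * t ^ 13 - 35089200 * c4 ^ 6 * c6 * t ^ 13 + 287462400 * c4 ^ 2 *
    c6 ^ 4 * t ^ 14 - 495188640 * c4 ^ 5 * c6 ^ 2 * t ^ 14 + 207765000 * c4 ^ 8 * t ^ 14 +
    466944000 * c4 * c6 ^ 5 * t ^ 15

/-- Part 5 of `famC4`. -/
def famC4_5 (c4 c6 t : R) : R :=
  -882458496 * c4 ^ 4 * c6 ^ 3 * t ^ 15 + 415530000 * c4 ^ 7 * c6 * t ^ 15 + 583680000 * c6 ^ 6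
    * t ^ 16 - 1220474880 * c4 ^ 3 * c6 ^ 4 * t ^ 16 + 714711600 * c4 ^ 6 * c6 ^ 2 * t ^ 16 -
    77911875 * c4 ^ 9 * t ^ 16

/-- Part 6 of `famC4`. -/
def famC4_6 (c4 c6 t : R) : R :=
  361881600 * c4 ^ 2 * c6 ^ 5 * t ^ 17 - 715080960 * c4 ^ 5 * c6 ^ 3 * t ^ 17 + 353200500 * c4
    ^ 8 * c6 * t ^ 17 - 622592000 * c4 * c6 ^ 6 * t ^ 18 + 2026391040 * c4 ^ 4 * c6 ^ 4 * t ^
    18 - 2182917600 * c4 ^ 7 * c6 ^ 2 * t ^ 18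

/-- Part 7 of `famC4`. -/
def famC4_7 (c4 c6 t : R) : R :=
  779118750 * c4 ^ 10 * t ^ 18 - 655360000 * c6 ^ 7 * t ^ 19 + 2005401600 * c4 ^ 3 * c6 ^ 5 * t
    ^ 19 - 2044414080 * c4 ^ 6 * c6 ^ 3 * t ^ 19 + 694372500 * c4 ^ 9 * c6 * t ^ 19 - 180224000
    * c4 ^ 2 * c6 ^ 6 * t ^ 20

/-- Part 8 of `famC4`. -/
def famC4_8 (c4 c6 t : R) : R :=
  544997376 * c4 ^ 5 * c6 ^ 4 * t ^ 20 - 549301500 * c4 ^ 8 * c6 ^ 2 * t ^ 20 + 184528125 * c4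
    ^ 11 * t ^ 20

/-- `C₄(t)`, of degree 20 in `t`. -/
def famC4 (c4 c6 t : R) : R :=
  famC4_0 c4 c6 t + famC4_1 c4 c6 t + famC4_2 c4 c6 t + famC4_3 c4 c6 t + famC4_4 c4 c6 t +
    famC4_5 c4 c6 t + famC4_6 c4 c6 t + famC4_7 c4 c6 t + famC4_8 c4 c6 t

/-- Part 0 of `famC6`. -/
def famC6_0 (c4 c6 t : R) : R :=
  c6 + 30 * c4 ^ 2 * t + 435 * c4 * c6 * t ^ 2 + 2900 * c6 ^ 2 * t ^ 3 + 1160 * c4 ^ 3 * t ^ 3
    + 27405 * c4 ^ 2 * c6 * t ^ 4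

/-- Part 1 of `famC6`. -/
def famC6_1 (c4 c6 t : R) : R :=
  46980 * c4 * c6 ^ 2 * t ^ 5 + 95526 * c4 ^ 4 * t ^ 5 + 156600 * c6 ^ 3 * t ^ 6 + 437175 * c4
    ^ 3 * c6 * t ^ 6 + 3915000 * c4 ^ 2 * c6 ^ 2 * t ^ 7 - 1879200 * c4 ^ 5 * t ^ 7

/-- Part 2 of `famC6`. -/
def famC6_2 (c4 c6 t : R) : R :=
  14407200 * c4 * c6 ^ 3 * t ^ 8 - 8554275 * c4 ^ 4 * c6 * t ^ 8 + 32016000 * c6 ^ 4 * t ^ 9 -
    42021000 * c4 ^ 3 * c6 ^ 2 * t ^ 9 + 24312150 * c4 ^ 6 * t ^ 9 - 216588240 * c4 ^ 2 * c6 ^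
    3 * t ^ 10

/-- Part 3 of `famC6`. -/
def famC6_3 (c4 c6 t : R) : R :=
  246633255 * c4 ^ 5 * c6 * t ^ 10 - 1459929600 * c4 * c6 ^ 4 * t ^ 11 + 1352475900 * c4 ^ 4 *
    c6 ^ 2 * t ^ 11 + 162081000 * c4 ^ 7 * t ^ 11 - 2433216000 * c6 ^ 5 * t ^ 12 - 1612005600 *
    c4 ^ 3 * c6 ^ 3 * t ^ 12

/-- Part 4 of `famC6`. -/
def famC6_4 (c4 c6 t : R) : R :=
  4131714825 * c4 ^ 6 * c6 * t ^ 12 - 12044419200 * c4 ^ 2 * c6 ^ 4 * t ^ 13 + 5235216300 * c4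
    ^ 5 * c6 ^ 2 * t ^ 13 + 6928962750 * c4 ^ 8 * t ^ 13 - 43045111800 * c4 ^ 4 * c6 ^ 3 * t ^
    14 + 43190534475 * c4 ^ 7 * c6 * t ^ 14

/-- Part 5 of `famC6`. -/
def famC6_5 (c4 c6 t : R) : R :=
  -79420170240 * c4 ^ 3 * c6 ^ 4 * t ^ 15 + 79575287760 * c4 ^ 6 * c6 ^ 2 * t ^ 15 -
    297825638400 * c4 ^ 2 * c6 ^ 5 * t ^ 16 + 474659611200 * c4 ^ 5 * c6 ^ 3 * t ^ 16 -
    176688550125 * c4 ^ 8 * c6 * t ^ 16 - 700766208000 * c4 * c6 ^ 6 * t ^ 17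

/-- Part 6 of `famC6`. -/
def famC6_6 (c4 c6 t : R) : R :=
  935084908800 * c4 ^ 4 * c6 ^ 4 * t ^ 17 + 77604382800 * c4 ^ 7 * c6 ^ 2 * t ^ 17 -
    311803323750 * c4 ^ 10 * t ^ 17 - 778629120000 * c6 ^ 7 * t ^ 18 - 303665356800 * c4 ^ 3 *
    c6 ^ 5 * t ^ 18 + 2776512362400 * c4 ^ 6 * c6 ^ 3 * t ^ 18

/-- Part 7 of `famC6`. -/
def famC6_7 (c4 c6 t : R) : R :=
  -1694131392375 * c4 ^ 9 * c6 * t ^ 18 - 4290656256000 * c4 ^ 2 * c6 ^ 6 * t ^ 19 +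
    8100765158400 * c4 ^ 5 * c6 ^ 4 * t ^ 19 - 3481840250100 * c4 ^ 8 * c6 ^ 2 * t ^ 19 -
    328214025000 * c4 ^ 11 * t ^ 19 - 3442360320000 * c4 * c6 ^ 7 * t ^ 20

/-- Part 8 of `famC6`. -/
def famC6_8 (c4 c6 t : R) : R :=
  3892110842880 * c4 ^ 4 * c6 ^ 5 * t ^ 20 + 2424887357760 * c4 ^ 7 * c6 ^ 3 * t ^ 20 -
    2874607835625 * c4 ^ 10 * c6 * t ^ 20 - 3278438400000 * c6 ^ 8 * t ^ 21 + 5125838438400 *
    c4 ^ 3 * c6 ^ 6 * t ^ 21 - 2709129888000 * c4 ^ 6 * c6 ^ 4 * t ^ 21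

/-- Part 9 of `famC6`. -/
def famC6_9 (c4 c6 t : R) : R :=
  3077188825500 * c4 ^ 9 * c6 ^ 2 * t ^ 21 - 2215444668750 * c4 ^ 12 * t ^ 21 - 4573421568000 *
    c4 ^ 2 * c6 ^ 7 * t ^ 22 + 7701051801600 * c4 ^ 5 * c6 ^ 5 * t ^ 22 - 1724509423800 * c4 ^
    8 * c6 ^ 3 * t ^ 22 - 1403114956875 * c4 ^ 11 * c6 * t ^ 22

/-- Part 10 of `famC6`. -/
def famC6_10 (c4 c6 t : R) : R :=
  6157762560000 * c4 * c6 ^ 8 * t ^ 23 - 30337884979200 * c4 ^ 4 * c6 ^ 6 * t ^ 23 +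
    49888700928000 * c4 ^ 7 * c6 ^ 4 * t ^ 23 - 33414470973000 * c4 ^ 10 * c6 ^ 2 * t ^ 23 +
    7705894500000 * c4 ^ 13 * t ^ 23 + 5131468800000 * c6 ^ 9 * t ^ 24

/-- Part 11 of `famC6`. -/
def famC6_11 (c4 c6 t : R) : R :=
  -22779445248000 * c4 ^ 3 * c6 ^ 7 * t ^ 24 + 35246094796800 * c4 ^ 6 * c6 ^ 5 * t ^ 24 -
    22687218914400 * c4 ^ 9 * c6 ^ 3 * t ^ 24 + 5089101159375 * c4 ^ 12 * c6 * t ^ 24 -
    18216714240000 * c4 ^ 2 * c6 ^ 8 * t ^ 25 + 71274600677376 * c4 ^ 5 * c6 ^ 6 * t ^ 25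

/-- Part 12 of `famC6`. -/
def famC6_12 (c4 c6 t : R) : R :=
  -105528606261120 * c4 ^ 8 * c6 ^ 4 * t ^ 25 + 70097953635000 * c4 ^ 11 * c6 ^ 2 * t ^ 25 -
    17627233668750 * c4 ^ 14 * t ^ 25 - 41051750400000 * c4 * c6 ^ 9 * t ^ 26 + 163803539865600
    * c4 ^ 4 * c6 ^ 7 * t ^ 26 - 245438120632320 * c4 ^ 7 * c6 ^ 5 * t ^ 26

/-- Part 13 of `famC6`. -/
def famC6_13 (c4 c6 t : R) : R :=
  163672057566000 * c4 ^ 10 * c6 ^ 3 * t ^ 26 - 40985726371875 * c4 ^ 13 * c6 * t ^ 26 -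
    30408704000000 * c6 ^ 10 * t ^ 27 + 111934439424000 * c4 ^ 3 * c6 ^ 8 * t ^ 27 -
    143803576074240 * c4 ^ 6 * c6 ^ 6 * t ^ 27 + 63806176396800 * c4 ^ 9 * c6 ^ 4 * t ^ 27

/-- Part 14 of `famC6`. -/
def famC6_14 (c4 c6 t : R) : R :=
  8104032382500 * c4 ^ 12 * c6 ^ 2 * t ^ 27 - 9632368125000 * c4 ^ 15 * t ^ 27 - 21438136320000
    * c4 ^ 2 * c6 ^ 9 * t ^ 28 + 85731449241600 * c4 ^ 5 * c6 ^ 7 * t ^ 28 - 128580522647040 *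
    c4 ^ 8 * c6 ^ 5 * t ^ 28 + 85719228804000 * c4 ^ 11 * c6 ^ 3 * t ^ 28

/-- Part 15 of `famC6`. -/
def famC6_15 (c4 c6 t : R) : R :=
  -21432019078125 * c4 ^ 14 * c6 * t ^ 28 + 5033164800000 * c4 * c6 ^ 10 * t ^ 29 -
    31344427008000 * c4 ^ 4 * c6 ^ 8 * t ^ 29 + 75042714746880 * c4 ^ 7 * c6 ^ 6 * t ^ 29 -
    87394892457600 * c4 ^ 10 * c6 ^ 4 * t ^ 29 + 49873523512500 * c4 ^ 13 * c6 ^ 2 * t ^ 29

/-- Part 16 of `famC6`. -/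
def famC6_16 (c4 c6 t : R) : R :=
  -11210083593750 * c4 ^ 16 * t ^ 29 + 3355443200000 * c6 ^ 11 * t ^ 30 - 17532190720000 * c4 ^
    3 * c6 ^ 9 * t ^ 30 + 36574189977600 * c4 ^ 6 * c6 ^ 7 * t ^ 30 - 38083944628224 * c4 ^ 9 *
    c6 ^ 5 * t ^ 30 + 19796866155000 * c4 ^ 12 * c6 ^ 3 * t ^ 30

/-- Part 17 of `famC6`. -/
def famC6_17 (c4 c6 t : R) : R :=
  -4110363984375 * c4 ^ 15 * c6 * t ^ 30

/-- `C₆(t)`, of degree 30 in `t`. -/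
def famC6 (c4 c6 t : R) : R :=
  famC6_0 c4 c6 t + famC6_1 c4 c6 t + famC6_2 c4 c6 t + famC6_3 c4 c6 t + famC6_4 c4 c6 t +
    famC6_5 c4 c6 t + famC6_6 c4 c6 t + famC6_7 c4 c6 t + famC6_8 c4 c6 t + famC6_9 c4 c6 t +
    famC6_10 c4 c6 t + famC6_11 c4 c6 t + famC6_12 c4 c6 t + famC6_13 c4 c6 t + famC6_14 c4 c6
    t + famC6_15 c4 c6 t + famC6_16 c4 c6 t + famC6_17 c4 c6 t

/-! ### Basic facts -/

theorem famD_zero (c4 c6 : R) : famD c4 c6 0 = 1 := by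
  simp [famD, famD_0, famD_1, famD_2, famD_3]

theorem famC4_zero (c4 c6 : R) : famC4 c4 c6 0 = c4 := by
  simp [famC4, famC4_0, famC4_1, famC4_2, famC4_3, famC4_4, famC4_5, famC4_6, famC4_7, famC4_8]

theorem famC6_zero (c4 c6 : R) : famC6 c4 c6 0 = c6 := by
  simp [famC6, famC6_0, famC6_1, famC6_2, famC6_3, famC6_4, famC6_5, famC6_6, famC6_7, famC6_8, famC6_9, famC6_10, famC6_11, famC6_12, famC6_13, famC6_14, famC6_15, famC6_16, famC6_17]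

theorem kf_smul (s x y : R) : kf (s * x) (s * y) = s ^ 12 * kf x y := by unfold kf; ring

theorem kH_smul (s x y : R) : kH (s * x) (s * y) = s ^ 20 * kH x y := by unfold kH; ring

theorem kT_smul (s x y : R) : kT (s * x) (s * y) = s ^ 30 * kT x y := by unfold kT; ring

/-- `v ∧ w(v) = 12 f(v)` (Euler). -/
theorem wedge_w (x y : R) : x * wY x y - y * wX x y = 12 * kf x y := by
  unfold wX wY kf; ring

section Map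

variable {S : Type*} [CommRing S] (φ : R →+* S)

theorem map_kf (x y : R) : φ (kf x y) = kf (φ x) (φ y) := by
  simp only [kf, map_add, map_sub, map_mul, map_pow, map_ofNat]

theorem map_kH (x y : R) : φ (kH x y) = kH (φ x) (φ y) := by
  simp only [kH, map_add, map_sub, map_mul, map_pow, map_neg, map_ofNat]

theorem map_kT (x y : R) : φ (kT x y) = kT (φ x) (φ y) := by
  simp only [kT, map_add, map_sub, map_mul, map_pow, map_ofNat]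

theorem map_wX (x y : R) : φ (wX x y) = wX (φ x) (φ y) := by
  simp only [wX, map_add, map_sub, map_mul, map_pow, map_neg, map_ofNat]

theorem map_wY (x y : R) : φ (wY x y) = wY (φ x) (φ y) := by
  simp only [wY, map_add, map_sub, map_mul, map_pow, map_ofNat]

theorem map_famD (c4 c6 t : R) : φ (famD c4 c6 t) = famD (φ c4) (φ c6) (φ t) := by
  simp only [    famD, famD_0, famD_1, famD_2, famD_3,
    map_add, map_sub, map_mul, map_pow, map_neg, map_ofNat, map_one]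

theorem map_famC4 (c4 c6 t : R) : φ (famC4 c4 c6 t) = famC4 (φ c4) (φ c6) (φ t) := by
  simp only [    famC4, famC4_0, famC4_1, famC4_2, famC4_3, famC4_4, famC4_5, famC4_6, famC4_7, famC4_8,
    map_add, map_sub, map_mul, map_pow, map_neg, map_ofNat, map_one]

theorem map_famC6 (c4 c6 t : R) : φ (famC6 c4 c6 t) = famC6 (φ c4) (φ c6) (φ t) := by
  simp only [    famC6, famC6_0, famC6_1, famC6_2, famC6_3, famC6_4, famC6_5, famC6_6, famC6_7, famC6_8,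
    famC6_9, famC6_10, famC6_11, famC6_12, famC6_13, famC6_14, famC6_15, famC6_16, famC6_17,
    map_add, map_sub, map_mul, map_pow, map_neg, map_ofNat, map_one]

end Map

end Fermat.Agent.S52.Fam
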