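import Fermat.Agent.S52.Fam.Defs

/-!
# S52, brick (Fam): the homogeneous form of the 5-congruent family

`famDh c4 c6 m n = m^12 * famD c4 c6 (n/m)`, `famC4h c4 c6 m n = m^20 * famC4 c4 c6 (n/m)`,
`famC6h c4 c6 m n = m^30 * famC6 c4 c6 (n/m)` as polynomials: the invariants of the member
`v = m • v₀ + n • w(v₀)` of the family through a curve with invariants `(c4, c6)`.
Generated from the same tables as `Fam/Defs.lean` (`famC4h_one` etc. check the agreement).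
-/

set_option autoImplicit false
set_option linter.unusedVariables false
set_option linter.unusedSimpArgs false

namespace Fermat.Agent.S52.Fam

variable {R : Type*} [CommRing R]

/-- coefficient of `t^0` in `famD` -/
def aD_0 (c4 c6 : R) : R := 1

/-- coefficient of `t^1` in `famD` -/
def aD_1 (c4 c6 : R) : R := 0

/-- coefficient of `t^2` in `famD` -/
def aD_2 (c4 c6 : R) : R := -66 * c4

/-- coefficient of `t^3` in `famD` -/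
def aD_3 (c4 c6 : R) : R := -440 * c6

/-- coefficient of `t^4` in `famD` -/
def aD_4 (c4 c6 : R) : R := -1485 * c4 ^ 2

/-- coefficient of `t^5` in `famD` -/
def aD_5 (c4 c6 : R) : R := -3168 * c4 * c6

/-- coefficient of `t^6` in `famD` -/
def aD_6 (c4 c6 : R) : R := -10560 * c6 ^ 2 + 5940 * c4 ^ 3

/-- coefficient of `t^7` in `famD` -/
def aD_7 (c4 c6 : R) : R := -4752 * c4 ^ 2 * c6

/-- coefficient of `t^8` in `famD` -/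
def aD_8 (c4 c6 : R) : R := 63360 * c4 * c6 ^ 2 - 66825 * c4 ^ 4

/-- coefficient of `t^9` in `famD` -/
def aD_9 (c4 c6 : R) : R := 140800 * c6 ^ 3 - 142560 * c4 ^ 3 * c6

/-- coefficient of `t^10` in `famD` -/
def aD_10 (c4 c6 : R) : R := 133056 * c4 ^ 2 * c6 ^ 2 - 133650 * c4 ^ 5

/-- coefficient of `t^11` in `famD` -/
def aD_11 (c4 c6 : R) : R := 61440 * c4 * c6 ^ 3 - 61560 * c4 ^ 4 * c6

/-- coefficient of `t^12` in `famD` -/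
def aD_12 (c4 c6 : R) : R := 102400 * c6 ^ 4 - 193536 * c4 ^ 3 * c6 ^ 2 + 91125 * c4 ^ 6

/-- homogeneous form of `famD` (degree 12 in `(m, n)`) -/
def famDh (c4 c6 m n : R) : R :=
    aD_0 c4 c6 * m ^ 12 +
    aD_1 c4 c6 * m ^ 11 * n +
    aD_2 c4 c6 * m ^ 10 * n ^ 2 +
    aD_3 c4 c6 * m ^ 9 * n ^ 3 +
    aD_4 c4 c6 * m ^ 8 * n ^ 4 +
    aD_5 c4 c6 * m ^ 7 * n ^ 5 +
    aD_6 c4 c6 * m ^ 6 * n ^ 6 +
    aD_7 c4 c6 * m ^ 5 * n ^ 7 +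
    aD_8 c4 c6 * m ^ 4 * n ^ 8 +
    aD_9 c4 c6 * m ^ 3 * n ^ 9 +
    aD_10 c4 c6 * m ^ 2 * n ^ 10 +
    aD_11 c4 c6 * m * n ^ 11 +
    aD_12 c4 c6 * n ^ 12

/-- `famDh = a_0 * m^12 + n * famDhr` -/
def famDhr (c4 c6 m n : R) : R :=
    aD_1 c4 c6 * m ^ 11 +
    aD_2 c4 c6 * m ^ 10 * n +
    aD_3 c4 c6 * m ^ 9 * n ^ 2 +
    aD_4 c4 c6 * m ^ 8 * n ^ 3 +
    aD_5 c4 c6 * m ^ 7 * n ^ 4 +
    aD_6 c4 c6 * m ^ 6 * n ^ 5 +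
    aD_7 c4 c6 * m ^ 5 * n ^ 6 +
    aD_8 c4 c6 * m ^ 4 * n ^ 7 +
    aD_9 c4 c6 * m ^ 3 * n ^ 8 +
    aD_10 c4 c6 * m ^ 2 * n ^ 9 +
    aD_11 c4 c6 * m * n ^ 10 +
    aD_12 c4 c6 * n ^ 11

/-- coefficient of `t^0` in `famC4` -/
def aC4_0 (c4 c6 : R) : R := c4

/-- coefficient of `t^1` in `famC4` -/
def aC4_1 (c4 c6 : R) : R := 20 * c6

/-- coefficient of `t^2` in `famC4` -/
def aC4_2 (c4 c6 : R) : R := 190 * c4 ^ 2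

/-- coefficient of `t^3` in `famC4` -/
def aC4_3 (c4 c6 : R) : R := 1140 * c4 * c6

/-- coefficient of `t^4` in `famC4` -/
def aC4_4 (c4 c6 : R) : R := 5700 * c6 ^ 2 - 855 * c4 ^ 3

/-- coefficient of `t^5` in `famC4` -/
def aC4_5 (c4 c6 : R) : R := 15504 * c4 ^ 2 * c6

/-- coefficient of `t^6` in `famC4` -/
def aC4_6 (c4 c6 : R) : R := -63840 * c4 * c6 ^ 2 + 102600 * c4 ^ 4

/-- coefficient of `t^7` in `famC4` -/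
def aC4_7 (c4 c6 : R) : R := -182400 * c6 ^ 3 + 259920 * c4 ^ 3 * c6

/-- coefficient of `t^8` in `famC4` -/
def aC4_8 (c4 c6 : R) : R := 1126320 * c4 ^ 2 * c6 ^ 2 - 1000350 * c4 ^ 5

/-- coefficient of `t^9` in `famC4` -/
def aC4_9 (c4 c6 : R) : R := 7904000 * c4 * c6 ^ 3 - 7736040 * c4 ^ 4 * c6

/-- coefficient of `t^10` in `famC4` -/
def aC4_10 (c4 c6 : R) : R := 15808000 * c6 ^ 4 - 5619744 * c4 ^ 3 * c6 ^ 2 - 10003500 * c4 ^ 6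

/-- coefficient of `t^11` in `famC4` -/
def aC4_11 (c4 c6 : R) : R := 54853760 * c4 ^ 2 * c6 ^ 3 - 54685800 * c4 ^ 5 * c6

/-- coefficient of `t^12` in `famC4` -/
def aC4_12 (c4 c6 : R) : R := 37939200 * c4 * c6 ^ 4 + 7202520 * c4 ^ 4 * c6 ^ 2 - 45015750 * c4 ^ 7

/-- coefficient of `t^13` in `famC4` -/
def aC4_13 (c4 c6 : R) : R := 58368000 * c6 ^ 5 - 23201280 * c4 ^ 3 * c6 ^ 3 - 35089200 * c4 ^ 6 * c6

/-- coefficient of `t^14` in `famC4` -/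
def aC4_14 (c4 c6 : R) : R := 287462400 * c4 ^ 2 * c6 ^ 4 - 495188640 * c4 ^ 5 * c6 ^ 2 + 207765000 * c4 ^ 8

/-- coefficient of `t^15` in `famC4` -/
def aC4_15 (c4 c6 : R) : R := 466944000 * c4 * c6 ^ 5 - 882458496 * c4 ^ 4 * c6 ^ 3 + 415530000 * c4 ^ 7 * c6

/-- coefficient of `t^16` in `famC4` -/
def aC4_16 (c4 c6 : R) : R := 583680000 * c6 ^ 6 - 1220474880 * c4 ^ 3 * c6 ^ 4 + 714711600 * c4 ^ 6 * c6 ^ 2 - 77911875 * c4 ^ 9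

/-- coefficient of `t^17` in `famC4` -/
def aC4_17 (c4 c6 : R) : R := 361881600 * c4 ^ 2 * c6 ^ 5 - 715080960 * c4 ^ 5 * c6 ^ 3 + 353200500 * c4 ^ 8 * c6

/-- coefficient of `t^18` in `famC4` -/
def aC4_18 (c4 c6 : R) : R := -622592000 * c4 * c6 ^ 6 + 2026391040 * c4 ^ 4 * c6 ^ 4 - 2182917600 * c4 ^ 7 * c6 ^ 2 + 779118750 * c4 ^ 10

/-- coefficient of `t^19` in `famC4` -/
def aC4_19 (c4 c6 : R) : R := -655360000 * c6 ^ 7 + 2005401600 * c4 ^ 3 * c6 ^ 5 - 2044414080 * c4 ^ 6 * c6 ^ 3 + 694372500 * c4 ^ 9 * c6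

/-- coefficient of `t^20` in `famC4` -/
def aC4_20 (c4 c6 : R) : R := -180224000 * c4 ^ 2 * c6 ^ 6 + 544997376 * c4 ^ 5 * c6 ^ 4 - 549301500 * c4 ^ 8 * c6 ^ 2 + 184528125 * c4 ^ 11

/-- homogeneous form of `famC4` (degree 20 in `(m, n)`) -/
def famC4h (c4 c6 m n : R) : R :=
    aC4_0 c4 c6 * m ^ 20 +
    aC4_1 c4 c6 * m ^ 19 * n +
    aC4_2 c4 c6 * m ^ 18 * n ^ 2 +
    aC4_3 c4 c6 * m ^ 17 * n ^ 3 +
    aC4_4 c4 c6 * m ^ 16 * n ^ 4 +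
    aC4_5 c4 c6 * m ^ 15 * n ^ 5 +
    aC4_6 c4 c6 * m ^ 14 * n ^ 6 +
    aC4_7 c4 c6 * m ^ 13 * n ^ 7 +
    aC4_8 c4 c6 * m ^ 12 * n ^ 8 +
    aC4_9 c4 c6 * m ^ 11 * n ^ 9 +
    aC4_10 c4 c6 * m ^ 10 * n ^ 10 +
    aC4_11 c4 c6 * m ^ 9 * n ^ 11 +
    aC4_12 c4 c6 * m ^ 8 * n ^ 12 +
    aC4_13 c4 c6 * m ^ 7 * n ^ 13 +
    aC4_14 c4 c6 * m ^ 6 * n ^ 14 +
    aC4_15 c4 c6 * m ^ 5 * n ^ 15 +
    aC4_16 c4 c6 * m ^ 4 * n ^ 16 +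
    aC4_17 c4 c6 * m ^ 3 * n ^ 17 +
    aC4_18 c4 c6 * m ^ 2 * n ^ 18 +
    aC4_19 c4 c6 * m * n ^ 19 +
    aC4_20 c4 c6 * n ^ 20

/-- `famC4h = a_0 * m^20 + n * famC4hr` -/
def famC4hr (c4 c6 m n : R) : R :=
    aC4_1 c4 c6 * m ^ 19 +
    aC4_2 c4 c6 * m ^ 18 * n +
    aC4_3 c4 c6 * m ^ 17 * n ^ 2 +
    aC4_4 c4 c6 * m ^ 16 * n ^ 3 +
    aC4_5 c4 c6 * m ^ 15 * n ^ 4 +
    aC4_6 c4 c6 * m ^ 14 * n ^ 5 +
    aC4_7 c4 c6 * m ^ 13 * n ^ 6 +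
    aC4_8 c4 c6 * m ^ 12 * n ^ 7 +
    aC4_9 c4 c6 * m ^ 11 * n ^ 8 +
    aC4_10 c4 c6 * m ^ 10 * n ^ 9 +
    aC4_11 c4 c6 * m ^ 9 * n ^ 10 +
    aC4_12 c4 c6 * m ^ 8 * n ^ 11 +
    aC4_13 c4 c6 * m ^ 7 * n ^ 12 +
    aC4_14 c4 c6 * m ^ 6 * n ^ 13 +
    aC4_15 c4 c6 * m ^ 5 * n ^ 14 +
    aC4_16 c4 c6 * m ^ 4 * n ^ 15 +
    aC4_17 c4 c6 * m ^ 3 * n ^ 16 +
    aC4_18 c4 c6 * m ^ 2 * n ^ 17 +
    aC4_19 c4 c6 * m * n ^ 18 +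
    aC4_20 c4 c6 * n ^ 19

/-- coefficient of `t^0` in `famC6` -/
def aC6_0 (c4 c6 : R) : R := c6

/-- coefficient of `t^1` in `famC6` -/
def aC6_1 (c4 c6 : R) : R := 30 * c4 ^ 2

/-- coefficient of `t^2` in `famC6` -/
def aC6_2 (c4 c6 : R) : R := 435 * c4 * c6

/-- coefficient of `t^3` in `famC6` -/
def aC6_3 (c4 c6 : R) : R := 2900 * c6 ^ 2 + 1160 * c4 ^ 3

/-- coefficient of `t^4` in `famC6` -/
def aC6_4 (c4 c6 : R) : R := 27405 * c4 ^ 2 * c6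

/-- coefficient of `t^5` in `famC6` -/
def aC6_5 (c4 c6 : R) : R := 46980 * c4 * c6 ^ 2 + 95526 * c4 ^ 4

/-- coefficient of `t^6` in `famC6` -/
def aC6_6 (c4 c6 : R) : R := 156600 * c6 ^ 3 + 437175 * c4 ^ 3 * c6

/-- coefficient of `t^7` in `famC6` -/
def aC6_7 (c4 c6 : R) : R := 3915000 * c4 ^ 2 * c6 ^ 2 - 1879200 * c4 ^ 5

/-- coefficient of `t^8` in `famC6` -/
def aC6_8 (c4 c6 : R) : R := 14407200 * c4 * c6 ^ 3 - 8554275 * c4 ^ 4 * c6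

/-- coefficient of `t^9` in `famC6` -/
def aC6_9 (c4 c6 : R) : R := 32016000 * c6 ^ 4 - 42021000 * c4 ^ 3 * c6 ^ 2 + 24312150 * c4 ^ 6

/-- coefficient of `t^10` in `famC6` -/
def aC6_10 (c4 c6 : R) : R := -216588240 * c4 ^ 2 * c6 ^ 3 + 246633255 * c4 ^ 5 * c6

/-- coefficient of `t^11` in `famC6` -/
def aC6_11 (c4 c6 : R) : R := -1459929600 * c4 * c6 ^ 4 + 1352475900 * c4 ^ 4 * c6 ^ 2 + 162081000 * c4 ^ 7

/-- coefficient of `t^12` in `famC6` -/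
def aC6_12 (c4 c6 : R) : R := -2433216000 * c6 ^ 5 - 1612005600 * c4 ^ 3 * c6 ^ 3 + 4131714825 * c4 ^ 6 * c6

/-- coefficient of `t^13` in `famC6` -/
def aC6_13 (c4 c6 : R) : R := -12044419200 * c4 ^ 2 * c6 ^ 4 + 5235216300 * c4 ^ 5 * c6 ^ 2 + 6928962750 * c4 ^ 8

/-- coefficient of `t^14` in `famC6` -/
def aC6_14 (c4 c6 : R) : R := -43045111800 * c4 ^ 4 * c6 ^ 3 + 43190534475 * c4 ^ 7 * c6

/-- coefficient of `t^15` in `famC6` -/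
def aC6_15 (c4 c6 : R) : R := -79420170240 * c4 ^ 3 * c6 ^ 4 + 79575287760 * c4 ^ 6 * c6 ^ 2

/-- coefficient of `t^16` in `famC6` -/
def aC6_16 (c4 c6 : R) : R := -297825638400 * c4 ^ 2 * c6 ^ 5 + 474659611200 * c4 ^ 5 * c6 ^ 3 - 176688550125 * c4 ^ 8 * c6

/-- coefficient of `t^17` in `famC6` -/
def aC6_17 (c4 c6 : R) : R := -700766208000 * c4 * c6 ^ 6 + 935084908800 * c4 ^ 4 * c6 ^ 4 + 77604382800 * c4 ^ 7 * c6 ^ 2 - 311803323750 * c4 ^ 10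

/-- coefficient of `t^18` in `famC6` -/
def aC6_18 (c4 c6 : R) : R := -778629120000 * c6 ^ 7 - 303665356800 * c4 ^ 3 * c6 ^ 5 + 2776512362400 * c4 ^ 6 * c6 ^ 3 - 1694131392375 * c4 ^ 9 * c6

/-- coefficient of `t^19` in `famC6` -/
def aC6_19 (c4 c6 : R) : R := -4290656256000 * c4 ^ 2 * c6 ^ 6 + 8100765158400 * c4 ^ 5 * c6 ^ 4 - 3481840250100 * c4 ^ 8 * c6 ^ 2 - 328214025000 * c4 ^ 11

/-- coefficient of `t^20` in `famC6` -/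
def aC6_20 (c4 c6 : R) : R := -3442360320000 * c4 * c6 ^ 7 + 3892110842880 * c4 ^ 4 * c6 ^ 5 + 2424887357760 * c4 ^ 7 * c6 ^ 3 - 2874607835625 * c4 ^ 10 * c6

/-- coefficient of `t^21` in `famC6` -/
def aC6_21 (c4 c6 : R) : R := -3278438400000 * c6 ^ 8 + 5125838438400 * c4 ^ 3 * c6 ^ 6 - 2709129888000 * c4 ^ 6 * c6 ^ 4 + 3077188825500 * c4 ^ 9 * c6 ^ 2 - 2215444668750 * c4 ^ 12

/-- coefficient of `t^22` in `famC6` -/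
def aC6_22 (c4 c6 : R) : R := -4573421568000 * c4 ^ 2 * c6 ^ 7 + 7701051801600 * c4 ^ 5 * c6 ^ 5 - 1724509423800 * c4 ^ 8 * c6 ^ 3 - 1403114956875 * c4 ^ 11 * c6

/-- coefficient of `t^23` in `famC6` -/
def aC6_23 (c4 c6 : R) : R := 6157762560000 * c4 * c6 ^ 8 - 30337884979200 * c4 ^ 4 * c6 ^ 6 + 49888700928000 * c4 ^ 7 * c6 ^ 4 - 33414470973000 * c4 ^ 10 * c6 ^ 2 + 7705894500000 * c4 ^ 13

/-- coefficient of `t^24` in `famC6` -/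
def aC6_24 (c4 c6 : R) : R := 5131468800000 * c6 ^ 9 - 22779445248000 * c4 ^ 3 * c6 ^ 7 + 35246094796800 * c4 ^ 6 * c6 ^ 5 - 22687218914400 * c4 ^ 9 * c6 ^ 3 + 5089101159375 * c4 ^ 12 * c6

/-- coefficient of `t^25` in `famC6` -/
def aC6_25 (c4 c6 : R) : R := -18216714240000 * c4 ^ 2 * c6 ^ 8 + 71274600677376 * c4 ^ 5 * c6 ^ 6 - 105528606261120 * c4 ^ 8 * c6 ^ 4 + 70097953635000 * c4 ^ 11 * c6 ^ 2 - 17627233668750 * c4 ^ 14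

/-- coefficient of `t^26` in `famC6` -/
def aC6_26 (c4 c6 : R) : R := -41051750400000 * c4 * c6 ^ 9 + 163803539865600 * c4 ^ 4 * c6 ^ 7 - 245438120632320 * c4 ^ 7 * c6 ^ 5 + 163672057566000 * c4 ^ 10 * c6 ^ 3 - 40985726371875 * c4 ^ 13 * c6

/-- coefficient of `t^27` in `famC6` -/
def aC6_27 (c4 c6 : R) : R := -30408704000000 * c6 ^ 10 + 111934439424000 * c4 ^ 3 * c6 ^ 8 - 143803576074240 * c4 ^ 6 * c6 ^ 6 + 63806176396800 * c4 ^ 9 * c6 ^ 4 + 8104032382500 * c4 ^ 12 * c6 ^ 2 - 9632368125000 * c4 ^ 15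

/-- coefficient of `t^28` in `famC6` -/
def aC6_28 (c4 c6 : R) : R := -21438136320000 * c4 ^ 2 * c6 ^ 9 + 85731449241600 * c4 ^ 5 * c6 ^ 7 - 128580522647040 * c4 ^ 8 * c6 ^ 5 + 85719228804000 * c4 ^ 11 * c6 ^ 3 - 21432019078125 * c4 ^ 14 * c6

/-- coefficient of `t^29` in `famC6` -/
def aC6_29 (c4 c6 : R) : R := 5033164800000 * c4 * c6 ^ 10 - 31344427008000 * c4 ^ 4 * c6 ^ 8 + 75042714746880 * c4 ^ 7 * c6 ^ 6 - 87394892457600 * c4 ^ 10 * c6 ^ 4 + 49873523512500 * c4 ^ 13 * c6 ^ 2 - 11210083593750 * c4 ^ 16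

/-- coefficient of `t^30` in `famC6` -/
def aC6_30 (c4 c6 : R) : R := 3355443200000 * c6 ^ 11 - 17532190720000 * c4 ^ 3 * c6 ^ 9 + 36574189977600 * c4 ^ 6 * c6 ^ 7 - 38083944628224 * c4 ^ 9 * c6 ^ 5 + 19796866155000 * c4 ^ 12 * c6 ^ 3 - 4110363984375 * c4 ^ 15 * c6

/-- homogeneous form of `famC6` (degree 30 in `(m, n)`) -/
def famC6h (c4 c6 m n : R) : R :=
    aC6_0 c4 c6 * m ^ 30 +
    aC6_1 c4 c6 * m ^ 29 * n +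
    aC6_2 c4 c6 * m ^ 28 * n ^ 2 +
    aC6_3 c4 c6 * m ^ 27 * n ^ 3 +
    aC6_4 c4 c6 * m ^ 26 * n ^ 4 +
    aC6_5 c4 c6 * m ^ 25 * n ^ 5 +
    aC6_6 c4 c6 * m ^ 24 * n ^ 6 +
    aC6_7 c4 c6 * m ^ 23 * n ^ 7 +
    aC6_8 c4 c6 * m ^ 22 * n ^ 8 +
    aC6_9 c4 c6 * m ^ 21 * n ^ 9 +
    aC6_10 c4 c6 * m ^ 20 * n ^ 10 +
    aC6_11 c4 c6 * m ^ 19 * n ^ 11 +
    aC6_12 c4 c6 * m ^ 18 * n ^ 12 +
    aC6_13 c4 c6 * m ^ 17 * n ^ 13 +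
    aC6_14 c4 c6 * m ^ 16 * n ^ 14 +
    aC6_15 c4 c6 * m ^ 15 * n ^ 15 +
    aC6_16 c4 c6 * m ^ 14 * n ^ 16 +
    aC6_17 c4 c6 * m ^ 13 * n ^ 17 +
    aC6_18 c4 c6 * m ^ 12 * n ^ 18 +
    aC6_19 c4 c6 * m ^ 11 * n ^ 19 +
    aC6_20 c4 c6 * m ^ 10 * n ^ 20 +
    aC6_21 c4 c6 * m ^ 9 * n ^ 21 +
    aC6_22 c4 c6 * m ^ 8 * n ^ 22 +
    aC6_23 c4 c6 * m ^ 7 * n ^ 23 +
    aC6_24 c4 c6 * m ^ 6 * n ^ 24 +
    aC6_25 c4 c6 * m ^ 5 * n ^ 25 +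
    aC6_26 c4 c6 * m ^ 4 * n ^ 26 +
    aC6_27 c4 c6 * m ^ 3 * n ^ 27 +
    aC6_28 c4 c6 * m ^ 2 * n ^ 28 +
    aC6_29 c4 c6 * m * n ^ 29 +
    aC6_30 c4 c6 * n ^ 30

/-- `famC6h = a_0 * m^30 + n * famC6hr` -/
def famC6hr (c4 c6 m n : R) : R :=
    aC6_1 c4 c6 * m ^ 29 +
    aC6_2 c4 c6 * m ^ 28 * n +
    aC6_3 c4 c6 * m ^ 27 * n ^ 2 +
    aC6_4 c4 c6 * m ^ 26 * n ^ 3 +
    aC6_5 c4 c6 * m ^ 25 * n ^ 4 +
    aC6_6 c4 c6 * m ^ 24 * n ^ 5 +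
    aC6_7 c4 c6 * m ^ 23 * n ^ 6 +
    aC6_8 c4 c6 * m ^ 22 * n ^ 7 +
    aC6_9 c4 c6 * m ^ 21 * n ^ 8 +
    aC6_10 c4 c6 * m ^ 20 * n ^ 9 +
    aC6_11 c4 c6 * m ^ 19 * n ^ 10 +
    aC6_12 c4 c6 * m ^ 18 * n ^ 11 +
    aC6_13 c4 c6 * m ^ 17 * n ^ 12 +
    aC6_14 c4 c6 * m ^ 16 * n ^ 13 +
    aC6_15 c4 c6 * m ^ 15 * n ^ 14 +
    aC6_16 c4 c6 * m ^ 14 * n ^ 15 +
    aC6_17 c4 c6 * m ^ 13 * n ^ 16 +
    aC6_18 c4 c6 * m ^ 12 * n ^ 17 +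
    aC6_19 c4 c6 * m ^ 11 * n ^ 18 +
    aC6_20 c4 c6 * m ^ 10 * n ^ 19 +
    aC6_21 c4 c6 * m ^ 9 * n ^ 20 +
    aC6_22 c4 c6 * m ^ 8 * n ^ 21 +
    aC6_23 c4 c6 * m ^ 7 * n ^ 22 +
    aC6_24 c4 c6 * m ^ 6 * n ^ 23 +
    aC6_25 c4 c6 * m ^ 5 * n ^ 24 +
    aC6_26 c4 c6 * m ^ 4 * n ^ 25 +
    aC6_27 c4 c6 * m ^ 3 * n ^ 26 +
    aC6_28 c4 c6 * m ^ 2 * n ^ 27 +
    aC6_29 c4 c6 * m * n ^ 28 +
    aC6_30 c4 c6 * n ^ 29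

theorem famDh_eq (c4 c6 m n : R) :
    famDh c4 c6 m n = 1 * m ^ 12 + n * famDhr c4 c6 m n := by
  simp only [famDh, famDhr, aD_0]
  ring

theorem famDh_smul (s c4 c6 m n : R) :
    famDh c4 c6 (s * m) (s * n) = s ^ 12 * famDh c4 c6 m n := by
  simp only [famDh]
  ring

theorem famDh_one (c4 c6 t : R) : famDh c4 c6 1 t = famD c4 c6 t := by
  simp only [famDh, aD_0, aD_1, aD_2, aD_3, aD_4, aD_5, aD_6, aD_7, aD_8, aD_9, aD_10, aD_11, aD_12, famD, famD_0, famD_1, famD_2, famD_3]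
  ring

theorem famDh_zero_right (c4 c6 m : R) : famDh c4 c6 m 0 = 1 * m ^ 12 := by
  rw [famDh_eq]; ring

theorem famC4h_eq (c4 c6 m n : R) :
    famC4h c4 c6 m n = c4 * m ^ 20 + n * famC4hr c4 c6 m n := by
  simp only [famC4h, famC4hr, aC4_0]
  ring

theorem famC4h_smul (s c4 c6 m n : R) :
    famC4h c4 c6 (s * m) (s * n) = s ^ 20 * famC4h c4 c6 m n := by
  simp only [famC4h]
  ring

theorem famC4h_one (c4 c6 t : R) : famC4h c4 c6 1 t = famC4 c4 c6 t := by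
  simp only [famC4h, aC4_0, aC4_1, aC4_2, aC4_3, aC4_4, aC4_5, aC4_6, aC4_7, aC4_8, aC4_9, aC4_10, aC4_11, aC4_12, aC4_13, aC4_14, aC4_15, aC4_16, aC4_17, aC4_18, aC4_19, aC4_20, famC4, famC4_0, famC4_1, famC4_2, famC4_3, famC4_4, famC4_5, famC4_6, famC4_7, famC4_8]
  ring

theorem famC4h_zero_right (c4 c6 m : R) : famC4h c4 c6 m 0 = c4 * m ^ 20 := by
  rw [famC4h_eq]; ring

theorem famC6h_eq (c4 c6 m n : R) :
    famC6h c4 c6 m n = c6 * m ^ 30 + n * famC6hr c4 c6 m n := by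
  simp only [famC6h, famC6hr, aC6_0]
  ring

theorem famC6h_smul (s c4 c6 m n : R) :
    famC6h c4 c6 (s * m) (s * n) = s ^ 30 * famC6h c4 c6 m n := by
  simp only [famC6h]
  ring

theorem famC6h_one (c4 c6 t : R) : famC6h c4 c6 1 t = famC6 c4 c6 t := by
  simp only [famC6h, aC6_0, aC6_1, aC6_2, aC6_3, aC6_4, aC6_5, aC6_6, aC6_7, aC6_8, aC6_9, aC6_10, aC6_11, aC6_12, aC6_13, aC6_14, aC6_15, aC6_16, aC6_17, aC6_18, aC6_19, aC6_20, aC6_21, aC6_22, aC6_23, aC6_24, aC6_25, aC6_26, aC6_27, aC6_28, aC6_29, aC6_30, famC6, famC6_0, famC6_1, famC6_2, famC6_3, famC6_4, famC6_5, famC6_6, famC6_7, famC6_8, famC6_9, famC6_10, famC6_11, famC6_12, famC6_13, famC6_14, famC6_15, famC6_16, famC6_17]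
  ring

theorem famC6h_zero_right (c4 c6 m : R) : famC6h c4 c6 m 0 = c6 * m ^ 30 := by
  rw [famC6h_eq]; ring

section Map

variable {S : Type*} [CommRing S] (φ : R →+* S)

theorem map_famDh (c4 c6 m n : R) :
    φ (famDh c4 c6 m n) = famDh (φ c4) (φ c6) (φ m) (φ n) := by
  simp only [famDh, aD_0, aD_1, aD_2, aD_3, aD_4, aD_5, aD_6, aD_7, aD_8, aD_9, aD_10, aD_11, aD_12,
    map_add, map_sub, map_mul, map_pow, map_neg, map_ofNat, map_one, map_zero]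

theorem map_famC4h (c4 c6 m n : R) :
    φ (famC4h c4 c6 m n) = famC4h (φ c4) (φ c6) (φ m) (φ n) := by
  simp only [famC4h, aC4_0, aC4_1, aC4_2, aC4_3, aC4_4, aC4_5, aC4_6, aC4_7, aC4_8, aC4_9, aC4_10, aC4_11, aC4_12, aC4_13, aC4_14, aC4_15, aC4_16, aC4_17, aC4_18, aC4_19, aC4_20,
    map_add, map_sub, map_mul, map_pow, map_neg, map_ofNat, map_one, map_zero]

theorem map_famC6h (c4 c6 m n : R) :
    φ (famC6h c4 c6 m n) = famC6h (φ c4) (φ c6) (φ m) (φ n) := by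
  simp only [famC6h, aC6_0, aC6_1, aC6_2, aC6_3, aC6_4, aC6_5, aC6_6, aC6_7, aC6_8, aC6_9, aC6_10, aC6_11, aC6_12, aC6_13, aC6_14, aC6_15, aC6_16, aC6_17, aC6_18, aC6_19, aC6_20, aC6_21, aC6_22, aC6_23, aC6_24, aC6_25, aC6_26, aC6_27, aC6_28, aC6_29, aC6_30,
    map_add, map_sub, map_mul, map_pow, map_neg, map_ofNat, map_one, map_zero]

end Map

/-- the member `(k, N)` with `k ≡ 1 mod N` is congruent to the base curve modulo `N` -/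
theorem famC4h_base (c4 c6 k N : ℤ) (h : N ∣ k - 1) : N ∣ famC4h c4 c6 k N - c4 := by
  have h1 : k - 1 ∣ k ^ 20 - 1 := by simpa using sub_dvd_pow_sub_pow k 1 20
  obtain ⟨e, he⟩ := dvd_trans h h1
  refine ⟨c4 * e + famC4hr c4 c6 k N, ?_⟩
  rw [famC4h_eq]
  linear_combination c4 * he

theorem famC6h_base (c4 c6 k N : ℤ) (h : N ∣ k - 1) : N ∣ famC6h c4 c6 k N - c6 := by
  have h1 : k - 1 ∣ k ^ 30 - 1 := by simpa using sub_dvd_pow_sub_pow k 1 30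
  obtain ⟨e, he⟩ := dvd_trans h h1
  refine ⟨c6 * e + famC6hr c4 c6 k N, ?_⟩
  rw [famC6h_eq]
  linear_combination c6 * he

theorem famDh_base (c4 c6 k N : ℤ) (h : N ∣ k - 1) : N ∣ famDh c4 c6 k N - 1 := by
  have h1 : k - 1 ∣ k ^ 12 - 1 := by simpa using sub_dvd_pow_sub_pow k 1 12
  obtain ⟨e, he⟩ := dvd_trans h h1
  refine ⟨e + famDhr c4 c6 k N, ?_⟩
  rw [famDh_eq]
  linear_combination he

end Fermat.Agent.S52.Fam
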