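import Fermat.Agent.S52.Fam.Defs

/-!
# S52, brick (Fam): Klein forms have no common zeros; existence of a Klein point

* `bezout_f_H` : an explicit Bezout identity for `f` and `H` (constant `5⁵`).
* `kf_kH_ne`, `kH_kT_ne` : no common zeros away from the origin (`2, 3, 5` invertible).
* `exists_klein_point` : over an algebraically closed field with `2, 3, 5 ≠ 0`, every pair
  `(c₄, c₆)` with `c₄³ ≠ c₆²` is `(-H(v), -T(v))` for some `v`; and then `f(v) ≠ 0`.
-/

set_option autoImplicit false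

namespace Fermat.Agent.S52.Fam

open Polynomial

section Bezout

variable {R : Type*} [CommRing R]

/-- Explicit Bezout identity for Klein's `f` and `H`. -/
theorem bezout_f_H (x y : R) :
    (-3003 * y ^ 15 - 5206 * x ^ 5 * y ^ 10 + 2507 * x ^ 10 * y ^ 5 - 11 * x ^ 15) * kf x y
      - x * y * (122 * y ^ 5 + 11 * x ^ 5) * kH x y = 3125 * x * y ^ 26 := by
  unfold kf kH; ring

end Bezout

variable {K : Type*} [Field K]

/-- `f` and `H` have no common zero other than the origin. -/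
theorem kf_kH_ne (h5 : (5 : K) ≠ 0) {x y : K} (hxy : x ≠ 0 ∨ y ≠ 0) :
    kf x y ≠ 0 ∨ kH x y ≠ 0 := by
  by_contra hcon
  rw [not_or, not_not, not_not] at hcon
  obtain ⟨hf, hH⟩ := hcon
  have hb := bezout_f_H x y
  rw [hf, hH, mul_zero, mul_zero, sub_zero] at hb
  have h3125 : (3125 : K) ≠ 0 := by
    have : (3125 : K) = 5 ^ 5 := by norm_num
    rw [this]; exact pow_ne_zero 5 h5
  have hx0 : x = 0 ∨ y = 0 := by
    rcases mul_eq_zero.mp hb.symm with h | h
    · rcases mul_eq_zero.mp h with h' | h'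
      · exact absurd h' h3125
      · exact Or.inl h'
    · exact Or.inr (pow_eq_zero_iff (by norm_num) |>.mp h)
  rcases hx0 with h0 | h0
  · subst h0
    have : y = 0 := by
      have h1 : kH (0 : K) y = -(y ^ 20) := by unfold kH; ring
      rw [h1] at hH
      exact pow_eq_zero_iff (by norm_num) |>.mp (neg_eq_zero.mp hH)
    rcases hxy with h | h
    · exact h rfl
    · exact h this
  · subst h0
    have : x = 0 := by
      have h1 : kH x (0 : K) = -(x ^ 20) := by unfold kH; ring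
      rw [h1] at hH
      exact pow_eq_zero_iff (by norm_num) |>.mp (neg_eq_zero.mp hH)
    rcases hxy with h | h
    · exact h this
    · exact h rfl

/-- `H` and `T` have no common zero other than the origin. -/
theorem kH_kT_ne (h2 : (2 : K) ≠ 0) (h3 : (3 : K) ≠ 0) (h5 : (5 : K) ≠ 0) {x y : K}
    (hxy : x ≠ 0 ∨ y ≠ 0) : kH x y ≠ 0 ∨ kT x y ≠ 0 := by
  by_contra hcon
  rw [not_or, not_not, not_not] at hcon
  obtain ⟨hH, hT⟩ := hcon
  have hrel := klein_rel x y
  rw [hH, hT] at hrel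
  have h1728 : (1728 : K) ≠ 0 := by
    have : (1728 : K) = 2 ^ 6 * 3 ^ 3 := by norm_num
    rw [this]; exact mul_ne_zero (pow_ne_zero 6 h2) (pow_ne_zero 3 h3)
  have hf : kf x y = 0 := by
    have : (1728 : K) * kf x y ^ 5 = 0 := by rw [← hrel]; ring
    rcases mul_eq_zero.mp this with h | h
    · exact absurd h h1728
    · exact pow_eq_zero_iff (by norm_num) |>.mp h
  rcases kf_kH_ne h5 hxy with h | h
  · exact h hf
  · exact h hH

/-- If `(-H(v), -T(v)) = (c₄, c₆)` with `c₄³ ≠ c₆²`, then `f(v) ≠ 0`. -/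
theorem kf_ne_zero_of {x y c4 c6 : K} (hH : -kH x y = c4) (hT : -kT x y = c6)
    (hΔ : c4 ^ 3 - c6 ^ 2 ≠ 0) : kf x y ≠ 0 := by
  intro hf
  apply hΔ
  have hrel := klein_rel x y
  rw [hf] at hrel
  rw [← hH, ← hT]
  linear_combination -hrel

/-- The polynomial `-H(u, 1)`. -/
noncomputable def hPoly : K[X] := X ^ 20 - C 228 * X ^ 15 + C 494 * X ^ 10 + C 228 * X ^ 5 + 1

/-- The polynomial `-T(u, 1)`. -/
noncomputable def tPoly : K[X] :=
  -X ^ 30 - C 522 * X ^ 25 + C 10005 * X ^ 20 + C 10005 * X ^ 10 + C 522 * X ^ 5 - 1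

theorem hPoly_eval (u : K) : (hPoly (K := K)).eval u = -kH u 1 := by
  simp only [hPoly, kH, eval_add, eval_sub, eval_mul, eval_pow, eval_X, eval_C, eval_one]
  ring

theorem tPoly_eval (u : K) : (tPoly (K := K)).eval u = -kT u 1 := by
  simp only [tPoly, kT, eval_add, eval_sub, eval_mul, eval_pow, eval_X, eval_C, eval_one,
    eval_neg]
  ring

theorem natDegree_kleinPoly (c4 c6 : K) (hΔ : c4 ^ 3 - c6 ^ 2 ≠ 0) :
    (C (c6 ^ 2) * hPoly ^ 3 - C (c4 ^ 3) * tPoly ^ 2 : K[X]).natDegree = 60 := by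
  have hΔ' : c6 ^ 2 - c4 ^ 3 ≠ 0 := fun h => hΔ (by linear_combination -h)
  unfold hPoly tPoly
  compute_degree!

/-- **Existence of a Klein point.** Over an algebraically closed field in which `2, 3, 5` are
invertible, every `(c₄, c₆)` with `c₄³ ≠ c₆²` is of the form `(-H(v), -T(v))`. -/
theorem exists_klein_point [IsAlgClosed K] (h2 : (2 : K) ≠ 0) (h3 : (3 : K) ≠ 0)
    (h5 : (5 : K) ≠ 0) (c4 c6 : K) (hΔ : c4 ^ 3 - c6 ^ 2 ≠ 0) :
    ∃ x y : K, -kH x y = c4 ∧ -kT x y = c6 ∧ kf x y ≠ 0 := by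
  suffices h : ∃ x y : K, -kH x y = c4 ∧ -kT x y = c6 by
    obtain ⟨x, y, hH, hT⟩ := h
    exact ⟨x, y, hH, hT, kf_ne_zero_of hH hT hΔ⟩
  have hdeg := natDegree_kleinPoly c4 c6 hΔ
  obtain ⟨u, hu⟩ := IsAlgClosed.exists_root
    (C (c6 ^ 2) * hPoly ^ 3 - C (c4 ^ 3) * tPoly ^ 2 : K[X]) (by
      intro h0
      rw [natDegree_eq_zero_iff_degree_le_zero.mpr (le_of_eq h0)] at hdeg
      exact absurd hdeg (by norm_num))
  rw [IsRoot, eval_sub, eval_mul, eval_mul, eval_C, eval_C, eval_pow, eval_pow, hPoly_eval,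
    tPoly_eval] at hu
  set a := -kH u 1 with ha
  set b := -kT u 1 with hb
  have hab : a ≠ 0 ∨ b ≠ 0 := by
    rcases kH_kT_ne h2 h3 h5 (x := u) (y := 1) (Or.inr one_ne_zero) with h | h
    · exact Or.inl (neg_ne_zero.mpr h)
    · exact Or.inr (neg_ne_zero.mpr h)
  have key : c6 ^ 2 * a ^ 3 = c4 ^ 3 * b ^ 2 := sub_eq_zero.mp hu
  -- homogeneity
  have hsH : ∀ s : K, -kH (s * u) (s * 1) = s ^ 20 * a := by
    intro s; rw [kH_smul, ha]; ring
  have hsT : ∀ s : K, -kT (s * u) (s * 1) = s ^ 30 * b := by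
    intro s; rw [kT_smul, hb]; ring
  by_cases ha0 : a = 0
  · -- then `c4 = 0`
    have hb0 : b ≠ 0 := by
      rcases hab with h | h
      · exact absurd ha0 h
      · exact h
    have hc4 : c4 = 0 := by
      rw [ha0] at key
      have : c4 ^ 3 * b ^ 2 = 0 := by rw [← key]; ring
      rcases mul_eq_zero.mp this with h | h
      · exact pow_eq_zero_iff (by norm_num) |>.mp h
      · exact absurd (pow_eq_zero_iff (by norm_num) |>.mp h) hb0
    obtain ⟨s, hs⟩ := IsAlgClosed.exists_pow_nat_eq (c6 / b) (n := 30) (by norm_num)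
    refine ⟨s * u, s * 1, ?_, ?_⟩
    · rw [hsH, ha0, hc4, mul_zero]
    · rw [hsT, hs]; field_simp
  · by_cases hb0 : b = 0
    · have hc6 : c6 = 0 := by
        rw [hb0] at key
        have : c6 ^ 2 * a ^ 3 = 0 := by rw [key]; ring
        rcases mul_eq_zero.mp this with h | h
        · exact pow_eq_zero_iff (by norm_num) |>.mp h
        · exact absurd (pow_eq_zero_iff (by norm_num) |>.mp h) ha0
      obtain ⟨s, hs⟩ := IsAlgClosed.exists_pow_nat_eq (c4 / a) (n := 20) (by norm_num)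
      refine ⟨s * u, s * 1, ?_, ?_⟩
      · rw [hsH, hs]; field_simp
      · rw [hsT, hb0, hc6, mul_zero]
    · have hc4 : c4 ≠ 0 := by
        intro h
        rw [h] at key hΔ
        have : c6 ^ 2 * a ^ 3 = 0 := by rw [key]; ring
        rcases mul_eq_zero.mp this with h' | h'
        · apply hΔ
          rw [h']; ring
        · exact ha0 (pow_eq_zero_iff (by norm_num) |>.mp h')
      obtain ⟨s, hs⟩ := IsAlgClosed.exists_pow_nat_eq (c6 * a / (c4 * b)) (n := 10) (by norm_num)
      refine ⟨s * u, s * 1, ?_, ?_⟩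
      · rw [hsH, show s ^ 20 = (s ^ 10) ^ 2 by ring, hs]
        field_simp
        linear_combination key
      · rw [hsT, show s ^ 30 = (s ^ 10) ^ 3 by ring, hs]
        field_simp
        linear_combination c6 * key

end Fermat.Agent.S52.Fam
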