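import Mathlib
import Fermat.Agent.S52.TorsFive

/-!
# S52, brick (Fam): pigeonhole rigidity and the abstract congruence consumer (helper107)

Mathlib only (plus `TorsFive`).  Three independent abstract statements used by `Fam/Cong.lean`:

* `exists_label_map`: if two finite families of polynomial points `(X' k, Y' k)` and `(X j, Y j)`
  over an infinite field are such that, for all but finitely many values `s` of the parameter,
  every point of the first family is a point of the second one, then ONE relabelling `π` works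
  identically in `s`.
* `exists_eq_of_injective`: two injective homomorphisms `(ZMod 5)² → W.Point` have the same range.
* `five_dvd_sub_of_labels`: if Frobenius acts on two level structures through the same map of
  labels and satisfies `c • (Φ² - a Φ + l) = 0` resp. `c • (Φ'² - a' Φ' + l) = 0`, then `5 ∣ a - a'`.
-/

set_option autoImplicit false

namespace Fermat.Agent.S52.Fam.Rigid

open Polynomial

/-- **Pigeonhole rigidity.** -/
theorem exists_label_map {K : Type*} [Field K] [Infinite K] {ι κ : Type*} [Finite ι] [Finite κ]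
    (X Y : ι → K[X]) (X' Y' : κ → K[X]) (T : Set K) (hT : T.Finite)
    (h : ∀ s : K, s ∉ T → ∀ k : κ, ∃ j : ι,
      (X' k).eval s = (X j).eval s ∧ (Y' k).eval s = (Y j).eval s) :
    ∃ π : κ → ι, ∀ k, X' k = X (π k) ∧ Y' k = Y (π k) := by
  classical
  -- choose a relabelling for every good `s`
  have hex : ∀ s : (Tᶜ : Set K), ∃ π : κ → ι, ∀ k,
      (X' k).eval (s : K) = (X (π k)).eval (s : K) ∧ (Y' k).eval (s : K) = (Y (π k)).eval (s : K) := by
    intro s
    exact ⟨fun k => (h s s.2 k).choose, fun k => (h s s.2 k).choose_spec⟩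
  choose F hF using hex
  have hinf : Infinite (Tᶜ : Set K) := (Set.Finite.infinite_compl hT).to_subtype
  obtain ⟨π, hπ⟩ := Finite.exists_infinite_fiber F
  refine ⟨π, fun k => ?_⟩
  have hS : (Subtype.val '' (F ⁻¹' {π}) : Set K).Infinite :=
    (Set.infinite_coe_iff.mp hπ).image (Subtype.val_injective.injOn)
  constructor
  · have : X' k - X (π k) = 0 := by
      apply eq_zero_of_infinite_isRoot
      refine hS.mono ?_
      rintro _ ⟨s, hs, rfl⟩
      have hs' : F s = π := hs
      have := (hF s k).1
      rw [hs'] at this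
      simp [IsRoot, this]
    exact sub_eq_zero.mp this
  · have : Y' k - Y (π k) = 0 := by
      apply eq_zero_of_infinite_isRoot
      refine hS.mono ?_
      rintro _ ⟨s, hs, rfl⟩
      have hs' : F s = π := hs
      have := (hF s k).2
      rw [hs'] at this
      simp [IsRoot, this]
    exact sub_eq_zero.mp this

/-- Two injective homomorphisms `(ZMod 5)² → W.Point` have the same range. -/
theorem exists_eq_of_injective {F : Type*} [Field F] [DecidableEq F]
    (W : WeierstrassCurve.Affine F) (h15 : (15 : F) ≠ 0)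
    (g g' : ZMod 5 × ZMod 5 →+ W.Point) (hg : Function.Injective g)
    (k : ZMod 5 × ZMod 5) : ∃ j, g' k = g j := by
  have h5 : ∀ (f : ZMod 5 × ZMod 5 →+ W.Point) (i : ZMod 5 × ZMod 5), 5 • f i = 0 := by
    intro f i
    rw [← map_nsmul]
    have h5z : ∀ x : ZMod 5, (5 : ℕ) • x = 0 := by decide
    have : (5 : ℕ) • i = 0 := by
      ext
      · simpa using h5z i.1
      · simpa using h5z i.2
    rw [this, map_zero]
  have hcard : Fintype.card (ZMod 5 × ZMod 5) = 25 := by
    simp [ZMod.card]
  obtain ⟨j, hj⟩ := Fermat.Agent.S52.TorsFive.mem_range_of_five_nsmul W h15 hcard g hg (h5 g)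
    (h5 g' k)
  exact ⟨j, hj.symm⟩

/-- In `(ZMod 5)²`, `n • v = 0` with `v ≠ 0` forces `5 ∣ n`. -/
theorem five_dvd_of_zsmul_eq_zero {n : ℤ} {v : ZMod 5 × ZMod 5} (hv : v ≠ 0)
    (h : n • v = 0) : (5 : ℤ) ∣ n := by
  have : Fact (Nat.Prime 5) := ⟨by norm_num⟩
  have h1 : (n : ZMod 5) * v.1 = 0 := by
    have := congrArg Prod.fst h
    simpa using this
  have h2 : (n : ZMod 5) * v.2 = 0 := by
    have := congrArg Prod.snd h
    simpa using this
  have hn : (n : ZMod 5) = 0 := by
    by_contra hn
    have e1 : v.1 = 0 := (mul_eq_zero.mp h1).resolve_left hn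
    have e2 : v.2 = 0 := (mul_eq_zero.mp h2).resolve_left hn
    exact hv (Prod.ext e1 e2)
  exact_mod_cast (ZMod.intCast_zmod_eq_zero_iff_dvd n 5).mp hn

/-- **Abstract congruence consumer.**  `g, g'` level structures on two groups, Frobenius acts on
both through the same map `π` of (nonzero) labels, and satisfies the quadratic relations with
traces `a`, `a'` (up to a factor `c` prime to `5`): then `5 ∣ a - a'`. -/
theorem five_dvd_sub_of_labels {G G' : Type*} [AddCommGroup G] [AddCommGroup G']
    (Φ : G →+ G) (Φ' : G' →+ G') (a a' l c : ℤ) (hc : ¬ (5 : ℤ) ∣ c) (hl : ¬ (5 : ℤ) ∣ l)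
    (hTr : ∀ P : G, c • (Φ (Φ P) - a • Φ P + l • P) = 0)
    (hTr' : ∀ P : G', c • (Φ' (Φ' P) - a' • Φ' P + l • P) = 0)
    (g : ZMod 5 × ZMod 5 →+ G) (g' : ZMod 5 × ZMod 5 →+ G')
    (hg : Function.Injective g) (hg' : Function.Injective g')
    (π : ZMod 5 × ZMod 5 → ZMod 5 × ZMod 5)
    (hπ : ∀ k, k ≠ 0 → Φ (g k) = g (π k)) (hπ' : ∀ k, k ≠ 0 → Φ' (g' k) = g' (π k)) :
    (5 : ℤ) ∣ a - a' := by
  have h5 : Prime (5 : ℤ) := by norm_num
  set k0 : ZMod 5 × ZMod 5 := (1, 0) with hk0
  have hk0ne : k0 ≠ 0 := by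
    intro h
    have := congrArg Prod.fst h
    simp only [hk0, Prod.fst_zero] at this
    exact absurd this (by decide)
  -- `π k0 ≠ 0`
  have hπk0 : π k0 ≠ 0 := by
    intro h0
    have e1 : Φ (g k0) = 0 := by rw [hπ k0 hk0ne, h0, map_zero]
    have e := hTr (g k0)
    rw [e1, map_zero, smul_zero, sub_zero, zero_add, ← map_zsmul, ← map_zsmul] at e
    have e' : c • l • k0 = 0 := hg (by rw [e, map_zero])
    rw [smul_smul] at e'
    have := five_dvd_of_zsmul_eq_zero hk0ne e'
    rcases h5.dvd_or_dvd this with h | h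
    · exact hc h
    · exact hl h
  have r1 : c • (π (π k0) - a • π k0 + l • k0) = 0 := by
    apply hg
    have e := hTr (g k0)
    rw [hπ k0 hk0ne, hπ (π k0) hπk0] at e
    rw [map_zero, map_zsmul, map_add, map_sub, map_zsmul, map_zsmul]
    exact e
  have r2 : c • (π (π k0) - a' • π k0 + l • k0) = 0 := by
    apply hg'
    have e := hTr' (g' k0)
    rw [hπ' k0 hk0ne, hπ' (π k0) hπk0] at e
    rw [map_zero, map_zsmul, map_add, map_sub, map_zsmul, map_zsmul]
    exact e
  have r3 : (c * (a' - a)) • π k0 = 0 := by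
    have : c • (π (π k0) - a • π k0 + l • k0) - c • (π (π k0) - a' • π k0 + l • k0) = 0 := by
      rw [r1, r2, sub_zero]
    rw [← smul_sub] at this
    have e : π (π k0) - a • π k0 + l • k0 - (π (π k0) - a' • π k0 + l • k0)
        = (a' - a) • π k0 := by
      rw [sub_smul]; abel
    rw [e, smul_smul] at this
    exact this
  have := five_dvd_of_zsmul_eq_zero hπk0 r3
  rcases h5.dvd_or_dvd this with h | h
  · exact absurd h hc
  · have : (5 : ℤ) ∣ -(a' - a) := (dvd_neg).mpr h
    simpa using this

end Fermat.Agent.S52.Fam.Rigid
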