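import Mathlib
import Fermat.Agent.S52.Fam.Defs
import Fermat.Agent.S52.Fam.Homog
import Fermat.Agent.S52.Fam.KleinPoint
import Fermat.Agent.S52.Fam.Rigid
import Fermat.Agent.S52.Tr.Consumer

/-!
# S52, brick (Fam) F-d: the field `cong` of `Glue.FamilyBricks` (helper107)

`cong_of` : the congruence `5 ∣ #E'(𝔽_ℓ) - #E(𝔽_ℓ)` between the base curve `(c₄, c₆)` and the
member `(m, n)` of the family, from

* `TrStatement' ℓ K` (brick (Tr)), `K = AlgebraicClosure (ZMod ℓ)`;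
* `EquivStatement ℓ K` (bricks F-b Level + F-c Equiv): level structures `g, g'` on the two curves
  on which Frobenius acts through the same map of labels;
* the homogeneous covariance of `kH, kT` (F-a) and the existence of a Klein point.
-/

set_option autoImplicit false

namespace Fermat.Agent.S52.Fam

open WeierstrassCurve Fermat.Agent.S52.Tr Fermat.Agent.S52.Tr.Consumer

/-- **Output of Level + Equiv (F-b, F-c).**  For a Klein point `(x, y)` of the curve
`y² = x³ + a x + b` over `ZMod ℓ` (i.e. `a = 27 H(x,y)`, `b = 54 T(x,y)` in `K`) and the member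
`v' = m v + n w(v)` (`m n : ZMod ℓ`) with curve `(a', b')`: level structures `g`, `g'` on both
curves on which the Frobenius acts through one and the same map `π` of labels. -/
def EquivStatement (ℓ : ℕ) [Fact ℓ.Prime] (K : Type*) [Field K] [DecidableEq K]
    [Algebra (ZMod ℓ) K] : Prop :=
  ∀ (a b a' b' m n : ZMod ℓ) (x y : K),
    algebraMap (ZMod ℓ) K a = 27 * kH x y → algebraMap (ZMod ℓ) K b = 54 * kT x y →
    kf x y ≠ 0 →
    algebraMap (ZMod ℓ) K a' =
      27 * kH (algebraMap (ZMod ℓ) K m * x + algebraMap (ZMod ℓ) K n * wX x y)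
        (algebraMap (ZMod ℓ) K m * y + algebraMap (ZMod ℓ) K n * wY x y) →
    algebraMap (ZMod ℓ) K b' =
      54 * kT (algebraMap (ZMod ℓ) K m * x + algebraMap (ZMod ℓ) K n * wX x y)
        (algebraMap (ZMod ℓ) K m * y + algebraMap (ZMod ℓ) K n * wY x y) →
    kf (algebraMap (ZMod ℓ) K m * x + algebraMap (ZMod ℓ) K n * wX x y)
        (algebraMap (ZMod ℓ) K m * y + algebraMap (ZMod ℓ) K n * wY x y) ≠ 0 →
    ∃ (g : ZMod 5 × ZMod 5 →+ (shortBar ℓ K a b).Point)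
      (g' : ZMod 5 × ZMod 5 →+ (shortBar ℓ K a' b').Point)
      (π : ZMod 5 × ZMod 5 → ZMod 5 × ZMod 5),
      Function.Injective g ∧ Function.Injective g' ∧
      (∀ k, k ≠ 0 → frobK ℓ K a b (g k) = g (π k)) ∧
      (∀ k, k ≠ 0 → frobK ℓ K a' b' (g' k) = g' (π k))

section

variable (ℓ : ℕ) [Fact ℓ.Prime] (K : Type*) [Field K] [DecidableEq K] [Algebra (ZMod ℓ) K]

omit [DecidableEq K] in
private lemma intCast_ne_zero_of_not_dvd {d : ℤ} (hd : ¬ (ℓ : ℤ) ∣ d) : (d : K) ≠ 0 := by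
  have : CharP K ℓ := by
    have := ZMod.charP ℓ
    exact charP_of_injective_algebraMap (algebraMap (ZMod ℓ) K).injective ℓ
  intro h
  exact hd ((CharP.intCast_eq_zero_iff K ℓ d).mp h)

private lemma zmod_intCast_ne_zero_of_not_dvd {d : ℤ} (hd : ¬ (ℓ : ℤ) ∣ d) :
    (d : ZMod ℓ) ≠ 0 := by
  intro h
  exact hd ((ZMod.intCast_zmod_eq_zero_iff_dvd d ℓ).mp h)

/-- The discriminant condition for the short model of `(c₄, c₆)`. -/
private lemma disc_short_ne_zero (h2 : ℓ ≠ 2) (h3 : ℓ ≠ 3) {c4 c6 : ℤ}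
    (hΔ : ¬ (ℓ : ℤ) ∣ c4 ^ 3 - c6 ^ 2) :
    4 * (-27 * (c4 : ZMod ℓ)) ^ 3 + 27 * (-54 * (c6 : ZMod ℓ)) ^ 2 ≠ 0 := by
  have hℓ : ℓ.Prime := Fact.out
  have hp : Prime (ℓ : ℤ) := Nat.prime_iff_prime_int.mp hℓ
  have h78732 : ¬ (ℓ : ℤ) ∣ 78732 := by
    intro h
    have h' : ℓ ∣ 78732 := by exact_mod_cast h
    have e : (78732 : ℕ) = 2 ^ 2 * 3 ^ 9 := by norm_num
    rw [e] at h'
    rcases (Nat.Prime.dvd_mul hℓ).mp h' with h | h
    · exact h2 ((Nat.prime_dvd_prime_iff_eq hℓ Nat.prime_two).mp (hℓ.dvd_of_dvd_pow h))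
    · exact h3 ((Nat.prime_dvd_prime_iff_eq hℓ Nat.prime_three).mp (hℓ.dvd_of_dvd_pow h))
  have hprod : ¬ (ℓ : ℤ) ∣ -78732 * (c4 ^ 3 - c6 ^ 2) := by
    intro h
    rcases hp.dvd_or_dvd h with h | h
    · exact h78732 ((dvd_neg).mp h)
    · exact hΔ h
  have := zmod_intCast_ne_zero_of_not_dvd ℓ hprod
  intro h0
  apply this
  push_cast
  linear_combination h0

/-- **Field `cong`, from (Tr), Level + Equiv, covariance and the Klein point.** -/
theorem cong_of [IsAlgClosed K]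
    (hTr : TrStatement' ℓ K) (hE : EquivStatement ℓ K)
    (hcovH : ∀ x y m n : K,
      kH (m * x + n * wX x y) (m * y + n * wY x y) = -famC4h (-kH x y) (-kT x y) m n)
    (hcovT : ∀ x y m n : K,
      kT (m * x + n * wX x y) (m * y + n * wY x y) = -famC6h (-kH x y) (-kT x y) m n)
    (c4 c6 m n : ℤ) (h2 : ℓ ≠ 2) (h3 : ℓ ≠ 3) (h5 : ℓ ≠ 5)
    (hΔ : ¬ (ℓ : ℤ) ∣ c4 ^ 3 - c6 ^ 2)
    (hΔ' : ¬ (ℓ : ℤ) ∣ (famC4h c4 c6 m n) ^ 3 - (famC6h c4 c6 m n) ^ 2) :
    (5 : ℤ) ∣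
      (Nat.card (shortCurve (-27 * ((famC4h c4 c6 m n : ℤ) : ZMod ℓ))
          (-54 * ((famC6h c4 c6 m n : ℤ) : ZMod ℓ))).Point : ℤ) -
        (Nat.card (shortCurve (-27 * (c4 : ZMod ℓ)) (-54 * (c6 : ZMod ℓ))).Point : ℤ) := by
  have hℓ : ℓ.Prime := Fact.out
  have hp : Prime (ℓ : ℤ) := Nat.prime_iff_prime_int.mp hℓ
  -- small primes are invertible in `K`
  have hnd : ∀ q : ℕ, q.Prime → ℓ ≠ q → ¬ (ℓ : ℤ) ∣ (q : ℤ) := by
    intro q hq hne h
    have h' : ℓ ∣ q := by exact_mod_cast h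
    exact hne ((Nat.prime_dvd_prime_iff_eq hℓ hq).mp h')
  have hK2 : (2 : K) ≠ 0 := by
    have := intCast_ne_zero_of_not_dvd ℓ K (hnd 2 Nat.prime_two h2)
    simpa using this
  have hK3 : (3 : K) ≠ 0 := by
    have := intCast_ne_zero_of_not_dvd ℓ K (hnd 3 Nat.prime_three h3)
    simpa using this
  have hK5 : (5 : K) ≠ 0 := by
    have := intCast_ne_zero_of_not_dvd ℓ K (hnd 5 (by norm_num) h5)
    simpa using this
  -- the Klein point of the base curve
  have hΔK : (c4 : K) ^ 3 - (c6 : K) ^ 2 ≠ 0 := by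
    have := intCast_ne_zero_of_not_dvd ℓ K hΔ
    simpa using this
  obtain ⟨x, y, hH, hT, hf⟩ := exists_klein_point hK2 hK3 hK5 (c4 : K) (c6 : K) hΔK
  -- the member `(m, n)`
  set x' : K := algebraMap (ZMod ℓ) K (m : ZMod ℓ) * x + algebraMap (ZMod ℓ) K (n : ZMod ℓ) * wX x y
    with hx'
  set y' : K := algebraMap (ZMod ℓ) K (m : ZMod ℓ) * y + algebraMap (ZMod ℓ) K (n : ZMod ℓ) * wY x y
    with hy'
  have hH' : -kH x' y' = ((famC4h c4 c6 m n : ℤ) : K) := by
    rw [hx', hy', hcovH, neg_neg, hH, hT]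
    have := map_famC4h (Int.castRingHom K) c4 c6 m n
    simp only [eq_intCast] at this
    rw [this]
    simp
  have hT' : -kT x' y' = ((famC6h c4 c6 m n : ℤ) : K) := by
    rw [hx', hy', hcovT, neg_neg, hH, hT]
    have := map_famC6h (Int.castRingHom K) c4 c6 m n
    simp only [eq_intCast] at this
    rw [this]
    simp
  have hΔK' : ((famC4h c4 c6 m n : ℤ) : K) ^ 3 - ((famC6h c4 c6 m n : ℤ) : K) ^ 2 ≠ 0 := by
    have := intCast_ne_zero_of_not_dvd ℓ K hΔ'
    simpa using this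
  have hf' : kf x' y' ≠ 0 := kf_ne_zero_of hH' hT' hΔK'
  -- the four coefficients
  set a : ZMod ℓ := -27 * (c4 : ZMod ℓ) with ha
  set b : ZMod ℓ := -54 * (c6 : ZMod ℓ) with hb
  set a' : ZMod ℓ := -27 * ((famC4h c4 c6 m n : ℤ) : ZMod ℓ) with ha'
  set b' : ZMod ℓ := -54 * ((famC6h c4 c6 m n : ℤ) : ZMod ℓ) with hb'
  have e1 : algebraMap (ZMod ℓ) K a = 27 * kH x y := by
    rw [ha]; simp only [map_mul, map_neg, map_ofNat, map_intCast]
    linear_combination 27 * hH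
  have e2 : algebraMap (ZMod ℓ) K b = 54 * kT x y := by
    rw [hb]; simp only [map_mul, map_neg, map_ofNat, map_intCast]
    linear_combination 54 * hT
  have e3 : algebraMap (ZMod ℓ) K a' = 27 * kH x' y' := by
    rw [ha']; simp only [map_mul, map_neg, map_ofNat, map_intCast]
    linear_combination 27 * hH'
  have e4 : algebraMap (ZMod ℓ) K b' = 54 * kT x' y' := by
    rw [hb']; simp only [map_mul, map_neg, map_ofNat, map_intCast]
    linear_combination 54 * hT'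
  obtain ⟨g, g', π, hg, hg', hπ, hπ'⟩ := hE a b a' b' (m : ZMod ℓ) (n : ZMod ℓ) x y e1 e2 hf e3 e4 hf'
  have hdisc : 4 * a ^ 3 + 27 * b ^ 2 ≠ 0 := disc_short_ne_zero ℓ h2 h3 hΔ
  have hdisc' : 4 * a' ^ 3 + 27 * b' ^ 2 ≠ 0 := disc_short_ne_zero ℓ h2 h3 hΔ'
  have key := Rigid.five_dvd_sub_of_labels (frobK ℓ K a b) (frobK ℓ K a' b')
    (shortCurve a b).traceOfFrobenius (shortCurve a' b').traceOfFrobenius (ℓ : ℤ) 1
    (by norm_num) (hnd 5 (by norm_num) h5 |> fun h h' => by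
      have h5p : Prime (5 : ℤ) := by norm_num
      have : ((5 : ℕ) : ℤ) ∣ (ℓ : ℤ) := by exact_mod_cast h'
      have h'' : 5 ∣ ℓ := by exact_mod_cast this
      exact h5 ((Nat.prime_dvd_prime_iff_eq (by norm_num) hℓ).mp h'').symm)
    (fun P => by rw [one_smul]; exact hTr a b hdisc P)
    (fun P => by rw [one_smul]; exact hTr a' b' hdisc' P)
    g g' hg hg' π hπ hπ'
  have hcard : (shortCurve a b).traceOfFrobenius - (shortCurve a' b').traceOfFrobenius
      = (Nat.card (shortCurve a' b').Point : ℤ) - (Nat.card (shortCurve a b).Point : ℤ) := by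
    simp only [WeierstrassCurve.traceOfFrobenius, WeierstrassCurve.card]
    ring
  rw [hcard] at key
  exact key

end

end Fermat.Agent.S52.Fam
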