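import Mathlib
import Fermat.Agent.S52.Fam.Defs
import Fermat.Agent.S52.Tr.Defs
import Fermat.Agent.S52.TorsFive

/-!
# S52, brick (Fam), part F-c: pigeonhole equivariance along the pencil

Abstract form (no dependence on the file of the level structure).  `K` is an infinite field,
`φ : K →+* K` a ring endomorphism (the Frobenius in the application), and the level structure
is given by hypotheses:

* `lev A B z x y … : ZMod 5 × ZMod 5 →+ (shortCurve A B).Point` for `A = 27 H(x, y)`,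
  `B = 54 T(x, y)`, `f(x, y) ≠ 0`, injective;
* for `c ≠ 0` the point `lev … c` is the affine point `(XX c z x y, YY c z x y)`, where `XX`, `YY`
  are polynomial along lines and commute with `φ`.

Conclusion: one additive injective `M` on the labels describes the action of `φ` on the level
structures of all curves of the pencil `μ v₀ + ν w(v₀)` with `φ`-fixed parameters.
-/

set_option autoImplicit false

namespace Fermat.Agent.S52.Fam.Equiv

open Polynomial WeierstrassCurve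

/-- Labels of a full level-`5` structure. -/
abbrev Lab : Type := ZMod 5 × ZMod 5

/-- Pigeonhole rigidity: two finite families of polynomial points whose values match up (in some
way) at infinitely many parameters match up identically. -/
theorem rigid {K : Type*} [Field K] {I J : Type*} [Finite I] [Finite J]
    (X1 Y1 : I → K[X]) (X2 Y2 : J → K[X]) (S : Set K) (hS : S.Infinite)
    (h : ∀ s ∈ S, ∀ c : I, ∃ d : J,
      (X1 c).eval s = (X2 d).eval s ∧ (Y1 c).eval s = (Y2 d).eval s) :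
    ∃ π : I → J, ∀ c, X1 c = X2 (π c) ∧ Y1 c = Y2 (π c) := by
  classical
  have h' : ∀ s : S, ∃ π : I → J, ∀ c,
      (X1 c).eval s.1 = (X2 (π c)).eval s.1 ∧ (Y1 c).eval s.1 = (Y2 (π c)).eval s.1 := by
    intro s
    choose π hπ using h s.1 s.2
    exact ⟨π, hπ⟩
  choose Q hQ using h'
  have : Infinite S := hS.to_subtype
  obtain ⟨π, hπ⟩ := Finite.exists_infinite_fiber Q
  have hinf : (Subtype.val '' (Q ⁻¹' {π})).Infinite := by
    have h1 : (Q ⁻¹' {π}).Infinite := Set.infinite_coe_iff.mp hπ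
    exact h1.image Subtype.val_injective.injOn
  refine ⟨π, fun c => ⟨?_, ?_⟩⟩
  · apply Polynomial.eq_of_infinite_eval_eq
    apply hinf.mono
    rintro _ ⟨s, hs, rfl⟩
    have hs' : Q s = π := hs
    have := (hQ s c).1
    rw [hs'] at this
    exact this
  · apply Polynomial.eq_of_infinite_eval_eq
    apply hinf.mono
    rintro _ ⟨s, hs, rfl⟩
    have hs' : Q s = π := hs
    have := (hQ s c).2
    rw [hs'] at this
    exact this

lemma five_nsmul_lab (c : Lab) : 5 • c = 0 := by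
  revert c; decide

lemma card_lab : Fintype.card Lab = 25 := by
  simp [Lab, ZMod.card]

section Core

variable {K : Type*} [Field K] [DecidableEq K]

/-- **Pigeonhole equivariance along the pencil.** -/
theorem pencil_equiv [Infinite K]
    (h2 : (2 : K) ≠ 0) (h3 : (3 : K) ≠ 0) (h5 : (5 : K) ≠ 0)
    (φ : K →+* K)
    (Zt : K → Prop) (hZt : ∀ z, Zt z → Zt (φ z))
    (XX YY : Lab → K → K → K → K)
    (XX_poly : ∀ (c : Lab) (z x0 y0 dx dy : K), ∃ P : K[X], ∀ s : K,
      P.eval s = XX c z (x0 + s * dx) (y0 + s * dy))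
    (YY_poly : ∀ (c : Lab) (z x0 y0 dx dy : K), ∃ P : K[X], ∀ s : K,
      P.eval s = YY c z (x0 + s * dx) (y0 + s * dy))
    (XX_map : ∀ (c : Lab) (z x y : K), φ (XX c z x y) = XX c (φ z) (φ x) (φ y))
    (YY_map : ∀ (c : Lab) (z x y : K), φ (YY c z x y) = YY c (φ z) (φ x) (φ y))
    (lev : ∀ (A B z x y : K), Zt z → kf x y ≠ 0 → A = 27 * kH x y → B = 54 * kT x y →
      (Lab →+ (Tr.shortCurve A B).Point))
    (lev_inj : ∀ (A B z x y : K) (hz : Zt z) (hf : kf x y ≠ 0) (hA : A = 27 * kH x y)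
      (hB : B = 54 * kT x y), Function.Injective (lev A B z x y hz hf hA hB))
    (lev_some : ∀ (A B z x y : K) (hz : Zt z) (hf : kf x y ≠ 0) (hA : A = 27 * kH x y)
      (hB : B = 54 * kT x y) (c : Lab), c ≠ 0 →
      ∃ h, lev A B z x y hz hf hA hB c = Affine.Point.some (XX c z x y) (YY c z x y) h)
    (hcov : ∀ x y x' y' μ ν : K, kH x y = kH x' y' → kT x y = kT x' y' →
      kH (μ * x + ν * wX x y) (μ * y + ν * wY x y)
          = kH (μ * x' + ν * wX x' y') (μ * y' + ν * wY x' y') ∧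
        kT (μ * x + ν * wX x y) (μ * y + ν * wY x y)
          = kT (μ * x' + ν * wX x' y') (μ * y' + ν * wY x' y'))
    (z : K) (hz : Zt z) (x0 y0 : K) (hf0 : kf x0 y0 ≠ 0)
    (hH : φ (kH x0 y0) = kH x0 y0) (hT : φ (kT x0 y0) = kT x0 y0)
    (m n : K) (hm : φ m = m) (hn : φ n = n) :
    ∃ M : Lab →+ Lab, Function.Injective M ∧
      ∀ s : K, φ s = s → ∀ (A B x y : K) (hf : kf x y ≠ 0) (hA : A = 27 * kH x y)
        (hB : B = 54 * kT x y),
        x = (1 + s * (m - 1)) * x0 + (s * n) * wX x0 y0 →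
        y = (1 + s * (m - 1)) * y0 + (s * n) * wY x0 y0 →
        ∀ F : (Tr.shortCurve A B).Point → (Tr.shortCurve A B).Point, F 0 = 0 →
          (∀ (a b : K) (h : (Tr.shortCurve A B).Nonsingular a b),
            ∃ h', F (Affine.Point.some a b h) = Affine.Point.some (φ a) (φ b) h') →
          ∀ c, F (lev A B z x y hz hf hA hB c) = lev A B z x y hz hf hA hB (M c) := by
  classical
  have h15 : (15 : K) ≠ 0 := by
    have : (15 : K) = 3 * 5 := by norm_num
    rw [this]; exact mul_ne_zero h3 h5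
  have h1728 : (1728 : K) ≠ 0 := by
    have : (1728 : K) = 2 ^ 6 * 3 ^ 3 := by norm_num
    rw [this]; exact mul_ne_zero (pow_ne_zero _ h2) (pow_ne_zero _ h3)
  have hz' : Zt (φ z) := hZt z hz
  -- directions of the two paths
  obtain ⟨dx, hdx⟩ : ∃ dx : K, dx = (m - 1) * x0 + n * wX x0 y0 := ⟨_, rfl⟩
  obtain ⟨dy, hdy⟩ : ∃ dy : K, dy = (m - 1) * y0 + n * wY x0 y0 := ⟨_, rfl⟩
  obtain ⟨dx', hdx'⟩ : ∃ dx' : K, dx' = (m - 1) * φ x0 + n * wX (φ x0) (φ y0) := ⟨_, rfl⟩
  obtain ⟨dy', hdy'⟩ : ∃ dy' : K, dy' = (m - 1) * φ y0 + n * wY (φ x0) (φ y0) := ⟨_, rfl⟩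
  have hpx : ∀ s : K, x0 + s * dx = (1 + s * (m - 1)) * x0 + (s * n) * wX x0 y0 := by
    intro s; rw [hdx]; ring
  have hpy : ∀ s : K, y0 + s * dy = (1 + s * (m - 1)) * y0 + (s * n) * wY x0 y0 := by
    intro s; rw [hdy]; ring
  have hpx' : ∀ s : K, φ x0 + s * dx'
      = (1 + s * (m - 1)) * φ x0 + (s * n) * wX (φ x0) (φ y0) := by
    intro s; rw [hdx']; ring
  have hpy' : ∀ s : K, φ y0 + s * dy'
      = (1 + s * (m - 1)) * φ y0 + (s * n) * wY (φ x0) (φ y0) := by
    intro s; rw [hdy']; ring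
  -- the invariants agree along the two paths
  have hH' : kH x0 y0 = kH (φ x0) (φ y0) := by rw [← map_kH, hH]
  have hT' : kT x0 y0 = kT (φ x0) (φ y0) := by rw [← map_kT, hT]
  have hinv : ∀ s : K,
      kH (x0 + s * dx) (y0 + s * dy) = kH (φ x0 + s * dx') (φ y0 + s * dy') ∧
      kT (x0 + s * dx) (y0 + s * dy) = kT (φ x0 + s * dx') (φ y0 + s * dy') := by
    intro s
    rw [hpx, hpy, hpx', hpy']
    exact hcov x0 y0 (φ x0) (φ y0) (1 + s * (m - 1)) (s * n) hH' hT'
  have hkf' : ∀ s : K, kf (x0 + s * dx) (y0 + s * dy) ≠ 0 →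
      kf (φ x0 + s * dx') (φ y0 + s * dy') ≠ 0 := by
    intro s hs h0
    have r1 := klein_rel (x0 + s * dx) (y0 + s * dy)
    have r2 := klein_rel (φ x0 + s * dx') (φ y0 + s * dy')
    rw [← (hinv s).1, ← (hinv s).2, r1, h0] at r2
    have : kf (x0 + s * dx) (y0 + s * dy) ^ 5 = 0 := by
      have h0' : (1728 : K) * 0 ^ 5 = 0 := by ring
      rw [h0'] at r2
      exact (mul_eq_zero.mp r2).resolve_left h1728
    exact hs (pow_eq_zero_iff (by norm_num) |>.mp this)
  -- Frobenius along the path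
  have hfrobx : ∀ s : K, φ s = s → φ (x0 + s * dx) = φ x0 + s * dx' := by
    intro s hs
    rw [hdx, hdx']
    simp only [map_add, map_mul, map_sub, map_one, hs, hm, hn, map_wX]
  have hfroby : ∀ s : K, φ s = s → φ (y0 + s * dy) = φ y0 + s * dy' := by
    intro s hs
    rw [hdy, hdy']
    simp only [map_add, map_mul, map_sub, map_one, hs, hm, hn, map_wY]
  -- the coordinate polynomials
  choose PX hPX using XX_poly
  choose PY hPY using YY_poly
  -- the good parameters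
  have hS : {s : K | kf (x0 + s * dx) (y0 + s * dy) ≠ 0}.Infinite := by
    have hev : ∀ s : K, (kf (C x0 + X * C dx) (C y0 + X * C dy) : K[X]).eval s
        = kf (x0 + s * dx) (y0 + s * dy) := by
      intro s
      have := map_kf (Polynomial.evalRingHom s) (C x0 + X * C dx) (C y0 + X * C dy)
      simp only [coe_evalRingHom, eval_add, eval_mul, eval_C, eval_X] at this
      exact this
    have hne : (kf (C x0 + X * C dx) (C y0 + X * C dy) : K[X]) ≠ 0 := by
      intro h0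
      have := hev 0
      rw [h0] at this
      simp only [eval_zero, zero_mul, add_zero] at this
      exact hf0 this.symm
    have hfin := Polynomial.finite_setOfPred_isRoot hne
    have hcompl := hfin.infinite_compl
    refine hcompl.mono ?_
    intro s hs
    have hs1 : ¬ (kf (C x0 + X * C dx) (C y0 + X * C dy) : K[X]).IsRoot s := hs
    show kf (x0 + s * dx) (y0 + s * dy) ≠ 0
    rw [← hev]; exact hs1
  -- the matching at good parameters
  have key : ∀ s ∈ {s : K | kf (x0 + s * dx) (y0 + s * dy) ≠ 0},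
      ∀ c : {c : Lab // c ≠ 0}, ∃ d : {c : Lab // c ≠ 0},
        (PX c.1 (φ z) (φ x0) (φ y0) dx' dy').eval s = (PX d.1 z x0 y0 dx dy).eval s ∧
        (PY c.1 (φ z) (φ x0) (φ y0) dx' dy').eval s = (PY d.1 z x0 y0 dx dy).eval s := by
    intro s hs c
    have hs0 : kf (x0 + s * dx) (y0 + s * dy) ≠ 0 := hs
    have hs1 := hkf' s hs0
    obtain ⟨A, hA⟩ : ∃ A : K, A = 27 * kH (x0 + s * dx) (y0 + s * dy) := ⟨_, rfl⟩
    obtain ⟨B, hB⟩ : ∃ B : K, B = 54 * kT (x0 + s * dx) (y0 + s * dy) := ⟨_, rfl⟩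
    have hA' : A = 27 * kH (φ x0 + s * dx') (φ y0 + s * dy') := by rw [hA, (hinv s).1]
    have hB' : B = 54 * kT (φ x0 + s * dx') (φ y0 + s * dy') := by rw [hB, (hinv s).2]
    have hmem := TorsFive.mem_range_of_five_nsmul (Tr.shortCurve A B) h15 card_lab
      (lev A B z _ _ hz hs0 hA hB) (lev_inj A B z _ _ hz hs0 hA hB)
      (fun i => by rw [← map_nsmul, five_nsmul_lab, map_zero])
      (P := lev A B (φ z) _ _ hz' hs1 hA' hB' c.1)
      (by rw [← map_nsmul, five_nsmul_lab, map_zero])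
    obtain ⟨d, hd⟩ := hmem
    have hd0 : d ≠ 0 := by
      rintro rfl
      rw [map_zero] at hd
      have := lev_inj A B (φ z) _ _ hz' hs1 hA' hB' (hd.symm.trans (map_zero _).symm)
      exact c.2 this
    obtain ⟨h1, e1⟩ := lev_some A B (φ z) _ _ hz' hs1 hA' hB' c.1 c.2
    obtain ⟨h2, e2⟩ := lev_some A B z _ _ hz hs0 hA hB d hd0
    rw [e1, e2] at hd
    simp only [Affine.Point.some.injEq] at hd
    refine ⟨⟨d, hd0⟩, ?_, ?_⟩
    · rw [hPX, hPX]; exact hd.1.symm
    · rw [hPY, hPY]; exact hd.2.symm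
  obtain ⟨π, hπ⟩ := rigid (fun c : {c : Lab // c ≠ 0} => PX c.1 (φ z) (φ x0) (φ y0) dx' dy')
    (fun c : {c : Lab // c ≠ 0} => PY c.1 (φ z) (φ x0) (φ y0) dx' dy')
    (fun d : {c : Lab // c ≠ 0} => PX d.1 z x0 y0 dx dy)
    (fun d : {c : Lab // c ≠ 0} => PY d.1 z x0 y0 dx dy) _ hS key
  -- the label map
  obtain ⟨M₀, hM₀⟩ : ∃ M₀ : Lab → Lab, M₀ = fun c => if h : c = 0 then 0 else (π ⟨c, h⟩).1 :=
    ⟨_, rfl⟩
  have hM₀0 : M₀ 0 = 0 := by rw [hM₀]; exact dif_pos rfl
  have hM₀ne : ∀ c, c ≠ 0 → M₀ c ≠ 0 := by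
    intro c hc
    rw [hM₀]; simp only [dif_neg hc]
    exact (π ⟨c, hc⟩).2
  have hM₀X : ∀ (s : K) (c : Lab), c ≠ 0 →
      XX c (φ z) (φ x0 + s * dx') (φ y0 + s * dy') = XX (M₀ c) z (x0 + s * dx) (y0 + s * dy) := by
    intro s c hc
    rw [hM₀]; simp only [dif_neg hc]
    rw [← hPX, ← hPX]
    exact congrArg (Polynomial.eval s) (hπ ⟨c, hc⟩).1
  have hM₀Y : ∀ (s : K) (c : Lab), c ≠ 0 →
      YY c (φ z) (φ x0 + s * dx') (φ y0 + s * dy') = YY (M₀ c) z (x0 + s * dx) (y0 + s * dy) := by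
    intro s c hc
    rw [hM₀]; simp only [dif_neg hc]
    rw [← hPY, ← hPY]
    exact congrArg (Polynomial.eval s) (hπ ⟨c, hc⟩).2
  -- comparison of the two level structures at a good parameter
  have hcomp : ∀ (s : K) (hs : kf (x0 + s * dx) (y0 + s * dy) ≠ 0)
      (hs' : kf (φ x0 + s * dx') (φ y0 + s * dy') ≠ 0) (A B : K)
      (hA : A = 27 * kH (x0 + s * dx) (y0 + s * dy))
      (hB : B = 54 * kT (x0 + s * dx) (y0 + s * dy))
      (hA' : A = 27 * kH (φ x0 + s * dx') (φ y0 + s * dy'))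
      (hB' : B = 54 * kT (φ x0 + s * dx') (φ y0 + s * dy')) (c : Lab),
      lev A B (φ z) (φ x0 + s * dx') (φ y0 + s * dy') hz' hs' hA' hB' c
        = lev A B z (x0 + s * dx) (y0 + s * dy) hz hs hA hB (M₀ c) := by
    intro s hs hs' A B hA hB hA' hB' c
    by_cases hc : c = 0
    · subst hc; rw [hM₀0, map_zero, map_zero]
    · obtain ⟨h1, e1⟩ := lev_some A B (φ z) _ _ hz' hs' hA' hB' c hc
      obtain ⟨h2, e2⟩ := lev_some A B z _ _ hz hs hA hB (M₀ c) (hM₀ne c hc)
      rw [e1, e2]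
      simp only [Affine.Point.some.injEq]
      exact ⟨hM₀X s c hc, hM₀Y s c hc⟩
  -- additivity and injectivity of the label map, at `s = 0`
  have h00 : kf (x0 + 0 * dx) (y0 + 0 * dy) ≠ 0 := by
    rw [zero_mul, add_zero, zero_mul, add_zero]; exact hf0
  have h00' := hkf' 0 h00
  obtain ⟨A0, hA0⟩ : ∃ A : K, A = 27 * kH (x0 + 0 * dx) (y0 + 0 * dy) := ⟨_, rfl⟩
  obtain ⟨B0, hB0⟩ : ∃ B : K, B = 54 * kT (x0 + 0 * dx) (y0 + 0 * dy) := ⟨_, rfl⟩
  have hA0' : A0 = 27 * kH (φ x0 + 0 * dx') (φ y0 + 0 * dy') := by rw [hA0, (hinv 0).1]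
  have hB0' : B0 = 54 * kT (φ x0 + 0 * dx') (φ y0 + 0 * dy') := by rw [hB0, (hinv 0).2]
  have hc0 := hcomp 0 h00 h00' A0 B0 hA0 hB0 hA0' hB0'
  have hinj0 := lev_inj A0 B0 z _ _ hz h00 hA0 hB0
  have hinj0' := lev_inj A0 B0 (φ z) _ _ hz' h00' hA0' hB0'
  have hadd : ∀ c d : Lab, M₀ (c + d) = M₀ c + M₀ d := by
    intro c d
    apply hinj0
    rw [← hc0, map_add, map_add, hc0, hc0]
  have hMinj : Function.Injective M₀ := by
    intro c d hcd
    apply hinj0'
    rw [hc0, hc0, hcd]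
  refine ⟨AddMonoidHom.mk' M₀ hadd, hMinj, ?_⟩
  intro s hs A B x y hf hA hB hx hy F hF0 hF c
  rw [← hpx] at hx
  rw [← hpy] at hy
  subst hx
  subst hy
  have hMc : (AddMonoidHom.mk' M₀ hadd) c = M₀ c := rfl
  rw [hMc]
  by_cases hc : c = 0
  · subst hc; rw [hM₀0, map_zero, hF0]
  · obtain ⟨h1, e1⟩ := lev_some A B z _ _ hz hf hA hB c hc
    obtain ⟨h2, e2⟩ := lev_some A B z _ _ hz hf hA hB (M₀ c) (hM₀ne c hc)
    obtain ⟨h3, e3⟩ := hF _ _ h1
    rw [e1, e3, e2]
    simp only [Affine.Point.some.injEq]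
    refine ⟨?_, ?_⟩
    · rw [XX_map, hfrobx s hs, hfroby s hs]; exact hM₀X s c hc
    · rw [YY_map, hfrobx s hs, hfroby s hs]; exact hM₀Y s c hc

end Core

end Fermat.Agent.S52.Fam.Equiv
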