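import Mathlib
import Fermat.Agent.S52.Fam.Equiv
import Fermat.Agent.S52.Fam.Cong

/-!
# S52, brick (Fam), part F-c: `EquivStatement` from a level structure

`equivStatement_of_level` : the statement `Fam.EquivStatement ℓ K` consumed by `Fam.cong_of`,
from any family of full level-`5` structures whose nonzero points are given by coordinate
functions `XX`, `YY` which are polynomial along lines and commute with the Frobenius.
-/

set_option autoImplicit false

namespace Fermat.Agent.S52.Fam.Equiv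

open Polynomial WeierstrassCurve Fermat.Agent.S52.Tr Fermat.Agent.S52.Tr.Consumer

/-- **F-c.**  `EquivStatement` from the interface of the level structure (F-b). -/
theorem equivStatement_of_level (ℓ : ℕ) [Fact ℓ.Prime] (K : Type*) [Field K] [DecidableEq K]
    [Algebra (ZMod ℓ) K] [Infinite K]
    (h2 : ℓ ≠ 2) (h3 : ℓ ≠ 3) (h5 : ℓ ≠ 5)
    (Zt : K → Prop) (hZex : ∃ z, Zt z) (hZt : ∀ z, Zt z → Zt (z ^ ℓ))
    (XX YY : Lab → K → K → K → K)
    (XX_poly : ∀ (c : Lab) (z x0 y0 dx dy : K), ∃ P : K[X], ∀ s : K,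
      P.eval s = XX c z (x0 + s * dx) (y0 + s * dy))
    (YY_poly : ∀ (c : Lab) (z x0 y0 dx dy : K), ∃ P : K[X], ∀ s : K,
      P.eval s = YY c z (x0 + s * dx) (y0 + s * dy))
    (XX_frob : ∀ (c : Lab) (z x y : K), XX c z x y ^ ℓ = XX c (z ^ ℓ) (x ^ ℓ) (y ^ ℓ))
    (YY_frob : ∀ (c : Lab) (z x y : K), YY c z x y ^ ℓ = YY c (z ^ ℓ) (x ^ ℓ) (y ^ ℓ))
    (hlev : ∀ (A B z x y : K), Zt z → kf x y ≠ 0 → A = 27 * kH x y → B = 54 * kT x y →
      ∃ ι : Lab →+ (shortCurve A B).Point, Function.Injective ι ∧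
        ∀ c, c ≠ 0 → ∃ h, ι c = Affine.Point.some (XX c z x y) (YY c z x y) h)
    (hcovH : ∀ x y m n : K,
      kH (m * x + n * wX x y) (m * y + n * wY x y) = -famC4h (-kH x y) (-kT x y) m n)
    (hcovT : ∀ x y m n : K,
      kT (m * x + n * wX x y) (m * y + n * wY x y) = -famC6h (-kH x y) (-kT x y) m n) :
    EquivStatement ℓ K := by
  classical
  have hℓ : ℓ.Prime := Fact.out
  have : CharP K ℓ := by
    have := ZMod.charP ℓ
    exact charP_of_injective_algebraMap (algebraMap (ZMod ℓ) K).injective ℓ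
  have hK : ∀ q : ℕ, q.Prime → ℓ ≠ q → ((q : ℕ) : K) ≠ 0 := by
    intro q hq hne h
    rw [CharP.cast_eq_zero_iff K ℓ] at h
    exact hne ((Nat.prime_dvd_prime_iff_eq hℓ hq).mp h)
  have hK2 : (2 : K) ≠ 0 := by simpa using hK 2 Nat.prime_two h2
  have hK3 : (3 : K) ≠ 0 := by simpa using hK 3 Nat.prime_three h3
  have hK5 : (5 : K) ≠ 0 := by simpa using hK 5 Nat.prime_five h5
  have hfix : ∀ c : ZMod ℓ,
      frobenius K ℓ (algebraMap (ZMod ℓ) K c) = algebraMap (ZMod ℓ) K c := by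
    intro c
    rw [frobenius_def, ← map_pow, ZMod.pow_card]
  intro a b a' b' m n x y e1 e2 hf e3 e4 hf'
  obtain ⟨z, hz⟩ := hZex
  choose lev hlev_inj hlev_some using hlev
  have hcov : ∀ x y x' y' μ ν : K, kH x y = kH x' y' → kT x y = kT x' y' →
      kH (μ * x + ν * wX x y) (μ * y + ν * wY x y)
          = kH (μ * x' + ν * wX x' y') (μ * y' + ν * wY x' y') ∧
        kT (μ * x + ν * wX x y) (μ * y + ν * wY x y)
          = kT (μ * x' + ν * wX x' y') (μ * y' + ν * wY x' y') := by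
    intro x y x' y' μ ν hH hT
    rw [hcovH, hcovH, hcovT, hcovT, hH, hT]
    exact ⟨rfl, rfl⟩
  have hHfix : frobenius K ℓ (kH x y) = kH x y := by
    have h27 : (27 : K) ≠ 0 := by
      have : (27 : K) = 3 ^ 3 := by norm_num
      rw [this]; exact pow_ne_zero _ hK3
    have : kH x y = algebraMap (ZMod ℓ) K (a / 27) := by
      rw [map_div₀, e1, map_ofNat]; field_simp
    rw [this, hfix]
  have hTfix : frobenius K ℓ (kT x y) = kT x y := by
    have h54 : (54 : K) ≠ 0 := by
      have : (54 : K) = 2 * 3 ^ 3 := by norm_num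
      rw [this]; exact mul_ne_zero hK2 (pow_ne_zero _ hK3)
    have : kT x y = algebraMap (ZMod ℓ) K (b / 54) := by
      rw [map_div₀, e2, map_ofNat]; field_simp
    rw [this, hfix]
  obtain ⟨M, hMinj, hM⟩ := pencil_equiv hK2 hK3 hK5 (frobenius K ℓ) Zt
    (fun z hz => by rw [frobenius_def]; exact hZt z hz) XX YY XX_poly YY_poly
    (fun c z x y => by simp only [frobenius_def]; exact XX_frob c z x y)
    (fun c z x y => by simp only [frobenius_def]; exact YY_frob c z x y)
    lev hlev_inj hlev_some hcov z hz x y hf hHfix hTfix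
    (algebraMap (ZMod ℓ) K m) (algebraMap (ZMod ℓ) K n) (hfix m) (hfix n)
  refine ⟨lev _ _ z x y hz hf e1 e2, lev _ _ z _ _ hz hf' e3 e4, M,
    hlev_inj _ _ z x y hz hf e1 e2, hlev_inj _ _ z _ _ hz hf' e3 e4, ?_, ?_⟩
  · intro k _
    exact hM 0 (map_zero _) _ _ x y hf e1 e2 (by ring) (by ring)
      (fun P => frobK ℓ K a b P) (frobK_zero ℓ K a b)
      (fun p q h => ⟨_, frobK_some ℓ K a b h⟩) k
  · intro k _
    exact hM 1 (map_one _) _ _ _ _ hf' e3 e4 (by ring) (by ring)
      (fun P => frobK ℓ K a' b' P) (frobK_zero ℓ K a' b')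
      (fun p q h => ⟨_, frobK_some ℓ K a' b' h⟩) k

end Fermat.Agent.S52.Fam.Equiv
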