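import Fermat.Agent.S52.Fam.Defs

/-!
# S52, brick (Fam): Klein forms and the universal 5-torsion forms — definitions and certificates

`kf, kH, kT` are Klein's icosahedral forms from `Fam/Defs` (`kT^2 + kH^3 = 1728 kf^5`).  For `p = (u, v)` the curve
`E_p : y^2 = x^3 + 27 kH(p) x + 54 kT(p)` carries the universal points
`Q(p) = (XQ, YQ)` (integer forms) and `P(p) = (X0s / 5, Y0s / 5)` (forms over `Z[zeta_5]`).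
This file only contains polynomial identities (certificates), proved by `ring` /
`linear_combination` with the relation `z^4 + z^3 + z^2 + z + 1 = 0`.  (helper167)
-/

set_option autoImplicit false
set_option maxHeartbeats 1600000
set_option linter.unusedSimpArgs false

namespace Fermat.Agent.S52.Fam.Level

section Forms

variable {R : Type*} [CommRing R]

/-- `x`-coordinate of the rational universal 5-torsion point `Q` -/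
def XQ (u v : R) : R :=
  3 * u ^ 10 + 36 * u ^ 8 * v ^ 2 - 36 * u ^ 7 * v ^ 3 + 72 * u ^ 6 * v ^ 4 + 90 * u ^ 5 * v ^ 5
    + 180 * u ^ 4 * v ^ 6 + 108 * u ^ 3 * v ^ 7 + 72 * u ^ 2 * v ^ 8 + 36 * u * v ^ 9 + 3 * v ^ 10

/-- `y`-coordinate of the rational universal 5-torsion point `Q` -/
def YQ (u v : R) : R :=
  108 * u ^ 13 * v ^ 2 + 108 * u ^ 12 * v ^ 3 + 432 * u ^ 11 * v ^ 4 + 540 * u ^ 9 * v ^ 6
    + 648 * u ^ 8 * v ^ 7 + 2268 * u ^ 7 * v ^ 8 + 3132 * u ^ 6 * v ^ 9 + 2700 * u ^ 5 * v ^ 10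
    + 1620 * u ^ 4 * v ^ 11 + 972 * u ^ 3 * v ^ 12 + 432 * u ^ 2 * v ^ 13 + 108 * u * v ^ 14

/-- `sqrt 5` in terms of a primitive 5th root of unity `z` -/
def r5 (z : R) : R := z + z ^ 4 - z ^ 2 - z ^ 3

/-- `5 *` the `x`-coordinate of the universal 5-torsion point `P` on the `mu_5`-line -/
def X0s (z u v : R) : R :=
  (-75 + 18 * r5 z) * u ^ 10 + 198 * r5 z * (u ^ 5 * v ^ 5) + (-75 - 18 * r5 z) * v ^ 10

/-- `5 *` the `y`-coordinate of the universal 5-torsion point `P` -/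
def Y0s (z u v : R) : R :=
  (z - z ^ 4) * ((216 - 108 * r5 z) * u ^ 15 + (2214 - 1242 * r5 z) * (u ^ 10 * v ^ 5)
    + (-1998 - 486 * r5 z) * (u ^ 5 * v ^ 10) + (162 + 54 * r5 z) * v ^ 15)

/-! ### identities without `z` -/

lemma syzygy (u v : R) : kT u v ^ 2 + kH u v ^ 3 = 1728 * kf u v ^ 5 := by
  simp only [kf, kH, kT]; ring

lemma cert_onQ (u v : R) : YQ u v ^ 2 = XQ u v ^ 3 + 27 * kH u v * XQ u v + 54 * kT u v := by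
  simp only [kH, kT, XQ, YQ]; ring

lemma cert_dupQx (u v : R) :
    XQ v (-u) * (4 * YQ u v ^ 2) = (3 * XQ u v ^ 2 + 27 * kH u v) ^ 2 - 8 * XQ u v * YQ u v ^ 2 := by
  simp only [kH, XQ, YQ]; ring

lemma cert_dupQy (u v : R) :
    YQ v (-u) * (2 * YQ u v) =
      -(3 * XQ u v ^ 2 + 27 * kH u v) * (XQ v (-u) - XQ u v) - 2 * YQ u v ^ 2 := by
  simp only [kH, XQ, YQ]; ring

lemma kf_U (u v : R) : kf v (-u) = kf u v := by simp only [kf]; ring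
lemma kH_U (u v : R) : kH v (-u) = kH u v := by simp only [kH]; ring
lemma kT_U (u v : R) : kT v (-u) = kT u v := by simp only [kT]; ring
lemma kf_U' (u v : R) : kf (-v) u = kf u v := by simp only [kf]; ring
lemma kH_U' (u v : R) : kH (-v) u = kH u v := by simp only [kH]; ring
lemma kT_U' (u v : R) : kT (-v) u = kT u v := by simp only [kT]; ring
lemma kf_neg (u v : R) : kf (-u) (-v) = kf u v := by simp only [kf]; ring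
lemma kH_neg (u v : R) : kH (-u) (-v) = kH u v := by simp only [kH]; ring
lemma kT_neg (u v : R) : kT (-u) (-v) = kT u v := by simp only [kT]; ring
lemma XQ_neg (u v : R) : XQ (-u) (-v) = XQ u v := by simp only [XQ]; ring
lemma YQ_neg (u v : R) : YQ (-u) (-v) = -YQ u v := by simp only [YQ]; ring
lemma X0s_neg (z u v : R) : X0s z (-u) (-v) = X0s z u v := by simp only [X0s]; ring
lemma Y0s_neg (z u v : R) : Y0s z (-u) (-v) = -Y0s z u v := by simp only [Y0s]; ring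

/-! ### certificates modulo `z^4 + z^3 + z^2 + z + 1` (generated by `notes_h167/gen_level.py`) -/

lemma cert_onP (z u v : R) (hz : z ^ 4 + z ^ 3 + z ^ 2 + z + 1 = 0) :
    5 * Y0s z u v ^ 2 = X0s z u v ^ 3 + 675 * kH u v * X0s z u v + 6750 * kT u v := by
  simp only [kf, kH, kT, XQ, YQ, X0s, Y0s, r5]
  linear_combination (364500*u^30 - 656100*u^30*z + 889380*u^30*z^2 - 691092*u^30*z^3 + 37908*u^30*z^4 + 361584*u^30*z^5 - 542376*u^30*z^6 + 373248*u^30*z^7 - 180792*u^30*z^8 + 174960*u^30*z^9 + 58320*u^30*z^10 - 174960*u^30*z^11 + 58320*u^30*z^12 + 8019000*u^25*v^5 - 13996800*u^25*v^5*z + 18341640*u^25*v^5*z^2 - 14859936*u^25*v^5*z^3 + 1907064*u^25*v^5*z^4 + 7849872*u^25*v^5*z^5 - 12649608*u^25*v^5*z^6 + 8234784*u^25*v^5*z^7 - 3924936*u^25*v^5*z^8 + 4024080*u^25*v^5*z^9 + 1341360*u^25*v^5*z^10 - 4024080*u^25*v^5*z^11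 + 1341360*u^25*v^5*z^12 + 43740000*u^20*v^10 - 68526000*u^20*v^10*z + 78513300*u^20*v^10*z^2 - 74926620*u^20*v^10*z^3 + 28591380*u^20*v^10*z^4 + 40867740*u^20*v^10*z^5 - 80437860*u^20*v^10*z^6 + 44702280*u^20*v^10*z^7 - 20251620*u^20*v^10*z^8 + 24713100*u^20*v^10*z^9 + 8237700*u^20*v^10*z^10 - 24713100*u^20*v^10*z^11 + 8237700*u^20*v^10*z^12 + 64881000*u^15*v^15*z - 173647800*u^15*v^15*z^2 + 50505120*u^15*v^15*z^3 + 137256120*u^15*v^15*z^4 - 17175240*u^15*v^15*z^5 - 75932640*u^15*v^15*z^6 - 10439280*u^15*v^15*z^7 + 12597120*u^15*v^15*z^8 + 17933400*u^15*v^15*z^9 + 5977800*u^15*v^15*z^10 - 17933400*u^15*v^15*z^11 + 5977800*u^15*v^15*z^12 + 43740000*u^10*v^20 - 18954000*u^10*v^20*z - 17277300*u^10*v^20*z^2 - 38797380*u^10*v^20*z^3 + 32644620*u^10*v^20*z^4 + 20368260*u^10*v^20*z^5 + 1705860*u^10*v^20*z^6 - 27206280*u^10*v^20*z^7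 + 11503620*u^10*v^20*z^8 + 1530900*u^10*v^20*z^9 + 510300*u^10*v^20*z^10 - 1530900*u^10*v^20*z^11 + 510300*u^10*v^20*z^12 - 8019000*u^5*v^25 + 2041200*u^5*v^25*z + 7115040*u^5*v^25*z^2 + 5989464*u^5*v^25*z^3 - 9319536*u^5*v^25*z^4 - 3376728*u^5*v^25*z^5 + 1784592*u^5*v^25*z^6 + 5027184*u^5*v^25*z^7 - 2321136*u^5*v^25*z^8 - 787320*u^5*v^25*z^9 - 262440*u^5*v^25*z^10 + 787320*u^5*v^25*z^11 - 262440*u^5*v^25*z^12 + 364500*v^30 - 72900*v^30*z - 379080*v^30*z^2 - 256608*v^30*z^3 + 472392*v^30*z^4 + 148716*v^30*z^5 - 113724*v^30*z^6 - 227448*v^30*z^7 + 107892*v^30*z^8 + 43740*v^30*z^9 + 14580*v^30*z^10 - 43740*v^30*z^11 + 14580*v^30*z^12) * hz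

lemma cert_add1x (z u v : R) (hz : z ^ 4 + z ^ 3 + z ^ 2 + z + 1 = 0) :
    5 * XQ u v * (5 * XQ (z*u) v - X0s z u v) ^ 2 = 5 * (5 * YQ (z*u) v - Y0s z u v) ^ 2 - (5 * XQ (z*u) v + X0s z u v) * (5 * XQ (z*u) v - X0s z u v) ^ 2 := by
  simp only [kf, kH, kT, XQ, YQ, X0s, Y0s, r5]
  linear_combination (-337500*u^30 + 600750*u^30*z - 827820*u^30*z^2 + 676512*u^30*z^3 - 89748*u^30*z^4 - 281934*u^30*z^5 + 462726*u^30*z^6 - 316548*u^30*z^7 + 180792*u^30*z^8 - 231660*u^30*z^9 - 29295*u^30*z^10 + 178335*u^30*z^11 - 71280*u^30*z^12 + 14580*u^30*z^13 + 3240*u^30*z^14 - 27675*u^30*z^15 + 27675*u^30*z^16 - 8100*u^30*z^17 + 8100*u^30*z^19 - 7425*u^30*z^20 + 3375*u^30*z^21 - 3375*u^30*z^25 + 3375*u^30*z^26 + 1012500*u^28*v^2 - 1498500*u^28*v^2*z + 1030320*u^28*v^2*z^2 - 174960*u^28*v^2*z^3 - 913680*u^28*v^2*z^4 + 1790100*u^28*v^2*z^5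 - 1790100*u^28*v^2*z^6 + 972000*u^28*v^2*z^7 - 607500*u^28*v^2*z^8 + 24300*u^28*v^2*z^9 + 1359180*u^28*v^2*z^10 - 2117340*u^28*v^2*z^11 + 1885680*u^28*v^2*z^12 - 1287900*u^28*v^2*z^13 + 1287900*u^28*v^2*z^14 - 234900*u^28*v^2*z^15 - 1125900*u^28*v^2*z^16 + 777600*u^28*v^2*z^17 - 218700*u^28*v^2*z^18 + 121500*u^28*v^2*z^19 - 121500*u^28*v^2*z^23 + 121500*u^28*v^2*z^24 - 1012500*u^27*v^3 + 1498500*u^27*v^3*z - 1030320*u^27*v^3*z^2 + 174960*u^27*v^3*z^3 + 913680*u^27*v^3*z^4 - 1790100*u^27*v^3*z^5 + 1790100*u^27*v^3*z^6 - 364500*u^27*v^3*z^7 - 996300*u^27*v^3*z^8 + 1807920*u^27*v^3*z^9 - 2370060*u^27*v^3*z^10 + 1573020*u^27*v^3*z^11 + 121500*u^27*v^3*z^12 - 121500*u^27*v^3*z^13 + 194400*u^27*v^3*z^14 - 1125900*u^27*v^3*z^15 + 348300*u^27*v^3*z^16 + 218700*u^27*v^3*z^17 - 121500*u^27*v^3*z^18 + 121500*u^27*v^3*z^22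 - 121500*u^27*v^3*z^23 + 2025000*u^26*v^4 - 2997000*u^26*v^4*z + 2060640*u^26*v^4*z^2 - 349920*u^26*v^4*z^3 - 1827360*u^26*v^4*z^4 + 3580200*u^26*v^4*z^5 - 4795200*u^26*v^4*z^6 + 3936600*u^26*v^4*z^7 + 3188160*u^26*v^4*z^8 - 7620480*u^26*v^4*z^9 + 8161560*u^26*v^4*z^10 - 7160400*u^26*v^4*z^11 + 7241400*u^26*v^4*z^12 - 2527200*u^26*v^4*z^13 - 3693600*u^26*v^4*z^14 + 3807000*u^26*v^4*z^15 - 939600*u^26*v^4*z^16 + 243000*u^26*v^4*z^17 - 243000*u^26*v^4*z^21 + 243000*u^26*v^4*z^22 + 2531250*u^25*v^5 - 850500*u^25*v^5*z - 9494820*u^25*v^5*z^2 + 14101776*u^25*v^5*z^3 - 10248444*u^25*v^5*z^4 + 6742278*u^25*v^5*z^5 - 970542*u^25*v^5*z^6 - 6590484*u^25*v^5*z^7 + 5528736*u^25*v^5*z^8 - 7126380*u^25*v^5*z^9 + 10229490*u^25*v^5*z^10 - 7433370*u^25*v^5*z^11 + 1281420*u^25*v^5*z^12 + 320760*u^25*v^5*z^13 - 2836620*u^25*v^5*z^14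 + 6305850*u^25*v^5*z^15 - 5382450*u^25*v^5*z^16 - 89100*u^25*v^5*z^17 + 89100*u^25*v^5*z^19 + 5483700*u^25*v^5*z^20 - 5528250*u^25*v^5*z^21 + 5062500*u^24*v^6 - 7492500*u^24*v^6*z + 5151600*u^24*v^6*z^2 - 874800*u^24*v^6*z^3 - 7605900*u^24*v^6*z^4 + 13932000*u^24*v^6*z^5 - 3410100*u^24*v^6*z^6 - 1458000*u^24*v^6*z^7 + 11955600*u^24*v^6*z^8 - 21019500*u^24*v^6*z^9 + 23247000*u^24*v^6*z^10 - 14377500*u^24*v^6*z^11 + 972000*u^24*v^6*z^12 + 8748000*u^24*v^6*z^13 - 2065500*u^24*v^6*z^14 + 405000*u^24*v^6*z^15 + 202500*u^24*v^6*z^16 - 607500*u^24*v^6*z^19 + 607500*u^24*v^6*z^20 + 3037500*u^23*v^7 - 9841500*u^23*v^7*z + 15066000*u^23*v^7*z^2 - 6196500*u^23*v^7*z^3 - 9161100*u^23*v^7*z^4 + 26773740*u^23*v^7*z^5 - 41392620*u^23*v^7*z^6 + 23930640*u^23*v^7*z^7 + 15673500*u^23*v^7*z^8 - 24032700*u^23*v^7*z^9 + 21243060*u^23*v^7*z^10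 - 31312980*u^23*v^7*z^11 + 18934560*u^23*v^7*z^12 + 15770700*u^23*v^7*z^13 - 17131500*u^23*v^7*z^14 - 2259900*u^23*v^7*z^15 - 13292100*u^23*v^7*z^16 + 8845200*u^23*v^7*z^17 + 26268300*u^23*v^7*z^18 - 27337500*u^23*v^7*z^19 + 2025000*u^22*v^8 + 2349000*u^22*v^8*z - 11129400*u^22*v^8*z^2 + 5491800*u^22*v^8*z^3 + 30209760*u^22*v^8*z^4 - 50113080*u^22*v^8*z^5 + 55789560*u^22*v^8*z^6 - 53411400*u^22*v^8*z^7 + 59826600*u^22*v^8*z^8 - 19712160*u^22*v^8*z^9 - 29590920*u^22*v^8*z^10 + 34703640*u^22*v^8*z^11 - 19585800*u^22*v^8*z^12 + 26292600*u^22*v^8*z^13 + 6998400*u^22*v^8*z^14 - 13494600*u^22*v^8*z^15 + 4649400*u^22*v^8*z^16 - 26875800*u^22*v^8*z^17 + 27945000*u^22*v^8*z^18 + 1012500*u^21*v^9 - 12798000*u^21*v^9*z + 25976700*u^21*v^9*z^2 + 5870880*u^21*v^9*z^3 - 61935840*u^21*v^9*z^4 + 87462180*u^21*v^9*z^5 - 44096400*u^21*v^9*z^6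 + 16256700*u^21*v^9*z^7 + 14929920*u^21*v^9*z^8 - 83280960*u^21*v^9*z^9 + 95468220*u^21*v^9*z^10 - 15730200*u^21*v^9*z^11 + 4398300*u^21*v^9*z^12 - 24883200*u^21*v^9*z^13 - 50738400*u^21*v^9*z^14 + 43893900*u^21*v^9*z^15 + 46769400*u^21*v^9*z^16 - 55282500*u^21*v^9*z^17 - 1063125*u^20*v^10 - 12006225*u^20*v^10*z + 10703340*u^20*v^10*z^2 + 36936000*u^20*v^10*z^3 - 29171340*u^20*v^10*z^4 + 21706785*u^20*v^10*z^5 + 50425335*u^20*v^10*z^6 - 78535980*u^20*v^10*z^7 + 69532020*u^20*v^10*z^8 - 74860200*u^20*v^10*z^9 + 75805875*u^20*v^10*z^10 - 46994175*u^20*v^10*z^11 + 53302860*u^20*v^10*z^12 - 3124980*u^20*v^10*z^13 - 18957240*u^20*v^10*z^14 + 6850575*u^20*v^10*z^15 + 3306825*u^20*v^10*z^16 + 8100*u^20*v^10*z^17 - 8100*u^20*v^10*z^19 + 4050*u^20*v^10*z^20 - 21870000*u^19*v^11*z + 44128800*u^19*v^11*z^2 + 24300000*u^19*v^11*z^3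 - 27118800*u^19*v^11*z^4 + 94770000*u^19*v^11*z^5 - 140551200*u^19*v^11*z^6 + 15746400*u^19*v^11*z^7 + 109641600*u^19*v^11*z^8 - 1458000*u^19*v^11*z^9 + 58320000*u^19*v^11*z^10 - 144342000*u^19*v^11*z^11 - 41796000*u^19*v^11*z^12 + 105462000*u^19*v^11*z^13 + 102060000*u^19*v^11*z^14 - 138510000*u^19*v^11*z^15 + 2430000*u^18*v^12 - 23425200*u^18*v^12*z + 68526000*u^18*v^12*z^2 - 22356000*u^18*v^12*z^3 + 87480000*u^18*v^12*z^4 - 67126320*u^18*v^12*z^5 - 65337840*u^18*v^12*z^6 + 134563680*u^18*v^12*z^7 + 56716200*u^18*v^12*z^8 - 136128600*u^18*v^12*z^9 + 160535520*u^18*v^12*z^10 - 113412960*u^18*v^12*z^11 + 60711120*u^18*v^12*z^12 + 25515000*u^18*v^12*z^13 - 20071800*u^18*v^12*z^14 + 194400*u^18*v^12*z^15 - 5248800*u^18*v^12*z^16 + 2430000*u^18*v^12*z^17 + 97200*u^18*v^12*z^18 - 2430000*u^17*v^13 + 1555200*u^17*v^13*z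 + 29062800*u^17*v^13*z^2 + 73774800*u^17*v^13*z^3 - 58067280*u^17*v^13*z^4 - 101262960*u^17*v^13*z^5 + 198929520*u^17*v^13*z^6 - 1603800*u^17*v^13*z^7 + 161206200*u^17*v^13*z^8 - 175018320*u^17*v^13*z^9 - 194711040*u^17*v^13*z^10 + 233318880*u^17*v^13*z^11 + 77128200*u^17*v^13*z^12 - 113189400*u^17*v^13*z^13 - 194400*u^17*v^13*z^14 - 5248800*u^17*v^13*z^15 + 2818800*u^17*v^13*z^16 - 97200*u^17*v^13*z^17 + 4860000*u^16*v^14 + 1749600*u^16*v^14*z + 65221200*u^16*v^14*z^2 - 67767840*u^16*v^14*z^3 - 11702880*u^16*v^14*z^4 + 200504160*u^16*v^14*z^5 - 191095200*u^16*v^14*z^6 + 268563600*u^16*v^14*z^7 + 84486240*u^16*v^14*z^8 - 429390720*u^16*v^14*z^9 + 301922640*u^16*v^14*z^10 - 90590400*u^16*v^14*z^11 + 105948000*u^16*v^14*z^12 + 1555200*u^16*v^14*z^13 - 20995200*u^16*v^14*z^14 + 8942400*u^16*v^14*z^15 + 777600*u^16*v^14*z^16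 + 6075000*u^15*v^15 + 24129900*u^15*v^15*z + 48347280*u^15*v^15*z^2 - 123230160*u^15*v^15*z^3 + 113510160*u^15*v^15*z^4 - 132075360*u^15*v^15*z^5 + 430809840*u^15*v^15*z^6 - 211371120*u^15*v^15*z^7 - 176913720*u^15*v^15*z^8 + 427825800*u^15*v^15*z^9 - 273909600*u^15*v^15*z^10 + 164826900*u^15*v^15*z^11 - 7717680*u^15*v^15*z^12 - 320760*u^15*v^15*z^13 + 1953720*u^15*v^15*z^14 - 923400*u^15*v^15*z^15 + 12150000*u^14*v^16 + 1944000*u^14*v^16*z + 24202800*u^14*v^16*z^2 - 55306800*u^14*v^16*z^3 - 77808600*u^14*v^16*z^4 + 301563000*u^14*v^16*z^5 - 44906400*u^14*v^16*z^6 - 101768400*u^14*v^16*z^7 + 556956000*u^14*v^16*z^8 - 463401000*u^14*v^16*z^9 + 327321000*u^14*v^16*z^10 + 6804000*u^14*v^16*z^11 - 26244000*u^14*v^16*z^12 + 6318000*u^14*v^16*z^13 + 3402000*u^14*v^16*z^14 + 7290000*u^13*v^17 - 4276800*u^13*v^17*z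 + 43448400*u^13*v^17*z^2 - 133504200*u^13*v^17*z^3 + 112703400*u^13*v^17*z^4 - 36275040*u^13*v^17*z^5 + 158785920*u^13*v^17*z^6 + 595913760*u^13*v^17*z^7 - 372907800*u^13*v^17*z^8 + 231676200*u^13*v^17*z^9 + 3907440*u^13*v^17*z^10 - 34175520*u^13*v^17*z^11 + 15863040*u^13*v^17*z^12 - 291600*u^13*v^17*z^13 - 291600*u^13*v^17*z^14 + 583200*u^13*v^17*z^16 - 291600*u^13*v^17*z^17 + 4860000*u^12*v^18 + 6220800*u^12*v^18*z - 27507600*u^12*v^18*z^2 - 10400400*u^12*v^18*z^3 - 36041760*u^12*v^18*z^4 + 84019680*u^12*v^18*z^5 + 634638240*u^12*v^18*z^6 - 90882000*u^12*v^18*z^7 + 167475600*u^12*v^18*z^8 + 9797760*u^12*v^18*z^9 - 105014880*u^12*v^18*z^10 + 43526160*u^12*v^18*z^11 + 4276800*u^12*v^18*z^12 - 291600*u^12*v^18*z^13 + 583200*u^12*v^18*z^15 - 291600*u^12*v^18*z^16 + 2430000*u^11*v^19 - 16086600*u^11*v^19*z + 10740600*u^11*v^19*z^2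 - 61858080*u^11*v^19*z^3 + 29082240*u^11*v^19*z^4 + 417046320*u^11*v^19*z^5 + 189297000*u^11*v^19*z^6 + 201447000*u^11*v^19*z^7 + 15590880*u^11*v^19*z^8 - 155442240*u^11*v^19*z^9 + 73910880*u^11*v^19*z^10 - 1069200*u^11*v^19*z^11 - 1166400*u^11*v^19*z^12 + 2332800*u^11*v^19*z^14 - 1166400*u^11*v^19*z^15 - 1093500*u^10*v^20 - 15211800*u^10*v^20*z - 49542840*u^10*v^20*z^2 + 43740000*u^10*v^20*z^3 + 265715640*u^10*v^20*z^4 + 160205040*u^10*v^20*z^5 + 296965440*u^10*v^20*z^6 + 50485680*u^10*v^20*z^7 - 150013620*u^10*v^20*z^8 + 39050100*u^10*v^20*z^9 + 13632300*u^10*v^20*z^10 + 1506600*u^10*v^20*z^11 - 515160*u^10*v^20*z^12 + 14580*u^10*v^20*z^13 - 4860*u^10*v^20*z^14 - 26244000*u^9*v^21*z - 2916000*u^9*v^21*z^2 + 139384800*u^9*v^21*z^3 + 142300800*u^9*v^21*z^4 + 288684000*u^9*v^21*z^5 + 61819200*u^9*v^21*z^6 - 96811200*u^9*v^21*z^7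 + 9039600*u^9*v^21*z^8 + 14580000*u^9*v^21*z^9 - 1458000*u^9*v^21*z^10 + 2916000*u^9*v^21*z^12 - 1458000*u^9*v^21*z^13 + 1458000*u^8*v^22 - 25952400*u^8*v^22*z + 47530800*u^8*v^22*z^2 + 111099600*u^8*v^22*z^3 + 231822000*u^8*v^22*z^4 + 59836320*u^8*v^22*z^5 - 44789760*u^8*v^22*z^6 - 23269680*u^8*v^22*z^7 + 19828800*u^8*v^22*z^8 - 2041200*u^8*v^22*z^9 - 58320*u^8*v^22*z^10 + 3674160*u^8*v^22*z^11 - 1807920*u^8*v^22*z^12 - 1458000*u^7*v^23 - 291600*u^7*v^23*z + 45781200*u^7*v^23*z^2 + 151923600*u^7*v^23*z^3 + 69925680*u^7*v^23*z^4 - 3032640*u^7*v^23*z^5 - 24261120*u^7*v^23*z^6 + 1166400*u^7*v^23*z^7 - 5832000*u^7*v^23*z^8 + 58320*u^7*v^23*z^9 + 12072240*u^7*v^23*z^10 - 6065280*u^7*v^23*z^11 + 2916000*u^6*v^24 + 6415200*u^6*v^24*z + 77565600*u^6*v^24*z^2 + 47355840*u^6*v^24*z^3 + 29393280*u^6*v^24*z^4 - 14754960*u^6*v^24*z^5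 - 13996800*u^6*v^24*z^6 - 9039600*u^6*v^24*z^7 - 116640*u^6*v^24*z^8 + 17262720*u^6*v^24*z^9 - 8573040*u^6*v^24*z^10 + 3645000*u^5*v^25 + 30180600*u^5*v^25*z + 24815160*u^5*v^25*z^2 + 18067536*u^5*v^25*z^3 + 5674536*u^5*v^25*z^4 - 12952872*u^5*v^25*z^5 - 9803592*u^5*v^25*z^6 - 5172984*u^5*v^25*z^7 + 17338536*u^5*v^25*z^8 - 6648480*u^5*v^25*z^9 + 262440*u^5*v^25*z^10 - 787320*u^5*v^25*z^11 + 262440*u^5*v^25*z^12 + 7290000*u^4*v^26 + 13122000*u^4*v^26*z + 15454800*u^4*v^26*z^2 + 2624400*u^4*v^26*z^3 - 11372400*u^4*v^26*z^4 - 5832000*u^4*v^26*z^5 - 291600*u^4*v^26*z^6 + 9622800*u^4*v^26*z^7 - 4665600*u^4*v^26*z^8 + 4374000*u^3*v^27 + 9039600*u^3*v^27*z + 4840560*u^3*v^27*z^2 - 8689680*u^3*v^27*z^3 - 3324240*u^3*v^27*z^4 - 174960*u^3*v^27*z^5 + 5773680*u^3*v^27*z^6 - 2799360*u^3*v^27*z^7 + 2916000*u^2*v^28 + 4082400*u^2*v^28*z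 - 3965760*u^2*v^28*z^2 - 2099520*u^2*v^28*z^3 + 2682720*u^2*v^28*z^5 - 1283040*u^2*v^28*z^6 + 1458000*u*v^29 - 874800*u*v^29*z - 524880*u*v^29*z^2 - 233280*u*v^29*z^3 + 816480*u*v^29*z^4 - 349920*u*v^29*z^5 - 364500*v^30 + 72900*v^30*z + 379080*v^30*z^2 + 256608*v^30*z^3 - 472392*v^30*z^4 - 148716*v^30*z^5 + 113724*v^30*z^6 + 227448*v^30*z^7 - 107892*v^30*z^8 - 43740*v^30*z^9 - 14580*v^30*z^10 + 43740*v^30*z^11 - 14580*v^30*z^12) * hz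

lemma cert_add1y (z u v : R) (hz : z ^ 4 + z ^ 3 + z ^ 2 + z + 1 = 0) :
    YQ u v * (5 * XQ (z*u) v - X0s z u v) = -(5 * YQ (z*u) v - Y0s z u v) * (XQ u v - XQ (z*u) v) - YQ (z*u) v * (5 * XQ (z*u) v - X0s z u v) := by
  simp only [kf, kH, kT, XQ, YQ, X0s, Y0s, r5]
  linear_combination (-648*u^25*z + 972*u^25*z^2 - 648*u^25*z^3 + 648*u^25*z^4 - 324*u^25*z^5 - 324*u^25*z^6 + 972*u^25*z^7 - 1296*u^25*z^8 + 972*u^25*z^9 - 324*u^25*z^10 + 324*u^25*z^11 - 648*u^25*z^13 + 324*u^25*z^14 + 8100*u^23*v^2 - 17820*u^23*v^2*z + 15552*u^23*v^2*z^2 - 7776*u^23*v^2*z^3 + 3888*u^23*v^2*z^4 + 6156*u^23*v^2*z^5 - 13932*u^23*v^2*z^6 + 15552*u^23*v^2*z^7 - 15552*u^23*v^2*z^8 + 15552*u^23*v^2*z^9 - 3888*u^23*v^2*z^10 - 7776*u^23*v^2*z^11 + 7776*u^23*v^2*z^12 - 1944*u^23*v^2*z^13 + 8100*u^22*v^3 - 2268*u^22*v^3*z - 7776*u^22*v^3*z^2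 + 7776*u^22*v^3*z^3 - 11664*u^22*v^3*z^4 + 13932*u^22*v^3*z^5 - 6156*u^22*v^3*z^6 - 7776*u^22*v^3*z^7 + 7776*u^22*v^3*z^8 - 3888*u^22*v^3*z^9 + 7776*u^22*v^3*z^10 - 1944*u^22*v^3*z^12 + 32400*u^21*v^4 - 55728*u^21*v^4*z + 38880*u^21*v^4*z^2 - 15552*u^21*v^4*z^3 + 32400*u^21*v^4*z^5 - 47952*u^21*v^4*z^6 + 54432*u^21*v^4*z^7 - 34992*u^21*v^4*z^8 + 3888*u^21*v^4*z^9 + 23328*u^21*v^4*z^10 - 7776*u^21*v^4*z^11 - 26082*u^20*v^5*z + 39528*u^20*v^5*z^2 - 26892*u^20*v^5*z^3 + 26082*u^20*v^5*z^4 - 12636*u^20*v^5*z^5 + 6804*u^20*v^5*z^6 - 9072*u^20*v^5*z^7 + 4536*u^20*v^5*z^8 + 648*u^20*v^5*z^9 - 2916*u^20*v^5*z^10 + 3726*u^20*v^5*z^11 - 7452*u^20*v^5*z^13 + 3726*u^20*v^5*z^14 + 40500*u^19*v^6 - 89100*u^19*v^6*z + 77760*u^19*v^6*z^2 - 38880*u^19*v^6*z^3 + 19440*u^19*v^6*z^4 + 69660*u^19*v^6*z^5 - 89100*u^19*v^6*z^6 + 58320*u^19*v^6*z^7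 - 19440*u^19*v^6*z^8 + 29160*u^19*v^6*z^9 + 48600*u^18*v^7 - 184680*u^18*v^7*z + 225504*u^18*v^7*z^2 - 112752*u^18*v^7*z^3 + 60264*u^18*v^7*z^4 + 48600*u^18*v^7*z^5 - 114696*u^18*v^7*z^6 + 85536*u^18*v^7*z^7 - 77760*u^18*v^7*z^8 + 114696*u^18*v^7*z^9 - 42768*u^18*v^7*z^10 - 89424*u^18*v^7*z^11 + 87480*u^18*v^7*z^12 - 21384*u^18*v^7*z^13 + 170100*u^17*v^8 - 168156*u^17*v^8*z + 23328*u^17*v^8*z^2 + 89424*u^17*v^8*z^3 - 114696*u^17*v^8*z^4 + 226476*u^17*v^8*z^5 - 113724*u^17*v^8*z^6 + 79704*u^17*v^8*z^7 - 71928*u^17*v^8*z^8 + 54432*u^17*v^8*z^9 + 89424*u^17*v^8*z^10 - 1944*u^17*v^8*z^11 - 21384*u^17*v^8*z^12 + 234900*u^16*v^9 - 543996*u^16*v^9*z + 552096*u^16*v^9*z^2 - 139968*u^16*v^9*z^3 - 69984*u^16*v^9*z^4 + 392364*u^16*v^9*z^5 - 359316*u^16*v^9*z^6 + 272160*u^16*v^9*z^7 - 132192*u^16*v^9*z^8 - 120528*u^16*v^9*z^9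 + 260496*u^16*v^9*z^10 - 85536*u^16*v^9*z^11 + 202500*u^15*v^10 - 444366*u^15*v^10*z + 442584*u^15*v^10*z^2 - 207036*u^15*v^10*z^3 + 426546*u^15*v^10*z^4 + 25272*u^15*v^10*z^5 - 229068*u^15*v^10*z^6 + 325944*u^15*v^10*z^7 - 209952*u^15*v^10*z^8 + 146124*u^15*v^10*z^9 + 7452*u^15*v^10*z^10 + 1458*u^15*v^10*z^11 - 2916*u^15*v^10*z^13 + 1458*u^15*v^10*z^14 + 121500*u^14*v^11 - 636660*u^14*v^11*z + 913680*u^14*v^11*z^2 - 252720*u^14*v^11*z^3 + 38880*u^14*v^11*z^4 + 549180*u^14*v^11*z^5 - 422820*u^14*v^11*z^6 - 252720*u^14*v^11*z^7 + 456840*u^14*v^11*z^8 - 87480*u^14*v^11*z^9 + 82620*u^13*v^12 - 374220*u^13*v^12*z + 742608*u^13*v^12*z^2 - 371304*u^13*v^12*z^3 + 499608*u^13*v^12*z^4 + 164268*u^13*v^12*z^5 - 479196*u^13*v^12*z^6 + 468504*u^13*v^12*z^7 - 27216*u^13*v^12*z^8 + 25272*u^13*v^12*z^9 + 3888*u^13*v^12*z^10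 - 34992*u^13*v^12*z^11 + 13608*u^13*v^12*z^12 + 1944*u^13*v^12*z^13 + 42120*u^12*v^13 - 650592*u^12*v^13*z + 1174176*u^12*v^13*z^2 + 260496*u^12*v^13*z^3 - 328536*u^12*v^13*z^4 + 176256*u^12*v^13*z^5 + 966816*u^12*v^13*z^6 - 468504*u^12*v^13*z^7 - 9720*u^12*v^13*z^8 + 3888*u^12*v^13*z^9 + 34992*u^12*v^13*z^10 - 21384*u^12*v^13*z^11 + 1944*u^12*v^13*z^12 + 46980*u^11*v^14 - 587412*u^11*v^14*z + 1506600*u^11*v^14*z^2 + 50544*u^11*v^14*z^3 + 21384*u^11*v^14*z^4 + 1353348*u^11*v^14*z^5 - 470772*u^11*v^14*z^6 + 66096*u^11*v^14*z^7 + 15552*u^11*v^14*z^8 - 69984*u^11*v^14*z^9 + 19440*u^11*v^14*z^10 + 7776*u^11*v^14*z^11 - 258066*u^10*v^15*z + 1147284*u^10*v^15*z^2 + 651564*u^10*v^15*z^3 + 1103706*u^10*v^15*z^4 - 214488*u^10*v^15*z^5 + 43092*u^10*v^15*z^6 + 324*u^10*v^15*z^7 - 86832*u^10*v^15*z^8 + 44064*u^10*v^15*z^9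 - 648*u^10*v^15*z^10 - 162*u^10*v^15*z^11 + 324*u^10*v^15*z^13 - 162*u^10*v^15*z^14 + 48600*u^9*v^16 + 136080*u^9*v^16*z + 952560*u^9*v^16*z^2 + 1127520*u^9*v^16*z^3 + 136080*u^9*v^16*z^4 + 126360*u^9*v^16*z^5 + 19440*u^9*v^16*z^6 - 174960*u^9*v^16*z^7 + 68040*u^9*v^16*z^8 + 9720*u^9*v^16*z^9 + 58320*u^8*v^17 + 359640*u^8*v^17*z + 1096416*u^8*v^17*z^2 + 511272*u^8*v^17*z^3 + 40824*u^8*v^17*z^4 + 27216*u^8*v^17*z^5 - 97200*u^8*v^17*z^6 + 33048*u^8*v^17*z^7 + 3888*u^8*v^17*z^8 - 1944*u^8*v^17*z^9 + 3888*u^8*v^17*z^11 - 1944*u^8*v^17*z^12 + 204120*u^7*v^18 + 503496*u^7*v^18*z + 540432*u^7*v^18*z^2 + 279936*u^7*v^18*z^3 + 40824*u^7*v^18*z^4 - 77760*u^7*v^18*z^5 - 50544*u^7*v^18*z^6 + 48600*u^7*v^18*z^7 + 1944*u^7*v^18*z^8 - 3888*u^7*v^18*z^10 + 1944*u^7*v^18*z^11 + 281880*u^6*v^19 + 347976*u^6*v^19*z + 227448*u^6*v^19*z^2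 + 147744*u^6*v^19*z^3 - 33048*u^6*v^19*z^4 - 87480*u^6*v^19*z^5 + 40824*u^6*v^19*z^6 - 3888*u^6*v^19*z^7 + 7776*u^6*v^19*z^9 - 3888*u^6*v^19*z^10 + 243000*u^5*v^20 + 179820*u^5*v^20*z + 106920*u^5*v^20*z^2 + 9720*u^5*v^20*z^3 - 82620*u^5*v^20*z^4 + 29160*u^5*v^20*z^5 - 4860*u^5*v^20*z^6 + 9720*u^5*v^20*z^8 - 4860*u^5*v^20*z^9 + 145800*u^4*v^21 + 87480*u^4*v^21*z + 38880*u^4*v^21*z^2 - 58320*u^4*v^21*z^3 - 9720*u^4*v^21*z^5 + 19440*u^4*v^21*z^7 - 9720*u^4*v^21*z^8 + 87480*u^3*v^22 + 29160*u^3*v^22*z - 23328*u^3*v^22*z^2 - 17496*u^3*v^22*z^3 + 11664*u^3*v^22*z^6 - 5832*u^3*v^22*z^7 + 38880*u^2*v^23 - 3888*u^2*v^23*z - 7776*u^2*v^23*z^2 - 11664*u^2*v^23*z^3 + 3888*u^2*v^23*z^4 + 7776*u^2*v^23*z^5 - 3888*u^2*v^23*z^6 + 9720*u*v^24 - 3888*u*v^24*z - 1944*u*v^24*z^2 - 3888*u*v^24*z^3 + 5832*u*v^24*z^4 - 1944*u*v^24*z^5)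 * hz

lemma cert_dupPx (z u v : R) (hz : z ^ 4 + z ^ 3 + z ^ 2 + z + 1 = 0) :
    20 * X0s z (-v) u * Y0s z u v ^ 2 = (3 * X0s z u v ^ 2 + 675 * kH u v) ^ 2 - 40 * X0s z u v * Y0s z u v ^ 2 := by
  simp only [kf, kH, kT, XQ, YQ, X0s, Y0s, r5]
  linear_combination (-262440000*u^40 + 524880000*u^40*z - 831934800*u^40*z^2 + 743754960*u^40*z^3 - 158933664*u^40*z^4 - 326475360*u^40*z^5 + 624712176*u^40*z^6 - 479740320*u^40*z^7 + 225803376*u^40*z^8 - 137518560*u^40*z^9 - 95948064*u^40*z^10 + 191581200*u^40*z^11 - 95423184*u^40*z^12 + 25194240*u^40*z^13 + 12597120*u^40*z^14 - 16796160*u^40*z^15 + 4199040*u^40*z^16 - 4986360000*u^35*v^5 + 10366380000*u^35*v^5*z - 17499499200*u^35*v^5*z^2 + 17225511840*u^35*v^5*z^3 - 5743866816*u^35*v^5*z^4 - 6754155840*u^35*v^5*z^5 + 15514822944*u^35*v^5*z^6 - 12311585280*u^35*v^5*z^7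 + 5920016544*u^35*v^5*z^8 - 2975019840*u^35*v^5*z^9 - 2720558016*u^35*v^5*z^10 + 4765910400*u^35*v^5*z^11 - 2655472896*u^35*v^5*z^12 + 856604160*u^35*v^5*z^13 + 428302080*u^35*v^5*z^14 - 571069440*u^35*v^5*z^15 + 142767360*u^35*v^5*z^16 - 13974930000*u^30*v^10 + 36544770000*u^30*v^10*z - 81209433600*u^30*v^10*z^2 + 106311294720*u^30*v^10*z^3 - 67705111008*u^30*v^10*z^4 - 25986283920*u^30*v^10*z^5 + 109615624272*u^30*v^10*z^6 - 97521654240*u^30*v^10*z^7 + 51191231472*u^30*v^10*z^8 - 15551669520*u^30*v^10*z^9 - 25717335408*u^30*v^10*z^10 + 35258814000*u^30*v^10*z^11 - 23957937648*u^30*v^10*z^12 + 9907634880*u^30*v^10*z^13 + 4953817440*u^30*v^10*z^14 - 6605089920*u^30*v^10*z^15 + 1651272480*u^30*v^10*z^16 + 97234020000*u^25*v^15 - 150246900000*u^25*v^15*z + 117982526400*u^25*v^15*z^2 + 59413266720*u^25*v^15*z^3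 - 250954365888*u^25*v^15*z^4 + 134724098880*u^25*v^15*z^5 + 116853194592*u^25*v^15*z^6 - 238373202240*u^25*v^15*z^7 + 182185008192*u^25*v^15*z^8 + 2905735680*u^25*v^15*z^9 - 89837201088*u^25*v^15*z^10 + 68580820800*u^25*v^15*z^11 - 72168690528*u^25*v^15*z^12 + 41148492480*u^25*v^15*z^13 + 20574246240*u^25*v^15*z^14 - 27432328320*u^25*v^15*z^15 + 6858082080*u^25*v^15*z^16 - 42974550000*u^20*v^20 + 42974550000*u^20*v^20*z + 27320004000*u^20*v^20*z^2 - 179461720800*u^20*v^20*z^3 + 97511681520*u^20*v^20*z^4 + 418439584800*u^20*v^20*z^5 - 454945513680*u^20*v^20*z^6 - 190547186400*u^20*v^20*z^7 + 373577566320*u^20*v^20*z^8 - 28023343200*u^20*v^20*z^9 - 89936088480*u^20*v^20*z^10 + 24183846000*u^20*v^20*z^11 - 31782008880*u^20*v^20*z^12 + 25068268800*u^20*v^20*z^13 + 12534134400*u^20*v^20*z^14 - 16712179200*u^20*v^20*z^15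 + 4178044800*u^20*v^20*z^16 - 97234020000*u^15*v^25 + 44221140000*u^15*v^25*z + 171672501600*u^15*v^25*z^2 - 81022576320*u^15*v^25*z^3 - 180197812512*u^15*v^25*z^4 + 21611409120*u^15*v^25*z^5 + 206740574208*u^15*v^25*z^6 - 54541330560*u^15*v^25*z^7 - 110670108192*u^15*v^25*z^8 + 50469311520*u^15*v^25*z^9 + 30415536288*u^15*v^25*z^10 - 26574674400*u^15*v^25*z^11 + 5934083328*u^15*v^25*z^12 - 270838080*u^15*v^25*z^13 - 135419040*u^15*v^25*z^14 + 180558720*u^15*v^25*z^15 - 45139680*u^15*v^25*z^16 - 13974930000*u^10*v^30 - 8594910000*u^10*v^30*z + 6143720400*u^10*v^30*z^2 + 56350591920*u^10*v^30*z^3 - 18689192208*u^10*v^30*z^4 - 43346689920*u^10*v^30*z^5 - 13964747328*u^10*v^30*z^6 + 51108615360*u^10*v^30*z^7 - 2280918528*u^10*v^30*z^8 - 19202209920*u^10*v^30*z^9 - 5459591808*u^10*v^30*z^10 + 12381919200*u^10*v^30*z^11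 - 1805377248*u^10*v^30*z^12 - 1461265920*u^10*v^30*z^13 - 730632960*u^10*v^30*z^14 + 974177280*u^10*v^30*z^15 - 243544320*u^10*v^30*z^16 + 4986360000*u^5*v^35 + 393660000*u^5*v^35*z - 5411512800*u^5*v^35*z^2 - 7683193440*u^5*v^35*z^3 + 7565200416*u^5*v^35*z^4 + 6019323840*u^5*v^35*z^5 - 1232838144*u^5*v^35*z^6 - 7245443520*u^5*v^35*z^7 + 1953183456*u^5*v^35*z^8 + 2313671040*u^5*v^35*z^9 + 537057216*u^5*v^35*z^10 - 1679616000*u^5*v^35*z^11 + 298761696*u^5*v^35*z^12 + 182658240*u^5*v^35*z^13 + 91329120*u^5*v^35*z^14 - 121772160*u^5*v^35*z^15 + 30443040*u^5*v^35*z^16 - 262440000*v^40 + 309679200*v^40*z^2 + 305480160*v^40*z^3 - 403002864*v^40*z^4 - 234621360*v^40*z^5 + 102456576*v^40*z^6 + 291833280*v^40*z^7 - 102246624*v^40*z^8 - 87654960*v^40*z^9 - 19840464*v^40*z^10 + 68234400*v^40*z^11 - 14066784*v^40*z^12 -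 6298560*v^40*z^13 - 3149280*v^40*z^14 + 4199040*v^40*z^15 - 1049760*v^40*z^16) * hz

lemma cert_dupPy (z u v : R) (hz : z ^ 4 + z ^ 3 + z ^ 2 + z + 1 = 0) :
    10 * Y0s z (-v) u * Y0s z u v = -(3 * X0s z u v ^ 2 + 675 * kH u v) * (X0s z (-v) u - X0s z u v) - 10 * Y0s z u v ^ 2 := by
  simp only [kf, kH, kT, XQ, YQ, X0s, Y0s, r5]
  linear_combination (-583200*u^30*z + 2274480*u^30*z^2 - 2251152*u^30*z^3 + 373248*u^30*z^4 + 128304*u^30*z^5 - 629856*u^30*z^6 + 1073088*u^30*z^7 - 501552*u^30*z^8 + 174960*u^30*z^9 + 58320*u^30*z^10 - 174960*u^30*z^11 + 58320*u^30*z^12 - 11955600*u^25*v^5*z + 47793240*u^25*v^5*z^2 - 49939416*u^25*v^5*z^3 + 12754584*u^25*v^5*z^4 + 1172232*u^25*v^5*z^5 - 16848648*u^25*v^5*z^6 + 25789104*u^25*v^5*z^7 - 11739816*u^25*v^5*z^8 + 4461480*u^25*v^5*z^9 + 1487160*u^25*v^5*z^10 - 4461480*u^25*v^5*z^11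 + 1487160*u^25*v^5*z^12 - 49572000*u^20*v^10*z + 220303800*u^20*v^10*z^2 - 277515720*u^20*v^10*z^3 + 145304280*u^20*v^10*z^4 - 20149560*u^20*v^10*z^5 - 141455160*u^20*v^10*z^6 + 174901680*u^20*v^10*z^7 - 74853720*u^20*v^10*z^8 + 34554600*u^20*v^10*z^9 + 11518200*u^20*v^10*z^10 - 34554600*u^20*v^10*z^11 + 11518200*u^20*v^10*z^12 + 129762000*u^15*v^15*z - 338401800*u^15*v^15*z^2 - 11168280*u^15*v^15*z^3 + 553077720*u^15*v^15*z^4 - 179596440*u^15*v^15*z^5 - 357180840*u^15*v^15*z^6 + 218758320*u^15*v^15*z^7 - 65114280*u^15*v^15*z^8 + 74795400*u^15*v^15*z^9 + 24931800*u^15*v^15*z^10 - 74795400*u^15*v^15*z^11 + 24931800*u^15*v^15*z^12 + 49572000*u^10*v^20*z - 62839800*u^10*v^20*z^2 - 54908280*u^10*v^20*z^3 + 12159720*u^10*v^20*z^4 + 142621560*u^10*v^20*z^5 - 16008840*u^10*v^20*z^6 - 139909680*u^10*v^20*z^7 + 57357720*u^10*v^20*z^8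 + 17933400*u^10*v^20*z^9 + 5977800*u^10*v^20*z^10 - 17933400*u^10*v^20*z^11 + 5977800*u^10*v^20*z^12 - 11955600*u^5*v^25*z + 18924840*u^5*v^25*z^2 + 11004984*u^5*v^25*z^3 - 16113816*u^5*v^25*z^4 - 21280968*u^5*v^25*z^5 + 12019752*u^5*v^25*z^6 + 19373904*u^5*v^25*z^7 - 8532216*u^5*v^25*z^8 - 5161320*u^5*v^25*z^9 - 1720440*u^5*v^25*z^10 + 5161320*u^5*v^25*z^11 - 1720440*u^5*v^25*z^12 + 583200*v^30*z - 962280*v^30*z^2 - 519048*v^30*z^3 + 938952*v^30*z^4 + 892296*v^30*z^5 - 682344*v^30*z^6 - 781488*v^30*z^7 + 355752*v^30*z^8 + 262440*v^30*z^9 + 87480*v^30*z^10 - 262440*v^30*z^11 + 87480*v^30*z^12) * hz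

lemma cert_kH_D (z u v : R) (hz : z ^ 4 + z ^ 3 + z ^ 2 + z + 1 = 0) :
    kH (z*u) v = kH u v := by
  simp only [kf, kH, kT, XQ, YQ, X0s, Y0s, r5]
  linear_combination (u^20 - u^20*z + u^20*z^5 - u^20*z^6 + u^20*z^10 - u^20*z^11 + u^20*z^15 - u^20*z^16 - 228*u^15*v^5 + 228*u^15*v^5*z - 228*u^15*v^5*z^5 + 228*u^15*v^5*z^6 - 228*u^15*v^5*z^10 + 228*u^15*v^5*z^11 + 494*u^10*v^10 - 494*u^10*v^10*z + 494*u^10*v^10*z^5 - 494*u^10*v^10*z^6 + 228*u^5*v^15 - 228*u^5*v^15*z) * hz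

lemma cert_kT_D (z u v : R) (hz : z ^ 4 + z ^ 3 + z ^ 2 + z + 1 = 0) :
    kT (z*u) v = kT u v := by
  simp only [kf, kH, kT, XQ, YQ, X0s, Y0s, r5]
  linear_combination (-u^30 + u^30*z - u^30*z^5 + u^30*z^6 - u^30*z^10 + u^30*z^11 - u^30*z^15 + u^30*z^16 - u^30*z^20 + u^30*z^21 - u^30*z^25 + u^30*z^26 - 522*u^25*v^5 + 522*u^25*v^5*z - 522*u^25*v^5*z^5 + 522*u^25*v^5*z^6 - 522*u^25*v^5*z^10 + 522*u^25*v^5*z^11 - 522*u^25*v^5*z^15 + 522*u^25*v^5*z^16 - 522*u^25*v^5*z^20 + 522*u^25*v^5*z^21 + 10005*u^20*v^10 - 10005*u^20*v^10*z + 10005*u^20*v^10*z^5 - 10005*u^20*v^10*z^6 + 10005*u^20*v^10*z^10 - 10005*u^20*v^10*z^11 + 10005*u^20*v^10*z^15 - 10005*u^20*v^10*z^16 + 10005*u^10*v^20 - 10005*u^10*v^20*z + 10005*u^10*v^20*z^5 - 10005*u^10*v^20*z^6 + 522*u^5*v^25 - 522*u^5*v^25*z) * hz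

lemma cert_kf_D (z u v : R) (hz : z ^ 4 + z ^ 3 + z ^ 2 + z + 1 = 0) :
    kf (z*u) v = z * kf u v := by
  simp only [kf, kH, kT, XQ, YQ, X0s, Y0s, r5]
  linear_combination (-u^11*v*z + u^11*v*z^2 - u^11*v*z^6 + u^11*v*z^7 - 11*u^6*v^6*z + 11*u^6*v^6*z^2) * hz

lemma cert_X0s_D (z u v : R) (hz : z ^ 4 + z ^ 3 + z ^ 2 + z + 1 = 0) :
    X0s z (z*u) v = X0s z u v := by
  simp only [kf, kH, kT, XQ, YQ, X0s, Y0s, r5]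
  linear_combination (75*u^10 - 93*u^10*z + 36*u^10*z^2 - 36*u^10*z^4 + 93*u^10*z^5 - 93*u^10*z^6 + 36*u^10*z^7 - 36*u^10*z^9 + 18*u^10*z^10 - 198*u^5*v^5*z + 396*u^5*v^5*z^2 - 396*u^5*v^5*z^4 + 198*u^5*v^5*z^5) * hz

lemma cert_Y0s_D (z u v : R) (hz : z ^ 4 + z ^ 3 + z ^ 2 + z + 1 = 0) :
    Y0s z (z*u) v = Y0s z u v := by
  simp only [kf, kH, kT, XQ, YQ, X0s, Y0s, r5]
  linear_combination (-216*u^15*z + 324*u^15*z^2 - 216*u^15*z^3 + 216*u^15*z^4 - 108*u^15*z^5 - 108*u^15*z^6 + 324*u^15*z^7 - 432*u^15*z^8 + 324*u^15*z^9 - 108*u^15*z^10 - 108*u^15*z^11 + 324*u^15*z^12 - 432*u^15*z^13 + 324*u^15*z^14 - 108*u^15*z^15 + 108*u^15*z^16 - 216*u^15*z^18 + 108*u^15*z^19 - 2214*u^10*v^5*z + 3456*u^10*v^5*z^2 - 2484*u^10*v^5*z^3 + 2214*u^10*v^5*z^4 - 972*u^10*v^5*z^5 - 972*u^10*v^5*z^6 + 3456*u^10*v^5*z^7 - 4968*u^10*v^5*z^8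 + 3456*u^10*v^5*z^9 - 972*u^10*v^5*z^10 + 1242*u^10*v^5*z^11 - 2484*u^10*v^5*z^13 + 1242*u^10*v^5*z^14 + 1998*u^5*v^10*z - 1512*u^5*v^10*z^2 - 972*u^5*v^10*z^3 - 1998*u^5*v^10*z^4 + 2484*u^5*v^10*z^5 + 486*u^5*v^10*z^6 - 972*u^5*v^10*z^8 + 486*u^5*v^10*z^9) * hz

lemma cert_z5 (z : R) (hz : z ^ 4 + z ^ 3 + z ^ 2 + z + 1 = 0) :
    z ^ 5 = 1 := by
  linear_combination (-1 + z) * hz

lemma cert_N2 (u v : R) :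
    YQ u v * (u^9 - u^8*v - 3*u^7*v^2 + 7*u^6*v^3 - 7*u^4*v^5 + 7*u^3*v^6 - 4*u^2*v^7 + u*v^8) = 108 * kf u v ^ 2 := by
  simp only [kf, kH, kT, XQ, YQ, X0s, Y0s, r5]
  ring

lemma cert_N3 (z u v : R) (hz : z ^ 4 + z ^ 3 + z ^ 2 + z + 1 = 0) :
    Y0s z u v * (4*u^7*v^2 + 8*u^7*v^2*z + 7*u^7*v^2*z^2 + u^7*v^2*z^3 - 3*u^2*v^7 - 6*u^2*v^7*z + u^2*v^7*z^2 - 7*u^2*v^7*z^3) = 540 * kf u v ^ 2 := by
  simp only [kf, kH, kT, XQ, YQ, X0s, Y0s, r5]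
  linear_combination (-540*u^22*v^2 + 1404*u^22*v^2*z + 432*u^22*v^2*z^2 - 216*u^22*v^2*z^3 - 1188*u^22*v^2*z^4 - 648*u^22*v^2*z^5 + 540*u^22*v^2*z^6 + 108*u^22*v^2*z^7 - 11880*u^17*v^7 + 20088*u^17*v^7*z + 3564*u^17*v^7*z^2 - 702*u^17*v^7*z^3 - 13446*u^17*v^7*z^4 - 8316*u^17*v^7*z^5 + 7830*u^17*v^7*z^6 + 486*u^17*v^7*z^7 - 64260*u^12*v^12 + 49626*u^12*v^12*z - 12852*u^12*v^12*z^2 + 17496*u^12*v^12*z^3 - 2862*u^12*v^12*z^4 - 12852*u^12*v^12*z^5 + 21060*u^12*v^12*z^6 - 8208*u^12*v^12*z^7 + 11880*u^7*v^17 - 5238*u^7*v^17*z + 8316*u^7*v^17*z^2 - 14148*u^7*v^17*z^3 + 1566*u^7*v^17*z^4 - 3564*u^7*v^17*z^5 + 7020*u^7*v^17*z^6 - 3456*u^7*v^17*z^7 - 540*u^2*v^22 + 54*u^2*v^22*z - 648*u^2*v^22*z^2 + 1134*u^2*v^22*z^3 - 108*u^2*v^22*z^4 + 432*u^2*v^22*z^5 - 810*u^2*v^22*z^6 + 378*u^2*v^22*z^7) * hz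

lemma cert_N4 (z u v : R) (hz : z ^ 4 + z ^ 3 + z ^ 2 + z + 1 = 0) :
    (5 * XQ u v - X0s z u v) * (2*u^12*v^2 - u^12*v^2*z^2 - u^12*v^2*z^3 - 5*u^10*v^4 + 5*u^10*v^4*z^2 + 5*u^10*v^4*z^3 + 5*u^9*v^5 - 5*u^9*v^5*z^2 - 5*u^9*v^5*z^3 + 5*u^8*v^6 - 10*u^8*v^6*z^2 - 10*u^8*v^6*z^3 + 7*u^7*v^7 + 14*u^7*v^7*z^2 + 14*u^7*v^7*z^3 - 15*u^5*v^9 - 10*u^5*v^9*z^2 - 10*u^5*v^9*z^3 + 15*u^4*v^10 + 10*u^4*v^10*z^2 + 10*u^4*v^10*z^3 - 10*u^3*v^11 - 5*u^3*v^11*z^2 - 5*u^3*v^11*z^3 + 3*u^2*v^12 + u^2*v^12*z^2 + u^2*v^12*z^3) = 180 * kf u v ^ 2 := by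
  simp only [kf, kH, kT, XQ, YQ, X0s, Y0s, r5]
  linear_combination (-36*u^22*v^2*z - 18*u^22*v^2*z^2 + 18*u^22*v^2*z^3 - 90*u^20*v^4 + 180*u^20*v^4*z + 90*u^20*v^4*z^2 - 90*u^20*v^4*z^3 + 90*u^19*v^5 - 180*u^19*v^5*z - 90*u^19*v^5*z^2 + 90*u^19*v^5*z^3 + 270*u^18*v^6 - 360*u^18*v^6*z - 180*u^18*v^6*z^2 + 180*u^18*v^6*z^3 - 630*u^17*v^7 + 108*u^17*v^7*z + 54*u^17*v^7*z^2 - 54*u^17*v^7*z^3 - 360*u^15*v^9 + 1620*u^15*v^9*z + 810*u^15*v^9*z^2 - 810*u^15*v^9*z^3 + 360*u^14*v^10 - 1620*u^14*v^10*z - 810*u^14*v^10*z^2 + 810*u^14*v^10*z^3 + 3330*u^13*v^11 - 4140*u^13*v^11*z - 2070*u^13*v^11*z^2 + 2070*u^13*v^11*z^3 - 7020*u^12*v^12 + 5616*u^12*v^12*z + 2808*u^12*v^12*z^2 - 2808*u^12*v^12*z^3 + 7020*u^10*v^14 - 4140*u^10*v^14*z - 2070*u^10*v^14*z^2 + 2070*u^10*v^14*z^3 - 7020*u^9*v^15 + 4140*u^9*v^15*z + 2070*u^9*v^15*z^2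 - 2070*u^9*v^15*z^3 + 3690*u^8*v^16 - 1620*u^8*v^16*z - 810*u^8*v^16*z^2 + 810*u^8*v^16*z^3 - 360*u^7*v^17 - 108*u^7*v^17*z - 54*u^7*v^17*z^2 + 54*u^7*v^17*z^3 - 630*u^5*v^19 + 360*u^5*v^19*z + 180*u^5*v^19*z^2 - 180*u^5*v^19*z^3 + 630*u^4*v^20 - 360*u^4*v^20*z - 180*u^4*v^20*z^2 + 180*u^4*v^20*z^3 - 360*u^3*v^21 + 180*u^3*v^21*z + 90*u^3*v^21*z^2 - 90*u^3*v^21*z^3 + 90*u^2*v^22 - 36*u^2*v^22*z - 18*u^2*v^22*z^2 + 18*u^2*v^22*z^3) * hz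

lemma cert_N5 (z u v : R) (hz : z ^ 4 + z ^ 3 + z ^ 2 + z + 1 = 0) :
    (5 * XQ u v - X0s z (-v) u) * (3*u^12*v^2 + u^12*v^2*z^2 + u^12*v^2*z^3 - 10*u^10*v^4 - 5*u^10*v^4*z^2 - 5*u^10*v^4*z^3 + 10*u^9*v^5 + 5*u^9*v^5*z^2 + 5*u^9*v^5*z^3 + 15*u^8*v^6 + 10*u^8*v^6*z^2 + 10*u^8*v^6*z^3 - 7*u^7*v^7 - 14*u^7*v^7*z^2 - 14*u^7*v^7*z^3 - 5*u^5*v^9 + 10*u^5*v^9*z^2 + 10*u^5*v^9*z^3 + 5*u^4*v^10 - 10*u^4*v^10*z^2 - 10*u^4*v^10*z^3 - 5*u^3*v^11 + 5*u^3*v^11*z^2 + 5*u^3*v^11*z^3 + 2*u^2*v^12 - u^2*v^12*z^2 - u^2*v^12*z^3) = 180 * kf u v ^ 2 := by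
  simp only [kf, kH, kT, XQ, YQ, X0s, Y0s, r5]
  linear_combination (90*u^22*v^2 - 36*u^22*v^2*z - 18*u^22*v^2*z^2 + 18*u^22*v^2*z^3 - 360*u^20*v^4 + 180*u^20*v^4*z + 90*u^20*v^4*z^2 - 90*u^20*v^4*z^3 + 360*u^19*v^5 - 180*u^19*v^5*z - 90*u^19*v^5*z^2 + 90*u^19*v^5*z^3 + 630*u^18*v^6 - 360*u^18*v^6*z - 180*u^18*v^6*z^2 + 180*u^18*v^6*z^3 + 360*u^17*v^7 + 108*u^17*v^7*z + 54*u^17*v^7*z^2 - 54*u^17*v^7*z^3 - 3690*u^15*v^9 + 1620*u^15*v^9*z + 810*u^15*v^9*z^2 - 810*u^15*v^9*z^3 + 3690*u^14*v^10 - 1620*u^14*v^10*z - 810*u^14*v^10*z^2 + 810*u^14*v^10*z^3 + 7020*u^13*v^11 - 4140*u^13*v^11*z - 2070*u^13*v^11*z^2 + 2070*u^13*v^11*z^3 - 7020*u^12*v^12 + 5616*u^12*v^12*z + 2808*u^12*v^12*z^2 - 2808*u^12*v^12*z^3 + 3330*u^10*v^14 - 4140*u^10*v^14*z - 2070*u^10*v^14*z^2 + 2070*u^10*v^14*z^3 - 3330*u^9*v^15 + 4140*u^9*v^15*z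 + 2070*u^9*v^15*z^2 - 2070*u^9*v^15*z^3 + 360*u^8*v^16 - 1620*u^8*v^16*z - 810*u^8*v^16*z^2 + 810*u^8*v^16*z^3 + 630*u^7*v^17 - 108*u^7*v^17*z - 54*u^7*v^17*z^2 + 54*u^7*v^17*z^3 - 270*u^5*v^19 + 360*u^5*v^19*z + 180*u^5*v^19*z^2 - 180*u^5*v^19*z^3 + 270*u^4*v^20 - 360*u^4*v^20*z - 180*u^4*v^20*z^2 + 180*u^4*v^20*z^3 - 90*u^3*v^21 + 180*u^3*v^21*z + 90*u^3*v^21*z^2 - 90*u^3*v^21*z^3 - 36*u^2*v^22*z - 18*u^2*v^22*z^2 + 18*u^2*v^22*z^3) * hz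

end Forms

end Fermat.Agent.S52.Fam.Level
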