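import Mathlib
import Fermat.Agent.S52.Tr.Defs
import Fermat.Agent.S52.TorsFive
import Fermat.Agent.S52.Fam.Defs
import Fermat.Agent.S52.Fam.LevelCert

/-!
# S52, brick (Fam): the universal level-5 structure over Klein's cone

For a field `K` with `2, 3, 5` invertible, a primitive 5th root of unity `z`
(`z^4 + z^3 + z^2 + z + 1 = 0`) and a *framing* `(u, v)` of the short curve
`E : y^2 = x^3 + A x + B`, i.e. `A = 27 kH(u,v)`, `B = 54 kT(u,v)`, `kf(u,v) ≠ 0`, we construct
two independent points of order 5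

* `ptQ A B u v = (XQ(u,v), YQ(u,v))`  (integer forms),
* `ptP A B z u v = (X0s(z;u,v)/5, Y0s(z;u,v)/5)`,

prove the transformation laws

* `ptQ (z*u) v + ptP z u v = ptQ u v`,   `ptP z (z*u) v = ptP z u v`,
* `2 • ptQ u v = ptQ v (-u)`,  `2 • ptP z u v = ptP z (-v) u`,  `pt (-u) (-v) = - pt u v`,

and deduce that the 24 points `tors i k` (`i : Fin 4`, `k : Option (Fin 5)`), whose coordinates are
explicit forms in `(u, v)`, are exactly the nonzero 5-torsion points of `E`.  (helper167)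
-/

set_option autoImplicit false
set_option linter.unusedSectionVars false
set_option linter.unusedVariables false

namespace Fermat.Agent.S52.Fam.Level

open WeierstrassCurve WeierstrassCurve.Affine
open Fermat.Agent.S52.Tr (shortCurve)

variable {K : Type*} [Field K] [DecidableEq K]

/-! ### short Weierstrass curves: chord and tangent criteria -/

lemma short_equation_iff (A B x y : K) :
    (shortCurve A B).Equation x y ↔ y ^ 2 = x ^ 3 + A * x + B := by
  rw [WeierstrassCurve.Affine.equation_iff]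
  simp [shortCurve]

lemma short_Δ (A B : K) : (shortCurve A B).Δ = -16 * (4 * A ^ 3 + 27 * B ^ 2) := by
  simp only [shortCurve, WeierstrassCurve.Δ, WeierstrassCurve.b₂, WeierstrassCurve.b₄,
    WeierstrassCurve.b₆, WeierstrassCurve.b₈]
  ring

lemma short_nonsingular {A B : K} (h2 : (2 : K) ≠ 0) (hΔ : 4 * A ^ 3 + 27 * B ^ 2 ≠ 0) {x y : K}
    (h : y ^ 2 = x ^ 3 + A * x + B) : (shortCurve A B).Nonsingular x y := by
  have hΔ' : (shortCurve A B).Δ ≠ 0 := by
    rw [short_Δ]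
    have h16 : (16 : K) ≠ 0 := by
      have : (16 : K) = 2 ^ 4 := by norm_num
      rw [this]; exact pow_ne_zero _ h2
    exact mul_ne_zero (neg_ne_zero.mpr h16) hΔ
  exact (WeierstrassCurve.Affine.equation_iff_nonsingular_of_Δ_ne_zero hΔ').mp
    ((short_equation_iff A B x y).mpr h)

lemma short_negY (A B x y : K) : (shortCurve A B).negY x y = -y := by
  simp [Affine.negY, shortCurve]

/-- chord criterion: the sum of two affine points with different `x` -/
lemma short_chord {A B : K} {x₁ y₁ x₂ y₂ x₃ y₃ : K}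
    (h₁ : (shortCurve A B).Nonsingular x₁ y₁) (h₂ : (shortCurve A B).Nonsingular x₂ y₂)
    (h₃ : (shortCurve A B).Nonsingular x₃ y₃) (hx : x₁ ≠ x₂)
    (ex : x₃ * (x₁ - x₂) ^ 2 = (y₁ - y₂) ^ 2 - (x₁ + x₂) * (x₁ - x₂) ^ 2)
    (ey : y₃ * (x₁ - x₂) = -(y₁ - y₂) * (x₃ - x₁) - y₁ * (x₁ - x₂)) :
    Point.some _ _ h₁ + Point.some _ _ h₂ = Point.some _ _ h₃ := by
  rw [Point.add_of_X_ne hx]
  have hd : x₁ - x₂ ≠ 0 := sub_ne_zero.mpr hx
  have hX : (shortCurve A B).addX x₁ x₂ ((shortCurve A B).slope x₁ x₂ y₁ y₂) = x₃ := by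
    rw [Affine.slope_of_X_ne hx]
    have e1 : (shortCurve A B).addX x₁ x₂ ((y₁ - y₂) / (x₁ - x₂))
        = ((y₁ - y₂) / (x₁ - x₂)) ^ 2 - x₁ - x₂ := by
      simp [Affine.addX, shortCurve]
    rw [e1]
    have h2 : (x₁ - x₂) ^ 2 ≠ 0 := pow_ne_zero _ hd
    apply mul_right_cancel₀ h2
    rw [ex]
    field_simp
    ring
  have hY : (shortCurve A B).addY x₁ x₂ y₁ ((shortCurve A B).slope x₁ x₂ y₁ y₂) = y₃ := by
    rw [Affine.addY, Affine.negAddY, hX, short_negY, Affine.slope_of_X_ne hx]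
    apply mul_right_cancel₀ hd
    rw [ey]
    field_simp
    ring
  simp only [Point.some.injEq]
  exact ⟨hX, hY⟩

/-- tangent criterion: the double of an affine point with `y ≠ 0` -/
lemma short_tangent {A B : K} (h2 : (2 : K) ≠ 0) {x₁ y₁ x₃ y₃ : K}
    (h₁ : (shortCurve A B).Nonsingular x₁ y₁) (h₃ : (shortCurve A B).Nonsingular x₃ y₃)
    (hy : y₁ ≠ 0)
    (ex : x₃ * (4 * y₁ ^ 2) = (3 * x₁ ^ 2 + A) ^ 2 - 8 * x₁ * y₁ ^ 2)
    (ey : y₃ * (2 * y₁) = -(3 * x₁ ^ 2 + A) * (x₃ - x₁) - 2 * y₁ ^ 2) :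
    2 • Point.some _ _ h₁ = Point.some _ _ h₃ := by
  have hy' : y₁ ≠ (shortCurve A B).negY x₁ y₁ := by
    rw [short_negY]
    intro h
    apply hy
    have h0 : 2 * y₁ = 0 := by linear_combination h
    exact (mul_eq_zero.mp h0).resolve_left h2
  rw [two_nsmul, Point.add_self_of_Y_ne hy']
  have h2y : 2 * y₁ ≠ 0 := mul_ne_zero h2 hy
  have hsl : (shortCurve A B).slope x₁ x₁ y₁ y₁ = (3 * x₁ ^ 2 + A) / (2 * y₁) := by
    rw [Affine.slope_of_Y_ne rfl hy', short_negY]
    simp only [shortCurve]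
    congr 1
    · ring
    · ring
  have hX : (shortCurve A B).addX x₁ x₁ ((shortCurve A B).slope x₁ x₁ y₁ y₁) = x₃ := by
    rw [hsl]
    have e1 : (shortCurve A B).addX x₁ x₁ ((3 * x₁ ^ 2 + A) / (2 * y₁))
        = ((3 * x₁ ^ 2 + A) / (2 * y₁)) ^ 2 - x₁ - x₁ := by
      simp [Affine.addX, shortCurve]
    rw [e1]
    have h4 : 4 * y₁ ^ 2 ≠ 0 := by
      have : (4 : K) * y₁ ^ 2 = (2 * y₁) ^ 2 := by ring
      rw [this]; exact pow_ne_zero _ h2y
    apply mul_right_cancel₀ h4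
    rw [ex]
    field_simp
    ring
  have hY : (shortCurve A B).addY x₁ x₁ y₁ ((shortCurve A B).slope x₁ x₁ y₁ y₁) = y₃ := by
    rw [Affine.addY, Affine.negAddY, hX, short_negY, hsl]
    apply mul_right_cancel₀ h2y
    rw [ey]
    field_simp
    ring
  simp only [Point.some.injEq]
  exact ⟨hX, hY⟩

/-! ### total point constructor -/

/-- the affine point `(x, y)` of the short curve if it is a (nonsingular) point, else `0` -/
noncomputable def mkP (A B x y : K) : (shortCurve A B).Point := by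
  classical
  exact if h : (shortCurve A B).Nonsingular x y then Point.some _ _ h else 0

lemma mkP_of {A B x y : K} (h : (shortCurve A B).Nonsingular x y) :
    mkP A B x y = Point.some _ _ h := by
  unfold mkP
  rw [dif_pos h]

lemma mkP_ne_zero {A B x y : K} (h : (shortCurve A B).Nonsingular x y) : mkP A B x y ≠ 0 := by
  rw [mkP_of h]; exact Point.some_ne_zero h

lemma mkP_inj {A B x y x' y' : K} (h : (shortCurve A B).Nonsingular x y)
    (h' : (shortCurve A B).Nonsingular x' y') :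
    mkP A B x y = mkP A B x' y' ↔ x = x' ∧ y = y' := by
  rw [mkP_of h, mkP_of h']
  simp only [Point.some.injEq]

lemma mkP_neg {A B x y : K} (h : (shortCurve A B).Nonsingular x y)
    (h' : (shortCurve A B).Nonsingular x (-y)) : mkP A B x (-y) = -mkP A B x y := by
  rw [mkP_of h, mkP_of h', Point.neg_some]
  simp only [Point.some.injEq, true_and]
  exact (short_negY A B x y).symm

/-- if two points have the same `x`-coordinate they are equal or opposite -/
lemma mkP_eq_or_neg_x {A B x y x' y' : K} (h : (shortCurve A B).Nonsingular x y)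
    (h' : (shortCurve A B).Nonsingular x' y')
    (e : mkP A B x y = mkP A B x' y' ∨ mkP A B x y = -mkP A B x' y') : x = x' := by
  rw [mkP_of h, mkP_of h'] at e
  exact Point.X_eq_iff.mpr e

/-! ### framings -/

/-- `(u, v)` is a framing of the short curve `y^2 = x^3 + A x + B` -/
structure Fr (A B u v : K) : Prop where
  hA : A = 27 * kH u v
  hB : B = 54 * kT u v
  hf : kf u v ≠ 0

lemma Fr.disc {A B u v : K} (h : Fr A B u v) (h2 : (2 : K) ≠ 0) (h3 : (3 : K) ≠ 0) :
    4 * A ^ 3 + 27 * B ^ 2 ≠ 0 := by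
  have e : 4 * A ^ 3 + 27 * B ^ 2 = 2 ^ 8 * 3 ^ 12 * kf u v ^ 5 := by
    rw [h.hA, h.hB]; linear_combination (78732 : K) * syzygy u v
  rw [e]
  exact mul_ne_zero (mul_ne_zero (pow_ne_zero _ h2) (pow_ne_zero _ h3)) (pow_ne_zero _ h.hf)

lemma Fr.rotU {A B u v : K} (h : Fr A B u v) : Fr A B v (-u) :=
  ⟨by rw [kH_U]; exact h.hA, by rw [kT_U]; exact h.hB, by rw [kf_U]; exact h.hf⟩

lemma Fr.rotU' {A B u v : K} (h : Fr A B u v) : Fr A B (-v) u :=
  ⟨by rw [kH_U']; exact h.hA, by rw [kT_U']; exact h.hB, by rw [kf_U']; exact h.hf⟩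

lemma Fr.neg {A B u v : K} (h : Fr A B u v) : Fr A B (-u) (-v) :=
  ⟨by rw [kH_neg]; exact h.hA, by rw [kT_neg]; exact h.hB, by rw [kf_neg]; exact h.hf⟩

section Zeta

variable {z : K} (hz : z ^ 4 + z ^ 3 + z ^ 2 + z + 1 = 0)
include hz

lemma z_ne_zero : z ≠ 0 := by
  rintro rfl
  norm_num at hz

lemma Fr.D {A B u v : K} (h : Fr A B u v) : Fr A B (z * u) v :=
  ⟨by rw [cert_kH_D z u v hz]; exact h.hA, by rw [cert_kT_D z u v hz]; exact h.hB,
    by rw [cert_kf_D z u v hz]; exact mul_ne_zero (z_ne_zero hz) h.hf⟩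

lemma Fr.Dpow {A B u v : K} (h : Fr A B u v) (k : ℕ) : Fr A B (z ^ k * u) v := by
  induction k with
  | zero => simpa using h
  | succ k ih =>
    have := Fr.D hz ih
    rwa [← mul_assoc, ← pow_succ'] at this

end Zeta

/-! ### the two universal points -/

/-- the universal point `Q` -/
noncomputable def ptQ (A B u v : K) : (shortCurve A B).Point := mkP A B (XQ u v) (YQ u v)

/-- the universal point `P` on the `mu_5`-line -/
noncomputable def ptP (A B z u v : K) : (shortCurve A B).Point :=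
  mkP A B (X0s z u v / 5) (Y0s z u v / 5)

section Laws

variable {A B u v : K} (h2 : (2 : K) ≠ 0) (h3 : (3 : K) ≠ 0)

omit [DecidableEq K] in
lemma ne_zero_of_mul_eq_sq {x g c f : K} (hc : c ≠ 0) (hf : f ≠ 0) (e : x * g = c * f ^ 2) :
    x ≠ 0 := by
  rintro rfl
  rw [zero_mul] at e
  exact mul_ne_zero hc (pow_ne_zero _ hf) e.symm

omit [DecidableEq K] in
lemma div5 (h5 : (5 : K) ≠ 0) (x : K) : x = 5 * (x / 5) := by
  field_simp

include h2 h3 in
lemma nsQ (h : Fr A B u v) : (shortCurve A B).Nonsingular (XQ u v) (YQ u v) := by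
  apply short_nonsingular h2 (h.disc h2 h3)
  rw [h.hA, h.hB]
  exact cert_onQ u v

include h2 h3 in
lemma ptQ_ne_zero (h : Fr A B u v) : ptQ A B u v ≠ 0 := mkP_ne_zero (nsQ h2 h3 h)

include h2 h3 in
lemma ptQ_neg (h : Fr A B u v) : ptQ A B (-u) (-v) = -ptQ A B u v := by
  unfold ptQ
  rw [XQ_neg, YQ_neg]
  exact mkP_neg (nsQ h2 h3 h) (by have := nsQ h2 h3 h.neg; rwa [XQ_neg, YQ_neg] at this)

include h2 h3 in
lemma YQ_ne_zero (h : Fr A B u v) : YQ u v ≠ 0 := by
  have h108 : (108 : K) ≠ 0 := by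
    have : (108 : K) = 2 ^ 2 * 3 ^ 3 := by norm_num
    rw [this]; exact mul_ne_zero (pow_ne_zero _ h2) (pow_ne_zero _ h3)
  exact ne_zero_of_mul_eq_sq h108 h.hf (cert_N2 u v)

include h2 h3 in
/-- `2 Q(u, v) = Q(v, -u)` -/
lemma two_ptQ (h : Fr A B u v) : 2 • ptQ A B u v = ptQ A B v (-u) := by
  unfold ptQ
  rw [mkP_of (nsQ h2 h3 h), mkP_of (nsQ h2 h3 h.rotU)]
  apply short_tangent h2 _ _ (YQ_ne_zero h2 h3 h)
  · rw [h.hA]; exact cert_dupQx u v
  · rw [h.hA]; exact cert_dupQy u v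

include h2 h3 in
lemma four_ptQ (h : Fr A B u v) : 4 • ptQ A B u v = -ptQ A B u v := by
  have e1 := two_ptQ h2 h3 h
  have e2 := two_ptQ h2 h3 h.rotU
  have e3 := ptQ_neg h2 h3 h
  have e4 : (4 : ℕ) • ptQ A B u v = 2 • (2 • ptQ A B u v) := by
    rw [← mul_nsmul]
  rw [e4, e1, e2, e3]

include h2 h3 in
lemma five_ptQ (h : Fr A B u v) : 5 • ptQ A B u v = 0 := by
  have e : (5 : ℕ) • ptQ A B u v = 4 • ptQ A B u v + ptQ A B u v := by
    rw [← succ_nsmul]
  rw [e, four_ptQ h2 h3 h]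
  exact neg_add_cancel _

section P

variable {z : K} (hz : z ^ 4 + z ^ 3 + z ^ 2 + z + 1 = 0) (h5 : (5 : K) ≠ 0)

include h2 h3 hz h5 in
lemma nsP (h : Fr A B u v) : (shortCurve A B).Nonsingular (X0s z u v / 5) (Y0s z u v / 5) := by
  apply short_nonsingular h2 (h.disc h2 h3)
  rw [h.hA, h.hB]
  have e := cert_onP z u v hz
  have ha := div5 h5 (X0s z u v)
  have hb := div5 h5 (Y0s z u v)
  generalize X0s z u v / 5 = a at ha ⊢
  generalize Y0s z u v / 5 = b at hb ⊢
  rw [ha, hb] at e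
  have h125 : (125 : K) ≠ 0 := by
    have : (125 : K) = 5 ^ 3 := by norm_num
    rw [this]; exact pow_ne_zero _ h5
  apply mul_left_cancel₀ h125
  linear_combination e

include h2 h3 hz h5 in
lemma ptP_ne_zero (h : Fr A B u v) : ptP A B z u v ≠ 0 := mkP_ne_zero (nsP h2 h3 hz h5 h)

include h2 h3 hz h5 in
lemma ptP_neg (h : Fr A B u v) : ptP A B z (-u) (-v) = -ptP A B z u v := by
  unfold ptP
  rw [X0s_neg, Y0s_neg, neg_div]
  exact mkP_neg (nsP h2 h3 hz h5 h)
    (by have := nsP h2 h3 hz h5 h.neg; rwa [X0s_neg, Y0s_neg, neg_div] at this)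

include hz in
omit [DecidableEq K] in
/-- `P` is invariant under `u ↦ z u` -/
lemma ptP_D' : X0s z (z * u) v = X0s z u v ∧ Y0s z (z * u) v = Y0s z u v :=
  ⟨cert_X0s_D z u v hz, cert_Y0s_D z u v hz⟩

include hz in
lemma ptP_D : ptP A B z (z * u) v = ptP A B z u v := by
  unfold ptP
  rw [cert_X0s_D z u v hz, cert_Y0s_D z u v hz]

include hz in
lemma ptP_Dpow (k : ℕ) : ptP A B z (z ^ k * u) v = ptP A B z u v := by
  induction k with
  | zero => simp
  | succ k ih =>
    have e : z ^ (k + 1) * u = z * (z ^ k * u) := by ring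
    rw [e, ptP_D hz, ih]

include h2 h3 h5 in
omit [DecidableEq K] in
lemma c540 : (540 : K) ≠ 0 := by
  have : (540 : K) = 2 ^ 2 * 3 ^ 3 * 5 := by norm_num
  rw [this]; exact mul_ne_zero (mul_ne_zero (pow_ne_zero _ h2) (pow_ne_zero _ h3)) h5

include h2 h3 h5 in
omit [DecidableEq K] in
lemma c180 : (180 : K) ≠ 0 := by
  have : (180 : K) = 2 ^ 2 * 3 ^ 2 * 5 := by norm_num
  rw [this]; exact mul_ne_zero (mul_ne_zero (pow_ne_zero _ h2) (pow_ne_zero _ h3)) h5

include h2 h3 hz h5 in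
omit [DecidableEq K] in
lemma Y0s_ne_zero (h : Fr A B u v) : Y0s z u v ≠ 0 :=
  ne_zero_of_mul_eq_sq (c540 h2 h3 h5) h.hf (cert_N3 z u v hz)

include h2 h3 hz h5 in
omit [DecidableEq K] in
lemma N4_ne_zero (h : Fr A B u v) : 5 * XQ u v - X0s z u v ≠ 0 :=
  ne_zero_of_mul_eq_sq (c180 h2 h3 h5) h.hf (cert_N4 z u v hz)

include h2 h3 hz h5 in
omit [DecidableEq K] in
lemma N5_ne_zero (h : Fr A B u v) : 5 * XQ u v - X0s z (-v) u ≠ 0 :=
  ne_zero_of_mul_eq_sq (c180 h2 h3 h5) h.hf (cert_N5 z u v hz)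

include h2 h3 hz h5 in
/-- `2 P(u, v) = P(-v, u)` -/
lemma two_ptP (h : Fr A B u v) : 2 • ptP A B z u v = ptP A B z (-v) u := by
  unfold ptP
  rw [mkP_of (nsP h2 h3 hz h5 h), mkP_of (nsP h2 h3 hz h5 h.rotU')]
  have hy : Y0s z u v / 5 ≠ 0 := div_ne_zero (Y0s_ne_zero h2 h3 hz h5 h) h5
  have ex := cert_dupPx z u v hz
  have ey := cert_dupPy z u v hz
  have ha := div5 h5 (X0s z u v)
  have hb := div5 h5 (Y0s z u v)
  have ha' := div5 h5 (X0s z (-v) u)
  have hb' := div5 h5 (Y0s z (-v) u)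
  have h125 : (125 : K) ≠ 0 := by
    have : (125 : K) = 5 ^ 3 := by norm_num
    rw [this]; exact pow_ne_zero _ h5
  have h625 : (625 : K) ≠ 0 := by
    have : (625 : K) = 5 ^ 4 := by norm_num
    rw [this]; exact pow_ne_zero _ h5
  apply short_tangent h2 _ _ hy
  · rw [h.hA]
    generalize X0s z u v / 5 = a at ha ⊢
    generalize Y0s z u v / 5 = b at hb ⊢
    generalize X0s z (-v) u / 5 = a' at ha' ⊢
    rw [ha, hb, ha'] at ex
    apply mul_left_cancel₀ h625
    linear_combination ex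
  · rw [h.hA]
    generalize X0s z u v / 5 = a at ha ⊢
    generalize Y0s z u v / 5 = b at hb ⊢
    generalize X0s z (-v) u / 5 = a' at ha' ⊢
    generalize Y0s z (-v) u / 5 = b' at hb' ⊢
    rw [ha, hb, ha', hb'] at ey
    apply mul_left_cancel₀ h125
    linear_combination ey

include h2 h3 hz h5 in
/-- `Q(z u, v) + P(u, v) = Q(u, v)` -/
lemma ptQ_D (h : Fr A B u v) : ptQ A B (z * u) v + ptP A B z u v = ptQ A B u v := by
  unfold ptQ ptP
  rw [mkP_of (nsQ h2 h3 (h.D hz)), mkP_of (nsP h2 h3 hz h5 h), mkP_of (nsQ h2 h3 h)]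
  have hne := N4_ne_zero h2 h3 hz h5 (h.D hz)
  rw [cert_X0s_D z u v hz] at hne
  have ex := cert_add1x z u v hz
  have ey := cert_add1y z u v hz
  have ha := div5 h5 (X0s z u v)
  have hb := div5 h5 (Y0s z u v)
  have h125 : (125 : K) ≠ 0 := by
    have : (125 : K) = 5 ^ 3 := by norm_num
    rw [this]; exact pow_ne_zero _ h5
  have hx : XQ (z * u) v ≠ X0s z u v / 5 := by
    intro heq
    apply hne
    rw [heq]
    field_simp
    ring
  apply short_chord _ _ _ hx
  · generalize X0s z u v / 5 = a at ha ⊢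
    generalize Y0s z u v / 5 = b at hb ⊢
    rw [ha, hb] at ex
    apply mul_left_cancel₀ h125
    linear_combination ex
  · generalize X0s z u v / 5 = a at ha ⊢
    generalize Y0s z u v / 5 = b at hb ⊢
    rw [ha, hb] at ey
    apply mul_left_cancel₀ h5
    linear_combination ey

include h2 h3 hz h5 in
/-- `Q(z^k u, v) + k P(u, v) = Q(u, v)` -/
lemma ptQ_Dpow (h : Fr A B u v) (k : ℕ) :
    ptQ A B (z ^ k * u) v + k • ptP A B z u v = ptQ A B u v := by
  induction k with
  | zero => simp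
  | succ k ih =>
    have e := ptQ_D h2 h3 hz h5 (h.Dpow hz k)
    rw [ptP_Dpow hz k] at e
    have e' : z ^ (k + 1) * u = z * (z ^ k * u) := by ring
    rw [e', succ_nsmul, add_comm (k • ptP A B z u v) _, ← add_assoc, e, ih]

include h2 h3 hz h5 in
lemma five_ptP (h : Fr A B u v) : 5 • ptP A B z u v = 0 := by
  have e := ptQ_Dpow h2 h3 hz h5 h 5
  rw [cert_z5 z hz, one_mul] at e
  have e' : ptQ A B u v + 5 • ptP A B z u v = ptQ A B u v + 0 := by rw [e, add_zero]
  exact add_left_cancel e'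

include h2 h3 hz h5 in
lemma four_ptP (h : Fr A B u v) : 4 • ptP A B z u v = -ptP A B z u v := by
  have e : (5 : ℕ) • ptP A B z u v = 4 • ptP A B z u v + ptP A B z u v := by
    rw [← succ_nsmul]
  rw [five_ptP h2 h3 hz h5 h] at e
  exact eq_neg_of_add_eq_zero_left e.symm

include h2 h3 hz h5 in
/-- `Q` is not a multiple of `P` -/
lemma ptQ_ne_nsmul_ptP (h : Fr A B u v) (n : ℕ) : ptQ A B u v ≠ n • ptP A B z u v := by
  have hP5 := five_ptP h2 h3 hz h5 h
  have hmod : n • ptP A B z u v = (n % 5) • ptP A B z u v := by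
    conv_lhs => rw [← Nat.div_add_mod n 5]
    rw [add_nsmul, mul_nsmul, hP5, nsmul_zero, zero_add]
  rw [hmod]
  have hlt : n % 5 < 5 := Nat.mod_lt _ (by norm_num)
  have nQ := nsQ h2 h3 h
  have nP := nsP h2 h3 hz h5 h
  have nP' := nsP h2 h3 hz h5 h.rotU'
  have hN4 := N4_ne_zero h2 h3 hz h5 h
  have hN5 := N5_ne_zero h2 h3 hz h5 h
  have x4 : XQ u v ≠ X0s z u v / 5 := by
    intro heq; apply hN4; rw [heq]; field_simp; ring
  have x5 : XQ u v ≠ X0s z (-v) u / 5 := by
    intro heq; apply hN5; rw [heq]; field_simp; ring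
  generalize n % 5 = r at hlt ⊢
  interval_cases r
  · rw [zero_nsmul]; exact ptQ_ne_zero h2 h3 h
  · rw [one_nsmul]
    intro e
    exact x4 (mkP_eq_or_neg_x nQ nP (Or.inl e))
  · rw [two_ptP h2 h3 hz h5 h]
    intro e
    exact x5 (mkP_eq_or_neg_x nQ nP' (Or.inl e))
  · have e3 : (3 : ℕ) • ptP A B z u v = -ptP A B z (-v) u := by
      rw [← two_ptP h2 h3 hz h5 h]
      have e5 : (5 : ℕ) • ptP A B z u v = 3 • ptP A B z u v + 2 • ptP A B z u v := by
        rw [← add_nsmul]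
      rw [hP5] at e5
      exact eq_neg_of_add_eq_zero_left e5.symm
    rw [e3]
    intro e
    exact x5 (mkP_eq_or_neg_x nQ nP' (Or.inr e))
  · rw [four_ptP h2 h3 hz h5 h]
    intro e
    exact x4 (mkP_eq_or_neg_x nQ nP (Or.inr e))

end P

end Laws

/-! ### independence and enumeration of the 5-torsion -/

section Enum

variable {A B u v z : K} (h2 : (2 : K) ≠ 0) (h3 : (3 : K) ≠ 0)
  (hz : z ^ 4 + z ^ 3 + z ^ 2 + z + 1 = 0) (h5 : (5 : K) ≠ 0)

include h2 h3 hz h5 in
lemma exists_nsmul_ptP (h : Fr A B u v) (m : ℤ) :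
    ∃ n : ℕ, m • ptP A B z u v = n • ptP A B z u v := by
  have hP5 : (5 : ℤ) • ptP A B z u v = 0 := by
    have := five_ptP h2 h3 hz h5 h
    exact_mod_cast this
  refine ⟨(m % 5).toNat, ?_⟩
  have h0 : 0 ≤ m % 5 := Int.emod_nonneg _ (by norm_num)
  have e1 : m • ptP A B z u v = (m % 5) • ptP A B z u v := by
    conv_lhs => rw [← Int.emod_add_mul_ediv m 5]
    rw [add_smul, mul_comm, mul_smul, hP5, smul_zero, add_zero]
  rw [e1, ← natCast_zsmul, Int.toNat_of_nonneg h0]

include h2 h3 hz h5 in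
/-- `P` and `Q` are independent over `Z/5` -/
lemma indep (h : Fr A B u v) (a c : ℤ) (e : a • ptP A B z u v + c • ptQ A B u v = 0) :
    (5 : ℤ) ∣ a ∧ (5 : ℤ) ∣ c := by
  have hP5 : (5 : ℤ) • ptP A B z u v = 0 := by
    have := five_ptP h2 h3 hz h5 h
    exact_mod_cast this
  have hQ5 : (5 : ℤ) • ptQ A B u v = 0 := by
    have := five_ptQ h2 h3 h
    exact_mod_cast this
  have irr : Irreducible (5 : ℤ) := (Int.prime_iff_natAbs_prime.mpr (by norm_num)).irreducible
  have hc : (5 : ℤ) ∣ c := by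
    by_contra hc
    obtain ⟨x, y, hxy⟩ := irr.coprime_iff_not_dvd.mpr hc
    have e1 : c • ptQ A B u v = -(a • ptP A B z u v) := eq_neg_of_add_eq_zero_right e
    have e2 : ptQ A B u v = (-(y * a)) • ptP A B z u v := by
      calc ptQ A B u v = (x * 5 + y * c) • ptQ A B u v := by rw [hxy, one_smul]
        _ = x • (5 : ℤ) • ptQ A B u v + y • c • ptQ A B u v := by rw [add_smul, mul_smul, mul_smul]
        _ = (-(y * a)) • ptP A B z u v := by
          rw [hQ5, smul_zero, zero_add, e1, smul_neg, neg_smul, mul_smul]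
    obtain ⟨n, hn⟩ := exists_nsmul_ptP h2 h3 hz h5 h (-(y * a))
    exact ptQ_ne_nsmul_ptP h2 h3 hz h5 h n (e2.trans hn)
  refine ⟨?_, hc⟩
  obtain ⟨c', rfl⟩ := hc
  have e0 : a • ptP A B z u v = 0 := by
    rw [mul_comm, mul_smul, hQ5, smul_zero, add_zero] at e
    exact e
  by_contra ha
  obtain ⟨x, y, hxy⟩ := irr.coprime_iff_not_dvd.mpr ha
  have e3 : ptP A B z u v = 0 := by
    calc ptP A B z u v = (x * 5 + y * a) • ptP A B z u v := by rw [hxy, one_smul]
      _ = x • (5 : ℤ) • ptP A B z u v + y • a • ptP A B z u v := by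
        rw [add_smul, mul_smul, mul_smul]
      _ = 0 := by rw [hP5, e0, smul_zero, smul_zero, add_zero]
  exact ptP_ne_zero h2 h3 hz h5 h e3

/-- the linear combination `a P + c Q` -/
noncomputable def lin (A B z u v : K) (ac : Fin 5 × Fin 5) : (shortCurve A B).Point :=
  (ac.1 : ℕ) • ptP A B z u v + (ac.2 : ℕ) • ptQ A B u v

include h2 h3 hz h5 in
lemma lin_injective (h : Fr A B u v) : Function.Injective (lin A B z u v) := by
  rintro ⟨a, c⟩ ⟨a', c'⟩ e
  simp only [lin] at e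
  have e' : (((a : ℕ) : ℤ) - ((a' : ℕ) : ℤ)) • ptP A B z u v
      + (((c : ℕ) : ℤ) - ((c' : ℕ) : ℤ)) • ptQ A B u v = 0 := by
    rw [sub_smul, sub_smul, natCast_zsmul, natCast_zsmul, natCast_zsmul, natCast_zsmul]
    have e0 : (a : ℕ) • ptP A B z u v + (c : ℕ) • ptQ A B u v
        - ((a' : ℕ) • ptP A B z u v + (c' : ℕ) • ptQ A B u v) = 0 := sub_eq_zero.mpr e
    rw [← e0]; abel
  obtain ⟨d1, d2⟩ := indep h2 h3 hz h5 h _ _ e'
  have ha := a.isLt
  have ha' := a'.isLt
  have hc := c.isLt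
  have hc' := c'.isLt
  refine Prod.ext (Fin.ext ?_) (Fin.ext ?_)
  · show (a : ℕ) = a'
    omega
  · show (c : ℕ) = c'
    omega

include h2 h3 hz h5 in
lemma five_lin (h : Fr A B u v) (ac : Fin 5 × Fin 5) : 5 • lin A B z u v ac = 0 := by
  unfold lin
  rw [nsmul_add, ← mul_nsmul, ← mul_nsmul, mul_nsmul', mul_nsmul', five_ptP h2 h3 hz h5 h,
    five_ptQ h2 h3 h, nsmul_zero, nsmul_zero, add_zero]

include h2 h3 hz h5 in
/-- every 5-torsion point is `a P + c Q` -/
theorem exists_lin (h : Fr A B u v) {R : (shortCurve A B).Point} (hR : 5 • R = 0) :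
    ∃ ac : Fin 5 × Fin 5, R = lin A B z u v ac := by
  have h15 : (15 : K) ≠ 0 := by
    have : (15 : K) = 3 * 5 := by norm_num
    rw [this]; exact mul_ne_zero h3 h5
  have hcard : Fintype.card (Fin 5 × Fin 5) = 25 := by simp
  obtain ⟨ac, rfl⟩ := Fermat.Agent.S52.TorsFive.mem_range_of_five_nsmul (shortCurve A B) h15 hcard
    (lin A B z u v) (lin_injective h2 h3 hz h5 h) (five_lin h2 h3 hz h5 h) hR
  exact ⟨ac, rfl⟩

end Enum

/-! ### the 24 explicit torsion forms, over any commutative ring -/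

section Forms2

variable {R : Type*} [CommRing R]

/-- the rotation `U^e` at which `Q` has to be evaluated to get `c • Q` (`1 ≤ c ≤ 4`) -/
def rotQ (c : ℕ) (p : R × R) : R × R :=
  if c = 2 then (p.2, -p.1) else if c = 3 then (-p.2, p.1) else if c = 4 then (-p.1, -p.2) else p

/-- the rotation `U^e` at which `P` has to be evaluated to get `a • P` (`1 ≤ a ≤ 4`) -/
def rotP (a : ℕ) (p : R × R) : R × R :=
  if a = 2 then (-p.2, p.1) else if a = 3 then (p.2, -p.1) else if a = 4 then (-p.1, -p.2) else p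

lemma rotQ_one (p : R × R) : rotQ 1 p = p := by simp [rotQ]
lemma rotQ_two (p : R × R) : rotQ 2 p = (p.2, -p.1) := by simp [rotQ]
lemma rotQ_three (p : R × R) : rotQ 3 p = (-p.2, p.1) := by simp [rotQ]
lemma rotQ_four (p : R × R) : rotQ 4 p = (-p.1, -p.2) := by simp [rotQ]
lemma rotP_one (p : R × R) : rotP 1 p = p := by simp [rotP]
lemma rotP_two (p : R × R) : rotP 2 p = (-p.2, p.1) := by simp [rotP]
lemma rotP_three (p : R × R) : rotP 3 p = (p.2, -p.1) := by simp [rotP]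
lemma rotP_four (p : R × R) : rotP 4 p = (-p.1, -p.2) := by simp [rotP]

/-- the exponent `j` with `c * j + a ≡ 0 mod 5` (for `5 ∤ c`) -/
def jExp (a c : ℕ) : ℕ := 4 * a * c ^ 3 % 5

/-- `x`-coordinate of the universal torsion point `a P + c Q`, `k = (a, c) ≠ 0`; here `i5 = 1/5`
and `z` is a primitive 5th root of unity.  A form of degree 10 in `(x, y)`. -/
def XX (k : ZMod 5 × ZMod 5) (z i5 x y : R) : R :=
  if k.2 = 0 then
    i5 * X0s z (rotP k.1.val (x, y)).1 (rotP k.1.val (x, y)).2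
  else
    XQ (rotQ k.2.val (z ^ jExp k.1.val k.2.val * x, y)).1
      (rotQ k.2.val (z ^ jExp k.1.val k.2.val * x, y)).2

/-- `y`-coordinate of the universal torsion point `a P + c Q`, `k = (a, c) ≠ 0`.
A form of degree 15 in `(x, y)`. -/
def YY (k : ZMod 5 × ZMod 5) (z i5 x y : R) : R :=
  if k.2 = 0 then
    i5 * Y0s z (rotP k.1.val (x, y)).1 (rotP k.1.val (x, y)).2
  else
    YQ (rotQ k.2.val (z ^ jExp k.1.val k.2.val * x, y)).1
      (rotQ k.2.val (z ^ jExp k.1.val k.2.val * x, y)).2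

section Map

variable {S : Type*} [CommRing S] (φ : R →+* S)

theorem map_XQ (u v : R) : φ (XQ u v) = XQ (φ u) (φ v) := by
  simp only [XQ, map_add, map_sub, map_mul, map_pow, map_ofNat]

theorem map_YQ (u v : R) : φ (YQ u v) = YQ (φ u) (φ v) := by
  simp only [YQ, map_add, map_mul, map_pow, map_ofNat]

theorem map_X0s (z u v : R) : φ (X0s z u v) = X0s (φ z) (φ u) (φ v) := by
  simp only [X0s, r5, map_add, map_sub, map_mul, map_pow, map_neg, map_ofNat]

theorem map_Y0s (z u v : R) : φ (Y0s z u v) = Y0s (φ z) (φ u) (φ v) := by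
  simp only [Y0s, r5, map_add, map_sub, map_mul, map_pow, map_neg, map_ofNat]

lemma map_rotQ_fst (c : ℕ) (x y : R) : φ (rotQ c (x, y)).1 = (rotQ c (φ x, φ y)).1 := by
  unfold rotQ; split_ifs <;> simp

lemma map_rotQ_snd (c : ℕ) (x y : R) : φ (rotQ c (x, y)).2 = (rotQ c (φ x, φ y)).2 := by
  unfold rotQ; split_ifs <;> simp

lemma map_rotP_fst (c : ℕ) (x y : R) : φ (rotP c (x, y)).1 = (rotP c (φ x, φ y)).1 := by
  unfold rotP; split_ifs <;> simp

lemma map_rotP_snd (c : ℕ) (x y : R) : φ (rotP c (x, y)).2 = (rotP c (φ x, φ y)).2 := by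
  unfold rotP; split_ifs <;> simp

/-- the forms `XX` commute with ring homomorphisms -/
theorem map_XX (k : ZMod 5 × ZMod 5) (z i5 x y : R) :
    φ (XX k z i5 x y) = XX k (φ z) (φ i5) (φ x) (φ y) := by
  unfold XX
  split_ifs with h
  · rw [map_mul, map_X0s, map_rotP_fst, map_rotP_snd]
  · rw [map_XQ, map_rotQ_fst, map_rotQ_snd, map_mul, map_pow]

/-- the forms `YY` commute with ring homomorphisms -/
theorem map_YY (k : ZMod 5 × ZMod 5) (z i5 x y : R) :
    φ (YY k z i5 x y) = YY k (φ z) (φ i5) (φ x) (φ y) := by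
  unfold YY
  split_ifs with h
  · rw [map_mul, map_Y0s, map_rotP_fst, map_rotP_snd]
  · rw [map_YQ, map_rotQ_fst, map_rotQ_snd, map_mul, map_pow]

end Map

end Forms2

/-! ### the level structure -/

section Main

variable {A B u v z : K} (h2 : (2 : K) ≠ 0) (h3 : (3 : K) ≠ 0)
  (hz : z ^ 4 + z ^ 3 + z ^ 2 + z + 1 = 0) (h5 : (5 : K) ≠ 0)

lemma Fr_rotQ (h : Fr A B u v) (c : ℕ) : Fr A B (rotQ c (u, v)).1 (rotQ c (u, v)).2 := by
  unfold rotQ
  split_ifs
  · exact h.rotU
  · exact h.rotU'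
  · exact h.neg
  · exact h

include h2 h3 in
lemma ptQ_rotQ (h : Fr A B u v) (c : ℕ) (hc1 : 1 ≤ c) (hc4 : c ≤ 4) :
    ptQ A B (rotQ c (u, v)).1 (rotQ c (u, v)).2 = c • ptQ A B u v := by
  interval_cases c
  · rw [rotQ_one, one_nsmul]
  · rw [rotQ_two]
    exact (two_ptQ h2 h3 h).symm
  · rw [rotQ_three]
    show ptQ A B (-v) u = 3 • ptQ A B u v
    have e1 := ptQ_neg h2 h3 h.rotU
    rw [neg_neg] at e1
    rw [e1, ← two_ptQ h2 h3 h]
    have e5 : (5 : ℕ) • ptQ A B u v = 3 • ptQ A B u v + 2 • ptQ A B u v := by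
      rw [← add_nsmul]
    rw [five_ptQ h2 h3 h] at e5
    exact (eq_neg_of_add_eq_zero_left e5.symm).symm
  · rw [rotQ_four]
    show ptQ A B (-u) (-v) = 4 • ptQ A B u v
    rw [ptQ_neg h2 h3 h, four_ptQ h2 h3 h]

include h2 h3 hz h5 in
lemma ptP_rotP (h : Fr A B u v) (a : ℕ) (ha1 : 1 ≤ a) (ha4 : a ≤ 4) :
    ptP A B z (rotP a (u, v)).1 (rotP a (u, v)).2 = a • ptP A B z u v := by
  interval_cases a
  · rw [rotP_one, one_nsmul]
  · rw [rotP_two]
    exact (two_ptP h2 h3 hz h5 h).symm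
  · rw [rotP_three]
    show ptP A B z v (-u) = 3 • ptP A B z u v
    have e1 := ptP_neg h2 h3 hz h5 h.rotU'
    rw [neg_neg] at e1
    rw [e1, ← two_ptP h2 h3 hz h5 h]
    have e5 : (5 : ℕ) • ptP A B z u v = 3 • ptP A B z u v + 2 • ptP A B z u v := by
      rw [← add_nsmul]
    rw [five_ptP h2 h3 hz h5 h] at e5
    exact (eq_neg_of_add_eq_zero_left e5.symm).symm
  · rw [rotP_four]
    show ptP A B z (-u) (-v) = 4 • ptP A B z u v
    rw [ptP_neg h2 h3 hz h5 h, four_ptP h2 h3 hz h5 h]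

include h2 h3 hz h5 in
lemma lin_eq_some (h : Fr A B u v) (a c k m : ℕ) (hk : c * k + a = 5 * m) :
    c • (ptQ A B u v - k • ptP A B z u v) = a • ptP A B z u v + c • ptQ A B u v := by
  have e0 : a • ptP A B z u v + (k * c) • ptP A B z u v = 0 := by
    rw [← add_nsmul, show a + k * c = 5 * m by rw [← hk]; ring, mul_nsmul,
      five_ptP h2 h3 hz h5 h, nsmul_zero]
  rw [nsmul_sub, ← mul_nsmul, sub_eq_iff_eq_add, add_right_comm, e0, zero_add]

omit [DecidableEq K] in
lemma jExp_spec : ∀ a c : Fin 5, c ≠ 0 → ((c : ℕ) * jExp (a : ℕ) (c : ℕ) + (a : ℕ)) % 5 = 0 := by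
  decide

include h2 h3 hz h5 in
/-- `a P + c Q` for `1 ≤ c ≤ 4` is `Q` evaluated at a transformed framing -/
lemma lin_Q (h : Fr A B u v) (a c : ℕ) (ha : a < 5) (hc1 : 1 ≤ c) (hc4 : c ≤ 4) :
    a • ptP A B z u v + c • ptQ A B u v =
      ptQ A B (rotQ c (z ^ jExp a c * u, v)).1 (rotQ c (z ^ jExp a c * u, v)).2 := by
  have hspec : (c * jExp a c + a) % 5 = 0 := by
    have := jExp_spec ⟨a, ha⟩ ⟨c, by omega⟩ (by
      intro e
      have : c = 0 := congrArg Fin.val e
      omega)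
    exact this
  obtain ⟨m, hm⟩ := Nat.dvd_of_mod_eq_zero hspec
  rw [ptQ_rotQ h2 h3 (h.Dpow hz (jExp a c)) c hc1 hc4,
    ← lin_eq_some h2 h3 hz h5 h a c (jExp a c) m hm]
  congr 1
  exact (eq_sub_of_add_eq (ptQ_Dpow h2 h3 hz h5 h (jExp a c))).symm

include h2 h3 hz h5 in
/-- **The universal level structure**: for a framing `(x, y)` of the short curve
`y^2 = x^3 + A x + B` (`A = 27 kH(x,y)`, `B = 54 kT(x,y)`, `kf(x,y) ≠ 0`) there is an injective
homomorphism `(Z/5)^2 → E(K)` whose values at `k ≠ 0` have the explicit coordinates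
`(XX k z i5 x y, YY k z i5 x y)`. -/
theorem exists_level_aux {i5 x y : K} (hi5 : 5 * i5 = 1) (h : Fr A B x y) :
    ∃ ι : ZMod 5 × ZMod 5 →+ (shortCurve A B).Point, Function.Injective ι ∧
      ∀ k, k ≠ 0 → ∃ hns, ι k = Point.some (XX k z i5 x y) (YY k z i5 x y) hns := by
  have hP5 : (5 : ℤ) • ptP A B z x y = 0 := by
    have := five_ptP h2 h3 hz h5 h
    exact_mod_cast this
  have hQ5 : (5 : ℤ) • ptQ A B x y = 0 := by
    have := five_ptQ h2 h3 h
    exact_mod_cast this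
  let fP : ZMod 5 →+ (shortCurve A B).Point :=
    ZMod.lift 5 ⟨zmultiplesHom _ (ptP A B z x y), by simpa using hP5⟩
  let fQ : ZMod 5 →+ (shortCurve A B).Point :=
    ZMod.lift 5 ⟨zmultiplesHom _ (ptQ A B x y), by simpa using hQ5⟩
  have hfP : ∀ a : ZMod 5, fP a = a.val • ptP A B z x y := by
    intro a
    have e1 : fP ((a.val : ℤ) : ZMod 5) = (a.val : ℤ) • ptP A B z x y := by
      simp only [fP, ZMod.lift_coe]
      rfl
    rw [natCast_zsmul] at e1
    rw [← e1]
    congr 1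
    simp
  have hfQ : ∀ a : ZMod 5, fQ a = a.val • ptQ A B x y := by
    intro a
    have e1 : fQ ((a.val : ℤ) : ZMod 5) = (a.val : ℤ) • ptQ A B x y := by
      simp only [fQ, ZMod.lift_coe]
      rfl
    rw [natCast_zsmul] at e1
    rw [← e1]
    congr 1
    simp
  have hval : ∀ a : ZMod 5, a.val < 5 := fun a => ZMod.val_lt a
  have hval0 : ∀ a : ZMod 5, a.val = 0 → a = 0 := fun a ha => (ZMod.val_eq_zero a).mp ha
  refine ⟨fP.coprod fQ, ?_, ?_⟩
  · rw [injective_iff_map_eq_zero]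
    rintro ⟨a, c⟩ e
    rw [AddMonoidHom.coprod_apply, hfP, hfQ] at e
    have e' : ((a.val : ℕ) : ℤ) • ptP A B z x y + ((c.val : ℕ) : ℤ) • ptQ A B x y = 0 := by
      rw [natCast_zsmul, natCast_zsmul]; exact e
    obtain ⟨d1, d2⟩ := indep h2 h3 hz h5 h _ _ e'
    have ha := hval a
    have hc := hval c
    have ha0 : a.val = 0 := by omega
    have hc0 : c.val = 0 := by omega
    rw [hval0 a ha0, hval0 c hc0]
    rfl
  · rintro ⟨a, c⟩ hk
    have hi5' : ∀ t : K, i5 * t = t / 5 := by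
      intro t
      rw [eq_div_iff h5]
      linear_combination t * hi5
    rw [AddMonoidHom.coprod_apply, hfP, hfQ]
    by_cases hc : c = 0
    · subst hc
      have ha : a ≠ 0 := by
        rintro rfl
        exact hk rfl
      have ha1 : 1 ≤ a.val := by
        have : a.val ≠ 0 := fun e => ha (hval0 a e)
        omega
      have ha4 : a.val ≤ 4 := by have := hval a; omega
      have hfr := Fr_rotQ h 0
      have hns := nsP h2 h3 hz h5 (z := z)
        (show Fr A B (rotP a.val (x, y)).1 (rotP a.val (x, y)).2 by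
          unfold rotP
          split_ifs
          · exact h.rotU'
          · exact h.rotU
          · exact h.neg
          · exact h)
      have hXX : XX (a, (0 : ZMod 5)) z i5 x y
          = X0s z (rotP a.val (x, y)).1 (rotP a.val (x, y)).2 / 5 := by
        unfold XX
        rw [if_pos rfl, hi5']
      have hYY : YY (a, (0 : ZMod 5)) z i5 x y
          = Y0s z (rotP a.val (x, y)).1 (rotP a.val (x, y)).2 / 5 := by
        unfold YY
        rw [if_pos rfl, hi5']
      rw [hXX, hYY]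
      refine ⟨hns, ?_⟩
      rw [ZMod.val_zero, zero_nsmul, add_zero, ← ptP_rotP h2 h3 hz h5 h a.val ha1 ha4]
      exact mkP_of hns
    · have hc1 : 1 ≤ c.val := by
        have : c.val ≠ 0 := fun e => hc (hval0 c e)
        omega
      have hc4 : c.val ≤ 4 := by have := hval c; omega
      have hns := nsQ h2 h3 (Fr_rotQ (h.Dpow hz (jExp a.val c.val)) c.val)
      have hXX : XX (a, c) z i5 x y
          = XQ (rotQ c.val (z ^ jExp a.val c.val * x, y)).1
              (rotQ c.val (z ^ jExp a.val c.val * x, y)).2 := by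
        unfold XX
        rw [if_neg hc]
      have hYY : YY (a, c) z i5 x y
          = YQ (rotQ c.val (z ^ jExp a.val c.val * x, y)).1
              (rotQ c.val (z ^ jExp a.val c.val * x, y)).2 := by
        unfold YY
        rw [if_neg hc]
      rw [hXX, hYY]
      refine ⟨hns, ?_⟩
      rw [lin_Q h2 h3 hz h5 h a.val c.val (hval a) hc1 hc4]
      exact mkP_of hns

end Main

/-- **The universal level structure** (interface form). -/
theorem exists_level (z i5 : K) (hz : z ^ 4 + z ^ 3 + z ^ 2 + z + 1 = 0) (h5 : 5 * i5 = 1)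
    (h2 : (2 : K) ≠ 0) (h3 : (3 : K) ≠ 0) {A B x y : K} (hA : A = 27 * kH x y)
    (hB : B = 54 * kT x y) (hf : kf x y ≠ 0) :
    ∃ ι : ZMod 5 × ZMod 5 →+ (shortCurve A B).Point, Function.Injective ι ∧
      ∀ k, k ≠ 0 → ∃ h, ι k = Point.some (XX k z i5 x y) (YY k z i5 x y) h := by
  have h5' : (5 : K) ≠ 0 := by
    rintro e
    rw [e, zero_mul] at h5
    exact zero_ne_one h5
  exact exists_level_aux h2 h3 hz h5' h5 ⟨hA, hB, hf⟩

end Fermat.Agent.S52.Fam.Level
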