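import Mathlib
import Fermat.Agent.S52.Fam.EquivStmt
import Fermat.Agent.S52.Fam.Level

/-!
# S52, brick (Fam), part F-c: `EquivStatement` for algebraically closed fields over `ZMod ℓ`

`equivStatement` : `Fam.EquivStatement ℓ K` for every algebraically closed field `K` over
`ZMod ℓ`, `ℓ ∉ {2, 3, 5}`, from `Equiv.equivStatement_of_level` and the universal level
structure `Level.exists_level` (given the homogeneous covariance of `kH`, `kT`).
-/

set_option autoImplicit false

namespace Fermat.Agent.S52.Fam.EquivInst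

open Polynomial WeierstrassCurve Fermat.Agent.S52.Tr Fermat.Agent.S52.Tr.Consumer

/-- **F-c, final form.** -/
theorem equivStatement (ℓ : ℕ) [Fact ℓ.Prime] (K : Type*) [Field K] [DecidableEq K]
    [Algebra (ZMod ℓ) K] [IsAlgClosed K] (h2 : ℓ ≠ 2) (h3 : ℓ ≠ 3) (h5 : ℓ ≠ 5)
    (hcovH : ∀ x y m n : K,
      kH (m * x + n * wX x y) (m * y + n * wY x y) = -famC4h (-kH x y) (-kT x y) m n)
    (hcovT : ∀ x y m n : K,
      kT (m * x + n * wX x y) (m * y + n * wY x y) = -famC6h (-kH x y) (-kT x y) m n) :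
    EquivStatement ℓ K := by
  classical
  have hℓ : ℓ.Prime := Fact.out
  have hchar : CharP K ℓ := by
    have := ZMod.charP ℓ
    exact charP_of_injective_algebraMap (algebraMap (ZMod ℓ) K).injective ℓ
  have hK : ∀ q : ℕ, q.Prime → ℓ ≠ q → ((q : ℕ) : K) ≠ 0 := by
    intro q hq hne h
    rw [CharP.cast_eq_zero_iff K ℓ] at h
    exact hne ((Nat.prime_dvd_prime_iff_eq hℓ hq).mp h)
  have hK2 : (2 : K) ≠ 0 := by simpa using hK 2 Nat.prime_two h2
  have hK3 : (3 : K) ≠ 0 := by simpa using hK 3 Nat.prime_three h3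
  have hK5 : (5 : K) ≠ 0 := by simpa using hK 5 Nat.prime_five h5
  have hi5 : (5 : K) * (5 : K)⁻¹ = 1 := mul_inv_cancel₀ hK5
  have h5pow : (5 : K) ^ ℓ = 5 := by
    have h := map_ofNat (frobenius K ℓ) 5
    rw [frobenius_def] at h
    exact h
  have hi5frob : ((5 : K)⁻¹) ^ ℓ = (5 : K)⁻¹ := by rw [inv_pow, h5pow]
  refine Equiv.equivStatement_of_level ℓ K h2 h3 h5
    (fun z => z ^ 4 + z ^ 3 + z ^ 2 + z + 1 = 0) ?_ ?_
    (fun c z x y => Level.XX c z (5 : K)⁻¹ x y) (fun c z x y => Level.YY c z (5 : K)⁻¹ x y)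
    ?_ ?_ ?_ ?_ ?_ hcovH hcovT
  · -- a primitive fifth root of unity
    have hdeg : (X ^ 4 + X ^ 3 + X ^ 2 + X + 1 : K[X]).degree ≠ 0 := by
      have : (X ^ 4 + X ^ 3 + X ^ 2 + X + 1 : K[X]).natDegree = 4 := by compute_degree!
      intro h0
      have h1 := Polynomial.natDegree_eq_of_degree_eq_some h0
      rw [this] at h1
      exact absurd h1 (by norm_num)
    obtain ⟨z, hz⟩ := IsAlgClosed.exists_root (X ^ 4 + X ^ 3 + X ^ 2 + X + 1 : K[X]) hdeg
    refine ⟨z, ?_⟩
    have hz' : (X ^ 4 + X ^ 3 + X ^ 2 + X + 1 : K[X]).eval z = 0 := hz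
    simpa using hz'
  · -- stability under Frobenius
    intro z hz
    have h := congrArg (frobenius K ℓ) hz
    simp only [map_add, map_pow, map_one, map_zero, frobenius_def] at h
    exact h
  · -- polynomiality of `XX` along lines
    intro c z x0 y0 dx dy
    refine ⟨Level.XX c (C z) (C (5 : K)⁻¹) (C x0 + X * C dx) (C y0 + X * C dy), fun s => ?_⟩
    have h := Level.map_XX (Polynomial.evalRingHom s) c (C z) (C (5 : K)⁻¹)
      (C x0 + X * C dx) (C y0 + X * C dy)
    simp only [coe_evalRingHom, eval_add, eval_mul, eval_C, eval_X] at h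
    exact h
  · -- polynomiality of `YY` along lines
    intro c z x0 y0 dx dy
    refine ⟨Level.YY c (C z) (C (5 : K)⁻¹) (C x0 + X * C dx) (C y0 + X * C dy), fun s => ?_⟩
    have h := Level.map_YY (Polynomial.evalRingHom s) c (C z) (C (5 : K)⁻¹)
      (C x0 + X * C dx) (C y0 + X * C dy)
    simp only [coe_evalRingHom, eval_add, eval_mul, eval_C, eval_X] at h
    exact h
  · -- Frobenius compatibility of `XX`
    intro c z x y
    have h := Level.map_XX (frobenius K ℓ) c z (5 : K)⁻¹ x y
    simp only [frobenius_def] at h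
    rw [hi5frob] at h
    exact h
  · -- Frobenius compatibility of `YY`
    intro c z x y
    have h := Level.map_YY (frobenius K ℓ) c z (5 : K)⁻¹ x y
    simp only [frobenius_def] at h
    rw [hi5frob] at h
    exact h
  · -- the level structure
    intro A B z x y hz hf hA hB
    exact Level.exists_level z (5 : K)⁻¹ hz hi5 hK2 hK3 hA hB hf

end Fermat.Agent.S52.Fam.EquivInst
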