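import Fermat.Agent.S52.Fam.Homog

/-!
# S52, brick (Fam): covariance of the homogeneous family for Klein's `H`, coefficient by coefficient

`pH_j x y a b` is the coefficient of `m^(20-j) n^j` in `kH (m x + n a) (m y + n b)` (polar form);
`coef_H_j` identifies it at `(a, b) = w(x, y)` with the `j`-th coefficient of the family.
Splitting the identity this way keeps every `ring` call small (two variables).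
-/

set_option autoImplicit false
set_option linter.unusedVariables false
set_option linter.unusedSimpArgs false

namespace Fermat.Agent.S52.Fam

variable {R : Type*} [CommRing R]

/-- polar coefficient `j = 0` of `kH` -/
def pH_0 (x y a b : R) : R :=
  -x ^ 20 + 228 * x ^ 15 * y ^ 5 - 494 * x ^ 10 * y ^ 10 - 228 * x ^ 5 * y ^ 15 - y ^ 20

/-- polar coefficient `j = 1` of `kH` -/
def pH_1 (x y a b : R) : R :=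
  -20 * x ^ 19 * a + 1140 * x ^ 15 * y ^ 4 * b + 3420 * x ^ 14 * y ^ 5 * a - 4940 * x ^ 10 * y ^ 9 * b - 4940 * x ^ 9 * y ^ 10 * a - 3420 * x ^ 5 * y ^ 14 * b - 1140 * x ^ 4 * y ^ 15 * a - 20 * y ^ 19 * b

/-- polar coefficient `j = 2` of `kH` -/
def pH_2 (x y a b : R) : R :=
  -190 * x ^ 18 * a ^ 2 + 2280 * x ^ 15 * y ^ 3 * b ^ 2 + 17100 * x ^ 14 * y ^ 4 * a * b + 23940 * x ^ 13 * y ^ 5 * a ^ 2 - 22230 * x ^ 10 * y ^ 8 * b ^ 2 - 49400 * x ^ 9 * y ^ 9 * a * b - 22230 * x ^ 8 * y ^ 10 * a ^ 2 - 23940 * x ^ 5 * y ^ 13 * b ^ 2 - 17100 * x ^ 4 * y ^ 14 * a * b - 2280 * x ^ 3 * y ^ 15 * a ^ 2 - 190 * y ^ 18 * b ^ 2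

/-- polar coefficient `j = 3` of `kH` -/
def pH_3 (x y a b : R) : R :=
  -1140 * x ^ 17 * a ^ 3 + 2280 * x ^ 15 * y ^ 2 * b ^ 3 + 34200 * x ^ 14 * y ^ 3 * a * b ^ 2 + 119700 * x ^ 13 * y ^ 4 * a ^ 2 * b + 103740 * x ^ 12 * y ^ 5 * a ^ 3 - 59280 * x ^ 10 * y ^ 7 * b ^ 3 - 222300 * x ^ 9 * y ^ 8 * a * b ^ 2 - 222300 * x ^ 8 * y ^ 9 * a ^ 2 * b - 59280 * x ^ 7 * y ^ 10 * a ^ 3 - 103740 * x ^ 5 * y ^ 12 * b ^ 3 - 119700 * x ^ 4 * y ^ 13 * a * b ^ 2 - 34200 * x ^ 3 * y ^ 14 * a ^ 2 * b - 2280 * x ^ 2 * y ^ 15 * a ^ 3 - 1140 * y ^ 17 * b ^ 3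

/-- polar coefficient `j = 4` of `kH` -/
def pH_4 (x y a b : R) : R :=
  -4845 * x ^ 16 * a ^ 4 + 1140 * x ^ 15 * y * b ^ 4 + 34200 * x ^ 14 * y ^ 2 * a * b ^ 3 + 239400 * x ^ 13 * y ^ 3 * a ^ 2 * b ^ 2 + 518700 * x ^ 12 * y ^ 4 * a ^ 3 * b + 311220 * x ^ 11 * y ^ 5 * a ^ 4 - 103740 * x ^ 10 * y ^ 6 * b ^ 4 - 592800 * x ^ 9 * y ^ 7 * a * b ^ 3 - 1000350 * x ^ 8 * y ^ 8 * a ^ 2 * b ^ 2 - 592800 * x ^ 7 * y ^ 9 * a ^ 3 * b - 103740 * x ^ 6 * y ^ 10 * a ^ 4 - 311220 * x ^ 5 * y ^ 11 * b ^ 4 - 518700 * x ^ 4 * y ^ 12 * a * b ^ 3 - 239400 * x ^ 3 * y ^ 13 * a ^ 2 * b ^ 2 - 34200 * x ^ 2 * y ^ 14 * a ^ 3 * b - 1140 * x * y ^ 15 * a ^ 4 - 4845 * y ^ 16 * b ^ 4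

/-- polar coefficient `j = 5` of `kH` -/
def pH_5 (x y a b : R) : R :=
  -15504 * x ^ 15 * a ^ 5 + 228 * x ^ 15 * b ^ 5 + 17100 * x ^ 14 * y * a * b ^ 4 + 239400 * x ^ 13 * y ^ 2 * a ^ 2 * b ^ 3 + 1037400 * x ^ 12 * y ^ 3 * a ^ 3 * b ^ 2 + 1556100 * x ^ 11 * y ^ 4 * a ^ 4 * b + 684684 * x ^ 10 * y ^ 5 * a ^ 5 - 124488 * x ^ 10 * y ^ 5 * b ^ 5 - 1037400 * x ^ 9 * y ^ 6 * a * b ^ 4 - 2667600 * x ^ 8 * y ^ 7 * a ^ 2 * b ^ 3 - 2667600 * x ^ 7 * y ^ 8 * a ^ 3 * b ^ 2 - 1037400 * x ^ 6 * y ^ 9 * a ^ 4 * b - 124488 * x ^ 5 * y ^ 10 * a ^ 5 - 684684 * x ^ 5 * y ^ 10 * b ^ 5 - 1556100 * x ^ 4 * y ^ 11 * a * b ^ 4 - 1037400 * x ^ 3 * y ^ 12 * a ^ 2 * b ^ 3 - 239400 * x ^ 2 * y ^ 13 * a ^ 3 * b ^ 2 - 17100 * x * y ^ 14 * a ^ 4 * b - 228 * y ^ 15 * a ^ 5 - 15504 * y ^ 15 * b ^ 5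

/-- polar coefficient `j = 6` of `kH` -/
def pH_6 (x y a b : R) : R :=
  -38760 * x ^ 14 * a ^ 6 + 3420 * x ^ 14 * a * b ^ 5 + 119700 * x ^ 13 * y * a ^ 2 * b ^ 4 + 1037400 * x ^ 12 * y ^ 2 * a ^ 3 * b ^ 3 + 3112200 * x ^ 11 * y ^ 3 * a ^ 4 * b ^ 2 + 3423420 * x ^ 10 * y ^ 4 * a ^ 5 * b - 103740 * x ^ 10 * y ^ 4 * b ^ 6 + 1141140 * x ^ 9 * y ^ 5 * a ^ 6 - 1244880 * x ^ 9 * y ^ 5 * a * b ^ 5 - 4668300 * x ^ 8 * y ^ 6 * a ^ 2 * b ^ 4 - 7113600 * x ^ 7 * y ^ 7 * a ^ 3 * b ^ 3 - 4668300 * x ^ 6 * y ^ 8 * a ^ 4 * b ^ 2 - 1244880 * x ^ 5 * y ^ 9 * a ^ 5 * b - 1141140 * x ^ 5 * y ^ 9 * b ^ 6 - 103740 * x ^ 4 * y ^ 10 * a ^ 6 - 3423420 * x ^ 4 * y ^ 10 * a * b ^ 5 - 3112200 * x ^ 3 * y ^ 11 * a ^ 2 * b ^ 4 - 1037400 * x ^ 2 * y ^ 12 * a ^ 3 * b ^ 3 - 119700 * x * y ^ 13 * a ^ 4 * b ^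 2 - 3420 * y ^ 14 * a ^ 5 * b - 38760 * y ^ 14 * b ^ 6

/-- polar coefficient `j = 7` of `kH` -/
def pH_7 (x y a b : R) : R :=
  -77520 * x ^ 13 * a ^ 7 + 23940 * x ^ 13 * a ^ 2 * b ^ 5 + 518700 * x ^ 12 * y * a ^ 3 * b ^ 4 + 3112200 * x ^ 11 * y ^ 2 * a ^ 4 * b ^ 3 + 6846840 * x ^ 10 * y ^ 3 * a ^ 5 * b ^ 2 - 59280 * x ^ 10 * y ^ 3 * b ^ 7 + 5705700 * x ^ 9 * y ^ 4 * a ^ 6 * b - 1037400 * x ^ 9 * y ^ 4 * a * b ^ 6 + 1467180 * x ^ 8 * y ^ 5 * a ^ 7 - 5601960 * x ^ 8 * y ^ 5 * a ^ 2 * b ^ 5 - 12448800 * x ^ 7 * y ^ 6 * a ^ 3 * b ^ 4 - 12448800 * x ^ 6 * y ^ 7 * a ^ 4 * b ^ 3 - 5601960 * x ^ 5 * y ^ 8 * a ^ 5 * b ^ 2 - 1467180 * x ^ 5 * y ^ 8 * b ^ 7 - 1037400 * x ^ 4 * y ^ 9 * a ^ 6 * b - 5705700 * x ^ 4 * y ^ 9 * a * b ^ 6 - 59280 * x ^ 3 * y ^ 10 * a ^ 7 - 6846840 * x ^ 3 * y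 ^ 10 * a ^ 2 * b ^ 5 - 3112200 * x ^ 2 * y ^ 11 * a ^ 3 * b ^ 4 - 518700 * x * y ^ 12 * a ^ 4 * b ^ 3 - 23940 * y ^ 13 * a ^ 5 * b ^ 2 - 77520 * y ^ 13 * b ^ 7

/-- polar coefficient `j = 8` of `kH` -/
def pH_8 (x y a b : R) : R :=
  -125970 * x ^ 12 * a ^ 8 + 103740 * x ^ 12 * a ^ 3 * b ^ 5 + 1556100 * x ^ 11 * y * a ^ 4 * b ^ 4 + 6846840 * x ^ 10 * y ^ 2 * a ^ 5 * b ^ 3 - 22230 * x ^ 10 * y ^ 2 * b ^ 8 + 11411400 * x ^ 9 * y ^ 3 * a ^ 6 * b ^ 2 - 592800 * x ^ 9 * y ^ 3 * a * b ^ 7 + 7335900 * x ^ 8 * y ^ 4 * a ^ 7 * b - 4668300 * x ^ 8 * y ^ 4 * a ^ 2 * b ^ 6 + 1467180 * x ^ 7 * y ^ 5 * a ^ 8 - 14938560 * x ^ 7 * y ^ 5 * a ^ 3 * b ^ 5 - 21785400 * x ^ 6 * y ^ 6 * a ^ 4 * b ^ 4 - 14938560 * x ^ 5 * y ^ 7 * a ^ 5 * b ^ 3 - 1467180 * x ^ 5 * y ^ 7 * b ^ 8 - 4668300 * x ^ 4 * y ^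 8 * a ^ 6 * b ^ 2 - 7335900 * x ^ 4 * y ^ 8 * a * b ^ 7 - 592800 * x ^ 3 * y ^ 9 * a ^ 7 * b - 11411400 * x ^ 3 * y ^ 9 * a ^ 2 * b ^ 6 - 22230 * x ^ 2 * y ^ 10 * a ^ 8 - 6846840 * x ^ 2 * y ^ 10 * a ^ 3 * b ^ 5 - 1556100 * x * y ^ 11 * a ^ 4 * b ^ 4 - 103740 * y ^ 12 * a ^ 5 * b ^ 3 - 125970 * y ^ 12 * b ^ 8

/-- polar coefficient `j = 9` of `kH` -/
def pH_9 (x y a b : R) : R :=
  -167960 * x ^ 11 * a ^ 9 + 311220 * x ^ 11 * a ^ 4 * b ^ 5 + 3423420 * x ^ 10 * y * a ^ 5 * b ^ 4 - 4940 * x ^ 10 * y * b ^ 9 + 11411400 * x ^ 9 * y ^ 2 * a ^ 6 * b ^ 3 - 222300 * x ^ 9 * y ^ 2 * a * b ^ 8 + 14671800 * x ^ 8 * y ^ 3 * a ^ 7 * b ^ 2 - 2667600 * x ^ 8 * y ^ 3 * a ^ 2 * b ^ 7 + 7335900 * x ^ 7 * y ^ 4 * a ^ 8 * b - 12448800 * x ^ 7 * y ^ 4 * a ^ 3 * b ^ 6 + 1141140 * x ^ 6 * y ^ 5 * a ^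 9 - 26142480 * x ^ 6 * y ^ 5 * a ^ 4 * b ^ 5 - 26142480 * x ^ 5 * y ^ 6 * a ^ 5 * b ^ 4 - 1141140 * x ^ 5 * y ^ 6 * b ^ 9 - 12448800 * x ^ 4 * y ^ 7 * a ^ 6 * b ^ 3 - 7335900 * x ^ 4 * y ^ 7 * a * b ^ 8 - 2667600 * x ^ 3 * y ^ 8 * a ^ 7 * b ^ 2 - 14671800 * x ^ 3 * y ^ 8 * a ^ 2 * b ^ 7 - 222300 * x ^ 2 * y ^ 9 * a ^ 8 * b - 11411400 * x ^ 2 * y ^ 9 * a ^ 3 * b ^ 6 - 4940 * x * y ^ 10 * a ^ 9 - 3423420 * x * y ^ 10 * a ^ 4 * b ^ 5 - 311220 * y ^ 11 * a ^ 5 * b ^ 4 - 167960 * y ^ 11 * b ^ 9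

/-- polar coefficient `j = 10` of `kH` -/
def pH_10 (x y a b : R) : R :=
  -184756 * x ^ 10 * a ^ 10 + 684684 * x ^ 10 * a ^ 5 * b ^ 5 - 494 * x ^ 10 * b ^ 10 + 5705700 * x ^ 9 * y * a ^ 6 * b ^ 4 - 49400 * x ^ 9 * y * a * b ^ 9 + 14671800 * x ^ 8 * y ^ 2 * a ^ 7 * b ^ 3 - 1000350 * x ^ 8 * y ^ 2 * a ^ 2 * b ^ 8 + 14671800 * x ^ 7 * y ^ 3 * a ^ 8 * b ^ 2 - 7113600 * x ^ 7 * y ^ 3 * a ^ 3 * b ^ 7 + 5705700 * x ^ 6 * y ^ 4 * a ^ 9 * b - 21785400 * x ^ 6 * y ^ 4 * a ^ 4 * b ^ 6 + 684684 * x ^ 5 * y ^ 5 * a ^ 10 - 31370976 * x ^ 5 * y ^ 5 * a ^ 5 * b ^ 5 - 684684 * x ^ 5 * y ^ 5 * b ^ 10 - 21785400 * x ^ 4 * y ^ 6 * a ^ 6 * b ^ 4 - 5705700 * x ^ 4 * y ^ 6 * a * b ^ 9 - 7113600 * x ^ 3 * y ^ 7 * a ^ 7 * b ^ 3 - 14671800 * x ^ 3 * y ^ 7 * a ^ 2 * b ^ 8 - 1000350 * x ^ 2 * y ^ 8 * a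 ^ 8 * b ^ 2 - 14671800 * x ^ 2 * y ^ 8 * a ^ 3 * b ^ 7 - 49400 * x * y ^ 9 * a ^ 9 * b - 5705700 * x * y ^ 9 * a ^ 4 * b ^ 6 - 494 * y ^ 10 * a ^ 10 - 684684 * y ^ 10 * a ^ 5 * b ^ 5 - 184756 * y ^ 10 * b ^ 10

/-- polar coefficient `j = 11` of `kH` -/
def pH_11 (x y a b : R) : R :=
  -167960 * x ^ 9 * a ^ 11 + 1141140 * x ^ 9 * a ^ 6 * b ^ 5 - 4940 * x ^ 9 * a * b ^ 10 + 7335900 * x ^ 8 * y * a ^ 7 * b ^ 4 - 222300 * x ^ 8 * y * a ^ 2 * b ^ 9 + 14671800 * x ^ 7 * y ^ 2 * a ^ 8 * b ^ 3 - 2667600 * x ^ 7 * y ^ 2 * a ^ 3 * b ^ 8 + 11411400 * x ^ 6 * y ^ 3 * a ^ 9 * b ^ 2 - 12448800 * x ^ 6 * y ^ 3 * a ^ 4 * b ^ 7 + 3423420 * x ^ 5 * y ^ 4 * a ^ 10 * b - 26142480 * x ^ 5 * y ^ 4 * a ^ 5 * b ^ 6 - 311220 * x ^ 5 * y ^ 4 * b ^ 11 + 311220 * x ^ 4 * y ^ 5 * a ^ 11 - 26142480 * x ^ 4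 * y ^ 5 * a ^ 6 * b ^ 5 - 3423420 * x ^ 4 * y ^ 5 * a * b ^ 10 - 12448800 * x ^ 3 * y ^ 6 * a ^ 7 * b ^ 4 - 11411400 * x ^ 3 * y ^ 6 * a ^ 2 * b ^ 9 - 2667600 * x ^ 2 * y ^ 7 * a ^ 8 * b ^ 3 - 14671800 * x ^ 2 * y ^ 7 * a ^ 3 * b ^ 8 - 222300 * x * y ^ 8 * a ^ 9 * b ^ 2 - 7335900 * x * y ^ 8 * a ^ 4 * b ^ 7 - 4940 * y ^ 9 * a ^ 10 * b - 1141140 * y ^ 9 * a ^ 5 * b ^ 6 - 167960 * y ^ 9 * b ^ 11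

/-- polar coefficient `j = 12` of `kH` -/
def pH_12 (x y a b : R) : R :=
  -125970 * x ^ 8 * a ^ 12 + 1467180 * x ^ 8 * a ^ 7 * b ^ 5 - 22230 * x ^ 8 * a ^ 2 * b ^ 10 + 7335900 * x ^ 7 * y * a ^ 8 * b ^ 4 - 592800 * x ^ 7 * y * a ^ 3 * b ^ 9 + 11411400 * x ^ 6 * y ^ 2 * a ^ 9 * b ^ 3 - 4668300 * x ^ 6 * y ^ 2 * a ^ 4 * b ^ 8 + 6846840 * x ^ 5 * y ^ 3 * a ^ 10 * b ^ 2 - 14938560 * x ^ 5 * y ^ 3 * a ^ 5 * b ^ 7 - 103740 * x ^ 5 * y ^ 3 * b ^ 12 + 1556100 * x ^ 4 * y ^ 4 * a ^ 11 * b - 21785400 * x ^ 4 * y ^ 4 * a ^ 6 * b ^ 6 - 1556100 * x ^ 4 * y ^ 4 * a * b ^ 11 + 103740 * x ^ 3 * y ^ 5 * a ^ 12 - 14938560 * x ^ 3 * y ^ 5 * a ^ 7 * b ^ 5 - 6846840 * x ^ 3 * y ^ 5 * a ^ 2 * b ^ 10 - 4668300 * x ^ 2 * y ^ 6 * a ^ 8 * b ^ 4 - 11411400 * x ^ 2 * y ^ 6 * a ^ 3 * b ^ 9 - 592800 * x *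 y ^ 7 * a ^ 9 * b ^ 3 - 7335900 * x * y ^ 7 * a ^ 4 * b ^ 8 - 22230 * y ^ 8 * a ^ 10 * b ^ 2 - 1467180 * y ^ 8 * a ^ 5 * b ^ 7 - 125970 * y ^ 8 * b ^ 12

/-- polar coefficient `j = 13` of `kH` -/
def pH_13 (x y a b : R) : R :=
  -77520 * x ^ 7 * a ^ 13 + 1467180 * x ^ 7 * a ^ 8 * b ^ 5 - 59280 * x ^ 7 * a ^ 3 * b ^ 10 + 5705700 * x ^ 6 * y * a ^ 9 * b ^ 4 - 1037400 * x ^ 6 * y * a ^ 4 * b ^ 9 + 6846840 * x ^ 5 * y ^ 2 * a ^ 10 * b ^ 3 - 5601960 * x ^ 5 * y ^ 2 * a ^ 5 * b ^ 8 - 23940 * x ^ 5 * y ^ 2 * b ^ 13 + 3112200 * x ^ 4 * y ^ 3 * a ^ 11 * b ^ 2 - 12448800 * x ^ 4 * y ^ 3 * a ^ 6 * b ^ 7 - 518700 * x ^ 4 * y ^ 3 * a * b ^ 12 + 518700 * x ^ 3 * y ^ 4 * a ^ 12 * b - 12448800 * x ^ 3 * y ^ 4 * a ^ 7 * b ^ 6 - 3112200 * x ^ 3 * y ^ 4 * a ^ 2 * b ^ 11 + 23940 * x ^ 2 * y ^ 5 *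 a ^ 13 - 5601960 * x ^ 2 * y ^ 5 * a ^ 8 * b ^ 5 - 6846840 * x ^ 2 * y ^ 5 * a ^ 3 * b ^ 10 - 1037400 * x * y ^ 6 * a ^ 9 * b ^ 4 - 5705700 * x * y ^ 6 * a ^ 4 * b ^ 9 - 59280 * y ^ 7 * a ^ 10 * b ^ 3 - 1467180 * y ^ 7 * a ^ 5 * b ^ 8 - 77520 * y ^ 7 * b ^ 13

/-- polar coefficient `j = 14` of `kH` -/
def pH_14 (x y a b : R) : R :=
  -38760 * x ^ 6 * a ^ 14 + 1141140 * x ^ 6 * a ^ 9 * b ^ 5 - 103740 * x ^ 6 * a ^ 4 * b ^ 10 + 3423420 * x ^ 5 * y * a ^ 10 * b ^ 4 - 1244880 * x ^ 5 * y * a ^ 5 * b ^ 9 - 3420 * x ^ 5 * y * b ^ 14 + 3112200 * x ^ 4 * y ^ 2 * a ^ 11 * b ^ 3 - 4668300 * x ^ 4 * y ^ 2 * a ^ 6 * b ^ 8 - 119700 * x ^ 4 * y ^ 2 * a * b ^ 13 + 1037400 * x ^ 3 * y ^ 3 * a ^ 12 * b ^ 2 - 7113600 * x ^ 3 * y ^ 3 * a ^ 7 * b ^ 7 - 1037400 * x ^ 3 * y ^ 3 * a ^ 2 * b ^ 12 + 119700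 * x ^ 2 * y ^ 4 * a ^ 13 * b - 4668300 * x ^ 2 * y ^ 4 * a ^ 8 * b ^ 6 - 3112200 * x ^ 2 * y ^ 4 * a ^ 3 * b ^ 11 + 3420 * x * y ^ 5 * a ^ 14 - 1244880 * x * y ^ 5 * a ^ 9 * b ^ 5 - 3423420 * x * y ^ 5 * a ^ 4 * b ^ 10 - 103740 * y ^ 6 * a ^ 10 * b ^ 4 - 1141140 * y ^ 6 * a ^ 5 * b ^ 9 - 38760 * y ^ 6 * b ^ 14

/-- polar coefficient `j = 15` of `kH` -/
def pH_15 (x y a b : R) : R :=
  -15504 * x ^ 5 * a ^ 15 + 684684 * x ^ 5 * a ^ 10 * b ^ 5 - 124488 * x ^ 5 * a ^ 5 * b ^ 10 - 228 * x ^ 5 * b ^ 15 + 1556100 * x ^ 4 * y * a ^ 11 * b ^ 4 - 1037400 * x ^ 4 * y * a ^ 6 * b ^ 9 - 17100 * x ^ 4 * y * a * b ^ 14 + 1037400 * x ^ 3 * y ^ 2 * a ^ 12 * b ^ 3 - 2667600 * x ^ 3 * y ^ 2 * a ^ 7 * b ^ 8 - 239400 * x ^ 3 * y ^ 2 * a ^ 2 * b ^ 13 + 239400 * x ^ 2 * y ^ 3 * a ^ 13 * b ^ 2 - 2667600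 * x ^ 2 * y ^ 3 * a ^ 8 * b ^ 7 - 1037400 * x ^ 2 * y ^ 3 * a ^ 3 * b ^ 12 + 17100 * x * y ^ 4 * a ^ 14 * b - 1037400 * x * y ^ 4 * a ^ 9 * b ^ 6 - 1556100 * x * y ^ 4 * a ^ 4 * b ^ 11 + 228 * y ^ 5 * a ^ 15 - 124488 * y ^ 5 * a ^ 10 * b ^ 5 - 684684 * y ^ 5 * a ^ 5 * b ^ 10 - 15504 * y ^ 5 * b ^ 15

/-- polar coefficient `j = 16` of `kH` -/
def pH_16 (x y a b : R) : R :=
  -4845 * x ^ 4 * a ^ 16 + 311220 * x ^ 4 * a ^ 11 * b ^ 5 - 103740 * x ^ 4 * a ^ 6 * b ^ 10 - 1140 * x ^ 4 * a * b ^ 15 + 518700 * x ^ 3 * y * a ^ 12 * b ^ 4 - 592800 * x ^ 3 * y * a ^ 7 * b ^ 9 - 34200 * x ^ 3 * y * a ^ 2 * b ^ 14 + 239400 * x ^ 2 * y ^ 2 * a ^ 13 * b ^ 3 - 1000350 * x ^ 2 * y ^ 2 * a ^ 8 * b ^ 8 - 239400 * x ^ 2 * y ^ 2 * a ^ 3 * b ^ 13 + 34200 * x * y ^ 3 * a ^ 14 * b ^ 2 - 592800 * x * y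 ^ 3 * a ^ 9 * b ^ 7 - 518700 * x * y ^ 3 * a ^ 4 * b ^ 12 + 1140 * y ^ 4 * a ^ 15 * b - 103740 * y ^ 4 * a ^ 10 * b ^ 6 - 311220 * y ^ 4 * a ^ 5 * b ^ 11 - 4845 * y ^ 4 * b ^ 16

/-- polar coefficient `j = 17` of `kH` -/
def pH_17 (x y a b : R) : R :=
  -1140 * x ^ 3 * a ^ 17 + 103740 * x ^ 3 * a ^ 12 * b ^ 5 - 59280 * x ^ 3 * a ^ 7 * b ^ 10 - 2280 * x ^ 3 * a ^ 2 * b ^ 15 + 119700 * x ^ 2 * y * a ^ 13 * b ^ 4 - 222300 * x ^ 2 * y * a ^ 8 * b ^ 9 - 34200 * x ^ 2 * y * a ^ 3 * b ^ 14 + 34200 * x * y ^ 2 * a ^ 14 * b ^ 3 - 222300 * x * y ^ 2 * a ^ 9 * b ^ 8 - 119700 * x * y ^ 2 * a ^ 4 * b ^ 13 + 2280 * y ^ 3 * a ^ 15 * b ^ 2 - 59280 * y ^ 3 * a ^ 10 * b ^ 7 - 103740 * y ^ 3 * a ^ 5 * b ^ 12 - 1140 * y ^ 3 * b ^ 17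

/-- polar coefficient `j = 18` of `kH` -/
def pH_18 (x y a b : R) : R :=
  -190 * x ^ 2 * a ^ 18 + 23940 * x ^ 2 * a ^ 13 * b ^ 5 - 22230 * x ^ 2 * a ^ 8 * b ^ 10 - 2280 * x ^ 2 * a ^ 3 * b ^ 15 + 17100 * x * y * a ^ 14 * b ^ 4 - 49400 * x * y * a ^ 9 * b ^ 9 - 17100 * x * y * a ^ 4 * b ^ 14 + 2280 * y ^ 2 * a ^ 15 * b ^ 3 - 22230 * y ^ 2 * a ^ 10 * b ^ 8 - 23940 * y ^ 2 * a ^ 5 * b ^ 13 - 190 * y ^ 2 * b ^ 18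

/-- polar coefficient `j = 19` of `kH` -/
def pH_19 (x y a b : R) : R :=
  -20 * x * a ^ 19 + 3420 * x * a ^ 14 * b ^ 5 - 4940 * x * a ^ 9 * b ^ 10 - 1140 * x * a ^ 4 * b ^ 15 + 1140 * y * a ^ 15 * b ^ 4 - 4940 * y * a ^ 10 * b ^ 9 - 3420 * y * a ^ 5 * b ^ 14 - 20 * y * b ^ 19

/-- polar coefficient `j = 20` of `kH` -/
def pH_20 (x y a b : R) : R :=
  -a ^ 20 + 228 * a ^ 15 * b ^ 5 - 494 * a ^ 10 * b ^ 10 - 228 * a ^ 5 * b ^ 15 - b ^ 20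

theorem kH_polar (x y a b m n : R) :
    kH (m * x + n * a) (m * y + n * b) =
      m ^ 20 * pH_0 x y a b +
      m ^ 19 * n * pH_1 x y a b +
      m ^ 18 * n ^ 2 * pH_2 x y a b +
      m ^ 17 * n ^ 3 * pH_3 x y a b +
      m ^ 16 * n ^ 4 * pH_4 x y a b +
      m ^ 15 * n ^ 5 * pH_5 x y a b +
      m ^ 14 * n ^ 6 * pH_6 x y a b +
      m ^ 13 * n ^ 7 * pH_7 x y a b +
      m ^ 12 * n ^ 8 * pH_8 x y a b +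
      m ^ 11 * n ^ 9 * pH_9 x y a b +
      m ^ 10 * n ^ 10 * pH_10 x y a b +
      m ^ 9 * n ^ 11 * pH_11 x y a b +
      m ^ 8 * n ^ 12 * pH_12 x y a b +
      m ^ 7 * n ^ 13 * pH_13 x y a b +
      m ^ 6 * n ^ 14 * pH_14 x y a b +
      m ^ 5 * n ^ 15 * pH_15 x y a b +
      m ^ 4 * n ^ 16 * pH_16 x y a b +
      m ^ 3 * n ^ 17 * pH_17 x y a b +
      m ^ 2 * n ^ 18 * pH_18 x y a b +
      m * n ^ 19 * pH_19 x y a b +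
      n ^ 20 * pH_20 x y a b := by
  simp only [kH, pH_0, pH_1, pH_2, pH_3, pH_4, pH_5, pH_6, pH_7, pH_8, pH_9, pH_10, pH_11, pH_12, pH_13, pH_14, pH_15, pH_16, pH_17, pH_18, pH_19, pH_20]
  ring

set_option maxHeartbeats 1600000 in
theorem coef_H_0 (x y : R) :
    -pH_0 x y (wX x y) (wY x y) = aC4_0 (-kH x y) (-kT x y) := by
  simp only [pH_0, aC4_0, kf, kH, kT, wX, wY]
  ring

set_option maxHeartbeats 1600000 in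
theorem coef_H_1 (x y : R) :
    -pH_1 x y (wX x y) (wY x y) = aC4_1 (-kH x y) (-kT x y) := by
  simp only [pH_1, aC4_1, kf, kH, kT, wX, wY]
  ring

set_option maxHeartbeats 1600000 in
theorem coef_H_2 (x y : R) :
    -pH_2 x y (wX x y) (wY x y) = aC4_2 (-kH x y) (-kT x y) := by
  simp only [pH_2, aC4_2, kf, kH, kT, wX, wY]
  ring

set_option maxHeartbeats 1600000 in
theorem coef_H_3 (x y : R) :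
    -pH_3 x y (wX x y) (wY x y) = aC4_3 (-kH x y) (-kT x y) := by
  simp only [pH_3, aC4_3, kf, kH, kT, wX, wY]
  ring

set_option maxHeartbeats 1600000 in
theorem coef_H_4 (x y : R) :
    -pH_4 x y (wX x y) (wY x y) = aC4_4 (-kH x y) (-kT x y) := by
  simp only [pH_4, aC4_4, kf, kH, kT, wX, wY]
  ring

set_option maxHeartbeats 1600000 in
theorem coef_H_5 (x y : R) :
    -pH_5 x y (wX x y) (wY x y) = aC4_5 (-kH x y) (-kT x y) := by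
  simp only [pH_5, aC4_5, kf, kH, kT, wX, wY]
  ring

set_option maxHeartbeats 1600000 in
theorem coef_H_6 (x y : R) :
    -pH_6 x y (wX x y) (wY x y) = aC4_6 (-kH x y) (-kT x y) := by
  simp only [pH_6, aC4_6, kf, kH, kT, wX, wY]
  ring

set_option maxHeartbeats 1600000 in
theorem coef_H_7 (x y : R) :
    -pH_7 x y (wX x y) (wY x y) = aC4_7 (-kH x y) (-kT x y) := by
  simp only [pH_7, aC4_7, kf, kH, kT, wX, wY]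
  ring

set_option maxHeartbeats 1600000 in
theorem coef_H_8 (x y : R) :
    -pH_8 x y (wX x y) (wY x y) = aC4_8 (-kH x y) (-kT x y) := by
  simp only [pH_8, aC4_8, kf, kH, kT, wX, wY]
  ring

set_option maxHeartbeats 1600000 in
theorem coef_H_9 (x y : R) :
    -pH_9 x y (wX x y) (wY x y) = aC4_9 (-kH x y) (-kT x y) := by
  simp only [pH_9, aC4_9, kf, kH, kT, wX, wY]
  ring

set_option maxHeartbeats 1600000 in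
theorem coef_H_10 (x y : R) :
    -pH_10 x y (wX x y) (wY x y) = aC4_10 (-kH x y) (-kT x y) := by
  simp only [pH_10, aC4_10, kf, kH, kT, wX, wY]
  ring

set_option maxHeartbeats 1600000 in
theorem coef_H_11 (x y : R) :
    -pH_11 x y (wX x y) (wY x y) = aC4_11 (-kH x y) (-kT x y) := by
  simp only [pH_11, aC4_11, kf, kH, kT, wX, wY]
  ring

set_option maxHeartbeats 1600000 in
theorem coef_H_12 (x y : R) :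
    -pH_12 x y (wX x y) (wY x y) = aC4_12 (-kH x y) (-kT x y) := by
  simp only [pH_12, aC4_12, kf, kH, kT, wX, wY]
  ring

set_option maxHeartbeats 1600000 in
theorem coef_H_13 (x y : R) :
    -pH_13 x y (wX x y) (wY x y) = aC4_13 (-kH x y) (-kT x y) := by
  simp only [pH_13, aC4_13, kf, kH, kT, wX, wY]
  ring

set_option maxHeartbeats 1600000 in
theorem coef_H_14 (x y : R) :
    -pH_14 x y (wX x y) (wY x y) = aC4_14 (-kH x y) (-kT x y) := by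
  simp only [pH_14, aC4_14, kf, kH, kT, wX, wY]
  ring

set_option maxHeartbeats 1600000 in
theorem coef_H_15 (x y : R) :
    -pH_15 x y (wX x y) (wY x y) = aC4_15 (-kH x y) (-kT x y) := by
  simp only [pH_15, aC4_15, kf, kH, kT, wX, wY]
  ring

set_option maxHeartbeats 1600000 in
theorem coef_H_16 (x y : R) :
    -pH_16 x y (wX x y) (wY x y) = aC4_16 (-kH x y) (-kT x y) := by
  simp only [pH_16, aC4_16, kf, kH, kT, wX, wY]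
  ring

set_option maxHeartbeats 1600000 in
theorem coef_H_17 (x y : R) :
    -pH_17 x y (wX x y) (wY x y) = aC4_17 (-kH x y) (-kT x y) := by
  simp only [pH_17, aC4_17, kf, kH, kT, wX, wY]
  ring

set_option maxHeartbeats 1600000 in
theorem coef_H_18 (x y : R) :
    -pH_18 x y (wX x y) (wY x y) = aC4_18 (-kH x y) (-kT x y) := by
  simp only [pH_18, aC4_18, kf, kH, kT, wX, wY]
  ring

set_option maxHeartbeats 1600000 in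
theorem coef_H_19 (x y : R) :
    -pH_19 x y (wX x y) (wY x y) = aC4_19 (-kH x y) (-kT x y) := by
  simp only [pH_19, aC4_19, kf, kH, kT, wX, wY]
  ring

set_option maxHeartbeats 1600000 in
theorem coef_H_20 (x y : R) :
    -pH_20 x y (wX x y) (wY x y) = aC4_20 (-kH x y) (-kT x y) := by
  simp only [pH_20, aC4_20, kf, kH, kT, wX, wY]
  ring

/-- covariance of the homogeneous family for `kH` -/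
theorem cov_H_h (x y m n : R) :
    -kH (m * x + n * wX x y) (m * y + n * wY x y) = famC4h (-kH x y) (-kT x y) m n := by
  rw [kH_polar]
  have h0 := coef_H_0 x y
  have h1 := coef_H_1 x y
  have h2 := coef_H_2 x y
  have h3 := coef_H_3 x y
  have h4 := coef_H_4 x y
  have h5 := coef_H_5 x y
  have h6 := coef_H_6 x y
  have h7 := coef_H_7 x y
  have h8 := coef_H_8 x y
  have h9 := coef_H_9 x y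
  have h10 := coef_H_10 x y
  have h11 := coef_H_11 x y
  have h12 := coef_H_12 x y
  have h13 := coef_H_13 x y
  have h14 := coef_H_14 x y
  have h15 := coef_H_15 x y
  have h16 := coef_H_16 x y
  have h17 := coef_H_17 x y
  have h18 := coef_H_18 x y
  have h19 := coef_H_19 x y
  have h20 := coef_H_20 x y
  simp only [famC4h]
  linear_combination m ^ 20 * h0 + m ^ 19 * n * h1 + m ^ 18 * n ^ 2 * h2 + m ^ 17 * n ^ 3 * h3 + m ^ 16 * n ^ 4 * h4 + m ^ 15 * n ^ 5 * h5 + m ^ 14 * n ^ 6 * h6 + m ^ 13 * n ^ 7 * h7 + m ^ 12 * n ^ 8 * h8 + m ^ 11 * n ^ 9 * h9 + m ^ 10 * n ^ 10 * h10 + m ^ 9 * n ^ 11 * h11 + m ^ 8 * n ^ 12 * h12 + m ^ 7 * n ^ 13 * h13 + m ^ 6 * n ^ 14 * h14 + m ^ 5 * n ^ 15 * h15 + m ^ 4 * n ^ 16 * h16 + m ^ 3 * n ^ 17 * h17 + m ^ 2 * n ^ 18 * h18 + m * n ^ 19 * h19 + n ^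 20 * h20

end Fermat.Agent.S52.Fam
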