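import Fermat.Agent.S52.Fam.Homog

/-!
# S52, brick (Fam): covariance of the homogeneous family (f)
-/

set_option autoImplicit false
set_option linter.unusedVariables false
set_option linter.unusedSimpArgs false

namespace Fermat.Agent.S52.Fam

variable {R : Type*} [CommRing R]

set_option maxHeartbeats 0 in
/-- `f(m v + n w(v)) = f(v) * D'(m, n)` -/
theorem cov_f_h (x y m n : R) :
    kf (m * x + n * wX x y) (m * y + n * wY x y) =
      kf x y * famDh (-kH x y) (-kT x y) m n := by
  simp only [famDh, aD_0, aD_1, aD_2, aD_3, aD_4, aD_5, aD_6, aD_7, aD_8, aD_9, aD_10, aD_11, aD_12, kf, kH, kT, wX, wY]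
  ring

end Fermat.Agent.S52.Fam
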