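import Fermat.Agent.S52.Fam.HomogRel
import Fermat.Agent.S52.Fam.HomogCovF

/-!
# S52, brick (Fam): covariance of `T` for the homogeneous family, from covariance of `H`

`-T(m v + n w(v)) = C₆'(m, n)` (`famC6h`) follows from `-H(m v + n w(v)) = C₄'(m, n)` without any
large `ring`: `T(v')² = 1728 f(v')⁵ - H(v')³ = C₆'²` by Klein's relation, `cov_f_h` and `fam_rel_h`;
in the domain `ℤ[x, y, m, n]` this gives `T(v') = ± C₆'`, and the sign is read off at
`(x, y, m, n) = (1, 0, 1, 0)`; then one specialises to an arbitrary commutative ring.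

`cov_T_h_of` takes the `H`-covariance over `ℤ[x, y, m, n]` as a hypothesis, so this file does not
import the (heavy) proof of `cov_H_h`.
-/

set_option autoImplicit false

namespace Fermat.Agent.S52.Fam

/-- The statement of `cov_H_h` in the universal ring `ℤ[x, y, m, n]`. -/
def CovHUniv : Prop :=
  -kH (MvPolynomial.X 2 * MvPolynomial.X 0 + MvPolynomial.X 3 * wX (MvPolynomial.X 0)
        (MvPolynomial.X 1))
      (MvPolynomial.X 2 * MvPolynomial.X 1 + MvPolynomial.X 3 * wY (MvPolynomial.X 0)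
        (MvPolynomial.X 1))
    = famC4h (-kH (MvPolynomial.X 0) (MvPolynomial.X 1)) (-kT (MvPolynomial.X 0) (MvPolynomial.X 1))
        (MvPolynomial.X 2) (MvPolynomial.X 3 : MvPolynomial (Fin 4) ℤ)

/-- `T(m v + n w(v))² = C₆'(m, n)²` in the universal ring. -/
theorem cov_T_h_sq_univ (hH : CovHUniv) :
    kT (MvPolynomial.X 2 * MvPolynomial.X 0 + MvPolynomial.X 3 * wX (MvPolynomial.X 0)
          (MvPolynomial.X 1))
        (MvPolynomial.X 2 * MvPolynomial.X 1 + MvPolynomial.X 3 * wY (MvPolynomial.X 0)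
          (MvPolynomial.X 1)) ^ 2
      = famC6h (-kH (MvPolynomial.X 0) (MvPolynomial.X 1))
          (-kT (MvPolynomial.X 0) (MvPolynomial.X 1))
          (MvPolynomial.X 2) (MvPolynomial.X 3 : MvPolynomial (Fin 4) ℤ) ^ 2 := by
  set x : MvPolynomial (Fin 4) ℤ := MvPolynomial.X 0 with hx
  set y : MvPolynomial (Fin 4) ℤ := MvPolynomial.X 1 with hy
  set m : MvPolynomial (Fin 4) ℤ := MvPolynomial.X 2 with hm
  set n : MvPolynomial (Fin 4) ℤ := MvPolynomial.X 3 with hn
  have h1 := klein_rel (m * x + n * wX x y) (m * y + n * wY x y)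
  have h3 : -kH (m * x + n * wX x y) (m * y + n * wY x y) = famC4h (-kH x y) (-kT x y) m n := hH
  have h4 := fam_rel_h (-kH x y) (-kT x y) m n
  have h5 := klein_rel x y
  have hH' : kH (m * x + n * wX x y) (m * y + n * wY x y) = -famC4h (-kH x y) (-kT x y) m n := by
    rw [← h3]; ring
  rw [cov_f_h, hH'] at h1
  linear_combination h1 + h4 - famDh (-kH x y) (-kT x y) m n ^ 5 * h5

/-- `-T(m v + n w(v)) = C₆'(m, n)` in the universal ring. -/
theorem cov_T_h_univ (hH : CovHUniv) :
    -kT (MvPolynomial.X 2 * MvPolynomial.X 0 + MvPolynomial.X 3 * wX (MvPolynomial.X 0)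
          (MvPolynomial.X 1))
        (MvPolynomial.X 2 * MvPolynomial.X 1 + MvPolynomial.X 3 * wY (MvPolynomial.X 0)
          (MvPolynomial.X 1))
      = famC6h (-kH (MvPolynomial.X 0) (MvPolynomial.X 1))
          (-kT (MvPolynomial.X 0) (MvPolynomial.X 1))
          (MvPolynomial.X 2) (MvPolynomial.X 3 : MvPolynomial (Fin 4) ℤ) := by
  rcases sq_eq_sq_iff_eq_or_eq_neg.mp (cov_T_h_sq_univ hH) with h | h
  · exfalso
    have h' := congrArg (MvPolynomial.eval (![1, 0, 1, 0] : Fin 4 → ℤ)) h
    simp only [map_kT, map_kH, map_wX, map_wY, map_famC6h, map_add, map_mul, map_neg,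
      MvPolynomial.eval_X] at h'
    simp [famC6h_zero_right, kT] at h'
  · rw [h, neg_neg]

variable {R : Type*} [CommRing R]

/-- **Covariance of `T`** for the homogeneous family, given covariance of `H` in the universal
ring `ℤ[x, y, m, n]`. -/
theorem cov_T_h_of (hH : CovHUniv) (x y m n : R) :
    -kT (m * x + n * wX x y) (m * y + n * wY x y) = famC6h (-kH x y) (-kT x y) m n := by
  have h' := congrArg (MvPolynomial.eval₂Hom (Int.castRingHom R) (![x, y, m, n] : Fin 4 → R))
    (cov_T_h_univ hH)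
  simp only [map_kT, map_kH, map_wX, map_wY, map_famC6h, map_add, map_mul, map_neg,
    MvPolynomial.eval₂Hom_X'] at h'
  simpa using h'

/-- Covariance of `H` over every commutative ring implies `CovHUniv`. -/
theorem covHUniv_of
    (hH : ∀ x y m n : MvPolynomial (Fin 4) ℤ,
      -kH (m * x + n * wX x y) (m * y + n * wY x y) = famC4h (-kH x y) (-kT x y) m n) :
    CovHUniv := hH _ _ _ _

end Fermat.Agent.S52.Fam
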