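import Fermat.Agent.S52.Fam.Homog

/-!
# S52, brick (Fam): the syzygy of the homogeneous family
-/

set_option autoImplicit false
set_option linter.unusedVariables false
set_option linter.unusedSimpArgs false

namespace Fermat.Agent.S52.Fam

variable {R : Type*} [CommRing R]

set_option maxHeartbeats 0 in
/-- `c4'^3 - c6'^2 = (c4^3 - c6^2) * D'^5` for the member `(m, n)` of the family. -/
theorem fam_rel_h (c4 c6 m n : R) :
    famC4h c4 c6 m n ^ 3 - famC6h c4 c6 m n ^ 2 = (c4 ^ 3 - c6 ^ 2) * famDh c4 c6 m n ^ 5 := by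
  simp only [famC4h, famC6h, famDh, aD_0, aD_1, aD_2, aD_3, aD_4, aD_5, aD_6, aD_7, aD_8, aD_9, aD_10, aD_11, aD_12, aC4_0, aC4_1, aC4_2, aC4_3, aC4_4, aC4_5, aC4_6, aC4_7, aC4_8, aC4_9, aC4_10, aC4_11, aC4_12, aC4_13, aC4_14, aC4_15, aC4_16, aC4_17, aC4_18, aC4_19, aC4_20, aC6_0, aC6_1, aC6_2, aC6_3, aC6_4, aC6_5, aC6_6, aC6_7, aC6_8, aC6_9, aC6_10, aC6_11, aC6_12, aC6_13, aC6_14, aC6_15, aC6_16, aC6_17, aC6_18, aC6_19, aC6_20, aC6_21, aC6_22, aC6_23, aC6_24, aC6_25, aC6_26, aC6_27, aC6_28, aC6_29, aC6_30]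
  ring

end Fermat.Agent.S52.Fam
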