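import Fermat.Agent.S52.Fam.HomogCovF
import Fermat.Agent.S52.Fam.HomogRel
import Fermat.Agent.S52.Fam.KleinPoint
import Fermat.Agent.S52.Glue.Model
import Fermat.Agent.S52.Irr3

/-!
# S52, brick (Irr3) for the explicit family: field `irr` of `Glue.FamilyBricks famC4h famC6h`

For fixed `c4, c6, N` the invariants of the member `(k, N)` are polynomials
`A = famC4h c4 c6 X N`, `B = famC6h c4 c6 X N` in `k`, with `A³ - B² = (c4³ - c6²)·DD⁵`,
`DD = famDh c4 c6 X N`.  `DD` is squarefree: over `ℂ` it is `f(k·v₀ + N·w(v₀)) / f(v₀)` for a Klein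
point `v₀`, and `f` has no singular zero.  Then `Irr3.no_rational_root_eventually` (Runge) applies.
-/

set_option autoImplicit false

namespace Fermat.Agent.S52.Fam.Irr

open Polynomial

section Nonsing

variable {K : Type*} [Field K]

/-- Klein's `f` has no singular zero away from the origin (`∇f = (wY, -wX)`). -/
theorem wX_wY_eq_zero (h2 : (2 : K) ≠ 0) (h3 : (3 : K) ≠ 0) (h5 : (5 : K) ≠ 0) {x y : K}
    (hX : wX x y = 0) (hY : wY x y = 0) : x = 0 ∧ y = 0 := by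
  have hX' : x * (x ^ 10 + 66 * x ^ 5 * y ^ 5 - 11 * y ^ 10) = 0 := by
    unfold wX at hX; linear_combination -hX
  have hY' : y * (11 * x ^ 10 + 66 * x ^ 5 * y ^ 5 - y ^ 10) = 0 := by
    unfold wY at hY; linear_combination hY
  by_cases hx : x = 0
  · subst hx
    refine ⟨rfl, ?_⟩
    have h1 : y ^ 11 = 0 := by linear_combination -hY'
    exact pow_eq_zero_iff (by norm_num) |>.mp h1
  by_cases hy : y = 0
  · subst hy
    refine ⟨?_, rfl⟩
    have h1 : x ^ 11 = 0 := by linear_combination hX'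
    exact pow_eq_zero_iff (by norm_num) |>.mp h1
  exfalso
  have hP1 : x ^ 10 + 66 * x ^ 5 * y ^ 5 - 11 * y ^ 10 = 0 :=
    (mul_eq_zero.mp hX').resolve_left hx
  have hP2 : 11 * x ^ 10 + 66 * x ^ 5 * y ^ 5 - y ^ 10 = 0 :=
    (mul_eq_zero.mp hY').resolve_left hy
  have h60 : (60 : K) ≠ 0 := by
    have e : (60 : K) = 2 * 2 * 3 * 5 := by norm_num
    rw [e]; exact mul_ne_zero (mul_ne_zero (mul_ne_zero h2 h2) h3) h5
  have h125 : (125 : K) ≠ 0 := by
    have e : (125 : K) = 5 ^ 3 := by norm_num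
    rw [e]; exact pow_ne_zero 3 h5
  have key : (60 : K) * (125 * y ^ 20) = 0 := by
    linear_combination (726 * y ^ 10) * (hP2 - hP1)
      - (11 * x ^ 5 * y ^ 5 + 2 * y ^ 10) * (11 * hP1 - hP2)
  have hy20 : y ^ 20 = 0 := by
    rcases mul_eq_zero.mp key with h | h
    · exact absurd h h60
    · exact (mul_eq_zero.mp h).resolve_left h125
  exact hy (pow_eq_zero_iff (by norm_num) |>.mp hy20)

/-- Chain rule for `f` along a polynomial curve. -/
theorem derivative_kf (p q : K[X]) :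
    derivative (kf p q) = wY p q * derivative p - wX p q * derivative q := by
  simp only [kf, wX, wY, derivative_mul, derivative_add, derivative_sub, derivative_pow,
    derivative_ofNat, Nat.cast_ofNat, map_ofNat]
  norm_num
  ring

end Nonsing

section Squarefree

/-- Over `ℂ`, `k ↦ famDh c4 c6 k N` has only simple roots. -/
theorem famDh_root_simple (c4 c6 N : ℂ) (hΔ : c4 ^ 3 - c6 ^ 2 ≠ 0) (hN : N ≠ 0) (ρ : ℂ)
    (h0 : (famDh (C c4) (C c6) X (C N) : ℂ[X]).eval ρ = 0)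
    (h1 : (derivative (famDh (C c4) (C c6) X (C N) : ℂ[X])).eval ρ = 0) : False := by
  obtain ⟨x0, y0, hH, hT, hf⟩ := exists_klein_point (K := ℂ) (by norm_num) (by norm_num)
    (by norm_num) c4 c6 hΔ
  -- the covariance identity as an identity of polynomials in `k`
  have hcov := cov_f_h (R := ℂ[X]) (C x0) (C y0) X (C N)
  rw [← map_kH C, ← map_kT C, ← map_kf C x0 y0, ← map_wX C, ← map_wY C, ← map_neg C,
    ← map_neg C, hH, hT] at hcov
  -- value
  have e0 := congrArg (eval ρ) hcov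
  rw [eval_mul, h0, mul_zero, ← coe_evalRingHom, map_kf (evalRingHom ρ)] at e0
  simp only [coe_evalRingHom, eval_add, eval_mul, eval_X, eval_C] at e0
  -- derivative
  have e1 := congrArg (fun p => eval ρ (derivative p)) hcov
  simp only [derivative_mul, derivative_C, zero_mul, zero_add, eval_mul, h1, mul_zero] at e1
  rw [derivative_kf] at e1
  simp only [derivative_add, derivative_mul, derivative_X, derivative_C, zero_mul, mul_zero,
    add_zero, one_mul] at e1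
  rw [eval_sub, eval_mul, eval_mul, ← coe_evalRingHom, map_wY (evalRingHom ρ),
    map_wX (evalRingHom ρ)] at e1
  simp only [coe_evalRingHom, eval_add, eval_mul, eval_X, eval_C] at e1
  -- linear algebra
  set ux := ρ * x0 + N * wX x0 y0 with hux
  set uy := ρ * y0 + N * wY x0 y0 with huy
  have hw := wedge_w ux uy
  have hw0 := wedge_w x0 y0
  rw [e0, mul_zero] at hw
  have e3 : wX x0 y0 * wY ux uy - wY x0 y0 * wX ux uy = 0 := by
    have h' : N * (wX x0 y0 * wY ux uy - wY x0 y0 * wX ux uy) = 0 := by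
      rw [hux, huy] at hw
      linear_combination hw - ρ * e1
    exact (mul_eq_zero.mp h').resolve_left hN
  have h12 : (12 : ℂ) * kf x0 y0 ≠ 0 := mul_ne_zero (by norm_num) hf
  have ha : wY ux uy = 0 := by
    have h' : wY ux uy * (12 * kf x0 y0) = 0 := by
      rw [← hw0]; linear_combination wY x0 y0 * e1 - y0 * e3
    exact (mul_eq_zero.mp h').resolve_right h12
  have hb : wX ux uy = 0 := by
    have h' : wX ux uy * (12 * kf x0 y0) = 0 := by
      rw [← hw0]; linear_combination wX x0 y0 * e1 - x0 * e3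
    exact (mul_eq_zero.mp h').resolve_right h12
  obtain ⟨hux0, huy0⟩ := wX_wY_eq_zero (K := ℂ) (by norm_num) (by norm_num) (by norm_num) hb ha
  have hfin : N * (12 * kf x0 y0) = 0 := by
    rw [← hw0]; rw [hux] at hux0; rw [huy] at huy0
    linear_combination x0 * huy0 - y0 * hux0
  exact h12 ((mul_eq_zero.mp hfin).resolve_left hN)

/-- `DD = famDh c4 c6 X N` is squarefree over `ℚ`. -/
theorem squarefree_famDh (c4 c6 N : ℤ) (hΔ : c4 ^ 3 - c6 ^ 2 ≠ 0) (hN : N ≠ 0) :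
    Squarefree ((famDh (C c4) (C c6) X (C N) : ℤ[X]).map (Int.castRingHom ℚ)) := by
  apply Separable.squarefree
  rw [separable_def]
  refine (isCoprime_iff_aeval_ne_zero_of_isAlgClosed ℚ ℂ _ _).mpr ?_
  intro ρ
  by_contra hcon
  rw [not_or, not_not, not_not] at hcon
  obtain ⟨h0, h1⟩ := hcon
  have hmap : ((famDh (C c4) (C c6) X (C N) : ℤ[X]).map (Int.castRingHom ℚ)).map (algebraMap ℚ ℂ)
      = famDh (C (c4 : ℂ)) (C (c6 : ℂ)) X (C (N : ℂ)) := by
    rw [Polynomial.map_map, ← coe_mapRingHom, map_famDh]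
    simp only [coe_mapRingHom, map_C, map_X]
    simp only [eq_intCast]
  rw [← eval_map_algebraMap, hmap] at h0
  rw [← eval_map_algebraMap, ← derivative_map, hmap] at h1
  have hΔ' : ((c4 : ℂ)) ^ 3 - (c6 : ℂ) ^ 2 ≠ 0 := by exact_mod_cast hΔ
  have hN' : (N : ℂ) ≠ 0 := by exact_mod_cast hN
  exact famDh_root_simple _ _ _ hΔ' hN' ρ h0 h1

end Squarefree

section Degree

theorem natDegree_famC4hr_le (c4 c6 N : ℤ) :
    (famC4hr (C c4) (C c6) X (C N) : ℤ[X]).natDegree ≤ 19 := by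
  simp only [famC4hr, aC4_1, aC4_2, aC4_3, aC4_4, aC4_5, aC4_6, aC4_7, aC4_8, aC4_9, aC4_10,
    aC4_11, aC4_12, aC4_13, aC4_14, aC4_15, aC4_16, aC4_17, aC4_18, aC4_19, aC4_20]
  compute_degree

theorem natDegree_famC6hr_le (c4 c6 N : ℤ) :
    (famC6hr (C c4) (C c6) X (C N) : ℤ[X]).natDegree ≤ 29 := by
  simp only [famC6hr, aC6_1, aC6_2, aC6_3, aC6_4, aC6_5, aC6_6, aC6_7, aC6_8, aC6_9, aC6_10,
    aC6_11, aC6_12, aC6_13, aC6_14, aC6_15, aC6_16, aC6_17, aC6_18, aC6_19, aC6_20, aC6_21,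
    aC6_22, aC6_23, aC6_24, aC6_25, aC6_26, aC6_27, aC6_28, aC6_29, aC6_30]
  compute_degree

theorem natDegree_famDhr_le (c4 c6 N : ℤ) :
    (famDhr (C c4) (C c6) X (C N) : ℤ[X]).natDegree ≤ 11 := by
  simp only [famDhr, aD_1, aD_2, aD_3, aD_4, aD_5, aD_6, aD_7, aD_8, aD_9, aD_10, aD_11, aD_12]
  compute_degree

end Degree

/-- **Brick (Irr3)** = field `irr` of `Glue.FamilyBricks famC4h famC6h`. -/
theorem irr_brick : ∀ (c4 c6 z₀ N : ℤ), c4 ≠ 0 → c6 ≠ 0 → c4 ^ 3 - c6 ^ 2 ≠ 0 →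
    Glue.quartic c4 c6 z₀ = 0 → 0 < N →
    ∃ k₀ : ℤ, ∀ k : ℤ, k₀ ≤ k → ∀ z : ℤ,
      Glue.quartic (famC4h c4 c6 k N) (famC6h c4 c6 k N) z ≠ 0 := by
  intro c4 c6 z₀ N _ _ hΔ hz₀ hN
  obtain ⟨A, hAdef⟩ : ∃ A : ℤ[X], A = famC4h (C c4) (C c6) X (C N) := ⟨_, rfl⟩
  obtain ⟨B, hBdef⟩ : ∃ B : ℤ[X], B = famC6h (C c4) (C c6) X (C N) := ⟨_, rfl⟩
  obtain ⟨DD, hDDdef⟩ : ∃ DD : ℤ[X], DD = famDh (C c4) (C c6) X (C N) := ⟨_, rfl⟩
  have hAe : ∀ k : ℤ, A.eval k = famC4h c4 c6 k N := fun k => by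
    rw [hAdef, ← coe_evalRingHom, map_famC4h]
    simp only [coe_evalRingHom, eval_C, eval_X]
  have hBe : ∀ k : ℤ, B.eval k = famC6h c4 c6 k N := fun k => by
    rw [hBdef, ← coe_evalRingHom, map_famC6h]
    simp only [coe_evalRingHom, eval_C, eval_X]
  have hA' : A = C c4 * X ^ 20 + C N * famC4hr (C c4) (C c6) X (C N) := by
    rw [hAdef, famC4h_eq]
  have hB' : B = C c6 * X ^ 30 + C N * famC6hr (C c4) (C c6) X (C N) := by
    rw [hBdef, famC6h_eq]
  have hD' : DD = 1 * X ^ 12 + C N * famDhr (C c4) (C c6) X (C N) := by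
    rw [hDDdef, famDh_eq]
  have hA : A.natDegree ≤ 20 := by
    rw [hA']
    refine natDegree_add_le_of_degree_le (natDegree_C_mul_X_pow_le _ _) ?_
    exact (natDegree_C_mul_le _ _).trans ((natDegree_famC4hr_le c4 c6 N).trans (by norm_num))
  have hB : B.natDegree ≤ 30 := by
    rw [hB']
    refine natDegree_add_le_of_degree_le (natDegree_C_mul_X_pow_le _ _) ?_
    exact (natDegree_C_mul_le _ _).trans ((natDegree_famC6hr_le c4 c6 N).trans (by norm_num))
  have hA20 : A.coeff 20 = c4 := by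
    rw [hA', coeff_add, coeff_C_mul_X_pow, if_pos rfl, coeff_C_mul,
      coeff_eq_zero_of_natDegree_lt (lt_of_le_of_lt (natDegree_famC4hr_le c4 c6 N) (by norm_num))]
    ring
  have hB30 : B.coeff 30 = c6 := by
    rw [hB', coeff_add, coeff_C_mul_X_pow, if_pos rfl, coeff_C_mul,
      coeff_eq_zero_of_natDegree_lt (lt_of_le_of_lt (natDegree_famC6hr_le c4 c6 N) (by norm_num))]
    ring
  have hDD : 5 ≤ DD.natDegree := by
    have h12 : DD.coeff 12 = 1 := by
      rw [hD', coeff_add, one_mul, coeff_X_pow, if_pos rfl, coeff_C_mul,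
        coeff_eq_zero_of_natDegree_lt
          (lt_of_le_of_lt (natDegree_famDhr_le c4 c6 N) (by norm_num))]
      ring
    have : 12 ≤ DD.natDegree := le_natDegree_of_ne_zero (by rw [h12]; norm_num)
    omega
  have hrel : A ^ 3 - B ^ 2 = C (c4 ^ 3 - c6 ^ 2) * DD ^ 5 := by
    rw [hAdef, hBdef, hDDdef, fam_rel_h]
    simp only [map_sub, map_pow]
  have hsq : Squarefree (DD.map (Int.castRingHom ℚ)) := by
    rw [hDDdef]; exact squarefree_famDh c4 c6 N hΔ hN.ne'
  have hlead : (A.coeff 20 : ℚ) ^ 3 - (B.coeff 30 : ℚ) ^ 2 ≠ 0 := by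
    rw [hA20, hB30]; exact_mod_cast hΔ
  have hroot : (z₀ : ℚ) ^ 4 - 6 * (A.coeff 20 : ℚ) * (z₀ : ℚ) ^ 2
      - 8 * (B.coeff 30 : ℚ) * (z₀ : ℚ) - 3 * (A.coeff 20 : ℚ) ^ 2 = 0 := by
    rw [hA20, hB30]
    unfold Glue.quartic at hz₀
    exact_mod_cast hz₀
  obtain ⟨k0, hk0⟩ := Fermat.Agent.S52.Irr3.no_rational_root_eventually A B DD (c4 ^ 3 - c6 ^ 2)
    hΔ hA hB hrel hsq hDD hlead (z₀ : ℚ) hroot
  refine ⟨k0, fun k hk z hz => hk0 k hk (z : ℚ) ?_⟩
  rw [hAe, hBe]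
  unfold Glue.quartic at hz
  exact_mod_cast hz

end Fermat.Agent.S52.Fam.Irr
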