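import Fermat.Agent.S52.Fam.Homog

/-!
# S52, brick (SS): no new common prime factor of `c₄'` and `c₆'`

A homogeneous Bezout certificate in the `n`-chart:
`ssU * famC4h + ssV * famC6h = 2^46 * 3^22 * 5^10 * (c4^3 - c6^2)^9 * n^49`
(a polynomial identity in `ℤ[c4, c6, m, n]`, proved by `ring`), and its consequence, the field
`ss` of `Glue.FamilyBricks famC4h famC6h`: a prime `p ∉ {2, 3, 5}` with `p ∤ c4^3 - c6^2`, `p ∤ n`
cannot divide both `famC4h c4 c6 m n` and `famC6h c4 c6 m n`.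
-/

set_option autoImplicit false
set_option linter.unusedVariables false
set_option linter.unusedSimpArgs false

namespace Fermat.Agent.S52.Fam

variable {R : Type*} [CommRing R]

/-- coefficient of `m^29 n^0` in `ssU` -/
def ssU_0 (c4 c6 : R) : R := -10929780205 * c6

/-- coefficient of `m^28 n^1` in `ssU` -/
def ssU_1 (c4 c6 : R) : R := -327893406150 * c4 ^ 2

/-- coefficient of `m^27 n^2` in `ssU` -/
def ssU_2 (c4 c6 : R) : R := -4751896355510 * c4 * c6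

/-- coefficient of `m^26 n^3` in `ssU` -/
def ssU_3 (c4 c6 : R) : R := -31697474783050 * c6 ^ 2 - 12601804027850 * c4 ^ 3

/-- coefficient of `m^25 n^4` in `ssU` -/
def ssU_4 (c4 c6 : R) : R := -298452381962571 * c4 ^ 2 * c6

/-- coefficient of `m^24 n^5` in `ssU` -/
def ssU_5 (c4 c6 : R) : R := -506544434930990 * c4 * c6 ^ 2 - 1041144897781060 * c4 ^ 4

/-- coefficient of `m^23 n^6` in `ssU` -/
def ssU_6 (c4 c6 : R) : R := -1714829923870400 * c6 ^ 3 - 4709843105029900 * c4 ^ 3 * c6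

/-- coefficient of `m^22 n^7` in `ssU` -/
def ssU_7 (c4 c6 : R) : R := -42702781833281580 * c4 ^ 2 * c6 ^ 2 + 20782284410410980 * c4 ^ 5

/-- coefficient of `m^21 n^8` in `ssU` -/
def ssU_8 (c4 c6 : R) : R := -157113405768592000 * c4 * c6 ^ 3 + 94479734048205475 * c4 ^ 4 * c6

/-- coefficient of `m^20 n^9` in `ssU` -/
def ssU_9 (c4 c6 : R) : R := -350104904843722000 * c6 ^ 4 + 468812224934591116 * c4 ^ 3 * c6 ^ 2 - 270641888221631346 * c4 ^ 6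

/-- coefficient of `m^19 n^10` in `ssU` -/
def ssU_10 (c4 c6 : R) : R := 2399653574457130560 * c4 ^ 2 * c6 ^ 3 - 2715733448606061210 * c4 ^ 5 * c6

/-- coefficient of `m^18 n^11` in `ssU` -/
def ssU_11 (c4 c6 : R) : R := 16022882906631599200 * c4 * c6 ^ 4 - 14883887868772210510 * c4 ^ 4 * c6 ^ 2 - 1707189145144755390 * c4 ^ 7

/-- coefficient of `m^17 n^12` in `ssU` -/
def ssU_12 (c4 c6 : R) : R := 26558746739474128000 * c6 ^ 5 + 17103166371128472320 * c4 ^ 3 * c6 ^ 3 - 44549366182556224995 * c4 ^ 6 * c6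

/-- coefficient of `m^16 n^13` in `ssU` -/
def ssU_13 (c4 c6 : R) : R := 128139685983762332400 * c4 ^ 2 * c6 ^ 4 - 54003867784965192330 * c4 ^ 5 * c6 ^ 2 - 75344789462846128920 * c4 ^ 8

/-- coefficient of `m^15 n^14` in `ssU` -/
def ssU_14 (c4 c6 : R) : R := -4545765687680896000 * c4 * c6 ^ 5 + 465003528704428791424 * c4 ^ 4 * c6 ^ 3 - 461897785247078577384 * c4 ^ 7 * c6

/-- coefficient of `m^14 n^15` in `ssU` -/
def ssU_15 (c4 c6 : R) : R := 2673979816282880000 * c6 ^ 6 + 840246250403447777920 * c4 ^ 3 * c6 ^ 4 - 861958477126952264520 * c4 ^ 6 * c6 ^ 2 + 17536782704454077400 * c4 ^ 9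

/-- coefficient of `m^13 n^16` in `ssU` -/
def ssU_16 (c4 c6 : R) : R := 3268397783623013721600 * c4 ^ 2 * c6 ^ 5 - 5299311711050902106880 * c4 ^ 5 * c6 ^ 3 + 2029543546598782581105 * c4 ^ 8 * c6

/-- coefficient of `m^12 n^17` in `ssU` -/
def ssU_17 (c4 c6 : R) : R := 7655552885775666688000 * c4 * c6 ^ 6 - 10366372739370560457760 * c4 ^ 4 * c6 ^ 4 - 690383201226878541240 * c4 ^ 7 * c6 ^ 2 + 3400109566610759767350 * c4 ^ 10

/-- coefficient of `m^11 n^18` in `ssU` -/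
def ssU_18 (c4 c6 : R) : R := 8512611428461373440000 * c6 ^ 7 + 2623289272492387097600 * c4 ^ 3 * c6 ^ 5 - 29166774864561830931840 * c4 ^ 6 * c6 ^ 3 + 18030113226145337161590 * c4 ^ 9 * c6

/-- coefficient of `m^10 n^19` in `ssU` -/
def ssU_19 (c4 c6 : R) : R := 45446259514902625536000 * c4 ^ 2 * c6 ^ 6 - 86676038657713959912384 * c4 ^ 5 * c6 ^ 4 + 38439681934190078719674 * c4 ^ 8 * c6 ^ 2 + 2789637217574351852250 * c4 ^ 11

/-- coefficient of `m^9 n^20` in `ssU` -/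
def ssU_20 (c4 c6 : R) : R := 36405636026357964800000 * c4 * c6 ^ 7 - 44129680386279535750400 * c4 ^ 4 * c6 ^ 5 - 19899139152569620838400 * c4 ^ 7 * c6 ^ 3 + 27622943295671468525175 * c4 ^ 10 * c6

/-- coefficient of `m^8 n^21` in `ssU` -/
def ssU_21 (c4 c6 : R) : R := 36703043740242944000000 * c6 ^ 8 - 66461095549931789312000 * c4 ^ 3 * c6 ^ 6 + 47209528709368527661920 * c4 ^ 6 * c6 ^ 4 - 41189928597499179734370 * c4 ^ 9 * c6 ^ 2 + 23738344145217311449500 * c4 ^ 12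

/-- coefficient of `m^7 n^22` in `ssU` -/
def ssU_22 (c4 c6 : R) : R := 45645605021345034240000 * c4 ^ 2 * c6 ^ 7 - 81309406584434495616000 * c4 ^ 5 * c6 ^ 5 + 26022439464330043252800 * c4 ^ 8 * c6 ^ 3 + 9641321231032214795700 * c4 ^ 11 * c6

/-- coefficient of `m^6 n^23` in `ssU` -/
def ssU_23 (c4 c6 : R) : R := -72838574120998092800000 * c4 * c6 ^ 8 + 344020058316196836608000 * c4 ^ 4 * c6 ^ 6 - 558888271428775350983040 * c4 ^ 7 * c6 ^ 4 + 377215554133237039205940 * c4 ^ 10 * c6 ^ 2 - 89508779899224741877500 * c4 ^ 13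

/-- coefficient of `m^5 n^24` in `ssU` -/
def ssU_24 (c4 c6 : R) : R := -51657359884319129600000 * c6 ^ 9 + 226964274730339082240000 * c4 ^ 3 * c6 ^ 7 - 352657927814225053764096 * c4 ^ 6 * c6 ^ 5 + 231102363088698894815616 * c4 ^ 9 * c6 ^ 3 - 53751353517692030334375 * c4 ^ 12 * c6

/-- coefficient of `m^4 n^25` in `ssU` -/
def ssU_25 (c4 c6 : R) : R := 219933926886838886400000 * c4 ^ 2 * c6 ^ 8 - 867083031972313983897600 * c4 ^ 5 * c6 ^ 6 + 1288769042449840718844720 * c4 ^ 8 * c6 ^ 4 - 856011139059744901214100 * c4 ^ 11 * c6 ^ 2 + 214391200985040771821250 * c4 ^ 14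

/-- coefficient of `m^3 n^26` in `ssU` -/
def ssU_26 (c4 c6 : R) : R := 449875302917931008000000 * c4 * c6 ^ 9 - 1796491384109021026304000 * c4 ^ 4 * c6 ^ 7 + 2692276688817250081367040 * c4 ^ 7 * c6 ^ 5 - 1794577637429845458690240 * c4 ^ 10 * c6 ^ 3 + 448917029689419245108250 * c4 ^ 13 * c6

/-- coefficient of `m^2 n^27` in `ssU` -/
def ssU_27 (c4 c6 : R) : R := 331279820115804160000000 * c6 ^ 10 - 1273520475887950561280000 * c4 ^ 3 * c6 ^ 8 + 1782187877351597590886400 * c4 ^ 6 * c6 ^ 6 - 1017823848727776783622560 * c4 ^ 9 * c6 ^ 4 + 126767281262584771288350 * c4 ^ 12 * c6 ^ 2 + 51109345872464405568750 * c4 ^ 15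

/-- coefficient of `m^1 n^28` in `ssU` -/
def ssU_28 (c4 c6 : R) : R := 159740918855545651200000 * c4 ^ 2 * c6 ^ 9 - 638862651959741202432000 * c4 ^ 5 * c6 ^ 7 + 958194823157806432187520 * c4 ^ 8 * c6 ^ 5 - 638765327104450353688320 * c4 ^ 11 * c6 ^ 3 + 159692237049847754424375 * c4 ^ 14 * c6

/-- coefficient of `m^0 n^29` in `ssU` -/
def ssU_29 (c4 c6 : R) : R := -89851928832586547200000 * c4 * c6 ^ 10 + 476278191502403256320000 * c4 ^ 4 * c6 ^ 8 - 1006585001114692475289600 * c4 ^ 7 * c6 ^ 6 + 1060608256587742877609904 * c4 ^ 10 * c6 ^ 4 - 557314629938283918579750 * c4 ^ 13 * c6 ^ 2 + 116865111795381043200000 * c4 ^ 16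

/-- Bezout cofactor of `famC4h` (degree 29 in `(m, n)`) -/
def ssU (c4 c6 m n : R) : R :=
    ssU_0 c4 c6 * m ^ 29 +
    ssU_1 c4 c6 * m ^ 28 * n +
    ssU_2 c4 c6 * m ^ 27 * n ^ 2 +
    ssU_3 c4 c6 * m ^ 26 * n ^ 3 +
    ssU_4 c4 c6 * m ^ 25 * n ^ 4 +
    ssU_5 c4 c6 * m ^ 24 * n ^ 5 +
    ssU_6 c4 c6 * m ^ 23 * n ^ 6 +
    ssU_7 c4 c6 * m ^ 22 * n ^ 7 +
    ssU_8 c4 c6 * m ^ 21 * n ^ 8 +
    ssU_9 c4 c6 * m ^ 20 * n ^ 9 +
    ssU_10 c4 c6 * m ^ 19 * n ^ 10 +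
    ssU_11 c4 c6 * m ^ 18 * n ^ 11 +
    ssU_12 c4 c6 * m ^ 17 * n ^ 12 +
    ssU_13 c4 c6 * m ^ 16 * n ^ 13 +
    ssU_14 c4 c6 * m ^ 15 * n ^ 14 +
    ssU_15 c4 c6 * m ^ 14 * n ^ 15 +
    ssU_16 c4 c6 * m ^ 13 * n ^ 16 +
    ssU_17 c4 c6 * m ^ 12 * n ^ 17 +
    ssU_18 c4 c6 * m ^ 11 * n ^ 18 +
    ssU_19 c4 c6 * m ^ 10 * n ^ 19 +
    ssU_20 c4 c6 * m ^ 9 * n ^ 20 +
    ssU_21 c4 c6 * m ^ 8 * n ^ 21 +
    ssU_22 c4 c6 * m ^ 7 * n ^ 22 +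
    ssU_23 c4 c6 * m ^ 6 * n ^ 23 +
    ssU_24 c4 c6 * m ^ 5 * n ^ 24 +
    ssU_25 c4 c6 * m ^ 4 * n ^ 25 +
    ssU_26 c4 c6 * m ^ 3 * n ^ 26 +
    ssU_27 c4 c6 * m ^ 2 * n ^ 27 +
    ssU_28 c4 c6 * m * n ^ 28 +
    ssU_29 c4 c6 * n ^ 29

/-- coefficient of `m^19 n^0` in `ssV` -/
def ssV_0 (c4 c6 : R) : R := 10929780205 * c4

/-- coefficient of `m^18 n^1` in `ssV` -/
def ssV_1 (c4 c6 : R) : R := 218595604100 * c6

/-- coefficient of `m^17 n^2` in `ssV` -/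
def ssV_2 (c4 c6 : R) : R := 2074100205285 * c4 ^ 2

/-- coefficient of `m^16 n^3` in `ssV` -/
def ssV_3 (c4 c6 : R) : R := 12409900948950 * c4 * c6

/-- coefficient of `m^15 n^4` in `ssV` -/
def ssV_4 (c4 c6 : R) : R := 62321990939500 * c6 ^ 2 - 9829854039304 * c4 ^ 3

/-- coefficient of `m^14 n^5` in `ssV` -/
def ssV_5 (c4 c6 : R) : R := 166771014900480 * c4 ^ 2 * c6

/-- coefficient of `m^13 n^6` in `ssV` -/
def ssV_6 (c4 c6 : R) : R := -711111938071500 * c4 * c6 ^ 2 + 1123798154398080 * c4 ^ 4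

/-- coefficient of `m^12 n^7` in `ssV` -/
def ssV_7 (c4 c6 : R) : R := -1987232495209000 * c6 ^ 3 + 2801146554771760 * c4 ^ 3 * c6

/-- coefficient of `m^11 n^8` in `ssV` -/
def ssV_8 (c4 c6 : R) : R := 12495224295672300 * c4 ^ 2 * c6 ^ 2 - 11197022837554710 * c4 ^ 5

/-- coefficient of `m^10 n^9` in `ssV` -/
def ssV_9 (c4 c6 : R) : R := 86773412327030000 * c4 * c6 ^ 3 - 85084186368807912 * c4 ^ 4 * c6

/-- coefficient of `m^9 n^10` in `ssV` -/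
def ssV_10 (c4 c6 : R) : R := 172580822102840000 * c6 ^ 4 - 64119380252351980 * c4 ^ 3 * c6 ^ 2 - 106661049488077950 * c4 ^ 6

/-- coefficient of `m^8 n^11` in `ssV` -/
def ssV_11 (c4 c6 : R) : R := 580525710248601000 * c4 ^ 2 * c6 ^ 3 - 578954123401401540 * c4 ^ 5 * c6

/-- coefficient of `m^7 n^12` in `ssV` -/
def ssV_12 (c4 c6 : R) : R := 383328695101632000 * c4 * c6 ^ 4 + 85342049685592740 * c4 ^ 4 * c6 ^ 2 - 467551908302050800 * c4 ^ 7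

/-- coefficient of `m^6 n^13` in `ssV` -/
def ssV_13 (c4 c6 : R) : R := 655359645478720000 * c6 ^ 5 - 393505681611800800 * c4 ^ 3 * c6 ^ 3 - 261210100362966720 * c4 ^ 6 * c6

/-- coefficient of `m^5 n^14` in `ssV` -/
def ssV_14 (c4 c6 : R) : R := 3107881291674672000 * c4 ^ 2 * c6 ^ 4 - 5482022444314913412 * c4 ^ 5 * c6 ^ 2 + 2374436271483729000 * c4 ^ 8

/-- coefficient of `m^4 n^15` in `ssV` -/
def ssV_15 (c4 c6 : R) : R := 4971019236727680000 * c4 * c6 ^ 5 - 9509519947655201880 * c4 ^ 4 * c6 ^ 3 + 4538605984062976800 * c4 ^ 7 * c6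

/-- coefficient of `m^3 n^16` in `ssV` -/
def ssV_16 (c4 c6 : R) : R := 6459843232064000000 * c6 ^ 6 - 14169527444748262400 * c4 ^ 3 * c6 ^ 4 + 9142761129789733380 * c4 ^ 6 * c6 ^ 2 - 1433048738686257375 * c4 ^ 9

/-- coefficient of `m^2 n^17` in `ssV` -/
def ssV_17 (c4 c6 : R) : R := 3122929449776448000 * c4 ^ 2 * c6 ^ 5 - 6192972758101401360 * c4 ^ 5 * c6 ^ 3 + 3070048634575697700 * c4 ^ 8 * c6

/-- coefficient of `m^1 n^18` in `ssV` -/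
def ssV_18 (c4 c6 : R) : R := -7908943338229760000 * c4 * c6 ^ 6 + 24790834768369905600 * c4 ^ 4 * c6 ^ 4 - 25845509197664632260 * c4 ^ 7 * c6 ^ 2 + 8963618401603400625 * c4 ^ 10

/-- coefficient of `m^0 n^19` in `ssV` -/
def ssV_19 (c4 c6 : R) : R := -6426841007923200000 * c6 ^ 7 + 19435293471128576000 * c4 ^ 3 * c6 ^ 5 - 19589303859584267304 * c4 ^ 6 * c6 ^ 3 + 6580851432142830750 * c4 ^ 9 * c6

/-- Bezout cofactor of `famC6h` (degree 19 in `(m, n)`) -/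
def ssV (c4 c6 m n : R) : R :=
    ssV_0 c4 c6 * m ^ 19 +
    ssV_1 c4 c6 * m ^ 18 * n +
    ssV_2 c4 c6 * m ^ 17 * n ^ 2 +
    ssV_3 c4 c6 * m ^ 16 * n ^ 3 +
    ssV_4 c4 c6 * m ^ 15 * n ^ 4 +
    ssV_5 c4 c6 * m ^ 14 * n ^ 5 +
    ssV_6 c4 c6 * m ^ 13 * n ^ 6 +
    ssV_7 c4 c6 * m ^ 12 * n ^ 7 +
    ssV_8 c4 c6 * m ^ 11 * n ^ 8 +
    ssV_9 c4 c6 * m ^ 10 * n ^ 9 +
    ssV_10 c4 c6 * m ^ 9 * n ^ 10 +
    ssV_11 c4 c6 * m ^ 8 * n ^ 11 +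
    ssV_12 c4 c6 * m ^ 7 * n ^ 12 +
    ssV_13 c4 c6 * m ^ 6 * n ^ 13 +
    ssV_14 c4 c6 * m ^ 5 * n ^ 14 +
    ssV_15 c4 c6 * m ^ 4 * n ^ 15 +
    ssV_16 c4 c6 * m ^ 3 * n ^ 16 +
    ssV_17 c4 c6 * m ^ 2 * n ^ 17 +
    ssV_18 c4 c6 * m * n ^ 18 +
    ssV_19 c4 c6 * n ^ 19

set_option maxHeartbeats 0 in
/-- **Bezout certificate, `n`-chart.** -/
theorem ss_cert (c4 c6 m n : R) :
    ssU c4 c6 m n * famC4h c4 c6 m n + ssV c4 c6 m n * famC6h c4 c6 m n =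
      2 ^ 46 * 3 ^ 22 * 5 ^ 10 * (c4 ^ 3 - c6 ^ 2) ^ 9 * n ^ 49 := by
  simp only [ssU, ssU_0, ssU_1, ssU_2, ssU_3, ssU_4, ssU_5, ssU_6, ssU_7, ssU_8, ssU_9, ssU_10, ssU_11, ssU_12, ssU_13, ssU_14, ssU_15, ssU_16, ssU_17, ssU_18, ssU_19, ssU_20, ssU_21, ssU_22, ssU_23, ssU_24, ssU_25, ssU_26, ssU_27, ssU_28, ssU_29,
    ssV, ssV_0, ssV_1, ssV_2, ssV_3, ssV_4, ssV_5, ssV_6, ssV_7, ssV_8, ssV_9, ssV_10, ssV_11, ssV_12, ssV_13, ssV_14, ssV_15, ssV_16, ssV_17, ssV_18, ssV_19,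
    famC4h, aC4_0, aC4_1, aC4_2, aC4_3, aC4_4, aC4_5, aC4_6, aC4_7, aC4_8, aC4_9, aC4_10, aC4_11, aC4_12, aC4_13, aC4_14, aC4_15, aC4_16, aC4_17, aC4_18, aC4_19, aC4_20,
    famC6h, aC6_0, aC6_1, aC6_2, aC6_3, aC6_4, aC6_5, aC6_6, aC6_7, aC6_8, aC6_9, aC6_10, aC6_11, aC6_12, aC6_13, aC6_14, aC6_15, aC6_16, aC6_17, aC6_18, aC6_19, aC6_20, aC6_21, aC6_22, aC6_23, aC6_24, aC6_25, aC6_26, aC6_27, aC6_28, aC6_29, aC6_30]
  ring

/-- a prime dividing `2^a * 3^b * 5^c` is `2`, `3` or `5` -/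
theorem ss_prime_dvd_const (p : ℕ) (hp : p.Prime) (h2 : p ≠ 2) (h3 : p ≠ 3) (h5 : p ≠ 5)
    (a b c : ℕ) : ¬ (p : ℤ) ∣ 2 ^ a * 3 ^ b * 5 ^ c := by
  intro h
  have h' : p ∣ 2 ^ a * 3 ^ b * 5 ^ c := by exact_mod_cast h
  rcases (Nat.Prime.dvd_mul hp).mp h' with h | h
  · rcases (Nat.Prime.dvd_mul hp).mp h with h | h
    · exact h2 ((Nat.prime_dvd_prime_iff_eq hp Nat.prime_two).mp (hp.dvd_of_dvd_pow h))
    · exact h3 ((Nat.prime_dvd_prime_iff_eq hp Nat.prime_three).mp (hp.dvd_of_dvd_pow h))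
  · exact h5 ((Nat.prime_dvd_prime_iff_eq hp Nat.prime_five).mp (hp.dvd_of_dvd_pow h))

/-- **Brick (SS)** = field `ss` of `Glue.FamilyBricks famC4h famC6h`. -/
theorem ss_brick : ∀ (c4 c6 m n : ℤ) (p : ℕ), p.Prime → p ≠ 2 → p ≠ 3 → p ≠ 5 →
    ¬ (p : ℤ) ∣ c4 ^ 3 - c6 ^ 2 → ¬ (p : ℤ) ∣ n →
    (p : ℤ) ∣ famC4h c4 c6 m n → (p : ℤ) ∣ famC6h c4 c6 m n → False := by
  intro c4 c6 m n p hp h2 h3 h5 hΔ hn h4 h6
  have hp' : Prime (p : ℤ) := Nat.prime_iff_prime_int.mp hp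
  have key : (p : ℤ) ∣ 2 ^ 46 * 3 ^ 22 * 5 ^ 10 * (c4 ^ 3 - c6 ^ 2) ^ 9 * n ^ 49 := by
    rw [← ss_cert c4 c6 m n]
    exact dvd_add (Dvd.dvd.mul_left h4 _) (Dvd.dvd.mul_left h6 _)
  rcases hp'.dvd_or_dvd key with h | h
  · rcases hp'.dvd_or_dvd h with h | h
    · exact ss_prime_dvd_const p hp h2 h3 h5 46 22 10 h
    · exact hΔ (hp'.dvd_of_dvd_pow h)
  · exact hn (hp'.dvd_of_dvd_pow h)

end Fermat.Agent.S52.Fam
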