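import Fermat.Agent.S52.Fam.Homog

/-!
# S52: Bezout certificates for the family polynomials (feeders of brick (Irr3))

Homogeneous Bezout certificates in the `n`-chart, polynomial identities over any commutative ring
proved by `ring`:
* `cop_cert : copU * famC4h + copV * famDh = 2^26 * 3^12 * 5^5 * (c4^3 - c6^2)^6 * n^31`,
* `sep_cert : sepU * famDh + sepV * famDhm = 2^18 * 3^10 * 5^4 * (c4^3 - c6^2)^4 * n^22`,
  where `famDhm` is the formal `m`-derivative of `famDh`,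
and their consequences for the one-variable polynomials `DD = famDh (C c4) (C c6) X (C N)`,
`A = famC4h (C c4) (C c6) X (C N)` over a field: `IsCoprime DD A`, `DD.Separable`, `Squarefree DD`.
-/

set_option autoImplicit false
set_option linter.unusedVariables false
set_option linter.unusedSimpArgs false

namespace Fermat.Agent.S52.Fam

variable {R : Type*} [CommRing R]

/-- formal `m`-derivative of `famDh` -/
def famDhm (c4 c6 m n : R) : R :=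
    12 * aD_0 c4 c6 * m ^ 11 +
    11 * aD_1 c4 c6 * m ^ 10 * n +
    10 * aD_2 c4 c6 * m ^ 9 * n ^ 2 +
    9 * aD_3 c4 c6 * m ^ 8 * n ^ 3 +
    8 * aD_4 c4 c6 * m ^ 7 * n ^ 4 +
    7 * aD_5 c4 c6 * m ^ 6 * n ^ 5 +
    6 * aD_6 c4 c6 * m ^ 5 * n ^ 6 +
    5 * aD_7 c4 c6 * m ^ 4 * n ^ 7 +
    4 * aD_8 c4 c6 * m ^ 3 * n ^ 8 +
    3 * aD_9 c4 c6 * m ^ 2 * n ^ 9 +
    2 * aD_10 c4 c6 * m * n ^ 10 +
    1 * aD_11 c4 c6 * n ^ 11

/-- coefficient of `m^11 n^0` in `copU` -/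
def copU_0 (c4 c6 : R) : R := 1001 * c6

/-- coefficient of `m^10 n^1` in `copU` -/
def copU_1 (c4 c6 : R) : R := -1001 * c4 ^ 2

/-- coefficient of `m^9 n^2` in `copU` -/
def copU_2 (c4 c6 : R) : R := -65065 * c4 * c6

/-- coefficient of `m^8 n^3` in `copU` -/
def copU_3 (c4 c6 : R) : R := -441155 * c6 ^ 2 + 65780 * c4 ^ 3

/-- coefficient of `m^7 n^4` in `copU` -/
def copU_4 (c4 c6 : R) : R := -1111110 * c4 ^ 2 * c6

/-- coefficient of `m^6 n^5` in `copU` -/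
def copU_5 (c4 c6 : R) : R := -3564748 * c4 * c6 ^ 2 + 1504690 * c4 ^ 4

/-- coefficient of `m^5 n^6` in `copU` -/
def copU_6 (c4 c6 : R) : R := -10255696 * c6 ^ 3 + 7691134 * c4 ^ 3 * c6

/-- coefficient of `m^4 n^7` in `copU` -/
def copU_7 (c4 c6 : R) : R := 3283830 * c4 ^ 2 * c6 ^ 2 - 5476020 * c4 ^ 5

/-- coefficient of `m^3 n^8` in `copU` -/
def copU_8 (c4 c6 : R) : R := 55248160 * c4 * c6 ^ 3 - 56524435 * c4 ^ 4 * c6

/-- coefficient of `m^2 n^9` in `copU` -/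
def copU_9 (c4 c6 : R) : R := 148372800 * c6 ^ 4 - 214985020 * c4 ^ 3 * c6 ^ 2 + 66126735 * c4 ^ 6

/-- coefficient of `m^1 n^10` in `copU` -/
def copU_10 (c4 c6 : R) : R := 49829296 * c4 ^ 2 * c6 ^ 3 - 49938405 * c4 ^ 5 * c6

/-- coefficient of `m^0 n^11` in `copU` -/
def copU_11 (c4 c6 : R) : R := 158878720 * c4 * c6 ^ 4 - 306536747 * c4 ^ 4 * c6 ^ 2 + 147647016 * c4 ^ 7

/-- Bezout cofactor of `famC4h` against `famDh` (degree 11 in `(m, n)`) -/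
def copU (c4 c6 m n : R) : R :=
    copU_0 c4 c6 * m ^ 11 +
    copU_1 c4 c6 * m ^ 10 * n +
    copU_2 c4 c6 * m ^ 9 * n ^ 2 +
    copU_3 c4 c6 * m ^ 8 * n ^ 3 +
    copU_4 c4 c6 * m ^ 7 * n ^ 4 +
    copU_5 c4 c6 * m ^ 6 * n ^ 5 +
    copU_6 c4 c6 * m ^ 5 * n ^ 6 +
    copU_7 c4 c6 * m ^ 4 * n ^ 7 +
    copU_8 c4 c6 * m ^ 3 * n ^ 8 +
    copU_9 c4 c6 * m ^ 2 * n ^ 9 +
    copU_10 c4 c6 * m * n ^ 10 +
    copU_11 c4 c6 * n ^ 11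

/-- coefficient of `m^19 n^0` in `copV` -/
def copV_0 (c4 c6 : R) : R := -1001 * c4 * c6

/-- coefficient of `m^18 n^1` in `copV` -/
def copV_1 (c4 c6 : R) : R := -20020 * c6 ^ 2 + 1001 * c4 ^ 3

/-- coefficient of `m^17 n^2` in `copV` -/
def copV_2 (c4 c6 : R) : R := -171171 * c4 ^ 2 * c6

/-- coefficient of `m^16 n^3` in `copV` -/
def copV_3 (c4 c6 : R) : R := -1160445 * c4 * c6 ^ 2 + 190476 * c4 ^ 4

/-- coefficient of `m^15 n^4` in `copV` -/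
def copV_4 (c4 c6 : R) : R := -5691400 * c6 ^ 3 + 1811524 * c4 ^ 3 * c6

/-- coefficient of `m^14 n^5` in `copV` -/
def copV_5 (c4 c6 : R) : R := -10838784 * c4 ^ 2 * c6 ^ 2 - 800844 * c4 ^ 5

/-- coefficient of `m^13 n^6` in `copV` -/
def copV_6 (c4 c6 : R) : R := 59019576 * c4 * c6 ^ 3 - 86178708 * c4 ^ 4 * c6

/-- coefficient of `m^12 n^7` in `copV` -/
def copV_7 (c4 c6 : R) : R := 186652620 * c6 ^ 4 - 339675644 * c4 ^ 3 * c6 ^ 2 + 102584636 * c4 ^ 6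

/-- coefficient of `m^11 n^8` in `copV` -/
def copV_8 (c4 c6 : R) : R := -1240383144 * c4 ^ 2 * c6 ^ 3 + 1164725562 * c4 ^ 5 * c6

/-- coefficient of `m^10 n^9` in `copV` -/
def copV_9 (c4 c6 : R) : R := -7773434200 * c4 * c6 ^ 4 + 8653718136 * c4 ^ 4 * c6 ^ 2 - 972754314 * c4 ^ 7

/-- coefficient of `m^9 n^10` in `copV` -/
def copV_10 (c4 c6 : R) : R := -15955684000 * c6 ^ 5 + 12610217560 * c4 ^ 3 * c6 ^ 3 + 3252996062 * c4 ^ 6 * c6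

/-- coefficient of `m^8 n^11` in `copV` -/
def copV_11 (c4 c6 : R) : R := -46025262108 * c4 ^ 2 * c6 ^ 4 + 56179247346 * c4 ^ 5 * c6 ^ 2 - 10229642820 * c4 ^ 8

/-- coefficient of `m^7 n^12` in `copV` -/
def copV_12 (c4 c6 : R) : R := -48204923520 * c4 * c6 ^ 5 + 48948255720 * c4 ^ 4 * c6 ^ 3 - 793770588 * c4 ^ 7 * c6

/-- coefficient of `m^6 n^13` in `copV` -/
def copV_13 (c4 c6 : R) : R := -47062163200 * c6 ^ 6 - 854781968 * c4 ^ 3 * c6 ^ 4 + 96578422176 * c4 ^ 6 * c6 ^ 2 - 48688636140 * c4 ^ 9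

/-- coefficient of `m^5 n^14` in `copV` -/
def copV_14 (c4 c6 : R) : R := -241738150080 * c4 ^ 2 * c6 ^ 5 + 449904561960 * c4 ^ 5 * c6 ^ 3 - 208178051508 * c4 ^ 8 * c6

/-- coefficient of `m^4 n^15` in `copV` -/
def copV_15 (c4 c6 : R) : R := -495394752000 * c4 * c6 ^ 6 + 1162338768468 * c4 ^ 4 * c6 ^ 4 - 856441118844 * c4 ^ 7 * c6 ^ 2 + 189493222500 * c4 ^ 10

/-- coefficient of `m^3 n^16` in `copV` -/
def copV_16 (c4 c6 : R) : R := -546951936000 * c6 ^ 7 + 1384060775296 * c4 ^ 3 * c6 ^ 5 - 1134157355320 * c4 ^ 6 * c6 ^ 3 + 297047546055 * c4 ^ 9 * c6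

/-- coefficient of `m^2 n^17` in `copV` -/
def copV_17 (c4 c6 : R) : R := -86475498240 * c4 ^ 2 * c6 ^ 6 + 130167816168 * c4 ^ 5 * c6 ^ 4 - 2712161124 * c4 ^ 8 * c6 ^ 2 - 40980327975 * c4 ^ 11

/-- coefficient of `m^1 n^18` in `copV` -/
def copV_18 (c4 c6 : R) : R := 363789107200 * c4 * c6 ^ 7 - 1127548208544 * c4 ^ 4 * c6 ^ 5 + 1163440858440 * c4 ^ 7 * c6 ^ 3 - 399681776115 * c4 ^ 10 * c6

/-- coefficient of `m^0 n^19` in `copV` -/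
def copV_19 (c4 c6 : R) : R := 1088391168000 * c6 ^ 8 - 4193661153280 * c4 ^ 3 * c6 ^ 6 + 6046201364348 * c4 ^ 6 * c6 ^ 4 - 3865005219069 * c4 ^ 9 * c6 ^ 2 + 924073839000 * c4 ^ 12

/-- Bezout cofactor of `famDh` against `famC4h` (degree 19 in `(m, n)`) -/
def copV (c4 c6 m n : R) : R :=
    copV_0 c4 c6 * m ^ 19 +
    copV_1 c4 c6 * m ^ 18 * n +
    copV_2 c4 c6 * m ^ 17 * n ^ 2 +
    copV_3 c4 c6 * m ^ 16 * n ^ 3 +
    copV_4 c4 c6 * m ^ 15 * n ^ 4 +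
    copV_5 c4 c6 * m ^ 14 * n ^ 5 +
    copV_6 c4 c6 * m ^ 13 * n ^ 6 +
    copV_7 c4 c6 * m ^ 12 * n ^ 7 +
    copV_8 c4 c6 * m ^ 11 * n ^ 8 +
    copV_9 c4 c6 * m ^ 10 * n ^ 9 +
    copV_10 c4 c6 * m ^ 9 * n ^ 10 +
    copV_11 c4 c6 * m ^ 8 * n ^ 11 +
    copV_12 c4 c6 * m ^ 7 * n ^ 12 +
    copV_13 c4 c6 * m ^ 6 * n ^ 13 +
    copV_14 c4 c6 * m ^ 5 * n ^ 14 +
    copV_15 c4 c6 * m ^ 4 * n ^ 15 +
    copV_16 c4 c6 * m ^ 3 * n ^ 16 +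
    copV_17 c4 c6 * m ^ 2 * n ^ 17 +
    copV_18 c4 c6 * m * n ^ 18 +
    copV_19 c4 c6 * n ^ 19

/-- coefficient of `m^10 n^0` in `sepU` -/
def sepU_0 (c4 c6 : R) : R := -2244 * c4

/-- coefficient of `m^9 n^1` in `sepU` -/
def sepU_1 (c4 c6 : R) : R := 2244 * c6

/-- coefficient of `m^8 n^2` in `sepU` -/
def sepU_2 (c4 c6 : R) : R := 121176 * c4 ^ 2

/-- coefficient of `m^7 n^3` in `sepU` -/
def sepU_3 (c4 c6 : R) : R := 619344 * c4 * c6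

/-- coefficient of `m^6 n^4` in `sepU` -/
def sepU_4 (c4 c6 : R) : R := -743160 * c6 ^ 2 + 2345376 * c4 ^ 3

/-- coefficient of `m^5 n^5` in `sepU` -/
def sepU_5 (c4 c6 : R) : R := 2544696 * c4 ^ 2 * c6

/-- coefficient of `m^4 n^6` in `sepU` -/
def sepU_6 (c4 c6 : R) : R := 7109784 * c4 * c6 ^ 2 - 4470840 * c4 ^ 4

/-- coefficient of `m^3 n^7` in `sepU` -/
def sepU_7 (c4 c6 : R) : R := -10982400 * c6 ^ 3 + 12786576 * c4 ^ 3 * c6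

/-- coefficient of `m^2 n^8` in `sepU` -/
def sepU_8 (c4 c6 : R) : R := -42485256 * c4 ^ 2 * c6 ^ 2 + 43272900 * c4 ^ 5

/-- coefficient of `m^1 n^9` in `sepU` -/
def sepU_9 (c4 c6 : R) : R := -39388800 * c4 * c6 ^ 3 + 39588516 * c4 ^ 4 * c6

/-- coefficient of `m^0 n^10` in `sepU` -/
def sepU_10 (c4 c6 : R) : R := 94478400 * c6 ^ 4 - 200624280 * c4 ^ 3 * c6 ^ 2 + 106168320 * c4 ^ 6

/-- Bezout cofactor of `famDh` against `famDhm` (degree 10 in `(m, n)`) -/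
def sepU (c4 c6 m n : R) : R :=
    sepU_0 c4 c6 * m ^ 10 +
    sepU_1 c4 c6 * m ^ 9 * n +
    sepU_2 c4 c6 * m ^ 8 * n ^ 2 +
    sepU_3 c4 c6 * m ^ 7 * n ^ 3 +
    sepU_4 c4 c6 * m ^ 6 * n ^ 4 +
    sepU_5 c4 c6 * m ^ 5 * n ^ 5 +
    sepU_6 c4 c6 * m ^ 4 * n ^ 6 +
    sepU_7 c4 c6 * m ^ 3 * n ^ 7 +
    sepU_8 c4 c6 * m ^ 2 * n ^ 8 +
    sepU_9 c4 c6 * m * n ^ 9 +
    sepU_10 c4 c6 * n ^ 10

/-- coefficient of `m^11 n^0` in `sepV` -/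
def sepV_0 (c4 c6 : R) : R := 187 * c4

/-- coefficient of `m^10 n^1` in `sepV` -/
def sepV_1 (c4 c6 : R) : R := -187 * c6

/-- coefficient of `m^9 n^2` in `sepV` -/
def sepV_2 (c4 c6 : R) : R := -12155 * c4 ^ 2

/-- coefficient of `m^8 n^3` in `sepV` -/
def sepV_3 (c4 c6 : R) : R := -70125 * c4 * c6

/-- coefficient of `m^7 n^4` in `sepV` -/
def sepV_4 (c4 c6 : R) : R := 82500 * c6 ^ 2 - 290070 * c4 ^ 3

/-- coefficient of `m^6 n^5` in `sepV` -/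
def sepV_5 (c4 c6 : R) : R := -384846 * c4 ^ 2 * c6

/-- coefficient of `m^5 n^6` in `sepV` -/
def sepV_6 (c4 c6 : R) : R := -1314852 * c4 * c6 ^ 2 + 835758 * c4 ^ 4

/-- coefficient of `m^4 n^7` in `sepV` -/
def sepV_7 (c4 c6 : R) : R := 1878360 * c6 ^ 3 - 2287890 * c4 ^ 3 * c6

/-- coefficient of `m^3 n^8` in `sepV` -/
def sepV_8 (c4 c6 : R) : R := 11132220 * c4 ^ 2 * c6 ^ 2 - 11370645 * c4 ^ 5

/-- coefficient of `m^2 n^9` in `sepV` -/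
def sepV_9 (c4 c6 : R) : R := 15856720 * c4 * c6 ^ 3 - 15947415 * c4 ^ 4 * c6

/-- coefficient of `m^1 n^10` in `sepV` -/
def sepV_10 (c4 c6 : R) : R := -28830400 * c6 ^ 4 + 67142052 * c4 ^ 3 * c6 ^ 2 - 38332035 * c4 ^ 6

/-- coefficient of `m^0 n^11` in `sepV` -/
def sepV_11 (c4 c6 : R) : R := 2124760 * c4 ^ 2 * c6 ^ 3 - 2126817 * c4 ^ 5 * c6

/-- Bezout cofactor of `famDhm` against `famDh` (degree 11 in `(m, n)`) -/
def sepV (c4 c6 m n : R) : R :=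
    sepV_0 c4 c6 * m ^ 11 +
    sepV_1 c4 c6 * m ^ 10 * n +
    sepV_2 c4 c6 * m ^ 9 * n ^ 2 +
    sepV_3 c4 c6 * m ^ 8 * n ^ 3 +
    sepV_4 c4 c6 * m ^ 7 * n ^ 4 +
    sepV_5 c4 c6 * m ^ 6 * n ^ 5 +
    sepV_6 c4 c6 * m ^ 5 * n ^ 6 +
    sepV_7 c4 c6 * m ^ 4 * n ^ 7 +
    sepV_8 c4 c6 * m ^ 3 * n ^ 8 +
    sepV_9 c4 c6 * m ^ 2 * n ^ 9 +
    sepV_10 c4 c6 * m * n ^ 10 +
    sepV_11 c4 c6 * n ^ 11

set_option maxHeartbeats 0 in
/-- **Bezout certificate for `(famC4h, famDh)`, `n`-chart.** -/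
theorem cop_cert (c4 c6 m n : R) :
    copU c4 c6 m n * famC4h c4 c6 m n + copV c4 c6 m n * famDh c4 c6 m n =
      2 ^ 26 * 3 ^ 12 * 5 ^ 5 * (c4 ^ 3 - c6 ^ 2) ^ 6 * n ^ 31 := by
  simp only [copU, copU_0, copU_1, copU_2, copU_3, copU_4, copU_5, copU_6, copU_7, copU_8, copU_9, copU_10, copU_11,
    copV, copV_0, copV_1, copV_2, copV_3, copV_4, copV_5, copV_6, copV_7, copV_8, copV_9, copV_10, copV_11, copV_12, copV_13, copV_14, copV_15, copV_16, copV_17, copV_18, copV_19,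
    famC4h, aC4_0, aC4_1, aC4_2, aC4_3, aC4_4, aC4_5, aC4_6, aC4_7, aC4_8, aC4_9, aC4_10, aC4_11, aC4_12, aC4_13, aC4_14, aC4_15, aC4_16, aC4_17, aC4_18, aC4_19, aC4_20,
    famDh, aD_0, aD_1, aD_2, aD_3, aD_4, aD_5, aD_6, aD_7, aD_8, aD_9, aD_10, aD_11, aD_12]
  ring

set_option maxHeartbeats 0 in
/-- **Bezout certificate for `(famDh, ∂famDh/∂m)`, `n`-chart.** -/
theorem sep_cert (c4 c6 m n : R) :
    sepU c4 c6 m n * famDh c4 c6 m n + sepV c4 c6 m n * famDhm c4 c6 m n =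
      2 ^ 18 * 3 ^ 10 * 5 ^ 4 * (c4 ^ 3 - c6 ^ 2) ^ 4 * n ^ 22 := by
  simp only [sepU, sepU_0, sepU_1, sepU_2, sepU_3, sepU_4, sepU_5, sepU_6, sepU_7, sepU_8, sepU_9, sepU_10,
    sepV, sepV_0, sepV_1, sepV_2, sepV_3, sepV_4, sepV_5, sepV_6, sepV_7, sepV_8, sepV_9, sepV_10, sepV_11,
    famDhm, famDh, aD_0, aD_1, aD_2, aD_3, aD_4, aD_5, aD_6, aD_7, aD_8, aD_9, aD_10, aD_11, aD_12]
  ring

section Poly

open Polynomial

variable {K : Type*} [Field K]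

theorem derivative_famDh (c4 c6 N : K) :
    derivative (famDh (C c4) (C c6) X (C N)) = famDhm (C c4) (C c6) X (C N) := by
  simp only [famDh, famDhm, aD_0, aD_1, aD_2, aD_3, aD_4, aD_5, aD_6, aD_7, aD_8, aD_9, aD_10, aD_11, aD_12,
    derivative_add, derivative_sub, derivative_mul, derivative_neg, derivative_X_pow, derivative_X,
    derivative_C, derivative_pow, derivative_ofNat, derivative_one, derivative_zero]
  simp only [Nat.cast_ofNat, Nat.reduceSub, C_ofNat, mul_zero, zero_mul, add_zero, zero_add, sub_zero,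
    mul_one, pow_one, neg_zero]
  ring

theorem cert_const_ne_zero (c4 c6 N : K) (hΔ : c4 ^ 3 - c6 ^ 2 ≠ 0) (hN : N ≠ 0)
    (h30 : (30 : K) ≠ 0) (a b c d e : ℕ) :
    (2 : K) ^ a * 3 ^ b * 5 ^ c * (c4 ^ 3 - c6 ^ 2) ^ d * N ^ e ≠ 0 := by
  have h2 : (2 : K) ≠ 0 := fun h => h30 (by rw [show (30 : K) = 2 * 15 by norm_num, h, zero_mul])
  have h3 : (3 : K) ≠ 0 := fun h => h30 (by rw [show (30 : K) = 3 * 10 by norm_num, h, zero_mul])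
  have h5 : (5 : K) ≠ 0 := fun h => h30 (by rw [show (30 : K) = 5 * 6 by norm_num, h, zero_mul])
  positivity

theorem isCoprime_famDh_famC4h (c4 c6 N : K) (hΔ : c4 ^ 3 - c6 ^ 2 ≠ 0) (hN : N ≠ 0)
    (h30 : (30 : K) ≠ 0) :
    IsCoprime (famDh (C c4) (C c6) X (C N)) (famC4h (C c4) (C c6) X (C N)) := by
  have hu0 := cert_const_ne_zero c4 c6 N hΔ hN h30 26 12 5 6 31
  set u : K := 2 ^ 26 * 3 ^ 12 * 5 ^ 5 * (c4 ^ 3 - c6 ^ 2) ^ 6 * N ^ 31 with hu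
  have h := cop_cert (C c4) (C c6) (X : K[X]) (C N)
  have h' : copU (C c4) (C c6) (X : K[X]) (C N) * famC4h (C c4) (C c6) X (C N) +
      copV (C c4) (C c6) (X : K[X]) (C N) * famDh (C c4) (C c6) X (C N) = C u := by
    rw [h, hu]
    simp only [C_mul, C_pow, C_sub, C_ofNat]
  refine ⟨C u⁻¹ * copV (C c4) (C c6) (X : K[X]) (C N),
    C u⁻¹ * copU (C c4) (C c6) (X : K[X]) (C N), ?_⟩
  calc C u⁻¹ * copV (C c4) (C c6) (X : K[X]) (C N) * famDh (C c4) (C c6) X (C N) +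
        C u⁻¹ * copU (C c4) (C c6) (X : K[X]) (C N) * famC4h (C c4) (C c6) X (C N)
      = C u⁻¹ * (copU (C c4) (C c6) (X : K[X]) (C N) * famC4h (C c4) (C c6) X (C N) +
          copV (C c4) (C c6) (X : K[X]) (C N) * famDh (C c4) (C c6) X (C N)) := by ring
    _ = C u⁻¹ * C u := by rw [h']
    _ = 1 := by rw [← C_mul, inv_mul_cancel₀ hu0, C_1]

theorem separable_famDh (c4 c6 N : K) (hΔ : c4 ^ 3 - c6 ^ 2 ≠ 0) (hN : N ≠ 0)
    (h30 : (30 : K) ≠ 0) : (famDh (C c4) (C c6) X (C N)).Separable := by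
  have hu0 := cert_const_ne_zero c4 c6 N hΔ hN h30 18 10 4 4 22
  set u : K := 2 ^ 18 * 3 ^ 10 * 5 ^ 4 * (c4 ^ 3 - c6 ^ 2) ^ 4 * N ^ 22 with hu
  have h := sep_cert (C c4) (C c6) (X : K[X]) (C N)
  have h' : sepU (C c4) (C c6) (X : K[X]) (C N) * famDh (C c4) (C c6) X (C N) +
      sepV (C c4) (C c6) (X : K[X]) (C N) * famDhm (C c4) (C c6) X (C N) = C u := by
    rw [h, hu]
    simp only [C_mul, C_pow, C_sub, C_ofNat]
  rw [separable_def, derivative_famDh]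
  refine ⟨C u⁻¹ * sepU (C c4) (C c6) (X : K[X]) (C N),
    C u⁻¹ * sepV (C c4) (C c6) (X : K[X]) (C N), ?_⟩
  calc C u⁻¹ * sepU (C c4) (C c6) (X : K[X]) (C N) * famDh (C c4) (C c6) X (C N) +
        C u⁻¹ * sepV (C c4) (C c6) (X : K[X]) (C N) * famDhm (C c4) (C c6) X (C N)
      = C u⁻¹ * (sepU (C c4) (C c6) (X : K[X]) (C N) * famDh (C c4) (C c6) X (C N) +
          sepV (C c4) (C c6) (X : K[X]) (C N) * famDhm (C c4) (C c6) X (C N)) := by ring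
    _ = C u⁻¹ * C u := by rw [h']
    _ = 1 := by rw [← C_mul, inv_mul_cancel₀ hu0, C_1]

theorem squarefree_famDh (c4 c6 N : K) (hΔ : c4 ^ 3 - c6 ^ 2 ≠ 0) (hN : N ≠ 0)
    (h30 : (30 : K) ≠ 0) : Squarefree (famDh (C c4) (C c6) X (C N)) :=
  (separable_famDh c4 c6 N hΔ hN h30).squarefree

end Poly

end Fermat.Agent.S52.Fam
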