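import Mathlib
import Fermat.Agent.S52.Tr.Defs

/-!
# S52, brick (Fam): chord and tangent lemmas on a short Weierstrass curve (helper125)

For `W := Tr.shortCurve A B : y² = x³ + A x + B` over a field `K`:

* `nonsingular_of_equation` : every point of the curve is nonsingular when `4A³ + 27B² ≠ 0`
  and `2 ≠ 0`;
* `chord` : three points of the curve with pairwise distinct `x`-coordinates lying on a line
  satisfy `P₁ + P₂ = -P₃ = (x₃, -y₃)`;
* `tangent` : if the tangent line at `P₁` (`y₁ ≠ 0`) passes through `P₃` (`x₃ ≠ x₁`) then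
  `2 • P₁ = -P₃ = (x₃, -y₃)`.

Everything is stated for an arbitrary `[DecidableEq K]` instance (the one used by the Mathlib
group law), and for arbitrary nonsingularity proofs.
-/

set_option autoImplicit false

namespace Fermat.Agent.S52.Fam.Collinear

open WeierstrassCurve WeierstrassCurve.Affine Fermat.Agent.S52.Tr

variable {K : Type*} [Field K] (A B : K)

/-- the equation of the short curve, spelled out -/
lemma equation_iff_short {x y : K} :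
    (shortCurve A B).Equation x y ↔ y ^ 2 = x ^ 3 + A * x + B := by
  rw [WeierstrassCurve.Affine.equation_iff]
  simp [shortCurve]

lemma shortCurve_Δ : (shortCurve A B).Δ = -16 * (4 * A ^ 3 + 27 * B ^ 2) := by
  simp only [shortCurve, WeierstrassCurve.Δ, WeierstrassCurve.b₂, WeierstrassCurve.b₄,
    WeierstrassCurve.b₆, WeierstrassCurve.b₈]
  ring

lemma shortCurve_Δ_ne_zero (h2 : (2 : K) ≠ 0) (hΔ : 4 * A ^ 3 + 27 * B ^ 2 ≠ 0) :
    (shortCurve A B).Δ ≠ 0 := by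
  rw [shortCurve_Δ]
  have h16 : (16 : K) ≠ 0 := by
    have : (16 : K) = 2 ^ 4 := by norm_num
    rw [this]; exact pow_ne_zero _ h2
  exact mul_ne_zero (neg_ne_zero.mpr h16) hΔ

/-- On an elliptic short curve every point is nonsingular. -/
theorem nonsingular_of_equation (h2 : (2 : K) ≠ 0) (hΔ : 4 * A ^ 3 + 27 * B ^ 2 ≠ 0) {x y : K}
    (h : y ^ 2 = x ^ 3 + A * x + B) : (shortCurve A B).Nonsingular x y :=
  (WeierstrassCurve.Affine.equation_iff_nonsingular_of_Δ_ne_zero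
    (shortCurve_Δ_ne_zero A B h2 hΔ)).mp ((equation_iff_short A B).mpr h)

/-- the equation satisfied by a nonsingular point -/
lemma eq_of_nonsingular {x y : K} (h : (shortCurve A B).Nonsingular x y) :
    y ^ 2 = x ^ 3 + A * x + B :=
  (equation_iff_short A B).mp h.1

/-- nonsingularity of the negative of a point -/
lemma nonsingular_neg {x y : K} (h : (shortCurve A B).Nonsingular x y) :
    (shortCurve A B).Nonsingular x (-y) := by
  have := (WeierstrassCurve.Affine.nonsingular_neg (W' := shortCurve A B) (x := x) (y := y)).mpr h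
  simpa [WeierstrassCurve.Affine.negY, shortCurve] using this

/-- the negative of an affine point of the short curve -/
lemma neg_some_short {x y : K} (h : (shortCurve A B).Nonsingular x y) :
    -(Point.some x y h) = Point.some x (-y) (nonsingular_neg A B h) := by
  rw [Point.neg_some]
  simp [WeierstrassCurve.Affine.negY, shortCurve]

variable [DecidableEq K]

/-- **Chord lemma.**  Three collinear points of the short curve with pairwise distinct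
`x`-coordinates: `P₁ + P₂ = (x₃, -y₃)`. -/
theorem chord {x₁ y₁ x₂ y₂ x₃ y₃ : K}
    {h₁ : (shortCurve A B).Nonsingular x₁ y₁} {h₂ : (shortCurve A B).Nonsingular x₂ y₂}
    {h₃ : (shortCurve A B).Nonsingular x₃ (-y₃)}
    (h12 : x₁ ≠ x₂) (h31 : x₃ ≠ x₁) (h32 : x₃ ≠ x₂)
    (hcol : (y₂ - y₁) * (x₃ - x₁) = (y₃ - y₁) * (x₂ - x₁)) :
    Point.some x₁ y₁ h₁ + Point.some x₂ y₂ h₂ = Point.some x₃ (-y₃) h₃ := by
  have e₁ := eq_of_nonsingular A B h₁
  have e₂ := eq_of_nonsingular A B h₂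
  have e₃ : y₃ ^ 2 = x₃ ^ 3 + A * x₃ + B := by
    have := eq_of_nonsingular A B h₃
    rwa [neg_sq] at this
  have hd : x₂ - x₁ ≠ 0 := sub_ne_zero.mpr h12.symm
  have hd' : x₁ - x₂ ≠ 0 := sub_ne_zero.mpr h12
  set ℓ : K := (y₁ - y₂) / (x₁ - x₂) with hℓdef
  have hℓ : ℓ * (x₂ - x₁) = y₂ - y₁ := by
    rw [hℓdef]; field_simp; ring
  have hc : y₃ - y₁ = ℓ * (x₃ - x₁) := by
    have : (x₂ - x₁) * (y₃ - y₁) = (x₂ - x₁) * (ℓ * (x₃ - x₁)) := by
      linear_combination -hcol - (x₃ - x₁) * hℓ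
    exact mul_left_cancel₀ hd this
  have key : (x₂ - x₁) * ((x₃ - x₁) * (x₃ - x₂) * (x₃ - (ℓ ^ 2 - x₁ - x₂))) = 0 := by
    linear_combination (-(x₂ - x₁)) * e₃
      + (x₂ - x₁) * (2 * y₃ - (y₃ - y₁ - ℓ * (x₃ - x₁))) * hc + (x₂ - x₃) * e₁
      + (x₃ - x₁) * e₂ + (x₃ - x₁) * ((ℓ * (x₂ - x₁) - (y₂ - y₁)) + 2 * y₂) * hℓ
  have hx3 : x₃ = ℓ ^ 2 - x₁ - x₂ := by
    have h1 := (mul_eq_zero.mp key).resolve_left hd
    have h2 := (mul_eq_zero.mp h1).resolve_left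
      (mul_ne_zero (sub_ne_zero.mpr h31) (sub_ne_zero.mpr h32))
    exact sub_eq_zero.mp h2
  have hsl : (shortCurve A B).slope x₁ x₂ y₁ y₂ = ℓ := by
    rw [WeierstrassCurve.Affine.slope_of_X_ne h12]
  have hX : (shortCurve A B).addX x₁ x₂ ((shortCurve A B).slope x₁ x₂ y₁ y₂) = x₃ := by
    rw [hsl, hx3]
    simp [WeierstrassCurve.Affine.addX, shortCurve]
  have hY : (shortCurve A B).addY x₁ x₂ y₁ ((shortCurve A B).slope x₁ x₂ y₁ y₂) = -y₃ := by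
    rw [WeierstrassCurve.Affine.addY, hX, hsl]
    simp only [WeierstrassCurve.Affine.negY, WeierstrassCurve.Affine.negAddY,
      WeierstrassCurve.Affine.addX, shortCurve]
    have hx3' : ℓ ^ 2 + 0 * ℓ - 0 - x₁ - x₂ = x₃ := by rw [hx3]; ring
    rw [hx3']
    linear_combination hc
  rw [Point.add_of_X_ne h12]
  simp only [Point.some.injEq]
  exact ⟨hX, hY⟩

/-- Chord lemma, in the form `P₁ + P₂ = -P₃`. -/
theorem chord_neg {x₁ y₁ x₂ y₂ x₃ y₃ : K}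
    {h₁ : (shortCurve A B).Nonsingular x₁ y₁} {h₂ : (shortCurve A B).Nonsingular x₂ y₂}
    {h₃ : (shortCurve A B).Nonsingular x₃ y₃}
    (h12 : x₁ ≠ x₂) (h31 : x₃ ≠ x₁) (h32 : x₃ ≠ x₂)
    (hcol : (y₂ - y₁) * (x₃ - x₁) = (y₃ - y₁) * (x₂ - x₁)) :
    Point.some x₁ y₁ h₁ + Point.some x₂ y₂ h₂ = -(Point.some x₃ y₃ h₃) := by
  rw [neg_some_short]
  exact chord A B h12 h31 h32 hcol

/-- Chord lemma, in the form `P₁ + P₂ + P₃ = 0`. -/
theorem chord_sum_eq_zero {x₁ y₁ x₂ y₂ x₃ y₃ : K}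
    {h₁ : (shortCurve A B).Nonsingular x₁ y₁} {h₂ : (shortCurve A B).Nonsingular x₂ y₂}
    {h₃ : (shortCurve A B).Nonsingular x₃ y₃}
    (h12 : x₁ ≠ x₂) (h31 : x₃ ≠ x₁) (h32 : x₃ ≠ x₂)
    (hcol : (y₂ - y₁) * (x₃ - x₁) = (y₃ - y₁) * (x₂ - x₁)) :
    Point.some x₁ y₁ h₁ + Point.some x₂ y₂ h₂ + Point.some x₃ y₃ h₃ = 0 := by
  rw [chord_neg A B (h₃ := h₃) h12 h31 h32 hcol, neg_add_cancel]

/-- **Tangent lemma**, additive form: if the tangent at `P₁ = (x₁, y₁)`, `y₁ ≠ 0`, passes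
through the point `(x₃, y₃)` of the curve, `x₃ ≠ x₁`, then `P₁ + P₁ = (x₃, -y₃)`. -/
theorem tangent_add (h2 : (2 : K) ≠ 0) {x₁ y₁ x₃ y₃ : K}
    {h₁ : (shortCurve A B).Nonsingular x₁ y₁} {h₃ : (shortCurve A B).Nonsingular x₃ (-y₃)}
    (hy₁ : y₁ ≠ 0) (h31 : x₃ ≠ x₁)
    (htan : (3 * x₁ ^ 2 + A) * (x₃ - x₁) = 2 * y₁ * (y₃ - y₁)) :
    Point.some x₁ y₁ h₁ + Point.some x₁ y₁ h₁ = Point.some x₃ (-y₃) h₃ := by
  have e₁ := eq_of_nonsingular A B h₁
  have e₃ : y₃ ^ 2 = x₃ ^ 3 + A * x₃ + B := by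
    have := eq_of_nonsingular A B h₃
    rwa [neg_sq] at this
  have h2y : 2 * y₁ ≠ 0 := mul_ne_zero h2 hy₁
  have hneg : y₁ ≠ (shortCurve A B).negY x₁ y₁ := by
    simp only [WeierstrassCurve.Affine.negY, shortCurve]
    intro h
    apply h2y
    linear_combination h
  set ℓ : K := (3 * x₁ ^ 2 + A) / (2 * y₁) with hℓdef
  have hℓ : ℓ * (2 * y₁) = 3 * x₁ ^ 2 + A := by
    rw [hℓdef]; field_simp
  have hc : y₃ - y₁ = ℓ * (x₃ - x₁) := by
    have : (2 * y₁) * (y₃ - y₁) = (2 * y₁) * (ℓ * (x₃ - x₁)) := by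
      linear_combination -htan - (x₃ - x₁) * hℓ
    exact mul_left_cancel₀ h2y this
  have key : (x₃ - x₁) ^ 2 * (x₃ - (ℓ ^ 2 - 2 * x₁)) = 0 := by
    linear_combination (-1 : K) * e₃ + (2 * y₃ - (y₃ - y₁ - ℓ * (x₃ - x₁))) * hc + e₁
      + (x₃ - x₁) * hℓ
  have hx3 : x₃ = ℓ ^ 2 - 2 * x₁ := by
    have h1 := (mul_eq_zero.mp key).resolve_left (pow_ne_zero 2 (sub_ne_zero.mpr h31))
    exact sub_eq_zero.mp h1
  have hsl : (shortCurve A B).slope x₁ x₁ y₁ y₁ = ℓ := by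
    rw [WeierstrassCurve.Affine.slope_of_Y_ne rfl hneg, hℓdef]
    simp only [WeierstrassCurve.Affine.negY, shortCurve]
    congr 1 <;> ring
  have hX : (shortCurve A B).addX x₁ x₁ ((shortCurve A B).slope x₁ x₁ y₁ y₁) = x₃ := by
    rw [hsl, hx3]
    simp only [WeierstrassCurve.Affine.addX, shortCurve]
    ring
  have hY : (shortCurve A B).addY x₁ x₁ y₁ ((shortCurve A B).slope x₁ x₁ y₁ y₁) = -y₃ := by
    rw [WeierstrassCurve.Affine.addY, hX, hsl]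
    simp only [WeierstrassCurve.Affine.negY, WeierstrassCurve.Affine.negAddY,
      WeierstrassCurve.Affine.addX, shortCurve]
    have hx3' : ℓ ^ 2 + 0 * ℓ - 0 - x₁ - x₁ = x₃ := by rw [hx3]; ring
    rw [hx3']
    linear_combination hc
  rw [Point.add_self_of_Y_ne hneg]
  simp only [Point.some.injEq]
  exact ⟨hX, hY⟩

/-- **Tangent lemma**: `2 • P₁ = (x₃, -y₃)`. -/
theorem tangent (h2 : (2 : K) ≠ 0) {x₁ y₁ x₃ y₃ : K}
    {h₁ : (shortCurve A B).Nonsingular x₁ y₁} {h₃ : (shortCurve A B).Nonsingular x₃ (-y₃)}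
    (hy₁ : y₁ ≠ 0) (h31 : x₃ ≠ x₁)
    (htan : (3 * x₁ ^ 2 + A) * (x₃ - x₁) = 2 * y₁ * (y₃ - y₁)) :
    (2 : ℕ) • Point.some x₁ y₁ h₁ = Point.some x₃ (-y₃) h₃ := by
  rw [two_nsmul]
  exact tangent_add A B h2 hy₁ h31 htan

/-- Tangent lemma, in the form `2 • P₁ = -P₃`. -/
theorem tangent_neg (h2 : (2 : K) ≠ 0) {x₁ y₁ x₃ y₃ : K}
    {h₁ : (shortCurve A B).Nonsingular x₁ y₁} {h₃ : (shortCurve A B).Nonsingular x₃ y₃}
    (hy₁ : y₁ ≠ 0) (h31 : x₃ ≠ x₁)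
    (htan : (3 * x₁ ^ 2 + A) * (x₃ - x₁) = 2 * y₁ * (y₃ - y₁)) :
    (2 : ℕ) • Point.some x₁ y₁ h₁ = -(Point.some x₃ y₃ h₃) := by
  rw [neg_some_short]
  exact tangent A B h2 hy₁ h31 htan

/-- Tangent lemma with integer scalar. -/
theorem tangent_zsmul (h2 : (2 : K) ≠ 0) {x₁ y₁ x₃ y₃ : K}
    {h₁ : (shortCurve A B).Nonsingular x₁ y₁} {h₃ : (shortCurve A B).Nonsingular x₃ (-y₃)}
    (hy₁ : y₁ ≠ 0) (h31 : x₃ ≠ x₁)
    (htan : (3 * x₁ ^ 2 + A) * (x₃ - x₁) = 2 * y₁ * (y₃ - y₁)) :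
    (2 : ℤ) • Point.some x₁ y₁ h₁ = Point.some x₃ (-y₃) h₃ := by
  rw [two_zsmul]
  exact tangent_add A B h2 hy₁ h31 htan

end Fermat.Agent.S52.Fam.Collinear
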