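import Fermat.Agent.S52.Fam.Defs

/-!
# S52, brick (Fam): covariance of `H` along the pencil `v + t w(v)`

`-H(v + t w(v)) = C₄(t)` with `C₄ = famC4 (c₄ v) (c₆ v)`, in every commutative ring.
This is ONE big `ring` (about 5 minutes, 18 GB); it is isolated in this file on purpose.
-/

set_option autoImplicit false

namespace Fermat.Agent.S52.Fam

variable {R : Type*} [CommRing R]

set_option maxHeartbeats 40000000 in
/-- `-H(v + t w(v)) = C₄(t)`. -/
theorem cov_H (x y t : R) :
    -kH (x + t * wX x y) (y + t * wY x y) = famC4 (-kH x y) (-kT x y) t := by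
  unfold
    famC4 famC4_0 famC4_1 famC4_2 famC4_3 famC4_4 famC4_5 famC4_6 famC4_7 famC4_8
    kH kT wX wY
  ring

end Fermat.Agent.S52.Fam
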