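import Fermat.Agent.S52.Fam.CovH
import Fermat.Agent.S52.Fam.HomogCovT

/-!
# S52, brick (Fam): homogeneous covariance of `H` from the affine one

`cov_H` (affine, one big `ring` in three variables) gives `cov_H_h'` (homogeneous, four variables)
for every commutative ring: in a field with `m ≠ 0` put `t = n / m` and use homogeneity; the
universal case `ℤ[x, y, m, n]` embeds in its fraction field; then specialise.
-/

set_option autoImplicit false

namespace Fermat.Agent.S52.Fam

/-- Homogeneous covariance of `H` over a field, for `m ≠ 0`. -/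
theorem cov_H_h_field {K : Type*} [Field K] (x y m n : K) (hm : m ≠ 0) :
    -kH (m * x + n * wX x y) (m * y + n * wY x y) = famC4h (-kH x y) (-kT x y) m n := by
  have h := cov_H x y (n / m)
  have e1 : m * x + n * wX x y = m * (x + n / m * wX x y) := by field_simp
  have e2 : m * y + n * wY x y = m * (y + n / m * wY x y) := by field_simp
  have e3 : famC4h (-kH x y) (-kT x y) m n = m ^ 20 * famC4 (-kH x y) (-kT x y) (n / m) := by
    have h' := famC4h_smul m (-kH x y) (-kT x y) 1 (n / m)
    rw [mul_one, mul_div_cancel₀ n hm] at h'
    rw [h', famC4h_one]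
  rw [e1, e2, kH_smul, e3, ← h]
  ring

/-- Covariance of `H` in the universal ring `ℤ[x, y, m, n]`. -/
theorem covHUniv : CovHUniv := by
  unfold CovHUniv
  have hinj : Function.Injective
      (algebraMap (MvPolynomial (Fin 4) ℤ) (FractionRing (MvPolynomial (Fin 4) ℤ))) :=
    IsFractionRing.injective _ _
  apply hinj
  simp only [map_neg, map_kH, map_kT, map_wX, map_wY, map_famC4h, map_add, map_mul]
  apply cov_H_h_field
  exact (map_ne_zero_iff _ hinj).mpr (MvPolynomial.X_ne_zero 2)

variable {R : Type*} [CommRing R]

/-- **Homogeneous covariance of `H`**, over every commutative ring. -/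
theorem cov_H_h' (x y m n : R) :
    -kH (m * x + n * wX x y) (m * y + n * wY x y) = famC4h (-kH x y) (-kT x y) m n := by
  have h' := congrArg (MvPolynomial.eval₂Hom (Int.castRingHom R) (![x, y, m, n] : Fin 4 → R))
    covHUniv
  simp only [map_kT, map_kH, map_wX, map_wY, map_famC4h, map_add, map_mul, map_neg,
    MvPolynomial.eval₂Hom_X'] at h'
  simpa using h'

/-- **Homogeneous covariance of `T`**, over every commutative ring. -/
theorem cov_T_h' (x y m n : R) :
    -kT (m * x + n * wX x y) (m * y + n * wY x y) = famC6h (-kH x y) (-kT x y) m n :=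
  cov_T_h_of covHUniv x y m n

end Fermat.Agent.S52.Fam
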