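import Fermat.Agent.S52.Fam.Homog

/-!
# S52, brick (Fam): covariance of the homogeneous family for Klein's `T`, coefficient by coefficient

`pT_j x y a b` is the coefficient of `m^(30-j) n^j` in `kT (m x + n a) (m y + n b)` (polar form);
`coef_T_j` identifies it at `(a, b) = w(x, y)` with the `j`-th coefficient of the family.
Splitting the identity this way keeps every `ring` call small (two variables).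
-/

set_option autoImplicit false
set_option linter.unusedVariables false
set_option linter.unusedSimpArgs false

namespace Fermat.Agent.S52.Fam

variable {R : Type*} [CommRing R]

/-- polar coefficient `j = 0` of `kT` -/
def pT_0 (x y a b : R) : R :=
  x ^ 30 + 522 * x ^ 25 * y ^ 5 - 10005 * x ^ 20 * y ^ 10 - 10005 * x ^ 10 * y ^ 20 - 522 * x ^ 5 * y ^ 25 + y ^ 30

/-- polar coefficient `j = 1` of `kT` -/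
def pT_1 (x y a b : R) : R :=
  30 * x ^ 29 * a + 2610 * x ^ 25 * y ^ 4 * b + 13050 * x ^ 24 * y ^ 5 * a - 100050 * x ^ 20 * y ^ 9 * b - 200100 * x ^ 19 * y ^ 10 * a - 200100 * x ^ 10 * y ^ 19 * b - 100050 * x ^ 9 * y ^ 20 * a - 13050 * x ^ 5 * y ^ 24 * b - 2610 * x ^ 4 * y ^ 25 * a + 30 * y ^ 29 * b

/-- polar coefficient `j = 2` of `kT` -/
def pT_2 (x y a b : R) : R :=
  435 * x ^ 28 * a ^ 2 + 5220 * x ^ 25 * y ^ 3 * b ^ 2 + 65250 * x ^ 24 * y ^ 4 * a * b + 156600 * x ^ 23 * y ^ 5 * a ^ 2 - 450225 * x ^ 20 * y ^ 8 * b ^ 2 - 2001000 * x ^ 19 * y ^ 9 * a * b - 1900950 * x ^ 18 * y ^ 10 * a ^ 2 - 1900950 * x ^ 10 * y ^ 18 * b ^ 2 - 2001000 * x ^ 9 * y ^ 19 * a * b - 450225 * x ^ 8 * y ^ 20 * a ^ 2 - 156600 * x ^ 5 * y ^ 23 * b ^ 2 - 65250 * x ^ 4 * y ^ 24 * a * b - 5220 * x ^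 3 * y ^ 25 * a ^ 2 + 435 * y ^ 28 * b ^ 2

/-- polar coefficient `j = 3` of `kT` -/
def pT_3 (x y a b : R) : R :=
  4060 * x ^ 27 * a ^ 3 + 5220 * x ^ 25 * y ^ 2 * b ^ 3 + 130500 * x ^ 24 * y ^ 3 * a * b ^ 2 + 783000 * x ^ 23 * y ^ 4 * a ^ 2 * b + 1200600 * x ^ 22 * y ^ 5 * a ^ 3 - 1200600 * x ^ 20 * y ^ 7 * b ^ 3 - 9004500 * x ^ 19 * y ^ 8 * a * b ^ 2 - 19009500 * x ^ 18 * y ^ 9 * a ^ 2 * b - 11405700 * x ^ 17 * y ^ 10 * a ^ 3 - 11405700 * x ^ 10 * y ^ 17 * b ^ 3 - 19009500 * x ^ 9 * y ^ 18 * a * b ^ 2 - 9004500 * x ^ 8 * y ^ 19 * a ^ 2 * b - 1200600 * x ^ 7 * y ^ 20 * a ^ 3 - 1200600 * x ^ 5 * y ^ 22 * b ^ 3 - 783000 * x ^ 4 * y ^ 23 * a * b ^ 2 - 130500 * x ^ 3 * y ^ 24 * a ^ 2 * b - 5220 * x ^ 2 * y ^ 25 * a ^ 3 + 4060 * y ^ 27 * b ^ 3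

/-- polar coefficient `j = 4` of `kT` -/
def pT_4 (x y a b : R) : R :=
  27405 * x ^ 26 * a ^ 4 + 2610 * x ^ 25 * y * b ^ 4 + 130500 * x ^ 24 * y ^ 2 * a * b ^ 3 + 1566000 * x ^ 23 * y ^ 3 * a ^ 2 * b ^ 2 + 6003000 * x ^ 22 * y ^ 4 * a ^ 3 * b + 6603300 * x ^ 21 * y ^ 5 * a ^ 4 - 2101050 * x ^ 20 * y ^ 6 * b ^ 4 - 24012000 * x ^ 19 * y ^ 7 * a * b ^ 3 - 85542750 * x ^ 18 * y ^ 8 * a ^ 2 * b ^ 2 - 114057000 * x ^ 17 * y ^ 9 * a ^ 3 * b - 48474225 * x ^ 16 * y ^ 10 * a ^ 4 - 48474225 * x ^ 10 * y ^ 16 * b ^ 4 - 114057000 * x ^ 9 * y ^ 17 * a * b ^ 3 - 85542750 * x ^ 8 * y ^ 18 * a ^ 2 * b ^ 2 - 24012000 * x ^ 7 * y ^ 19 * a ^ 3 * b - 2101050 * x ^ 6 * y ^ 20 * a ^ 4 - 6603300 * x ^ 5 * y ^ 21 * b ^ 4 - 6003000 * x ^ 4 * y ^ 22 * a * b ^ 3 - 1566000 * x ^ 3 * y ^ 23 * a ^ 2 * b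 ^ 2 - 130500 * x ^ 2 * y ^ 24 * a ^ 3 * b - 2610 * x * y ^ 25 * a ^ 4 + 27405 * y ^ 26 * b ^ 4

/-- polar coefficient `j = 5` of `kT` -/
def pT_5 (x y a b : R) : R :=
  142506 * x ^ 25 * a ^ 5 + 522 * x ^ 25 * b ^ 5 + 65250 * x ^ 24 * y * a * b ^ 4 + 1566000 * x ^ 23 * y ^ 2 * a ^ 2 * b ^ 3 + 12006000 * x ^ 22 * y ^ 3 * a ^ 3 * b ^ 2 + 33016500 * x ^ 21 * y ^ 4 * a ^ 4 * b + 27733860 * x ^ 20 * y ^ 5 * a ^ 5 - 2521260 * x ^ 20 * y ^ 5 * b ^ 5 - 42021000 * x ^ 19 * y ^ 6 * a * b ^ 4 - 228114000 * x ^ 18 * y ^ 7 * a ^ 2 * b ^ 3 - 513256500 * x ^ 17 * y ^ 8 * a ^ 3 * b ^ 2 - 484742250 * x ^ 16 * y ^ 9 * a ^ 4 * b - 155117520 * x ^ 15 * y ^ 10 * a ^ 5 - 155117520 * x ^ 10 * y ^ 15 * b ^ 5 - 484742250 * x ^ 9 * y ^ 16 * a * b ^ 4 - 513256500 * x ^ 8 * y ^ 17 * a ^ 2 * b ^ 3 - 228114000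 * x ^ 7 * y ^ 18 * a ^ 3 * b ^ 2 - 42021000 * x ^ 6 * y ^ 19 * a ^ 4 * b - 2521260 * x ^ 5 * y ^ 20 * a ^ 5 - 27733860 * x ^ 5 * y ^ 20 * b ^ 5 - 33016500 * x ^ 4 * y ^ 21 * a * b ^ 4 - 12006000 * x ^ 3 * y ^ 22 * a ^ 2 * b ^ 3 - 1566000 * x ^ 2 * y ^ 23 * a ^ 3 * b ^ 2 - 65250 * x * y ^ 24 * a ^ 4 * b - 522 * y ^ 25 * a ^ 5 + 142506 * y ^ 25 * b ^ 5

/-- polar coefficient `j = 6` of `kT` -/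
def pT_6 (x y a b : R) : R :=
  593775 * x ^ 24 * a ^ 6 + 13050 * x ^ 24 * a * b ^ 5 + 783000 * x ^ 23 * y * a ^ 2 * b ^ 4 + 12006000 * x ^ 22 * y ^ 2 * a ^ 3 * b ^ 3 + 66033000 * x ^ 21 * y ^ 3 * a ^ 4 * b ^ 2 + 138669300 * x ^ 20 * y ^ 4 * a ^ 5 * b - 2101050 * x ^ 20 * y ^ 4 * b ^ 6 + 92446200 * x ^ 19 * y ^ 5 * a ^ 6 - 50425200 * x ^ 19 * y ^ 5 * a * b ^ 5 - 399199500 * x ^ 18 * y ^ 6 * a ^ 2 * b ^ 4 - 1368684000 * x ^ 17 * y ^ 7 * a ^ 3 * b ^ 3 - 2181340125 * x ^ 16 * y ^ 8 * a ^ 4 * b ^ 2 - 1551175200 * x ^ 15 * y ^ 9 * a ^ 5 * b - 387793800 * x ^ 14 * y ^ 10 * a ^ 6 - 387793800 * x ^ 10 * y ^ 14 * b ^ 6 - 1551175200 * x ^ 9 * y ^ 15 * a * b ^ 5 - 2181340125 * x ^ 8 * y ^ 16 * a ^ 2 * b ^ 4 - 1368684000 * x ^ 7 * y ^ 17 * a ^ 3 * b ^ 3 - 399199500 * x ^ 6 * y ^ 18 * a ^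 4 * b ^ 2 - 50425200 * x ^ 5 * y ^ 19 * a ^ 5 * b - 92446200 * x ^ 5 * y ^ 19 * b ^ 6 - 2101050 * x ^ 4 * y ^ 20 * a ^ 6 - 138669300 * x ^ 4 * y ^ 20 * a * b ^ 5 - 66033000 * x ^ 3 * y ^ 21 * a ^ 2 * b ^ 4 - 12006000 * x ^ 2 * y ^ 22 * a ^ 3 * b ^ 3 - 783000 * x * y ^ 23 * a ^ 4 * b ^ 2 - 13050 * y ^ 24 * a ^ 5 * b + 593775 * y ^ 24 * b ^ 6

/-- polar coefficient `j = 7` of `kT` -/
def pT_7 (x y a b : R) : R :=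
  2035800 * x ^ 23 * a ^ 7 + 156600 * x ^ 23 * a ^ 2 * b ^ 5 + 6003000 * x ^ 22 * y * a ^ 3 * b ^ 4 + 66033000 * x ^ 21 * y ^ 2 * a ^ 4 * b ^ 3 + 277338600 * x ^ 20 * y ^ 3 * a ^ 5 * b ^ 2 - 1200600 * x ^ 20 * y ^ 3 * b ^ 7 + 462231000 * x ^ 19 * y ^ 4 * a ^ 6 * b - 42021000 * x ^ 19 * y ^ 4 * a * b ^ 6 + 250925400 * x ^ 18 * y ^ 5 * a ^ 7 - 479039400 * x ^ 18 * y ^ 5 * a ^ 2 * b ^ 5 - 2395197000 * x ^ 17 * y ^ 6 * a ^ 3 * b ^ 4 - 5816907000 * x ^ 16 * y ^ 7 * a ^ 4 * b ^ 3 - 6980288400 * x ^ 15 * y ^ 8 * a ^ 5 * b ^ 2 - 3877938000 * x ^ 14 * y ^ 9 * a ^ 6 * b - 775587600 * x ^ 13 * y ^ 10 * a ^ 7 - 775587600 * x ^ 10 * y ^ 13 * b ^ 7 - 3877938000 * x ^ 9 * y ^ 14 * a * b ^ 6 - 6980288400 * x ^ 8 * y ^ 15 * a ^ 2 * b ^ 5 - 5816907000 * x ^ 7 * y ^ 16 * a ^ 3 * b ^ 4 - 2395197000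 * x ^ 6 * y ^ 17 * a ^ 4 * b ^ 3 - 479039400 * x ^ 5 * y ^ 18 * a ^ 5 * b ^ 2 - 250925400 * x ^ 5 * y ^ 18 * b ^ 7 - 42021000 * x ^ 4 * y ^ 19 * a ^ 6 * b - 462231000 * x ^ 4 * y ^ 19 * a * b ^ 6 - 1200600 * x ^ 3 * y ^ 20 * a ^ 7 - 277338600 * x ^ 3 * y ^ 20 * a ^ 2 * b ^ 5 - 66033000 * x ^ 2 * y ^ 21 * a ^ 3 * b ^ 4 - 6003000 * x * y ^ 22 * a ^ 4 * b ^ 3 - 156600 * y ^ 23 * a ^ 5 * b ^ 2 + 2035800 * y ^ 23 * b ^ 7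

/-- polar coefficient `j = 8` of `kT` -/
def pT_8 (x y a b : R) : R :=
  5852925 * x ^ 22 * a ^ 8 + 1200600 * x ^ 22 * a ^ 3 * b ^ 5 + 33016500 * x ^ 21 * y * a ^ 4 * b ^ 4 + 277338600 * x ^ 20 * y ^ 2 * a ^ 5 * b ^ 3 - 450225 * x ^ 20 * y ^ 2 * b ^ 8 + 924462000 * x ^ 19 * y ^ 3 * a ^ 6 * b ^ 2 - 24012000 * x ^ 19 * y ^ 3 * a * b ^ 7 + 1254627000 * x ^ 18 * y ^ 4 * a ^ 7 * b - 399199500 * x ^ 18 * y ^ 4 * a ^ 2 * b ^ 6 + 564582150 * x ^ 17 * y ^ 5 * a ^ 8 - 2874236400 * x ^ 17 * y ^ 5 * a ^ 3 * b ^ 5 - 10179587250 * x ^ 16 * y ^ 6 * a ^ 4 * b ^ 4 - 18614102400 * x ^ 15 * y ^ 7 * a ^ 5 * b ^ 3 - 17450721000 * x ^ 14 * y ^ 8 * a ^ 6 * b ^ 2 - 7755876000 * x ^ 13 * y ^ 9 * a ^ 7 * b - 1260329850 * x ^ 12 * y ^ 10 * a ^ 8 - 1260329850 * x ^ 10 * y ^ 12 * b ^ 8 - 7755876000 * x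 ^ 9 * y ^ 13 * a * b ^ 7 - 17450721000 * x ^ 8 * y ^ 14 * a ^ 2 * b ^ 6 - 18614102400 * x ^ 7 * y ^ 15 * a ^ 3 * b ^ 5 - 10179587250 * x ^ 6 * y ^ 16 * a ^ 4 * b ^ 4 - 2874236400 * x ^ 5 * y ^ 17 * a ^ 5 * b ^ 3 - 564582150 * x ^ 5 * y ^ 17 * b ^ 8 - 399199500 * x ^ 4 * y ^ 18 * a ^ 6 * b ^ 2 - 1254627000 * x ^ 4 * y ^ 18 * a * b ^ 7 - 24012000 * x ^ 3 * y ^ 19 * a ^ 7 * b - 924462000 * x ^ 3 * y ^ 19 * a ^ 2 * b ^ 6 - 450225 * x ^ 2 * y ^ 20 * a ^ 8 - 277338600 * x ^ 2 * y ^ 20 * a ^ 3 * b ^ 5 - 33016500 * x * y ^ 21 * a ^ 4 * b ^ 4 - 1200600 * y ^ 22 * a ^ 5 * b ^ 3 + 5852925 * y ^ 22 * b ^ 8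

/-- polar coefficient `j = 9` of `kT` -/
def pT_9 (x y a b : R) : R :=
  14307150 * x ^ 21 * a ^ 9 + 6603300 * x ^ 21 * a ^ 4 * b ^ 5 + 138669300 * x ^ 20 * y * a ^ 5 * b ^ 4 - 100050 * x ^ 20 * y * b ^ 9 + 924462000 * x ^ 19 * y ^ 2 * a ^ 6 * b ^ 3 - 9004500 * x ^ 19 * y ^ 2 * a * b ^ 8 + 2509254000 * x ^ 18 * y ^ 3 * a ^ 7 * b ^ 2 - 228114000 * x ^ 18 * y ^ 3 * a ^ 2 * b ^ 7 + 2822910750 * x ^ 17 * y ^ 4 * a ^ 8 * b - 2395197000 * x ^ 17 * y ^ 4 * a ^ 3 * b ^ 6 + 1066432950 * x ^ 16 * y ^ 5 * a ^ 9 - 12215504700 * x ^ 16 * y ^ 5 * a ^ 4 * b ^ 5 - 32574679200 * x ^ 15 * y ^ 6 * a ^ 5 * b ^ 4 - 46535256000 * x ^ 14 * y ^ 7 * a ^ 6 * b ^ 3 - 34901442000 * x ^ 13 * y ^ 8 * a ^ 7 * b ^ 2 - 12603298500 * x ^ 12 * y ^ 9 * a ^ 8 * b - 1680439800 * x ^ 11 * y ^ 10 * a ^ 9 - 1680439800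 * x ^ 10 * y ^ 11 * b ^ 9 - 12603298500 * x ^ 9 * y ^ 12 * a * b ^ 8 - 34901442000 * x ^ 8 * y ^ 13 * a ^ 2 * b ^ 7 - 46535256000 * x ^ 7 * y ^ 14 * a ^ 3 * b ^ 6 - 32574679200 * x ^ 6 * y ^ 15 * a ^ 4 * b ^ 5 - 12215504700 * x ^ 5 * y ^ 16 * a ^ 5 * b ^ 4 - 1066432950 * x ^ 5 * y ^ 16 * b ^ 9 - 2395197000 * x ^ 4 * y ^ 17 * a ^ 6 * b ^ 3 - 2822910750 * x ^ 4 * y ^ 17 * a * b ^ 8 - 228114000 * x ^ 3 * y ^ 18 * a ^ 7 * b ^ 2 - 2509254000 * x ^ 3 * y ^ 18 * a ^ 2 * b ^ 7 - 9004500 * x ^ 2 * y ^ 19 * a ^ 8 * b - 924462000 * x ^ 2 * y ^ 19 * a ^ 3 * b ^ 6 - 100050 * x * y ^ 20 * a ^ 9 - 138669300 * x * y ^ 20 * a ^ 4 * b ^ 5 - 6603300 * y ^ 21 * a ^ 5 * b ^ 4 + 14307150 * y ^ 21 * b ^ 9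

/-- polar coefficient `j = 10` of `kT` -/
def pT_10 (x y a b : R) : R :=
  30045015 * x ^ 20 * a ^ 10 + 27733860 * x ^ 20 * a ^ 5 * b ^ 5 - 10005 * x ^ 20 * b ^ 10 + 462231000 * x ^ 19 * y * a ^ 6 * b ^ 4 - 2001000 * x ^ 19 * y * a * b ^ 9 + 2509254000 * x ^ 18 * y ^ 2 * a ^ 7 * b ^ 3 - 85542750 * x ^ 18 * y ^ 2 * a ^ 2 * b ^ 8 + 5645821500 * x ^ 17 * y ^ 3 * a ^ 8 * b ^ 2 - 1368684000 * x ^ 17 * y ^ 3 * a ^ 3 * b ^ 7 + 5332164750 * x ^ 16 * y ^ 4 * a ^ 9 * b - 10179587250 * x ^ 16 * y ^ 4 * a ^ 4 * b ^ 6 + 1706292720 * x ^ 15 * y ^ 5 * a ^ 10 - 39089615040 * x ^ 15 * y ^ 5 * a ^ 5 * b ^ 5 - 81436698000 * x ^ 14 * y ^ 6 * a ^ 6 * b ^ 4 - 93070512000 * x ^ 13 * y ^ 7 * a ^ 7 * b ^ 3 - 56714843250 * x ^ 12 * y ^ 8 * a ^ 8 * b ^ 2 - 16804398000 * x ^ 11 * y ^ 9 * a ^ 9 * b - 1848483780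 * x ^ 10 * y ^ 10 * a ^ 10 - 1848483780 * x ^ 10 * y ^ 10 * b ^ 10 - 16804398000 * x ^ 9 * y ^ 11 * a * b ^ 9 - 56714843250 * x ^ 8 * y ^ 12 * a ^ 2 * b ^ 8 - 93070512000 * x ^ 7 * y ^ 13 * a ^ 3 * b ^ 7 - 81436698000 * x ^ 6 * y ^ 14 * a ^ 4 * b ^ 6 - 39089615040 * x ^ 5 * y ^ 15 * a ^ 5 * b ^ 5 - 1706292720 * x ^ 5 * y ^ 15 * b ^ 10 - 10179587250 * x ^ 4 * y ^ 16 * a ^ 6 * b ^ 4 - 5332164750 * x ^ 4 * y ^ 16 * a * b ^ 9 - 1368684000 * x ^ 3 * y ^ 17 * a ^ 7 * b ^ 3 - 5645821500 * x ^ 3 * y ^ 17 * a ^ 2 * b ^ 8 - 85542750 * x ^ 2 * y ^ 18 * a ^ 8 * b ^ 2 - 2509254000 * x ^ 2 * y ^ 18 * a ^ 3 * b ^ 7 - 2001000 * x * y ^ 19 * a ^ 9 * b - 462231000 * x * y ^ 19 * a ^ 4 * b ^ 6 - 10005 * y ^ 20 * a ^ 10 - 27733860 * y ^ 20 * a ^ 5 * b ^ 5 + 30045015 * y ^ 20 * b ^ 10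

/-- polar coefficient `j = 11` of `kT` -/
def pT_11 (x y a b : R) : R :=
  54627300 * x ^ 19 * a ^ 11 + 92446200 * x ^ 19 * a ^ 6 * b ^ 5 - 200100 * x ^ 19 * a * b ^ 10 + 1254627000 * x ^ 18 * y * a ^ 7 * b ^ 4 - 19009500 * x ^ 18 * y * a ^ 2 * b ^ 9 + 5645821500 * x ^ 17 * y ^ 2 * a ^ 8 * b ^ 3 - 513256500 * x ^ 17 * y ^ 2 * a ^ 3 * b ^ 8 + 10664329500 * x ^ 16 * y ^ 3 * a ^ 9 * b ^ 2 - 5816907000 * x ^ 16 * y ^ 3 * a ^ 4 * b ^ 7 + 8531463600 * x ^ 15 * y ^ 4 * a ^ 10 * b - 32574679200 * x ^ 15 * y ^ 4 * a ^ 5 * b ^ 6 + 2326762800 * x ^ 14 * y ^ 5 * a ^ 11 - 97724037600 * x ^ 14 * y ^ 5 * a ^ 6 * b ^ 5 - 162873396000 * x ^ 13 * y ^ 6 * a ^ 7 * b ^ 4 - 151239582000 * x ^ 12 * y ^ 7 * a ^ 8 * b ^ 3 - 75619791000 * x ^ 11 * y ^ 8 * a ^ 9 * b ^ 2 - 18484837800 * x ^ 10 * y ^ 9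 * a ^ 10 * b - 1680439800 * x ^ 10 * y ^ 9 * b ^ 11 - 1680439800 * x ^ 9 * y ^ 10 * a ^ 11 - 18484837800 * x ^ 9 * y ^ 10 * a * b ^ 10 - 75619791000 * x ^ 8 * y ^ 11 * a ^ 2 * b ^ 9 - 151239582000 * x ^ 7 * y ^ 12 * a ^ 3 * b ^ 8 - 162873396000 * x ^ 6 * y ^ 13 * a ^ 4 * b ^ 7 - 97724037600 * x ^ 5 * y ^ 14 * a ^ 5 * b ^ 6 - 2326762800 * x ^ 5 * y ^ 14 * b ^ 11 - 32574679200 * x ^ 4 * y ^ 15 * a ^ 6 * b ^ 5 - 8531463600 * x ^ 4 * y ^ 15 * a * b ^ 10 - 5816907000 * x ^ 3 * y ^ 16 * a ^ 7 * b ^ 4 - 10664329500 * x ^ 3 * y ^ 16 * a ^ 2 * b ^ 9 - 513256500 * x ^ 2 * y ^ 17 * a ^ 8 * b ^ 3 - 5645821500 * x ^ 2 * y ^ 17 * a ^ 3 * b ^ 8 - 19009500 * x * y ^ 18 * a ^ 9 * b ^ 2 - 1254627000 * x * y ^ 18 * a ^ 4 * b ^ 7 - 200100 * y ^ 19 * a ^ 10 * b - 92446200 * y ^ 19 * a ^ 5 * b ^ 6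 + 54627300 * y ^ 19 * b ^ 11

/-- polar coefficient `j = 12` of `kT` -/
def pT_12 (x y a b : R) : R :=
  86493225 * x ^ 18 * a ^ 12 + 250925400 * x ^ 18 * a ^ 7 * b ^ 5 - 1900950 * x ^ 18 * a ^ 2 * b ^ 10 + 2822910750 * x ^ 17 * y * a ^ 8 * b ^ 4 - 114057000 * x ^ 17 * y * a ^ 3 * b ^ 9 + 10664329500 * x ^ 16 * y ^ 2 * a ^ 9 * b ^ 3 - 2181340125 * x ^ 16 * y ^ 2 * a ^ 4 * b ^ 8 + 17062927200 * x ^ 15 * y ^ 3 * a ^ 10 * b ^ 2 - 18614102400 * x ^ 15 * y ^ 3 * a ^ 5 * b ^ 7 + 11633814000 * x ^ 14 * y ^ 4 * a ^ 11 * b - 81436698000 * x ^ 14 * y ^ 4 * a ^ 6 * b ^ 6 + 2714556600 * x ^ 13 * y ^ 5 * a ^ 12 - 195448075200 * x ^ 13 * y ^ 5 * a ^ 7 * b ^ 5 - 264669268500 * x ^ 12 * y ^ 6 * a ^ 8 * b ^ 4 - 201652776000 * x ^ 11 * y ^ 7 * a ^ 9 * b ^ 3 - 83181770100 * x ^ 10 * y ^ 8 * a ^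 10 * b ^ 2 - 1260329850 * x ^ 10 * y ^ 8 * b ^ 12 - 16804398000 * x ^ 9 * y ^ 9 * a ^ 11 * b - 16804398000 * x ^ 9 * y ^ 9 * a * b ^ 11 - 1260329850 * x ^ 8 * y ^ 10 * a ^ 12 - 83181770100 * x ^ 8 * y ^ 10 * a ^ 2 * b ^ 10 - 201652776000 * x ^ 7 * y ^ 11 * a ^ 3 * b ^ 9 - 264669268500 * x ^ 6 * y ^ 12 * a ^ 4 * b ^ 8 - 195448075200 * x ^ 5 * y ^ 13 * a ^ 5 * b ^ 7 - 2714556600 * x ^ 5 * y ^ 13 * b ^ 12 - 81436698000 * x ^ 4 * y ^ 14 * a ^ 6 * b ^ 6 - 11633814000 * x ^ 4 * y ^ 14 * a * b ^ 11 - 18614102400 * x ^ 3 * y ^ 15 * a ^ 7 * b ^ 5 - 17062927200 * x ^ 3 * y ^ 15 * a ^ 2 * b ^ 10 - 2181340125 * x ^ 2 * y ^ 16 * a ^ 8 * b ^ 4 - 10664329500 * x ^ 2 * y ^ 16 * a ^ 3 * b ^ 9 - 114057000 * x * y ^ 17 * a ^ 9 * b ^ 3 - 2822910750 * x * y ^ 17 * a ^ 4 * b ^ 8 - 1900950 * y ^ 18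 * a ^ 10 * b ^ 2 - 250925400 * y ^ 18 * a ^ 5 * b ^ 7 + 86493225 * y ^ 18 * b ^ 12

/-- polar coefficient `j = 13` of `kT` -/
def pT_13 (x y a b : R) : R :=
  119759850 * x ^ 17 * a ^ 13 + 564582150 * x ^ 17 * a ^ 8 * b ^ 5 - 11405700 * x ^ 17 * a ^ 3 * b ^ 10 + 5332164750 * x ^ 16 * y * a ^ 9 * b ^ 4 - 484742250 * x ^ 16 * y * a ^ 4 * b ^ 9 + 17062927200 * x ^ 15 * y ^ 2 * a ^ 10 * b ^ 3 - 6980288400 * x ^ 15 * y ^ 2 * a ^ 5 * b ^ 8 + 23267628000 * x ^ 14 * y ^ 3 * a ^ 11 * b ^ 2 - 46535256000 * x ^ 14 * y ^ 3 * a ^ 6 * b ^ 7 + 13572783000 * x ^ 13 * y ^ 4 * a ^ 12 * b - 162873396000 * x ^ 13 * y ^ 4 * a ^ 7 * b ^ 6 + 2714556600 * x ^ 12 * y ^ 5 * a ^ 13 - 317603122200 * x ^ 12 * y ^ 5 * a ^ 8 * b ^ 5 - 352892358000 * x ^ 11 * y ^ 6 * a ^ 9 * b ^ 4 - 221818053600 * x ^ 10 *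 y ^ 7 * a ^ 10 * b ^ 3 - 775587600 * x ^ 10 * y ^ 7 * b ^ 13 - 75619791000 * x ^ 9 * y ^ 8 * a ^ 11 * b ^ 2 - 12603298500 * x ^ 9 * y ^ 8 * a * b ^ 12 - 12603298500 * x ^ 8 * y ^ 9 * a ^ 12 * b - 75619791000 * x ^ 8 * y ^ 9 * a ^ 2 * b ^ 11 - 775587600 * x ^ 7 * y ^ 10 * a ^ 13 - 221818053600 * x ^ 7 * y ^ 10 * a ^ 3 * b ^ 10 - 352892358000 * x ^ 6 * y ^ 11 * a ^ 4 * b ^ 9 - 317603122200 * x ^ 5 * y ^ 12 * a ^ 5 * b ^ 8 - 2714556600 * x ^ 5 * y ^ 12 * b ^ 13 - 162873396000 * x ^ 4 * y ^ 13 * a ^ 6 * b ^ 7 - 13572783000 * x ^ 4 * y ^ 13 * a * b ^ 12 - 46535256000 * x ^ 3 * y ^ 14 * a ^ 7 * b ^ 6 - 23267628000 * x ^ 3 * y ^ 14 * a ^ 2 * b ^ 11 - 6980288400 * x ^ 2 * y ^ 15 * a ^ 8 * b ^ 5 - 17062927200 * x ^ 2 * y ^ 15 * a ^ 3 * b ^ 10 - 484742250 * x * y ^ 16 * a ^ 9 * b ^ 4 -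 5332164750 * x * y ^ 16 * a ^ 4 * b ^ 9 - 11405700 * y ^ 17 * a ^ 10 * b ^ 3 - 564582150 * y ^ 17 * a ^ 5 * b ^ 8 + 119759850 * y ^ 17 * b ^ 13

/-- polar coefficient `j = 14` of `kT` -/
def pT_14 (x y a b : R) : R :=
  145422675 * x ^ 16 * a ^ 14 + 1066432950 * x ^ 16 * a ^ 9 * b ^ 5 - 48474225 * x ^ 16 * a ^ 4 * b ^ 10 + 8531463600 * x ^ 15 * y * a ^ 10 * b ^ 4 - 1551175200 * x ^ 15 * y * a ^ 5 * b ^ 9 + 23267628000 * x ^ 14 * y ^ 2 * a ^ 11 * b ^ 3 - 17450721000 * x ^ 14 * y ^ 2 * a ^ 6 * b ^ 8 + 27145566000 * x ^ 13 * y ^ 3 * a ^ 12 * b ^ 2 - 93070512000 * x ^ 13 * y ^ 3 * a ^ 7 * b ^ 7 + 13572783000 * x ^ 12 * y ^ 4 * a ^ 13 * b - 264669268500 * x ^ 12 * y ^ 4 * a ^ 8 * b ^ 6 + 2326762800 * x ^ 11 * y ^ 5 * a ^ 14 - 423470829600 * x ^ 11 * y ^ 5 * a ^ 9 * b ^ 5 - 388181593800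 * x ^ 10 * y ^ 6 * a ^ 10 * b ^ 4 - 387793800 * x ^ 10 * y ^ 6 * b ^ 14 - 201652776000 * x ^ 9 * y ^ 7 * a ^ 11 * b ^ 3 - 7755876000 * x ^ 9 * y ^ 7 * a * b ^ 13 - 56714843250 * x ^ 8 * y ^ 8 * a ^ 12 * b ^ 2 - 56714843250 * x ^ 8 * y ^ 8 * a ^ 2 * b ^ 12 - 7755876000 * x ^ 7 * y ^ 9 * a ^ 13 * b - 201652776000 * x ^ 7 * y ^ 9 * a ^ 3 * b ^ 11 - 387793800 * x ^ 6 * y ^ 10 * a ^ 14 - 388181593800 * x ^ 6 * y ^ 10 * a ^ 4 * b ^ 10 - 423470829600 * x ^ 5 * y ^ 11 * a ^ 5 * b ^ 9 - 2326762800 * x ^ 5 * y ^ 11 * b ^ 14 - 264669268500 * x ^ 4 * y ^ 12 * a ^ 6 * b ^ 8 - 13572783000 * x ^ 4 * y ^ 12 * a * b ^ 13 - 93070512000 * x ^ 3 * y ^ 13 * a ^ 7 * b ^ 7 - 27145566000 * x ^ 3 * y ^ 13 * a ^ 2 * b ^ 12 - 17450721000 * x ^ 2 * y ^ 14 * a ^ 8 * b ^ 6 - 23267628000 * x ^ 2 * y ^ 14 *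 a ^ 3 * b ^ 11 - 1551175200 * x * y ^ 15 * a ^ 9 * b ^ 5 - 8531463600 * x * y ^ 15 * a ^ 4 * b ^ 10 - 48474225 * y ^ 16 * a ^ 10 * b ^ 4 - 1066432950 * y ^ 16 * a ^ 5 * b ^ 9 + 145422675 * y ^ 16 * b ^ 14

/-- polar coefficient `j = 15` of `kT` -/
def pT_15 (x y a b : R) : R :=
  155117520 * x ^ 15 * a ^ 15 + 1706292720 * x ^ 15 * a ^ 10 * b ^ 5 - 155117520 * x ^ 15 * a ^ 5 * b ^ 10 + 11633814000 * x ^ 14 * y * a ^ 11 * b ^ 4 - 3877938000 * x ^ 14 * y * a ^ 6 * b ^ 9 + 27145566000 * x ^ 13 * y ^ 2 * a ^ 12 * b ^ 3 - 34901442000 * x ^ 13 * y ^ 2 * a ^ 7 * b ^ 8 + 27145566000 * x ^ 12 * y ^ 3 * a ^ 13 * b ^ 2 - 151239582000 * x ^ 12 * y ^ 3 * a ^ 8 * b ^ 7 + 11633814000 * x ^ 11 * y ^ 4 * a ^ 14 * b - 352892358000 * x ^ 11 * y ^ 4 * a ^ 9 * b ^ 6 + 1706292720 * x ^ 10 * y ^ 5 *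 a ^ 15 - 465817912560 * x ^ 10 * y ^ 5 * a ^ 10 * b ^ 5 - 155117520 * x ^ 10 * y ^ 5 * b ^ 15 - 352892358000 * x ^ 9 * y ^ 6 * a ^ 11 * b ^ 4 - 3877938000 * x ^ 9 * y ^ 6 * a * b ^ 14 - 151239582000 * x ^ 8 * y ^ 7 * a ^ 12 * b ^ 3 - 34901442000 * x ^ 8 * y ^ 7 * a ^ 2 * b ^ 13 - 34901442000 * x ^ 7 * y ^ 8 * a ^ 13 * b ^ 2 - 151239582000 * x ^ 7 * y ^ 8 * a ^ 3 * b ^ 12 - 3877938000 * x ^ 6 * y ^ 9 * a ^ 14 * b - 352892358000 * x ^ 6 * y ^ 9 * a ^ 4 * b ^ 11 - 155117520 * x ^ 5 * y ^ 10 * a ^ 15 - 465817912560 * x ^ 5 * y ^ 10 * a ^ 5 * b ^ 10 - 1706292720 * x ^ 5 * y ^ 10 * b ^ 15 - 352892358000 * x ^ 4 * y ^ 11 * a ^ 6 * b ^ 9 - 11633814000 * x ^ 4 * y ^ 11 * a * b ^ 14 - 151239582000 * x ^ 3 * y ^ 12 * a ^ 7 * b ^ 8 - 27145566000 * x ^ 3 * y ^ 12 * a ^ 2 * b ^ 13 - 34901442000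 * x ^ 2 * y ^ 13 * a ^ 8 * b ^ 7 - 27145566000 * x ^ 2 * y ^ 13 * a ^ 3 * b ^ 12 - 3877938000 * x * y ^ 14 * a ^ 9 * b ^ 6 - 11633814000 * x * y ^ 14 * a ^ 4 * b ^ 11 - 155117520 * y ^ 15 * a ^ 10 * b ^ 5 - 1706292720 * y ^ 15 * a ^ 5 * b ^ 10 + 155117520 * y ^ 15 * b ^ 15

/-- polar coefficient `j = 16` of `kT` -/
def pT_16 (x y a b : R) : R :=
  145422675 * x ^ 14 * a ^ 16 + 2326762800 * x ^ 14 * a ^ 11 * b ^ 5 - 387793800 * x ^ 14 * a ^ 6 * b ^ 10 + 13572783000 * x ^ 13 * y * a ^ 12 * b ^ 4 - 7755876000 * x ^ 13 * y * a ^ 7 * b ^ 9 + 27145566000 * x ^ 12 * y ^ 2 * a ^ 13 * b ^ 3 - 56714843250 * x ^ 12 * y ^ 2 * a ^ 8 * b ^ 8 + 23267628000 * x ^ 11 * y ^ 3 * a ^ 14 * b ^ 2 - 201652776000 * x ^ 11 * y ^ 3 * a ^ 9 * b ^ 7 + 8531463600 * x ^ 10 * y ^ 4 * a ^ 15 * b - 388181593800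 * x ^ 10 * y ^ 4 * a ^ 10 * b ^ 6 - 48474225 * x ^ 10 * y ^ 4 * b ^ 16 + 1066432950 * x ^ 9 * y ^ 5 * a ^ 16 - 423470829600 * x ^ 9 * y ^ 5 * a ^ 11 * b ^ 5 - 1551175200 * x ^ 9 * y ^ 5 * a * b ^ 15 - 264669268500 * x ^ 8 * y ^ 6 * a ^ 12 * b ^ 4 - 17450721000 * x ^ 8 * y ^ 6 * a ^ 2 * b ^ 14 - 93070512000 * x ^ 7 * y ^ 7 * a ^ 13 * b ^ 3 - 93070512000 * x ^ 7 * y ^ 7 * a ^ 3 * b ^ 13 - 17450721000 * x ^ 6 * y ^ 8 * a ^ 14 * b ^ 2 - 264669268500 * x ^ 6 * y ^ 8 * a ^ 4 * b ^ 12 - 1551175200 * x ^ 5 * y ^ 9 * a ^ 15 * b - 423470829600 * x ^ 5 * y ^ 9 * a ^ 5 * b ^ 11 - 1066432950 * x ^ 5 * y ^ 9 * b ^ 16 - 48474225 * x ^ 4 * y ^ 10 * a ^ 16 - 388181593800 * x ^ 4 * y ^ 10 * a ^ 6 * b ^ 10 - 8531463600 * x ^ 4 * y ^ 10 * a * b ^ 15 - 201652776000 * x ^ 3 * y ^ 11 * a ^ 7 * b ^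 9 - 23267628000 * x ^ 3 * y ^ 11 * a ^ 2 * b ^ 14 - 56714843250 * x ^ 2 * y ^ 12 * a ^ 8 * b ^ 8 - 27145566000 * x ^ 2 * y ^ 12 * a ^ 3 * b ^ 13 - 7755876000 * x * y ^ 13 * a ^ 9 * b ^ 7 - 13572783000 * x * y ^ 13 * a ^ 4 * b ^ 12 - 387793800 * y ^ 14 * a ^ 10 * b ^ 6 - 2326762800 * y ^ 14 * a ^ 5 * b ^ 11 + 145422675 * y ^ 14 * b ^ 16

/-- polar coefficient `j = 17` of `kT` -/
def pT_17 (x y a b : R) : R :=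
  119759850 * x ^ 13 * a ^ 17 + 2714556600 * x ^ 13 * a ^ 12 * b ^ 5 - 775587600 * x ^ 13 * a ^ 7 * b ^ 10 + 13572783000 * x ^ 12 * y * a ^ 13 * b ^ 4 - 12603298500 * x ^ 12 * y * a ^ 8 * b ^ 9 + 23267628000 * x ^ 11 * y ^ 2 * a ^ 14 * b ^ 3 - 75619791000 * x ^ 11 * y ^ 2 * a ^ 9 * b ^ 8 + 17062927200 * x ^ 10 * y ^ 3 * a ^ 15 * b ^ 2 - 221818053600 * x ^ 10 * y ^ 3 * a ^ 10 * b ^ 7 - 11405700 * x ^ 10 * y ^ 3 * b ^ 17 + 5332164750 * x ^ 9 * y ^ 4 * a ^ 16 * b - 352892358000 * x ^ 9 * y ^ 4 * a ^ 11 * b ^ 6 - 484742250 * x ^ 9 * y ^ 4 * a * b ^ 16 + 564582150 * x ^ 8 * y ^ 5 * a ^ 17 - 317603122200 * x ^ 8 * y ^ 5 * a ^ 12 * b ^ 5 - 6980288400 * x ^ 8 * y ^ 5 * a ^ 2 * b ^ 15 - 162873396000 * x ^ 7 * y ^ 6 * a ^ 13 * b ^ 4 - 46535256000 * x ^ 7 * y ^ 6 * a ^ 3 * b ^ 14 - 46535256000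 * x ^ 6 * y ^ 7 * a ^ 14 * b ^ 3 - 162873396000 * x ^ 6 * y ^ 7 * a ^ 4 * b ^ 13 - 6980288400 * x ^ 5 * y ^ 8 * a ^ 15 * b ^ 2 - 317603122200 * x ^ 5 * y ^ 8 * a ^ 5 * b ^ 12 - 564582150 * x ^ 5 * y ^ 8 * b ^ 17 - 484742250 * x ^ 4 * y ^ 9 * a ^ 16 * b - 352892358000 * x ^ 4 * y ^ 9 * a ^ 6 * b ^ 11 - 5332164750 * x ^ 4 * y ^ 9 * a * b ^ 16 - 11405700 * x ^ 3 * y ^ 10 * a ^ 17 - 221818053600 * x ^ 3 * y ^ 10 * a ^ 7 * b ^ 10 - 17062927200 * x ^ 3 * y ^ 10 * a ^ 2 * b ^ 15 - 75619791000 * x ^ 2 * y ^ 11 * a ^ 8 * b ^ 9 - 23267628000 * x ^ 2 * y ^ 11 * a ^ 3 * b ^ 14 - 12603298500 * x * y ^ 12 * a ^ 9 * b ^ 8 - 13572783000 * x * y ^ 12 * a ^ 4 * b ^ 13 - 775587600 * y ^ 13 * a ^ 10 * b ^ 7 - 2714556600 * y ^ 13 * a ^ 5 * b ^ 12 + 119759850 * y ^ 13 * b ^ 17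

/-- polar coefficient `j = 18` of `kT` -/
def pT_18 (x y a b : R) : R :=
  86493225 * x ^ 12 * a ^ 18 + 2714556600 * x ^ 12 * a ^ 13 * b ^ 5 - 1260329850 * x ^ 12 * a ^ 8 * b ^ 10 + 11633814000 * x ^ 11 * y * a ^ 14 * b ^ 4 - 16804398000 * x ^ 11 * y * a ^ 9 * b ^ 9 + 17062927200 * x ^ 10 * y ^ 2 * a ^ 15 * b ^ 3 - 83181770100 * x ^ 10 * y ^ 2 * a ^ 10 * b ^ 8 - 1900950 * x ^ 10 * y ^ 2 * b ^ 18 + 10664329500 * x ^ 9 * y ^ 3 * a ^ 16 * b ^ 2 - 201652776000 * x ^ 9 * y ^ 3 * a ^ 11 * b ^ 7 - 114057000 * x ^ 9 * y ^ 3 * a * b ^ 17 + 2822910750 * x ^ 8 * y ^ 4 * a ^ 17 * b - 264669268500 * x ^ 8 * y ^ 4 * a ^ 12 * b ^ 6 - 2181340125 * x ^ 8 * y ^ 4 * a ^ 2 * b ^ 16 + 250925400 * x ^ 7 * y ^ 5 * a ^ 18 - 195448075200 * x ^ 7 * y ^ 5 * a ^ 13 * b ^ 5 - 18614102400 * x ^ 7 * y ^ 5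 * a ^ 3 * b ^ 15 - 81436698000 * x ^ 6 * y ^ 6 * a ^ 14 * b ^ 4 - 81436698000 * x ^ 6 * y ^ 6 * a ^ 4 * b ^ 14 - 18614102400 * x ^ 5 * y ^ 7 * a ^ 15 * b ^ 3 - 195448075200 * x ^ 5 * y ^ 7 * a ^ 5 * b ^ 13 - 250925400 * x ^ 5 * y ^ 7 * b ^ 18 - 2181340125 * x ^ 4 * y ^ 8 * a ^ 16 * b ^ 2 - 264669268500 * x ^ 4 * y ^ 8 * a ^ 6 * b ^ 12 - 2822910750 * x ^ 4 * y ^ 8 * a * b ^ 17 - 114057000 * x ^ 3 * y ^ 9 * a ^ 17 * b - 201652776000 * x ^ 3 * y ^ 9 * a ^ 7 * b ^ 11 - 10664329500 * x ^ 3 * y ^ 9 * a ^ 2 * b ^ 16 - 1900950 * x ^ 2 * y ^ 10 * a ^ 18 - 83181770100 * x ^ 2 * y ^ 10 * a ^ 8 * b ^ 10 - 17062927200 * x ^ 2 * y ^ 10 * a ^ 3 * b ^ 15 - 16804398000 * x * y ^ 11 * a ^ 9 * b ^ 9 - 11633814000 * x * y ^ 11 * a ^ 4 * b ^ 14 - 1260329850 * y ^ 12 * a ^ 10 * b ^ 8 - 2714556600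 * y ^ 12 * a ^ 5 * b ^ 13 + 86493225 * y ^ 12 * b ^ 18

/-- polar coefficient `j = 19` of `kT` -/
def pT_19 (x y a b : R) : R :=
  54627300 * x ^ 11 * a ^ 19 + 2326762800 * x ^ 11 * a ^ 14 * b ^ 5 - 1680439800 * x ^ 11 * a ^ 9 * b ^ 10 + 8531463600 * x ^ 10 * y * a ^ 15 * b ^ 4 - 18484837800 * x ^ 10 * y * a ^ 10 * b ^ 9 - 200100 * x ^ 10 * y * b ^ 19 + 10664329500 * x ^ 9 * y ^ 2 * a ^ 16 * b ^ 3 - 75619791000 * x ^ 9 * y ^ 2 * a ^ 11 * b ^ 8 - 19009500 * x ^ 9 * y ^ 2 * a * b ^ 18 + 5645821500 * x ^ 8 * y ^ 3 * a ^ 17 * b ^ 2 - 151239582000 * x ^ 8 * y ^ 3 * a ^ 12 * b ^ 7 - 513256500 * x ^ 8 * y ^ 3 * a ^ 2 * b ^ 17 + 1254627000 * x ^ 7 * y ^ 4 * a ^ 18 * b - 162873396000 * x ^ 7 * y ^ 4 * a ^ 13 * b ^ 6 - 5816907000 * x ^ 7 * y ^ 4 * a ^ 3 * b ^ 16 + 92446200 * x ^ 6 * y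 ^ 5 * a ^ 19 - 97724037600 * x ^ 6 * y ^ 5 * a ^ 14 * b ^ 5 - 32574679200 * x ^ 6 * y ^ 5 * a ^ 4 * b ^ 15 - 32574679200 * x ^ 5 * y ^ 6 * a ^ 15 * b ^ 4 - 97724037600 * x ^ 5 * y ^ 6 * a ^ 5 * b ^ 14 - 92446200 * x ^ 5 * y ^ 6 * b ^ 19 - 5816907000 * x ^ 4 * y ^ 7 * a ^ 16 * b ^ 3 - 162873396000 * x ^ 4 * y ^ 7 * a ^ 6 * b ^ 13 - 1254627000 * x ^ 4 * y ^ 7 * a * b ^ 18 - 513256500 * x ^ 3 * y ^ 8 * a ^ 17 * b ^ 2 - 151239582000 * x ^ 3 * y ^ 8 * a ^ 7 * b ^ 12 - 5645821500 * x ^ 3 * y ^ 8 * a ^ 2 * b ^ 17 - 19009500 * x ^ 2 * y ^ 9 * a ^ 18 * b - 75619791000 * x ^ 2 * y ^ 9 * a ^ 8 * b ^ 11 - 10664329500 * x ^ 2 * y ^ 9 * a ^ 3 * b ^ 16 - 200100 * x * y ^ 10 * a ^ 19 - 18484837800 * x * y ^ 10 * a ^ 9 * b ^ 10 - 8531463600 * x * y ^ 10 * a ^ 4 * b ^ 15 - 1680439800 * y ^ 11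 * a ^ 10 * b ^ 9 - 2326762800 * y ^ 11 * a ^ 5 * b ^ 14 + 54627300 * y ^ 11 * b ^ 19

/-- polar coefficient `j = 20` of `kT` -/
def pT_20 (x y a b : R) : R :=
  30045015 * x ^ 10 * a ^ 20 + 1706292720 * x ^ 10 * a ^ 15 * b ^ 5 - 1848483780 * x ^ 10 * a ^ 10 * b ^ 10 - 10005 * x ^ 10 * b ^ 20 + 5332164750 * x ^ 9 * y * a ^ 16 * b ^ 4 - 16804398000 * x ^ 9 * y * a ^ 11 * b ^ 9 - 2001000 * x ^ 9 * y * a * b ^ 19 + 5645821500 * x ^ 8 * y ^ 2 * a ^ 17 * b ^ 3 - 56714843250 * x ^ 8 * y ^ 2 * a ^ 12 * b ^ 8 - 85542750 * x ^ 8 * y ^ 2 * a ^ 2 * b ^ 18 + 2509254000 * x ^ 7 * y ^ 3 * a ^ 18 * b ^ 2 - 93070512000 * x ^ 7 * y ^ 3 * a ^ 13 * b ^ 7 - 1368684000 * x ^ 7 * y ^ 3 * a ^ 3 * b ^ 17 + 462231000 * x ^ 6 * y ^ 4 * a ^ 19 * b - 81436698000 * x ^ 6 * y ^ 4 * a ^ 14 * b ^ 6 - 10179587250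 * x ^ 6 * y ^ 4 * a ^ 4 * b ^ 16 + 27733860 * x ^ 5 * y ^ 5 * a ^ 20 - 39089615040 * x ^ 5 * y ^ 5 * a ^ 15 * b ^ 5 - 39089615040 * x ^ 5 * y ^ 5 * a ^ 5 * b ^ 15 - 27733860 * x ^ 5 * y ^ 5 * b ^ 20 - 10179587250 * x ^ 4 * y ^ 6 * a ^ 16 * b ^ 4 - 81436698000 * x ^ 4 * y ^ 6 * a ^ 6 * b ^ 14 - 462231000 * x ^ 4 * y ^ 6 * a * b ^ 19 - 1368684000 * x ^ 3 * y ^ 7 * a ^ 17 * b ^ 3 - 93070512000 * x ^ 3 * y ^ 7 * a ^ 7 * b ^ 13 - 2509254000 * x ^ 3 * y ^ 7 * a ^ 2 * b ^ 18 - 85542750 * x ^ 2 * y ^ 8 * a ^ 18 * b ^ 2 - 56714843250 * x ^ 2 * y ^ 8 * a ^ 8 * b ^ 12 - 5645821500 * x ^ 2 * y ^ 8 * a ^ 3 * b ^ 17 - 2001000 * x * y ^ 9 * a ^ 19 * b - 16804398000 * x * y ^ 9 * a ^ 9 * b ^ 11 - 5332164750 * x * y ^ 9 * a ^ 4 * b ^ 16 - 10005 * y ^ 10 * a ^ 20 - 1848483780 * y ^ 10 * a ^ 10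 * b ^ 10 - 1706292720 * y ^ 10 * a ^ 5 * b ^ 15 + 30045015 * y ^ 10 * b ^ 20

/-- polar coefficient `j = 21` of `kT` -/
def pT_21 (x y a b : R) : R :=
  14307150 * x ^ 9 * a ^ 21 + 1066432950 * x ^ 9 * a ^ 16 * b ^ 5 - 1680439800 * x ^ 9 * a ^ 11 * b ^ 10 - 100050 * x ^ 9 * a * b ^ 20 + 2822910750 * x ^ 8 * y * a ^ 17 * b ^ 4 - 12603298500 * x ^ 8 * y * a ^ 12 * b ^ 9 - 9004500 * x ^ 8 * y * a ^ 2 * b ^ 19 + 2509254000 * x ^ 7 * y ^ 2 * a ^ 18 * b ^ 3 - 34901442000 * x ^ 7 * y ^ 2 * a ^ 13 * b ^ 8 - 228114000 * x ^ 7 * y ^ 2 * a ^ 3 * b ^ 18 + 924462000 * x ^ 6 * y ^ 3 * a ^ 19 * b ^ 2 - 46535256000 * x ^ 6 * y ^ 3 * a ^ 14 * b ^ 7 - 2395197000 * x ^ 6 * y ^ 3 * a ^ 4 * b ^ 17 + 138669300 * x ^ 5 * y ^ 4 * a ^ 20 * b - 32574679200 * x ^ 5 * y ^ 4 * a ^ 15 * b ^ 6 - 12215504700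 * x ^ 5 * y ^ 4 * a ^ 5 * b ^ 16 - 6603300 * x ^ 5 * y ^ 4 * b ^ 21 + 6603300 * x ^ 4 * y ^ 5 * a ^ 21 - 12215504700 * x ^ 4 * y ^ 5 * a ^ 16 * b ^ 5 - 32574679200 * x ^ 4 * y ^ 5 * a ^ 6 * b ^ 15 - 138669300 * x ^ 4 * y ^ 5 * a * b ^ 20 - 2395197000 * x ^ 3 * y ^ 6 * a ^ 17 * b ^ 4 - 46535256000 * x ^ 3 * y ^ 6 * a ^ 7 * b ^ 14 - 924462000 * x ^ 3 * y ^ 6 * a ^ 2 * b ^ 19 - 228114000 * x ^ 2 * y ^ 7 * a ^ 18 * b ^ 3 - 34901442000 * x ^ 2 * y ^ 7 * a ^ 8 * b ^ 13 - 2509254000 * x ^ 2 * y ^ 7 * a ^ 3 * b ^ 18 - 9004500 * x * y ^ 8 * a ^ 19 * b ^ 2 - 12603298500 * x * y ^ 8 * a ^ 9 * b ^ 12 - 2822910750 * x * y ^ 8 * a ^ 4 * b ^ 17 - 100050 * y ^ 9 * a ^ 20 * b - 1680439800 * y ^ 9 * a ^ 10 * b ^ 11 - 1066432950 * y ^ 9 * a ^ 5 * b ^ 16 + 14307150 * y ^ 9 * b ^ 21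

/-- polar coefficient `j = 22` of `kT` -/
def pT_22 (x y a b : R) : R :=
  5852925 * x ^ 8 * a ^ 22 + 564582150 * x ^ 8 * a ^ 17 * b ^ 5 - 1260329850 * x ^ 8 * a ^ 12 * b ^ 10 - 450225 * x ^ 8 * a ^ 2 * b ^ 20 + 1254627000 * x ^ 7 * y * a ^ 18 * b ^ 4 - 7755876000 * x ^ 7 * y * a ^ 13 * b ^ 9 - 24012000 * x ^ 7 * y * a ^ 3 * b ^ 19 + 924462000 * x ^ 6 * y ^ 2 * a ^ 19 * b ^ 3 - 17450721000 * x ^ 6 * y ^ 2 * a ^ 14 * b ^ 8 - 399199500 * x ^ 6 * y ^ 2 * a ^ 4 * b ^ 18 + 277338600 * x ^ 5 * y ^ 3 * a ^ 20 * b ^ 2 - 18614102400 * x ^ 5 * y ^ 3 * a ^ 15 * b ^ 7 - 2874236400 * x ^ 5 * y ^ 3 * a ^ 5 * b ^ 17 - 1200600 * x ^ 5 * y ^ 3 * b ^ 22 + 33016500 * x ^ 4 * y ^ 4 * a ^ 21 * b - 10179587250 * x ^ 4 * y ^ 4 * a ^ 16 * b ^ 6 - 10179587250 * x ^ 4 * y ^ 4 * a ^ 6 * b ^ 16 - 33016500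 * x ^ 4 * y ^ 4 * a * b ^ 21 + 1200600 * x ^ 3 * y ^ 5 * a ^ 22 - 2874236400 * x ^ 3 * y ^ 5 * a ^ 17 * b ^ 5 - 18614102400 * x ^ 3 * y ^ 5 * a ^ 7 * b ^ 15 - 277338600 * x ^ 3 * y ^ 5 * a ^ 2 * b ^ 20 - 399199500 * x ^ 2 * y ^ 6 * a ^ 18 * b ^ 4 - 17450721000 * x ^ 2 * y ^ 6 * a ^ 8 * b ^ 14 - 924462000 * x ^ 2 * y ^ 6 * a ^ 3 * b ^ 19 - 24012000 * x * y ^ 7 * a ^ 19 * b ^ 3 - 7755876000 * x * y ^ 7 * a ^ 9 * b ^ 13 - 1254627000 * x * y ^ 7 * a ^ 4 * b ^ 18 - 450225 * y ^ 8 * a ^ 20 * b ^ 2 - 1260329850 * y ^ 8 * a ^ 10 * b ^ 12 - 564582150 * y ^ 8 * a ^ 5 * b ^ 17 + 5852925 * y ^ 8 * b ^ 22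

/-- polar coefficient `j = 23` of `kT` -/
def pT_23 (x y a b : R) : R :=
  2035800 * x ^ 7 * a ^ 23 + 250925400 * x ^ 7 * a ^ 18 * b ^ 5 - 775587600 * x ^ 7 * a ^ 13 * b ^ 10 - 1200600 * x ^ 7 * a ^ 3 * b ^ 20 + 462231000 * x ^ 6 * y * a ^ 19 * b ^ 4 - 3877938000 * x ^ 6 * y * a ^ 14 * b ^ 9 - 42021000 * x ^ 6 * y * a ^ 4 * b ^ 19 + 277338600 * x ^ 5 * y ^ 2 * a ^ 20 * b ^ 3 - 6980288400 * x ^ 5 * y ^ 2 * a ^ 15 * b ^ 8 - 479039400 * x ^ 5 * y ^ 2 * a ^ 5 * b ^ 18 - 156600 * x ^ 5 * y ^ 2 * b ^ 23 + 66033000 * x ^ 4 * y ^ 3 * a ^ 21 * b ^ 2 - 5816907000 * x ^ 4 * y ^ 3 * a ^ 16 * b ^ 7 - 2395197000 * x ^ 4 * y ^ 3 * a ^ 6 * b ^ 17 - 6003000 * x ^ 4 * y ^ 3 * a * b ^ 22 + 6003000 * x ^ 3 * y ^ 4 * a ^ 22 * b - 2395197000 * x ^ 3 * y ^ 4 * a ^ 17 * b ^ 6 - 5816907000 * x ^ 3 *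 y ^ 4 * a ^ 7 * b ^ 16 - 66033000 * x ^ 3 * y ^ 4 * a ^ 2 * b ^ 21 + 156600 * x ^ 2 * y ^ 5 * a ^ 23 - 479039400 * x ^ 2 * y ^ 5 * a ^ 18 * b ^ 5 - 6980288400 * x ^ 2 * y ^ 5 * a ^ 8 * b ^ 15 - 277338600 * x ^ 2 * y ^ 5 * a ^ 3 * b ^ 20 - 42021000 * x * y ^ 6 * a ^ 19 * b ^ 4 - 3877938000 * x * y ^ 6 * a ^ 9 * b ^ 14 - 462231000 * x * y ^ 6 * a ^ 4 * b ^ 19 - 1200600 * y ^ 7 * a ^ 20 * b ^ 3 - 775587600 * y ^ 7 * a ^ 10 * b ^ 13 - 250925400 * y ^ 7 * a ^ 5 * b ^ 18 + 2035800 * y ^ 7 * b ^ 23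

/-- polar coefficient `j = 24` of `kT` -/
def pT_24 (x y a b : R) : R :=
  593775 * x ^ 6 * a ^ 24 + 92446200 * x ^ 6 * a ^ 19 * b ^ 5 - 387793800 * x ^ 6 * a ^ 14 * b ^ 10 - 2101050 * x ^ 6 * a ^ 4 * b ^ 20 + 138669300 * x ^ 5 * y * a ^ 20 * b ^ 4 - 1551175200 * x ^ 5 * y * a ^ 15 * b ^ 9 - 50425200 * x ^ 5 * y * a ^ 5 * b ^ 19 - 13050 * x ^ 5 * y * b ^ 24 + 66033000 * x ^ 4 * y ^ 2 * a ^ 21 * b ^ 3 - 2181340125 * x ^ 4 * y ^ 2 * a ^ 16 * b ^ 8 - 399199500 * x ^ 4 * y ^ 2 * a ^ 6 * b ^ 18 - 783000 * x ^ 4 * y ^ 2 * a * b ^ 23 + 12006000 * x ^ 3 * y ^ 3 * a ^ 22 * b ^ 2 - 1368684000 * x ^ 3 * y ^ 3 * a ^ 17 * b ^ 7 - 1368684000 * x ^ 3 * y ^ 3 * a ^ 7 * b ^ 17 - 12006000 * x ^ 3 * y ^ 3 * a ^ 2 * b ^ 22 + 783000 * x ^ 2 * y ^ 4 * a ^ 23 * b - 399199500 * x ^ 2 * y ^ 4 * a ^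 18 * b ^ 6 - 2181340125 * x ^ 2 * y ^ 4 * a ^ 8 * b ^ 16 - 66033000 * x ^ 2 * y ^ 4 * a ^ 3 * b ^ 21 + 13050 * x * y ^ 5 * a ^ 24 - 50425200 * x * y ^ 5 * a ^ 19 * b ^ 5 - 1551175200 * x * y ^ 5 * a ^ 9 * b ^ 15 - 138669300 * x * y ^ 5 * a ^ 4 * b ^ 20 - 2101050 * y ^ 6 * a ^ 20 * b ^ 4 - 387793800 * y ^ 6 * a ^ 10 * b ^ 14 - 92446200 * y ^ 6 * a ^ 5 * b ^ 19 + 593775 * y ^ 6 * b ^ 24

/-- polar coefficient `j = 25` of `kT` -/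
def pT_25 (x y a b : R) : R :=
  142506 * x ^ 5 * a ^ 25 + 27733860 * x ^ 5 * a ^ 20 * b ^ 5 - 155117520 * x ^ 5 * a ^ 15 * b ^ 10 - 2521260 * x ^ 5 * a ^ 5 * b ^ 20 - 522 * x ^ 5 * b ^ 25 + 33016500 * x ^ 4 * y * a ^ 21 * b ^ 4 - 484742250 * x ^ 4 * y * a ^ 16 * b ^ 9 - 42021000 * x ^ 4 * y * a ^ 6 * b ^ 19 - 65250 * x ^ 4 * y * a * b ^ 24 + 12006000 * x ^ 3 * y ^ 2 * a ^ 22 * b ^ 3 - 513256500 * x ^ 3 * y ^ 2 * a ^ 17 * b ^ 8 - 228114000 * x ^ 3 * y ^ 2 * a ^ 7 * b ^ 18 - 1566000 * x ^ 3 * y ^ 2 * a ^ 2 * b ^ 23 + 1566000 * x ^ 2 * y ^ 3 * a ^ 23 * b ^ 2 - 228114000 * x ^ 2 * y ^ 3 * a ^ 18 * b ^ 7 - 513256500 * x ^ 2 * y ^ 3 * a ^ 8 * b ^ 17 - 12006000 * x ^ 2 * y ^ 3 * a ^ 3 * b ^ 22 + 65250 * x * y ^ 4 * a ^ 24 * b - 42021000 * x * y ^ 4 * a ^ 19 * b ^ 6 - 484742250 * x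 * y ^ 4 * a ^ 9 * b ^ 16 - 33016500 * x * y ^ 4 * a ^ 4 * b ^ 21 + 522 * y ^ 5 * a ^ 25 - 2521260 * y ^ 5 * a ^ 20 * b ^ 5 - 155117520 * y ^ 5 * a ^ 10 * b ^ 15 - 27733860 * y ^ 5 * a ^ 5 * b ^ 20 + 142506 * y ^ 5 * b ^ 25

/-- polar coefficient `j = 26` of `kT` -/
def pT_26 (x y a b : R) : R :=
  27405 * x ^ 4 * a ^ 26 + 6603300 * x ^ 4 * a ^ 21 * b ^ 5 - 48474225 * x ^ 4 * a ^ 16 * b ^ 10 - 2101050 * x ^ 4 * a ^ 6 * b ^ 20 - 2610 * x ^ 4 * a * b ^ 25 + 6003000 * x ^ 3 * y * a ^ 22 * b ^ 4 - 114057000 * x ^ 3 * y * a ^ 17 * b ^ 9 - 24012000 * x ^ 3 * y * a ^ 7 * b ^ 19 - 130500 * x ^ 3 * y * a ^ 2 * b ^ 24 + 1566000 * x ^ 2 * y ^ 2 * a ^ 23 * b ^ 3 - 85542750 * x ^ 2 * y ^ 2 * a ^ 18 * b ^ 8 - 85542750 * x ^ 2 * y ^ 2 * a ^ 8 * b ^ 18 - 1566000 * x ^ 2 * y ^ 2 * a ^ 3 * b ^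 23 + 130500 * x * y ^ 3 * a ^ 24 * b ^ 2 - 24012000 * x * y ^ 3 * a ^ 19 * b ^ 7 - 114057000 * x * y ^ 3 * a ^ 9 * b ^ 17 - 6003000 * x * y ^ 3 * a ^ 4 * b ^ 22 + 2610 * y ^ 4 * a ^ 25 * b - 2101050 * y ^ 4 * a ^ 20 * b ^ 6 - 48474225 * y ^ 4 * a ^ 10 * b ^ 16 - 6603300 * y ^ 4 * a ^ 5 * b ^ 21 + 27405 * y ^ 4 * b ^ 26

/-- polar coefficient `j = 27` of `kT` -/
def pT_27 (x y a b : R) : R :=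
  4060 * x ^ 3 * a ^ 27 + 1200600 * x ^ 3 * a ^ 22 * b ^ 5 - 11405700 * x ^ 3 * a ^ 17 * b ^ 10 - 1200600 * x ^ 3 * a ^ 7 * b ^ 20 - 5220 * x ^ 3 * a ^ 2 * b ^ 25 + 783000 * x ^ 2 * y * a ^ 23 * b ^ 4 - 19009500 * x ^ 2 * y * a ^ 18 * b ^ 9 - 9004500 * x ^ 2 * y * a ^ 8 * b ^ 19 - 130500 * x ^ 2 * y * a ^ 3 * b ^ 24 + 130500 * x * y ^ 2 * a ^ 24 * b ^ 3 - 9004500 * x * y ^ 2 * a ^ 19 * b ^ 8 - 19009500 * x * y ^ 2 * a ^ 9 * b ^ 18 - 783000 * x * y ^ 2 * a ^ 4 * b ^ 23 + 5220 * y ^ 3 * a ^ 25 * b ^ 2 - 1200600 * y ^ 3 * a ^ 20 * b ^ 7 - 11405700 * y ^ 3 * a ^ 10 * b ^ 17 - 1200600 * y ^ 3 * a ^ 5 * b ^ 22 + 4060 * y ^ 3 * b ^ 27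

/-- polar coefficient `j = 28` of `kT` -/
def pT_28 (x y a b : R) : R :=
  435 * x ^ 2 * a ^ 28 + 156600 * x ^ 2 * a ^ 23 * b ^ 5 - 1900950 * x ^ 2 * a ^ 18 * b ^ 10 - 450225 * x ^ 2 * a ^ 8 * b ^ 20 - 5220 * x ^ 2 * a ^ 3 * b ^ 25 + 65250 * x * y * a ^ 24 * b ^ 4 - 2001000 * x * y * a ^ 19 * b ^ 9 - 2001000 * x * y * a ^ 9 * b ^ 19 - 65250 * x * y * a ^ 4 * b ^ 24 + 5220 * y ^ 2 * a ^ 25 * b ^ 3 - 450225 * y ^ 2 * a ^ 20 * b ^ 8 - 1900950 * y ^ 2 * a ^ 10 * b ^ 18 - 156600 * y ^ 2 * a ^ 5 * b ^ 23 + 435 * y ^ 2 * b ^ 28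

/-- polar coefficient `j = 29` of `kT` -/
def pT_29 (x y a b : R) : R :=
  30 * x * a ^ 29 + 13050 * x * a ^ 24 * b ^ 5 - 200100 * x * a ^ 19 * b ^ 10 - 100050 * x * a ^ 9 * b ^ 20 - 2610 * x * a ^ 4 * b ^ 25 + 2610 * y * a ^ 25 * b ^ 4 - 100050 * y * a ^ 20 * b ^ 9 - 200100 * y * a ^ 10 * b ^ 19 - 13050 * y * a ^ 5 * b ^ 24 + 30 * y * b ^ 29

/-- polar coefficient `j = 30` of `kT` -/
def pT_30 (x y a b : R) : R :=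
  a ^ 30 + 522 * a ^ 25 * b ^ 5 - 10005 * a ^ 20 * b ^ 10 - 10005 * a ^ 10 * b ^ 20 - 522 * a ^ 5 * b ^ 25 + b ^ 30

theorem kT_polar (x y a b m n : R) :
    kT (m * x + n * a) (m * y + n * b) =
      m ^ 30 * pT_0 x y a b +
      m ^ 29 * n * pT_1 x y a b +
      m ^ 28 * n ^ 2 * pT_2 x y a b +
      m ^ 27 * n ^ 3 * pT_3 x y a b +
      m ^ 26 * n ^ 4 * pT_4 x y a b +
      m ^ 25 * n ^ 5 * pT_5 x y a b +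
      m ^ 24 * n ^ 6 * pT_6 x y a b +
      m ^ 23 * n ^ 7 * pT_7 x y a b +
      m ^ 22 * n ^ 8 * pT_8 x y a b +
      m ^ 21 * n ^ 9 * pT_9 x y a b +
      m ^ 20 * n ^ 10 * pT_10 x y a b +
      m ^ 19 * n ^ 11 * pT_11 x y a b +
      m ^ 18 * n ^ 12 * pT_12 x y a b +
      m ^ 17 * n ^ 13 * pT_13 x y a b +
      m ^ 16 * n ^ 14 * pT_14 x y a b +
      m ^ 15 * n ^ 15 * pT_15 x y a b +
      m ^ 14 * n ^ 16 * pT_16 x y a b +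
      m ^ 13 * n ^ 17 * pT_17 x y a b +
      m ^ 12 * n ^ 18 * pT_18 x y a b +
      m ^ 11 * n ^ 19 * pT_19 x y a b +
      m ^ 10 * n ^ 20 * pT_20 x y a b +
      m ^ 9 * n ^ 21 * pT_21 x y a b +
      m ^ 8 * n ^ 22 * pT_22 x y a b +
      m ^ 7 * n ^ 23 * pT_23 x y a b +
      m ^ 6 * n ^ 24 * pT_24 x y a b +
      m ^ 5 * n ^ 25 * pT_25 x y a b +
      m ^ 4 * n ^ 26 * pT_26 x y a b +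
      m ^ 3 * n ^ 27 * pT_27 x y a b +
      m ^ 2 * n ^ 28 * pT_28 x y a b +
      m * n ^ 29 * pT_29 x y a b +
      n ^ 30 * pT_30 x y a b := by
  simp only [kT, pT_0, pT_1, pT_2, pT_3, pT_4, pT_5, pT_6, pT_7, pT_8, pT_9, pT_10, pT_11, pT_12, pT_13, pT_14, pT_15, pT_16, pT_17, pT_18, pT_19, pT_20, pT_21, pT_22, pT_23, pT_24, pT_25, pT_26, pT_27, pT_28, pT_29, pT_30]
  ring

set_option maxHeartbeats 1600000 in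
theorem coef_T_0 (x y : R) :
    -pT_0 x y (wX x y) (wY x y) = aC6_0 (-kH x y) (-kT x y) := by
  simp only [pT_0, aC6_0, kf, kH, kT, wX, wY]
  ring

set_option maxHeartbeats 1600000 in
theorem coef_T_1 (x y : R) :
    -pT_1 x y (wX x y) (wY x y) = aC6_1 (-kH x y) (-kT x y) := by
  simp only [pT_1, aC6_1, kf, kH, kT, wX, wY]
  ring

set_option maxHeartbeats 1600000 in
theorem coef_T_2 (x y : R) :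
    -pT_2 x y (wX x y) (wY x y) = aC6_2 (-kH x y) (-kT x y) := by
  simp only [pT_2, aC6_2, kf, kH, kT, wX, wY]
  ring

set_option maxHeartbeats 1600000 in
theorem coef_T_3 (x y : R) :
    -pT_3 x y (wX x y) (wY x y) = aC6_3 (-kH x y) (-kT x y) := by
  simp only [pT_3, aC6_3, kf, kH, kT, wX, wY]
  ring

set_option maxHeartbeats 1600000 in
theorem coef_T_4 (x y : R) :
    -pT_4 x y (wX x y) (wY x y) = aC6_4 (-kH x y) (-kT x y) := by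
  simp only [pT_4, aC6_4, kf, kH, kT, wX, wY]
  ring

set_option maxHeartbeats 1600000 in
theorem coef_T_5 (x y : R) :
    -pT_5 x y (wX x y) (wY x y) = aC6_5 (-kH x y) (-kT x y) := by
  simp only [pT_5, aC6_5, kf, kH, kT, wX, wY]
  ring

set_option maxHeartbeats 1600000 in
theorem coef_T_6 (x y : R) :
    -pT_6 x y (wX x y) (wY x y) = aC6_6 (-kH x y) (-kT x y) := by
  simp only [pT_6, aC6_6, kf, kH, kT, wX, wY]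
  ring

set_option maxHeartbeats 1600000 in
theorem coef_T_7 (x y : R) :
    -pT_7 x y (wX x y) (wY x y) = aC6_7 (-kH x y) (-kT x y) := by
  simp only [pT_7, aC6_7, kf, kH, kT, wX, wY]
  ring

set_option maxHeartbeats 1600000 in
theorem coef_T_8 (x y : R) :
    -pT_8 x y (wX x y) (wY x y) = aC6_8 (-kH x y) (-kT x y) := by
  simp only [pT_8, aC6_8, kf, kH, kT, wX, wY]
  ring

set_option maxHeartbeats 1600000 in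
theorem coef_T_9 (x y : R) :
    -pT_9 x y (wX x y) (wY x y) = aC6_9 (-kH x y) (-kT x y) := by
  simp only [pT_9, aC6_9, kf, kH, kT, wX, wY]
  ring

set_option maxHeartbeats 1600000 in
theorem coef_T_10 (x y : R) :
    -pT_10 x y (wX x y) (wY x y) = aC6_10 (-kH x y) (-kT x y) := by
  simp only [pT_10, aC6_10, kf, kH, kT, wX, wY]
  ring

set_option maxHeartbeats 1600000 in
theorem coef_T_11 (x y : R) :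
    -pT_11 x y (wX x y) (wY x y) = aC6_11 (-kH x y) (-kT x y) := by
  simp only [pT_11, aC6_11, kf, kH, kT, wX, wY]
  ring

set_option maxHeartbeats 1600000 in
theorem coef_T_12 (x y : R) :
    -pT_12 x y (wX x y) (wY x y) = aC6_12 (-kH x y) (-kT x y) := by
  simp only [pT_12, aC6_12, kf, kH, kT, wX, wY]
  ring

set_option maxHeartbeats 1600000 in
theorem coef_T_13 (x y : R) :
    -pT_13 x y (wX x y) (wY x y) = aC6_13 (-kH x y) (-kT x y) := by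
  simp only [pT_13, aC6_13, kf, kH, kT, wX, wY]
  ring

set_option maxHeartbeats 1600000 in
theorem coef_T_14 (x y : R) :
    -pT_14 x y (wX x y) (wY x y) = aC6_14 (-kH x y) (-kT x y) := by
  simp only [pT_14, aC6_14, kf, kH, kT, wX, wY]
  ring

set_option maxHeartbeats 1600000 in
theorem coef_T_15 (x y : R) :
    -pT_15 x y (wX x y) (wY x y) = aC6_15 (-kH x y) (-kT x y) := by
  simp only [pT_15, aC6_15, kf, kH, kT, wX, wY]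
  ring

set_option maxHeartbeats 1600000 in
theorem coef_T_16 (x y : R) :
    -pT_16 x y (wX x y) (wY x y) = aC6_16 (-kH x y) (-kT x y) := by
  simp only [pT_16, aC6_16, kf, kH, kT, wX, wY]
  ring

set_option maxHeartbeats 1600000 in
theorem coef_T_17 (x y : R) :
    -pT_17 x y (wX x y) (wY x y) = aC6_17 (-kH x y) (-kT x y) := by
  simp only [pT_17, aC6_17, kf, kH, kT, wX, wY]
  ring

set_option maxHeartbeats 1600000 in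
theorem coef_T_18 (x y : R) :
    -pT_18 x y (wX x y) (wY x y) = aC6_18 (-kH x y) (-kT x y) := by
  simp only [pT_18, aC6_18, kf, kH, kT, wX, wY]
  ring

set_option maxHeartbeats 1600000 in
theorem coef_T_19 (x y : R) :
    -pT_19 x y (wX x y) (wY x y) = aC6_19 (-kH x y) (-kT x y) := by
  simp only [pT_19, aC6_19, kf, kH, kT, wX, wY]
  ring

set_option maxHeartbeats 1600000 in
theorem coef_T_20 (x y : R) :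
    -pT_20 x y (wX x y) (wY x y) = aC6_20 (-kH x y) (-kT x y) := by
  simp only [pT_20, aC6_20, kf, kH, kT, wX, wY]
  ring

set_option maxHeartbeats 1600000 in
theorem coef_T_21 (x y : R) :
    -pT_21 x y (wX x y) (wY x y) = aC6_21 (-kH x y) (-kT x y) := by
  simp only [pT_21, aC6_21, kf, kH, kT, wX, wY]
  ring

set_option maxHeartbeats 1600000 in
theorem coef_T_22 (x y : R) :
    -pT_22 x y (wX x y) (wY x y) = aC6_22 (-kH x y) (-kT x y) := by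
  simp only [pT_22, aC6_22, kf, kH, kT, wX, wY]
  ring

set_option maxHeartbeats 1600000 in
theorem coef_T_23 (x y : R) :
    -pT_23 x y (wX x y) (wY x y) = aC6_23 (-kH x y) (-kT x y) := by
  simp only [pT_23, aC6_23, kf, kH, kT, wX, wY]
  ring

set_option maxHeartbeats 1600000 in
theorem coef_T_24 (x y : R) :
    -pT_24 x y (wX x y) (wY x y) = aC6_24 (-kH x y) (-kT x y) := by
  simp only [pT_24, aC6_24, kf, kH, kT, wX, wY]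
  ring

set_option maxHeartbeats 1600000 in
theorem coef_T_25 (x y : R) :
    -pT_25 x y (wX x y) (wY x y) = aC6_25 (-kH x y) (-kT x y) := by
  simp only [pT_25, aC6_25, kf, kH, kT, wX, wY]
  ring

set_option maxHeartbeats 1600000 in
theorem coef_T_26 (x y : R) :
    -pT_26 x y (wX x y) (wY x y) = aC6_26 (-kH x y) (-kT x y) := by
  simp only [pT_26, aC6_26, kf, kH, kT, wX, wY]
  ring

set_option maxHeartbeats 1600000 in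
theorem coef_T_27 (x y : R) :
    -pT_27 x y (wX x y) (wY x y) = aC6_27 (-kH x y) (-kT x y) := by
  simp only [pT_27, aC6_27, kf, kH, kT, wX, wY]
  ring

set_option maxHeartbeats 1600000 in
theorem coef_T_28 (x y : R) :
    -pT_28 x y (wX x y) (wY x y) = aC6_28 (-kH x y) (-kT x y) := by
  simp only [pT_28, aC6_28, kf, kH, kT, wX, wY]
  ring

set_option maxHeartbeats 1600000 in
theorem coef_T_29 (x y : R) :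
    -pT_29 x y (wX x y) (wY x y) = aC6_29 (-kH x y) (-kT x y) := by
  simp only [pT_29, aC6_29, kf, kH, kT, wX, wY]
  ring

set_option maxHeartbeats 1600000 in
theorem coef_T_30 (x y : R) :
    -pT_30 x y (wX x y) (wY x y) = aC6_30 (-kH x y) (-kT x y) := by
  simp only [pT_30, aC6_30, kf, kH, kT, wX, wY]
  ring

/-- covariance of the homogeneous family for `kT` -/
theorem cov_T_h (x y m n : R) :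
    -kT (m * x + n * wX x y) (m * y + n * wY x y) = famC6h (-kH x y) (-kT x y) m n := by
  rw [kT_polar]
  have h0 := coef_T_0 x y
  have h1 := coef_T_1 x y
  have h2 := coef_T_2 x y
  have h3 := coef_T_3 x y
  have h4 := coef_T_4 x y
  have h5 := coef_T_5 x y
  have h6 := coef_T_6 x y
  have h7 := coef_T_7 x y
  have h8 := coef_T_8 x y
  have h9 := coef_T_9 x y
  have h10 := coef_T_10 x y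
  have h11 := coef_T_11 x y
  have h12 := coef_T_12 x y
  have h13 := coef_T_13 x y
  have h14 := coef_T_14 x y
  have h15 := coef_T_15 x y
  have h16 := coef_T_16 x y
  have h17 := coef_T_17 x y
  have h18 := coef_T_18 x y
  have h19 := coef_T_19 x y
  have h20 := coef_T_20 x y
  have h21 := coef_T_21 x y
  have h22 := coef_T_22 x y
  have h23 := coef_T_23 x y
  have h24 := coef_T_24 x y
  have h25 := coef_T_25 x y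
  have h26 := coef_T_26 x y
  have h27 := coef_T_27 x y
  have h28 := coef_T_28 x y
  have h29 := coef_T_29 x y
  have h30 := coef_T_30 x y
  simp only [famC6h]
  linear_combination m ^ 30 * h0 + m ^ 29 * n * h1 + m ^ 28 * n ^ 2 * h2 + m ^ 27 * n ^ 3 * h3 + m ^ 26 * n ^ 4 * h4 + m ^ 25 * n ^ 5 * h5 + m ^ 24 * n ^ 6 * h6 + m ^ 23 * n ^ 7 * h7 + m ^ 22 * n ^ 8 * h8 + m ^ 21 * n ^ 9 * h9 + m ^ 20 * n ^ 10 * h10 + m ^ 19 * n ^ 11 * h11 + m ^ 18 * n ^ 12 * h12 + m ^ 17 * n ^ 13 * h13 + m ^ 16 * n ^ 14 * h14 + m ^ 15 * n ^ 15 * h15 + m ^ 14 * n ^ 16 * h16 + m ^ 13 * n ^ 17 * h17 + m ^ 12 * n ^ 18 * h18 + m ^ 11 * n ^ 19 * h19 + m ^ 10 * n ^ 20 * h20 + m ^ 9 * n ^ 21 * h21 + m ^ 8 * n ^ 22 * h22 + m ^ 7 * n ^ 23 * h23 + m ^ 6 * n ^ 24 * h24 + m ^ 5 * n ^ 25 * h25 + m ^ 4 * n ^ 26 *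 h26 + m ^ 3 * n ^ 27 * h27 + m ^ 2 * n ^ 28 * h28 + m * n ^ 29 * h29 + n ^ 30 * h30

end Fermat.Agent.S52.Fam
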