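import Fermat.Agent.S52.Fam.HomogRel

/-!
# S52, brick (Fam): the homogeneous family as integer polynomials in `k` (for brick Irr3)

`polyC4 c4 c6 N = famC4h (C c4) (C c6) X (C N) : ℤ[X]` etc.: the invariants of the member `(k, N)`
as polynomials in `k`.
-/

set_option autoImplicit false
set_option linter.unusedVariables false
set_option linter.unusedSimpArgs false

namespace Fermat.Agent.S52.Fam

open Polynomial

/-- `c4'(k)` as a polynomial in `k` -/
noncomputable def polyC4 (c4 c6 N : ℤ) : ℤ[X] := famC4h (C c4) (C c6) X (C N)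

/-- `c6'(k)` as a polynomial in `k` -/
noncomputable def polyC6 (c4 c6 N : ℤ) : ℤ[X] := famC6h (C c4) (C c6) X (C N)

/-- `D'(k)` as a polynomial in `k` -/
noncomputable def polyD (c4 c6 N : ℤ) : ℤ[X] := famDh (C c4) (C c6) X (C N)

theorem polyC4_eval (c4 c6 N k : ℤ) : (polyC4 c4 c6 N).eval k = famC4h c4 c6 k N := by
  have h := map_famC4h (Polynomial.evalRingHom k) (C c4) (C c6) X (C N)
  simpa [polyC4] using h

theorem polyC6_eval (c4 c6 N k : ℤ) : (polyC6 c4 c6 N).eval k = famC6h c4 c6 k N := by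
  have h := map_famC6h (Polynomial.evalRingHom k) (C c4) (C c6) X (C N)
  simpa [polyC6] using h

theorem polyD_eval (c4 c6 N k : ℤ) : (polyD c4 c6 N).eval k = famDh c4 c6 k N := by
  have h := map_famDh (Polynomial.evalRingHom k) (C c4) (C c6) X (C N)
  simpa [polyD] using h

theorem poly_rel (c4 c6 N : ℤ) :
    polyC4 c4 c6 N ^ 3 - polyC6 c4 c6 N ^ 2 = C (c4 ^ 3 - c6 ^ 2) * polyD c4 c6 N ^ 5 := by
  have h := fam_rel_h (C c4 : ℤ[X]) (C c6) X (C N)
  simp only [polyC4, polyC6, polyD, map_sub, map_pow]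
  exact h

theorem polyDr_natDegree_le (c4 c6 N : ℤ) :
    (famDhr (C c4 : ℤ[X]) (C c6) X (C N)).natDegree ≤ 11 := by
  simp only [famDhr, aD_1, aD_2, aD_3, aD_4, aD_5, aD_6, aD_7, aD_8, aD_9, aD_10, aD_11, aD_12]
  compute_degree

theorem polyD_eq (c4 c6 N : ℤ) :
    polyD c4 c6 N = 1 * X ^ 12 + C N * famDhr (C c4 : ℤ[X]) (C c6) X (C N) := by
  rw [polyD, famDh_eq]

theorem polyD_natDegree_le (c4 c6 N : ℤ) : (polyD c4 c6 N).natDegree ≤ 12 := by
  rw [polyD_eq]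
  have h := polyDr_natDegree_le c4 c6 N
  generalize famDhr (C c4 : ℤ[X]) (C c6) X (C N) = r at h ⊢
  refine (Polynomial.natDegree_add_le _ _).trans (max_le ?_ ?_)
  · rw [one_mul]; exact Polynomial.natDegree_X_pow_le _
  · exact (Polynomial.natDegree_C_mul_le _ _).trans (h.trans (by norm_num))

theorem polyD_coeff_top (c4 c6 N : ℤ) : (polyD c4 c6 N).coeff 12 = 1 := by
  rw [polyD_eq]
  have h := polyDr_natDegree_le c4 c6 N
  have h0 : (famDhr (C c4 : ℤ[X]) (C c6) X (C N)).coeff 12 = 0 :=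
    Polynomial.coeff_eq_zero_of_natDegree_lt (by omega)
  generalize famDhr (C c4 : ℤ[X]) (C c6) X (C N) = r at h h0 ⊢
  rw [Polynomial.coeff_add, Polynomial.coeff_C_mul, h0, mul_zero, add_zero, one_mul, Polynomial.coeff_X_pow_self]

theorem polyC4r_natDegree_le (c4 c6 N : ℤ) :
    (famC4hr (C c4 : ℤ[X]) (C c6) X (C N)).natDegree ≤ 19 := by
  simp only [famC4hr, aC4_1, aC4_2, aC4_3, aC4_4, aC4_5, aC4_6, aC4_7, aC4_8, aC4_9, aC4_10, aC4_11, aC4_12, aC4_13, aC4_14, aC4_15, aC4_16, aC4_17, aC4_18, aC4_19, aC4_20]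
  compute_degree

theorem polyC4_eq (c4 c6 N : ℤ) :
    polyC4 c4 c6 N = C c4 * X ^ 20 + C N * famC4hr (C c4 : ℤ[X]) (C c6) X (C N) := by
  rw [polyC4, famC4h_eq]

theorem polyC4_natDegree_le (c4 c6 N : ℤ) : (polyC4 c4 c6 N).natDegree ≤ 20 := by
  rw [polyC4_eq]
  have h := polyC4r_natDegree_le c4 c6 N
  generalize famC4hr (C c4 : ℤ[X]) (C c6) X (C N) = r at h ⊢
  refine (Polynomial.natDegree_add_le _ _).trans (max_le ?_ ?_)
  · exact Polynomial.natDegree_C_mul_X_pow_le _ _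
  · exact (Polynomial.natDegree_C_mul_le _ _).trans (h.trans (by norm_num))

theorem polyC4_coeff_top (c4 c6 N : ℤ) : (polyC4 c4 c6 N).coeff 20 = c4 := by
  rw [polyC4_eq]
  have h := polyC4r_natDegree_le c4 c6 N
  have h0 : (famC4hr (C c4 : ℤ[X]) (C c6) X (C N)).coeff 20 = 0 :=
    Polynomial.coeff_eq_zero_of_natDegree_lt (by omega)
  generalize famC4hr (C c4 : ℤ[X]) (C c6) X (C N) = r at h h0 ⊢
  rw [Polynomial.coeff_add, Polynomial.coeff_C_mul, Polynomial.coeff_C_mul, h0, mul_zero, add_zero, Polynomial.coeff_X_pow_self, mul_one]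

theorem polyC6r_natDegree_le (c4 c6 N : ℤ) :
    (famC6hr (C c4 : ℤ[X]) (C c6) X (C N)).natDegree ≤ 29 := by
  simp only [famC6hr, aC6_1, aC6_2, aC6_3, aC6_4, aC6_5, aC6_6, aC6_7, aC6_8, aC6_9, aC6_10, aC6_11, aC6_12, aC6_13, aC6_14, aC6_15, aC6_16, aC6_17, aC6_18, aC6_19, aC6_20, aC6_21, aC6_22, aC6_23, aC6_24, aC6_25, aC6_26, aC6_27, aC6_28, aC6_29, aC6_30]
  compute_degree

theorem polyC6_eq (c4 c6 N : ℤ) :
    polyC6 c4 c6 N = C c6 * X ^ 30 + C N * famC6hr (C c4 : ℤ[X]) (C c6) X (C N) := by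
  rw [polyC6, famC6h_eq]

theorem polyC6_natDegree_le (c4 c6 N : ℤ) : (polyC6 c4 c6 N).natDegree ≤ 30 := by
  rw [polyC6_eq]
  have h := polyC6r_natDegree_le c4 c6 N
  generalize famC6hr (C c4 : ℤ[X]) (C c6) X (C N) = r at h ⊢
  refine (Polynomial.natDegree_add_le _ _).trans (max_le ?_ ?_)
  · exact Polynomial.natDegree_C_mul_X_pow_le _ _
  · exact (Polynomial.natDegree_C_mul_le _ _).trans (h.trans (by norm_num))

theorem polyC6_coeff_top (c4 c6 N : ℤ) : (polyC6 c4 c6 N).coeff 30 = c6 := by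
  rw [polyC6_eq]
  have h := polyC6r_natDegree_le c4 c6 N
  have h0 : (famC6hr (C c4 : ℤ[X]) (C c6) X (C N)).coeff 30 = 0 :=
    Polynomial.coeff_eq_zero_of_natDegree_lt (by omega)
  generalize famC6hr (C c4 : ℤ[X]) (C c6) X (C N) = r at h h0 ⊢
  rw [Polynomial.coeff_add, Polynomial.coeff_C_mul, Polynomial.coeff_C_mul, h0, mul_zero, add_zero, Polynomial.coeff_X_pow_self, mul_one]

theorem polyD_monic (c4 c6 N : ℤ) : (polyD c4 c6 N).Monic := by
  have h1 := polyD_natDegree_le c4 c6 N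
  have h2 := polyD_coeff_top c4 c6 N
  exact Polynomial.monic_of_natDegree_le_of_coeff_eq_one 12 h1 h2

theorem polyD_natDegree (c4 c6 N : ℤ) : (polyD c4 c6 N).natDegree = 12 := by
  have h1 := polyD_natDegree_le c4 c6 N
  have h2 := polyD_coeff_top c4 c6 N
  refine le_antisymm h1 (Polynomial.le_natDegree_of_ne_zero ?_)
  rw [h2]; exact one_ne_zero

end Fermat.Agent.S52.Fam
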