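import Fermat.Agent.S52.Fam.Certs

/-!
# S52: Jacobian identities of the family polynomials (formal `m`-derivatives)

With `famDhm`, `famC4hm`, `famC6hm` the formal `∂/∂m` of `famDh`, `famC4h`, `famC6h`:
* `jac_D_C4 : 5 * famC4h * famDhm - 3 * famC4hm * famDh = 60 * n * famC6h`
* `jac_D_C6 : 5 * famC6h * famDhm - 2 * famDh * famC6hm = 60 * n * famC4h ^ 2`
* `jac_C4_C6 : 3 * famC6h * famC4hm - 2 * famC4h * famC6hm = 60 * n * (c4^3 - c6^2) * famDh ^ 4`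
(polynomial identities over any commutative ring, by `ring`), and the derivative lemmas for the
one-variable polynomials `famC4h (C c4) (C c6) X (C N)`, `famC6h (C c4) (C c6) X (C N)`.
-/

set_option autoImplicit false
set_option linter.unusedVariables false
set_option linter.unusedSimpArgs false

namespace Fermat.Agent.S52.Fam

variable {R : Type*} [CommRing R]

/-- formal `m`-derivative of `famC4h` -/
def famC4hm (c4 c6 m n : R) : R :=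
    20 * aC4_0 c4 c6 * m ^ 19 +
    19 * aC4_1 c4 c6 * m ^ 18 * n +
    18 * aC4_2 c4 c6 * m ^ 17 * n ^ 2 +
    17 * aC4_3 c4 c6 * m ^ 16 * n ^ 3 +
    16 * aC4_4 c4 c6 * m ^ 15 * n ^ 4 +
    15 * aC4_5 c4 c6 * m ^ 14 * n ^ 5 +
    14 * aC4_6 c4 c6 * m ^ 13 * n ^ 6 +
    13 * aC4_7 c4 c6 * m ^ 12 * n ^ 7 +
    12 * aC4_8 c4 c6 * m ^ 11 * n ^ 8 +
    11 * aC4_9 c4 c6 * m ^ 10 * n ^ 9 +
    10 * aC4_10 c4 c6 * m ^ 9 * n ^ 10 +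
    9 * aC4_11 c4 c6 * m ^ 8 * n ^ 11 +
    8 * aC4_12 c4 c6 * m ^ 7 * n ^ 12 +
    7 * aC4_13 c4 c6 * m ^ 6 * n ^ 13 +
    6 * aC4_14 c4 c6 * m ^ 5 * n ^ 14 +
    5 * aC4_15 c4 c6 * m ^ 4 * n ^ 15 +
    4 * aC4_16 c4 c6 * m ^ 3 * n ^ 16 +
    3 * aC4_17 c4 c6 * m ^ 2 * n ^ 17 +
    2 * aC4_18 c4 c6 * m * n ^ 18 +
    1 * aC4_19 c4 c6 * n ^ 19

/-- formal `m`-derivative of `famC6h` -/
def famC6hm (c4 c6 m n : R) : R :=
    30 * aC6_0 c4 c6 * m ^ 29 +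
    29 * aC6_1 c4 c6 * m ^ 28 * n +
    28 * aC6_2 c4 c6 * m ^ 27 * n ^ 2 +
    27 * aC6_3 c4 c6 * m ^ 26 * n ^ 3 +
    26 * aC6_4 c4 c6 * m ^ 25 * n ^ 4 +
    25 * aC6_5 c4 c6 * m ^ 24 * n ^ 5 +
    24 * aC6_6 c4 c6 * m ^ 23 * n ^ 6 +
    23 * aC6_7 c4 c6 * m ^ 22 * n ^ 7 +
    22 * aC6_8 c4 c6 * m ^ 21 * n ^ 8 +
    21 * aC6_9 c4 c6 * m ^ 20 * n ^ 9 +
    20 * aC6_10 c4 c6 * m ^ 19 * n ^ 10 +
    19 * aC6_11 c4 c6 * m ^ 18 * n ^ 11 +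
    18 * aC6_12 c4 c6 * m ^ 17 * n ^ 12 +
    17 * aC6_13 c4 c6 * m ^ 16 * n ^ 13 +
    16 * aC6_14 c4 c6 * m ^ 15 * n ^ 14 +
    15 * aC6_15 c4 c6 * m ^ 14 * n ^ 15 +
    14 * aC6_16 c4 c6 * m ^ 13 * n ^ 16 +
    13 * aC6_17 c4 c6 * m ^ 12 * n ^ 17 +
    12 * aC6_18 c4 c6 * m ^ 11 * n ^ 18 +
    11 * aC6_19 c4 c6 * m ^ 10 * n ^ 19 +
    10 * aC6_20 c4 c6 * m ^ 9 * n ^ 20 +
    9 * aC6_21 c4 c6 * m ^ 8 * n ^ 21 +
    8 * aC6_22 c4 c6 * m ^ 7 * n ^ 22 +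
    7 * aC6_23 c4 c6 * m ^ 6 * n ^ 23 +
    6 * aC6_24 c4 c6 * m ^ 5 * n ^ 24 +
    5 * aC6_25 c4 c6 * m ^ 4 * n ^ 25 +
    4 * aC6_26 c4 c6 * m ^ 3 * n ^ 26 +
    3 * aC6_27 c4 c6 * m ^ 2 * n ^ 27 +
    2 * aC6_28 c4 c6 * m * n ^ 28 +
    1 * aC6_29 c4 c6 * n ^ 29

set_option maxHeartbeats 0 in
theorem jac_D_C4 (c4 c6 m n : R) :
    5 * famC4h c4 c6 m n * famDhm c4 c6 m n - 3 * famC4hm c4 c6 m n * famDh c4 c6 m n =
      60 * n * famC6h c4 c6 m n := by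
  simp only [famC4h, famC4hm, famDh, famDhm, famC6h, aD_0, aD_1, aD_2, aD_3, aD_4, aD_5, aD_6, aD_7, aD_8, aD_9, aD_10, aD_11, aD_12,
    aC4_0, aC4_1, aC4_2, aC4_3, aC4_4, aC4_5, aC4_6, aC4_7, aC4_8, aC4_9, aC4_10, aC4_11, aC4_12, aC4_13, aC4_14, aC4_15, aC4_16, aC4_17, aC4_18, aC4_19, aC4_20,
    aC6_0, aC6_1, aC6_2, aC6_3, aC6_4, aC6_5, aC6_6, aC6_7, aC6_8, aC6_9, aC6_10, aC6_11, aC6_12, aC6_13, aC6_14, aC6_15, aC6_16, aC6_17, aC6_18, aC6_19, aC6_20, aC6_21, aC6_22, aC6_23, aC6_24, aC6_25, aC6_26, aC6_27, aC6_28, aC6_29, aC6_30]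
  ring

set_option maxHeartbeats 0 in
theorem jac_D_C6 (c4 c6 m n : R) :
    5 * famC6h c4 c6 m n * famDhm c4 c6 m n - 2 * famDh c4 c6 m n * famC6hm c4 c6 m n =
      60 * n * famC4h c4 c6 m n ^ 2 := by
  simp only [famC4h, famC6hm, famDh, famDhm, famC6h, aD_0, aD_1, aD_2, aD_3, aD_4, aD_5, aD_6, aD_7, aD_8, aD_9, aD_10, aD_11, aD_12,
    aC4_0, aC4_1, aC4_2, aC4_3, aC4_4, aC4_5, aC4_6, aC4_7, aC4_8, aC4_9, aC4_10, aC4_11, aC4_12, aC4_13, aC4_14, aC4_15, aC4_16, aC4_17, aC4_18, aC4_19, aC4_20,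
    aC6_0, aC6_1, aC6_2, aC6_3, aC6_4, aC6_5, aC6_6, aC6_7, aC6_8, aC6_9, aC6_10, aC6_11, aC6_12, aC6_13, aC6_14, aC6_15, aC6_16, aC6_17, aC6_18, aC6_19, aC6_20, aC6_21, aC6_22, aC6_23, aC6_24, aC6_25, aC6_26, aC6_27, aC6_28, aC6_29, aC6_30]
  ring

set_option maxHeartbeats 0 in
theorem jac_C4_C6 (c4 c6 m n : R) :
    3 * famC6h c4 c6 m n * famC4hm c4 c6 m n - 2 * famC4h c4 c6 m n * famC6hm c4 c6 m n =
      60 * n * (c4 ^ 3 - c6 ^ 2) * famDh c4 c6 m n ^ 4 := by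
  simp only [famC4h, famC4hm, famC6hm, famDh, famC6h, aD_0, aD_1, aD_2, aD_3, aD_4, aD_5, aD_6, aD_7, aD_8, aD_9, aD_10, aD_11, aD_12,
    aC4_0, aC4_1, aC4_2, aC4_3, aC4_4, aC4_5, aC4_6, aC4_7, aC4_8, aC4_9, aC4_10, aC4_11, aC4_12, aC4_13, aC4_14, aC4_15, aC4_16, aC4_17, aC4_18, aC4_19, aC4_20,
    aC6_0, aC6_1, aC6_2, aC6_3, aC6_4, aC6_5, aC6_6, aC6_7, aC6_8, aC6_9, aC6_10, aC6_11, aC6_12, aC6_13, aC6_14, aC6_15, aC6_16, aC6_17, aC6_18, aC6_19, aC6_20, aC6_21, aC6_22, aC6_23, aC6_24, aC6_25, aC6_26, aC6_27, aC6_28, aC6_29, aC6_30]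
  ring

section Poly

open Polynomial

variable {K : Type*} [CommRing K]

theorem derivative_famC4h (c4 c6 N : K) :
    derivative (famC4h (C c4) (C c6) X (C N)) = famC4hm (C c4) (C c6) X (C N) := by
  simp only [famC4h, famC4hm, aC4_0, aC4_1, aC4_2, aC4_3, aC4_4, aC4_5, aC4_6, aC4_7, aC4_8, aC4_9, aC4_10, aC4_11, aC4_12, aC4_13, aC4_14, aC4_15, aC4_16, aC4_17, aC4_18, aC4_19, aC4_20,
    derivative_add, derivative_sub, derivative_mul, derivative_neg, derivative_X_pow, derivative_X,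
    derivative_C, derivative_pow, derivative_ofNat, derivative_one, derivative_zero]
  simp only [Nat.cast_ofNat, Nat.reduceSub, C_ofNat, mul_zero, zero_mul, add_zero, zero_add, sub_zero,
    mul_one, pow_one, neg_zero]
  ring

theorem derivative_famC6h (c4 c6 N : K) :
    derivative (famC6h (C c4) (C c6) X (C N)) = famC6hm (C c4) (C c6) X (C N) := by
  simp only [famC6h, famC6hm, aC6_0, aC6_1, aC6_2, aC6_3, aC6_4, aC6_5, aC6_6, aC6_7, aC6_8, aC6_9, aC6_10, aC6_11, aC6_12, aC6_13, aC6_14, aC6_15, aC6_16, aC6_17, aC6_18, aC6_19, aC6_20, aC6_21, aC6_22, aC6_23, aC6_24, aC6_25, aC6_26, aC6_27, aC6_28, aC6_29, aC6_30,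
    derivative_add, derivative_sub, derivative_mul, derivative_neg, derivative_X_pow, derivative_X,
    derivative_C, derivative_pow, derivative_ofNat, derivative_one, derivative_zero]
  simp only [Nat.cast_ofNat, Nat.reduceSub, C_ofNat, mul_zero, zero_mul, add_zero, zero_add, sub_zero,
    mul_one, pow_one, neg_zero]
  ring

end Poly

end Fermat.Agent.S52.Fam
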