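import Mathlib

/-!
# S52, brick (Fam) F-b: abstract bookkeeping for the level structure (helper107)

Mathlib only.  `Ω` is the set of Klein points of ONE curve, `G` its group of points,
`pt : Ω → G` the universal torsion point `p ↦ P₀(p)`, and `S, T, U : Ω → Ω` the icosahedral
substitutions.  From the five laws

* `pt (S p) = pt p`,
* `pt (T (S p)) = pt (T p) - pt p`      (i.e. `Q(S p) = Q(p) - P(p)` with `Q := pt ∘ T`),
* `pt (U p) = 2 • pt p`,
* `S^[5] p = p`,
* `pt p ≠ 0`,

we get: `5 • pt p = 0`, the homomorphism `iota p : ZMod 5 × ZMod 5 →+ G`,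
`(a, c) ↦ a • pt p + c • pt (T p)`, is injective, and for every nonzero label `k`
`iota p k = pt (word S T U k p)` for the explicit word
`word (a, c) = U^[e a]` if `c = 0`, and `U^[e c] ∘ T ∘ S^[(-a/c).val]` otherwise
(`e 1 = 0, e 2 = 1, e 4 = 2, e 3 = 3`).
-/

set_option autoImplicit false

namespace Fermat.Agent.S52.Fam.LevelAbs

variable {G : Type*} [AddCommGroup G] {Ω : Type*}

/-- The five laws. -/
structure Laws (S T U : Ω → Ω) (pt : Ω → G) : Prop where
  hS : ∀ p, pt (S p) = pt p
  hTS : ∀ p, pt (T (S p)) = pt (T p) - pt p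
  hU : ∀ p, pt (U p) = 2 • pt p
  hS5 : ∀ p, S^[5] p = p
  h0 : ∀ p, pt p ≠ 0

/-- exponent of `2` : `2 ^ expU c = c` in `ZMod 5` for `c ≠ 0`. -/
def expU (c : ZMod 5) : ℕ := if c = 1 then 0 else if c = 2 then 1 else if c = 4 then 2 else 3

lemma two_pow_expU : ∀ c : ZMod 5, c ≠ 0 → ((2 ^ expU c : ℕ) : ZMod 5) = c := by decide

/-- The word attached to a label. -/
def word (S T U : Ω → Ω) (k : ZMod 5 × ZMod 5) (p : Ω) : Ω :=
  if k.2 = 0 then U^[expU k.1] p else U^[expU k.2] (T (S^[(-k.1 * k.2⁻¹).val] p))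

variable {S T U : Ω → Ω} {pt : Ω → G}

namespace Laws

variable (L : Laws S T U pt)
include L

lemma pt_S_iter (j : ℕ) (p : Ω) : pt (S^[j] p) = pt p := by
  induction j with
  | zero => rfl
  | succ j ih => rw [Function.iterate_succ_apply', L.hS, ih]

lemma pt_T_S_iter (j : ℕ) (p : Ω) : pt (T (S^[j] p)) = pt (T p) - j • pt p := by
  induction j with
  | zero => simp
  | succ j ih =>
    rw [Function.iterate_succ_apply', L.hTS, ih, L.pt_S_iter, succ_nsmul]
    abel

lemma pt_U_iter (i : ℕ) (q : Ω) : pt (U^[i] q) = 2 ^ i • pt q := by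
  induction i with
  | zero => simp
  | succ i ih => rw [Function.iterate_succ_apply', L.hU, ih, pow_succ, mul_comm, mul_smul]

/-- The universal point is killed by `5`. -/
theorem five_nsmul (p : Ω) : 5 • pt p = 0 := by
  have h := L.pt_T_S_iter 5 p
  rw [L.hS5] at h
  have : pt (T p) - (pt (T p) - 5 • pt p) = 0 := by rw [← h, sub_self]
  rw [sub_sub_cancel] at this
  exact this

/-- `n ↦ n • pt p` as a homomorphism from `ZMod 5`. -/
noncomputable def line (p : Ω) : ZMod 5 →+ G :=
  ZMod.lift 5 ⟨(zmultiplesHom G) (pt p), by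
    simp only [zmultiplesHom_apply]
    have := L.five_nsmul p
    exact_mod_cast this⟩

lemma line_intCast (p : Ω) (n : ℤ) : L.line p (n : ZMod 5) = n • pt p := by
  unfold line
  rw [ZMod.lift_coe]
  simp

lemma line_natCast (p : Ω) (n : ℕ) : L.line p (n : ZMod 5) = n • pt p := by
  have := L.line_intCast p (n : ℤ)
  simpa using this

/-- The level structure `(a, c) ↦ a • P(p) + c • Q(p)`, `P = pt p`, `Q = pt (T p)`. -/
noncomputable def iota (p : Ω) : ZMod 5 × ZMod 5 →+ G :=
  (L.line p).coprod (L.line (T p))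

lemma iota_apply (p : Ω) (k : ZMod 5 × ZMod 5) :
    L.iota p k = L.line p k.1 + L.line (T p) k.2 := by
  unfold iota
  simp [AddMonoidHom.coprod_apply]

lemma iota_fst (p : Ω) : L.iota p (1, 0) = pt p := by
  rw [iota_apply]
  have h1 := L.line_natCast p 1
  simp only [Nat.cast_one, one_smul] at h1
  simp [h1]

lemma iota_snd (p : Ω) : L.iota p (0, 1) = pt (T p) := by
  rw [iota_apply]
  have h1 := L.line_natCast (T p) 1
  simp only [Nat.cast_one, one_smul] at h1
  simp [h1]

/-- Every nonzero label is the universal point at a transformed Klein point. -/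
theorem iota_eq_pt (p : Ω) (k : ZMod 5 × ZMod 5) (hk : k ≠ 0) :
    L.iota p k = pt (word S T U k p) := by
  have : Fact (Nat.Prime 5) := ⟨by norm_num⟩
  obtain ⟨a, c⟩ := k
  rw [iota_apply]
  unfold word
  by_cases hc : c = 0
  · subst hc
    have ha : a ≠ 0 := by
      intro h; apply hk; rw [h]; rfl
    simp only [if_true, map_zero, add_zero]
    rw [L.pt_U_iter, ← L.line_natCast, two_pow_expU a ha]
  · simp only [hc, if_false]
    rw [L.pt_U_iter, L.pt_T_S_iter, smul_sub, ← L.line_natCast (T p), two_pow_expU c hc,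
      smul_smul, ← L.line_natCast p]
    have e : ((2 ^ expU c * (-a * c⁻¹).val : ℕ) : ZMod 5) = -a := by
      push_cast
      have h2 := two_pow_expU c hc
      push_cast at h2
      rw [h2, ZMod.natCast_zmod_val]
      field_simp
    rw [e, map_neg]
    abel

/-- The level structure is injective. -/
theorem iota_injective (p : Ω) : Function.Injective (L.iota p) := by
  rw [injective_iff_map_eq_zero]
  intro k hk
  by_contra hne
  rw [L.iota_eq_pt p k hne] at hk
  exact L.h0 _ hk

end Laws

end Fermat.Agent.S52.Fam.LevelAbs
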