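import Mathlib
import Fermat.Agent.S52.Fam.Defs

/-!
# S52, brick (Fam) F-b, insurance version: forms of the universal level-5 structure (helper126)

Reduced forms for the `24` nonzero `5`-torsion points of
`E_p : Y² = X³ + 27 H(p) X + 54 T(p)`, `p = (u, v)`, and the polynomial identities behind the
group law.  Parameters: `z` with `1 + z + z² + z³ + z⁴ = 0` and `i5` with `5 * i5 = 1`.

* `(X0, Y0)`: the point `P0(p)` on the axis `{0, ∞}` (coefficients in `ℤ[z, 1/5]`);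
* `(X1, Y1)`: the point `R(p) = P0(T p)` (INTEGER coefficients);
* `(X2, Y2)`: the point `2 R(p) = P0(U T p)` (integer coefficients);
* `(X1S, Y1S)`: `R(S p)`, `S = diag(z³, z²)`.

Identities (all generated and certified by exact arithmetic in `ℚ(ζ₅)`, checked here by
`ring` / `linear_combination`): the points lie on `E_p`; `2 P0(p) = P0(U p)`, `U p = (-v, u)`;
`2 (X1,Y1) = (X2,Y2)`; `2 (X2,Y2) = (X1,-Y1)`; `R(S p) + P0(p) = R(p)`; `S`-invariance; and the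
nonvanishing certificates `F * M = c * f^k`.
-/

set_option autoImplicit false
set_option linter.unusedVariables false
set_option linter.unusedSimpArgs false
set_option maxHeartbeats 1000000

namespace Fermat.Agent.S52.Fam.LevelAlt

open Fermat.Agent.S52.Fam

variable {R : Type*} [CommRing R]

/-- `x`-coordinate of `P0(p)` -/
def X0 (z i5 u v : R) : R :=
    (-93*i5 - 36*z^2*i5 - 36*z^3*i5)*u^10 + (-198*i5 - 396*z^2*i5 - 396*z^3*i5)*u^5*v^5 + (-57*i5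
      + 36*z^2*i5 + 36*z^3*i5)*v^10

/-- `y`-coordinate of `P0(p)` -/
def Y0 (z i5 u v : R) : R :=
    (108*i5 + 216*z*i5 - 108*z^2*i5 + 324*z^3*i5)*u^15 + (972*i5 + 1944*z*i5 - 1512*z^2*i5 +
      3456*z^3*i5)*u^10*v^5 + (-2484*i5 - 4968*z*i5 - 3456*z^2*i5 - 1512*z^3*i5)*u^5*v^10 +
      (216*i5 + 432*z*i5 + 324*z^2*i5 + 108*z^3*i5)*v^15

/-- `x`-coordinate of `R(p) = P0(T p)`: an integral form -/
def X1 (u v : R) : R :=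
    (3*u^10 + 36*u^8*v^2 + (-36)*u^7*v^3 + 72*u^6*v^4 + 90*u^5*v^5) + (180*u^4*v^6 + 108*u^3*v^7
      + 72*u^2*v^8 + 36*u*v^9 + 3*v^10)

/-- `y`-coordinate of `R(p) = P0(T p)` -/
def Y1 (u v : R) : R :=
    (108*u^13*v^2 + 108*u^12*v^3 + 432*u^11*v^4 + 540*u^9*v^6 + 648*u^8*v^7 + 2268*u^7*v^8) +
      (3132*u^6*v^9 + 2700*u^5*v^10 + 1620*u^4*v^11 + 972*u^3*v^12 + 432*u^2*v^13 + 108*u*v^14)

/-- `x`-coordinate of `2 R(p)` -/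
def X2 (u v : R) : R :=
    (3*u^10 + (-36)*u^9*v + 72*u^8*v^2 + (-108)*u^7*v^3 + 180*u^6*v^4) + ((-90)*u^5*v^5 +
      72*u^4*v^6 + 36*u^3*v^7 + 36*u^2*v^8 + 3*v^10)

/-- `y`-coordinate of `2 R(p)` -/
def Y2 (u v : R) : R :=
    (108*u^14*v + (-432)*u^13*v^2 + 972*u^12*v^3 + (-1620)*u^11*v^4 + 2700*u^10*v^5 +
      (-3132)*u^9*v^6) + (2268*u^8*v^7 + (-648)*u^7*v^8 + 540*u^6*v^9 + 432*u^4*v^11 +
      (-108)*u^3*v^12 + 108*u^2*v^13)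

/-- `x`-coordinate of `R(S p)`, reduced -/
def X1S (z u v : R) : R :=
    (3*u^10 + 36*z^3*u^8*v^2 + (-36*z^2)*u^7*v^3 + 72*z*u^6*v^4 + 90*u^5*v^5) + ((-180 - 180*z -
      180*z^2 - 180*z^3)*u^4*v^6 + 108*z^3*u^3*v^7 + 72*z^2*u^2*v^8 + 36*z*u*v^9 + 3*v^10)

/-- `y`-coordinate of `R(S p)`, reduced -/
def Y1S (z u v : R) : R :=
    (108*z^3*u^13*v^2 + 108*z^2*u^12*v^3 + 432*z*u^11*v^4 + (-540 - 540*z - 540*z^2 -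
      540*z^3)*u^9*v^6 + 648*z^3*u^8*v^7 + 2268*z^2*u^7*v^8) + (3132*z*u^6*v^9 + 2700*u^5*v^10 +
      (-1620 - 1620*z - 1620*z^2 - 1620*z^3)*u^4*v^11 + 972*z^3*u^3*v^12 + 432*z^2*u^2*v^13 +
      108*z*u*v^14)

/-! ### Points on the curve -/

theorem on1 (u v : R) : Y1 u v ^ 2 = X1 u v ^ 3 + 27 * kH u v * X1 u v + 54 * kT u v := by
  unfold Y1 X1 kH kT; ring

theorem on2 (u v : R) : Y2 u v ^ 2 = X2 u v ^ 3 + 27 * kH u v * X2 u v + 54 * kT u v := by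
  unfold Y2 X2 kH kT; ring

theorem on0 (z i5 u v : R) (hz : 1 + z + z ^ 2 + z ^ 3 + z ^ 4 = 0) (h5 : 5 * i5 = 1) :
    Y0 z i5 u v ^ 2 = X0 z i5 u v ^ 3 + 27 * kH u v * X0 z i5 u v + 54 * kT u v := by
  unfold Y0 X0 kH kT
  linear_combination ((221616*i5^2 - 314928*i5^3 - 174960*z*i5^2 + 314928*z*i5^3 +
    104976*z^2*i5^2 + 268272*z^2*i5^3 + 93312*z^4*i5^3 + 46656*z^5*i5^3)*u^30 + (4805568*i5^2 -
    7185024*i5^3 - 3965760*z*i5^2 + 7185024*z*i5^3 + 2239488*z^2*i5^2 + 5645376*z^2*i5^3 +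
    3079296*z^4*i5^3 + 1539648*z^5*i5^3)*u^25*v^5 + (24960960*i5^2 - 43390080*i5^3 -
    23328000*z*i5^2 + 43390080*z*i5^3 + 10964160*z^2*i5^2 + 26593920*z^2*i5^3 + 33592320*z^4*i5^3
    + 16796160*z^5*i5^3)*u^20*v^10 + (-10380960*i5^2 - 29509920*i5^3 - 8748000*z*i5^2 +
    29509920*z*i5^3 - 10380960*z^2*i5^2 - 29509920*z^2*i5^3 + 118039680*z^4*i5^3 +
    59019840*z^5*i5^3)*u^15*v^15 + (17029440*i5^2 - 26593920*i5^3 + 9331200*z*i5^2 +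
    26593920*z*i5^3 + 3032640*z^2*i5^2 + 43390080*z^2*i5^3 - 33592320*z^4*i5^3 -
    16796160*z^5*i5^3)*u^10*v^20 + (-2892672*i5^2 + 5645376*i5^3 - 1399680*z*i5^2 -
    5645376*z*i5^3 - 326592*z^2*i5^2 - 7185024*z^2*i5^3 + 3079296*z^4*i5^3 +
    1539648*z^5*i5^3)*u^5*v^25 + (128304*i5^2 - 268272*i5^3 + 58320*z*i5^2 + 268272*z*i5^3 +
    11664*z^2*i5^2 + 314928*z^2*i5^3 - 93312*z^4*i5^3 - 46656*z^5*i5^3)*v^30) * hz + ((54 +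
    2781*i5 + 223857*i5^2 + 972*z^2*i5 + 133164*z^2*i5^2 + 972*z^3*i5 + 133164*z^3*i5^2)*u^30 +
    (28188 - 426222*i5 + 2464506*i5^2 - 210924*z^2*i5 + 1721412*z^2*i5^2 - 210924*z^3*i5 +
    1721412*z^3*i5^2)*u^25*v^5 + (-540270 - 2678265*i5 + 11161395*i5^2 - 1958580*z^2*i5 +
    4320540*z^2*i5^2 - 1958580*z^3*i5 + 4320540*z^3*i5^2)*u^20*v^10 + (2862540*i5 + 8713980*i5^2
    + 5725080*z^2*i5 + 17427960*z^2*i5^2 + 5725080*z^3*i5 + 17427960*z^3*i5^2)*u^15*v^15 +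
    (-540270 - 719685*i5 + 6840855*i5^2 + 1958580*z^2*i5 - 4320540*z^2*i5^2 + 1958580*z^3*i5 -
    4320540*z^3*i5^2)*u^10*v^20 + (-28188 + 215298*i5 - 743094*i5^2 - 210924*z^2*i5 +
    1721412*z^2*i5^2 - 210924*z^3*i5 + 1721412*z^3*i5^2)*u^5*v^25 + (54 + 1809*i5 + 90693*i5^2 -
    972*z^2*i5 - 133164*z^2*i5^2 - 972*z^3*i5 - 133164*z^3*i5^2)*v^30) * h5

/-! ### Tangent identities (duplication) -/

theorem tan1 (u v : R) :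
    (3 * X1 u v ^ 2 + 27 * kH u v) * (X2 u v - X1 u v) = 2 * Y1 u v * (-Y2 u v - Y1 u v) := by
  unfold Y1 X1 Y2 X2 kH; ring

theorem tan2 (u v : R) :
    (3 * X2 u v ^ 2 + 27 * kH u v) * (X1 u v - X2 u v) = 2 * Y2 u v * (Y1 u v - Y2 u v) := by
  unfold Y1 X1 Y2 X2 kH; ring

theorem tan0 (z i5 u v : R) (hz : 1 + z + z ^ 2 + z ^ 3 + z ^ 4 = 0) (h5 : 5 * i5 = 1) :
    (3 * X0 z i5 u v ^ 2 + 27 * kH u v) * (X0 z i5 (-v) u - X0 z i5 u v)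
      = 2 * Y0 z i5 u v * (-Y0 z i5 (-v) u - Y0 z i5 u v) := by
  unfold Y0 X0 kH
  linear_combination ((513216*i5^2 - 1306368*i5^3 - 233280*z*i5^2 + 1306368*z*i5^3 +
    279936*z^2*i5^2 + 1026432*z^2*i5^3 + 559872*z^4*i5^3 + 279936*z^5*i5^3)*u^30 + (11337408*i5^2
    - 30279744*i5^3 - 5832000*z*i5^2 + 30279744*z*i5^3 + 6205248*z^2*i5^2 + 21041856*z^2*i5^3 +
    18475776*z^4*i5^3 + 9237888*z^5*i5^3)*u^25*v^5 + (62285760*i5^2 - 190356480*i5^3 -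
    43156800*z*i5^2 + 190356480*z*i5^3 + 34292160*z^2*i5^2 + 89579520*z^2*i5^3 +
    201553920*z^4*i5^3 + 100776960*z^5*i5^3)*u^20*v^10 + (-1632960*i5^2 - 177059520*i5^3 -
    78148800*z*i5^2 + 177059520*z*i5^3 - 1632960*z^2*i5^2 - 177059520*z^2*i5^3 +
    708238080*z^4*i5^3 + 354119040*z^5*i5^3)*u^15*v^15 + (21695040*i5^2 - 89579520*i5^3 +
    15163200*z*i5^2 + 89579520*z*i5^3 - 6298560*z^2*i5^2 + 190356480*z^2*i5^3 -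
    201553920*z^4*i5^3 - 100776960*z^5*i5^3)*u^10*v^20 + (-4059072*i5^2 + 21041856*i5^3 -
    699840*z*i5^2 - 21041856*z*i5^3 + 1073088*z^2*i5^2 - 30279744*z^2*i5^3 + 18475776*z^4*i5^3 +
    9237888*z^5*i5^3)*u^5*v^25 + (186624*i5^2 - 1026432*i5^3 + 1026432*z*i5^3 - 46656*z^2*i5^2 +
    1306368*z^2*i5^3 - 559872*z^4*i5^3 - 279936*z^5*i5^3)*v^30) * hz + ((972*i5 + 448092*i5^2 +
    1944*z^2*i5 + 312984*z^2*i5^2 + 1944*z^3*i5 + 312984*z^3*i5^2)*u^30 + (-210924*i5 +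
    8906436*i5^2 - 421848*z^2*i5 + 4982472*z^2*i5^2 - 421848*z^3*i5 + 4982472*z^3*i5^2)*u^25*v^5
    + (-1958580*i5 + 47710620*i5^2 - 3917160*z^2*i5 + 25437240*z^2*i5^2 - 3917160*z^3*i5 +
    25437240*z^3*i5^2)*u^20*v^10 + (5725080*i5 + 46937880*i5^2 + 11450160*z^2*i5 +
    93875760*z^2*i5^2 + 11450160*z^3*i5 + 93875760*z^3*i5^2)*u^15*v^15 + (1958580*i5 +
    22273380*i5^2 + 3917160*z^2*i5 - 25437240*z^2*i5^2 + 3917160*z^3*i5 -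
    25437240*z^3*i5^2)*u^10*v^20 + (-210924*i5 - 3923964*i5^2 - 421848*z^2*i5 + 4982472*z^2*i5^2
    - 421848*z^3*i5 + 4982472*z^3*i5^2)*u^5*v^25 + (-972*i5 + 135108*i5^2 - 1944*z^2*i5 -
    312984*z^2*i5^2 - 1944*z^3*i5 - 312984*z^3*i5^2)*v^30) * h5

/-! ### The chord identity `R(S p) + P0(p) = R(p)` -/

theorem X1_S (z u v : R) (hz : 1 + z + z ^ 2 + z ^ 3 + z ^ 4 = 0) :
    X1 (z ^ 3 * u) (z ^ 2 * v) = X1S z u v := by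
  unfold X1 X1S
  linear_combination (((-3 + 3*z - 3*z^5 + 3*z^6 - 3*z^10 + 3*z^11 - 3*z^15 + 3*z^16 - 3*z^20 +
    3*z^21 - 3*z^25 + 3*z^26)*u^10 + (-36*z^3 + 36*z^4 - 36*z^8 + 36*z^9 - 36*z^13 + 36*z^14 -
    36*z^18 + 36*z^19 - 36*z^23 + 36*z^24)*u^8*v^2 + (36*z^2 - 36*z^3 + 36*z^7 - 36*z^8 + 36*z^12
    - 36*z^13 + 36*z^17 - 36*z^18 + 36*z^22 - 36*z^23)*u^7*v^3 + (-72*z + 72*z^2 - 72*z^6 +
    72*z^7 - 72*z^11 + 72*z^12 - 72*z^16 + 72*z^17 - 72*z^21 + 72*z^22)*u^6*v^4 + (-90 + 90*z -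
    90*z^5 + 90*z^6 - 90*z^10 + 90*z^11 - 90*z^15 + 90*z^16 - 90*z^20 + 90*z^21)*u^5*v^5) + ((180
    - 180*z^4 + 180*z^5 - 180*z^9 + 180*z^10 - 180*z^14 + 180*z^15 - 180*z^19 + 180*z^20)*u^4*v^6
    + (-108*z^3 + 108*z^4 - 108*z^8 + 108*z^9 - 108*z^13 + 108*z^14 - 108*z^18 +
    108*z^19)*u^3*v^7 + (-72*z^2 + 72*z^3 - 72*z^7 + 72*z^8 - 72*z^12 + 72*z^13 - 72*z^17 +
    72*z^18)*u^2*v^8 + (-36*z + 36*z^2 - 36*z^6 + 36*z^7 - 36*z^11 + 36*z^12 - 36*z^16 +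
    36*z^17)*u*v^9 + (-3 + 3*z - 3*z^5 + 3*z^6 - 3*z^10 + 3*z^11 - 3*z^15 + 3*z^16)*v^10)) * hz

theorem Y1_S (z u v : R) (hz : 1 + z + z ^ 2 + z ^ 3 + z ^ 4 = 0) :
    Y1 (z ^ 3 * u) (z ^ 2 * v) = Y1S z u v := by
  unfold Y1 Y1S
  linear_combination (((-108*z^3 + 108*z^4 - 108*z^8 + 108*z^9 - 108*z^13 + 108*z^14 - 108*z^18 +
    108*z^19 - 108*z^23 + 108*z^24 - 108*z^28 + 108*z^29 - 108*z^33 + 108*z^34 - 108*z^38 +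
    108*z^39)*u^13*v^2 + (-108*z^2 + 108*z^3 - 108*z^7 + 108*z^8 - 108*z^12 + 108*z^13 - 108*z^17
    + 108*z^18 - 108*z^22 + 108*z^23 - 108*z^27 + 108*z^28 - 108*z^32 + 108*z^33 - 108*z^37 +
    108*z^38)*u^12*v^3 + (-432*z + 432*z^2 - 432*z^6 + 432*z^7 - 432*z^11 + 432*z^12 - 432*z^16 +
    432*z^17 - 432*z^21 + 432*z^22 - 432*z^26 + 432*z^27 - 432*z^31 + 432*z^32 - 432*z^36 +
    432*z^37)*u^11*v^4 + (540 - 540*z^4 + 540*z^5 - 540*z^9 + 540*z^10 - 540*z^14 + 540*z^15 -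
    540*z^19 + 540*z^20 - 540*z^24 + 540*z^25 - 540*z^29 + 540*z^30 - 540*z^34 +
    540*z^35)*u^9*v^6 + (-648*z^3 + 648*z^4 - 648*z^8 + 648*z^9 - 648*z^13 + 648*z^14 - 648*z^18
    + 648*z^19 - 648*z^23 + 648*z^24 - 648*z^28 + 648*z^29 - 648*z^33 + 648*z^34)*u^8*v^7 +
    (-2268*z^2 + 2268*z^3 - 2268*z^7 + 2268*z^8 - 2268*z^12 + 2268*z^13 - 2268*z^17 + 2268*z^18 -
    2268*z^22 + 2268*z^23 - 2268*z^27 + 2268*z^28 - 2268*z^32 + 2268*z^33)*u^7*v^8) + ((-3132*z +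
    3132*z^2 - 3132*z^6 + 3132*z^7 - 3132*z^11 + 3132*z^12 - 3132*z^16 + 3132*z^17 - 3132*z^21 +
    3132*z^22 - 3132*z^26 + 3132*z^27 - 3132*z^31 + 3132*z^32)*u^6*v^9 + (-2700 + 2700*z -
    2700*z^5 + 2700*z^6 - 2700*z^10 + 2700*z^11 - 2700*z^15 + 2700*z^16 - 2700*z^20 + 2700*z^21 -
    2700*z^25 + 2700*z^26 - 2700*z^30 + 2700*z^31)*u^5*v^10 + (1620 - 1620*z^4 + 1620*z^5 -
    1620*z^9 + 1620*z^10 - 1620*z^14 + 1620*z^15 - 1620*z^19 + 1620*z^20 - 1620*z^24 + 1620*z^25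
    - 1620*z^29 + 1620*z^30)*u^4*v^11 + (-972*z^3 + 972*z^4 - 972*z^8 + 972*z^9 - 972*z^13 +
    972*z^14 - 972*z^18 + 972*z^19 - 972*z^23 + 972*z^24 - 972*z^28 + 972*z^29)*u^3*v^12 +
    (-432*z^2 + 432*z^3 - 432*z^7 + 432*z^8 - 432*z^12 + 432*z^13 - 432*z^17 + 432*z^18 -
    432*z^22 + 432*z^23 - 432*z^27 + 432*z^28)*u^2*v^13 + (-108*z + 108*z^2 - 108*z^6 + 108*z^7 -
    108*z^11 + 108*z^12 - 108*z^16 + 108*z^17 - 108*z^21 + 108*z^22 - 108*z^26 +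
    108*z^27)*u*v^14)) * hz

theorem chord (z i5 u v : R) (hz : 1 + z + z ^ 2 + z ^ 3 + z ^ 4 = 0) (h5 : 5 * i5 = 1) :
    (Y0 z i5 u v - Y1S z u v) * (X1 u v - X1S z u v)
      = (-Y1 u v - Y1S z u v) * (X0 z i5 u v - X1S z u v) := by
  unfold Y0 X0 Y1 X1 Y1S X1S
  linear_combination ((((-7776*i5 + 15552*z*i5 - 15552*z^2*i5)*u^23*v^2 + (-15552*i5 +
    7776*z*i5)*u^22*v^3 + (-38880*i5)*u^21*v^4 + (38880*i5 + 77760*z^2*i5)*u^19*v^6) +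
    ((-93312*i5 + 225504*z*i5 - 225504*z^2*i5)*u^18*v^7 + (-147744*i5 - 23328*z*i5)*u^17*v^8 +
    (-544320*i5)*u^16*v^9 + (349920*i5 + 894240*z^2*i5)*u^14*v^11 + (-31104*i5 + 606528*z*i5 -
    606528*z^2*i5)*u^13*v^12)) + (((287712*i5 - 1213056*z*i5)*u^12*v^13 + (-1244160*i5)*u^11*v^14
    + (-894240*i5 + 349920*z^2*i5)*u^9*v^16 + (520992*i5 + 202176*z*i5 - 202176*z^2*i5)*u^8*v^17)
    + ((147744*i5 + 23328*z*i5)*u^7*v^18 + 116640*i5*u^6*v^19 + (77760*i5 -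
    38880*z^2*i5)*u^4*v^21 + (-46656*i5 - 23328*z*i5 + 23328*z^2*i5)*u^3*v^22 + (-15552*i5 +
    7776*z*i5)*u^2*v^23))) * hz + ((((324 + 324*z^3)*u^23*v^2 + (324 + 324*z^2)*u^22*v^3 + (1296
    + 1296*z + 7776*z^3)*u^21*v^4 + (21708*z - 9396*z^2 + 21708*z^3)*u^19*v^6 + (11664 - 7776*z -
    7776*z^2 + 11664*z^3)*u^18*v^7) + ((-22356 + 23328*z - 22356*z^2)*u^17*v^8 + (48276 + 48276*z
    + 69984*z^3)*u^16*v^9 + (-100440 - 38880*z^2 - 38880*z^3)*u^15*v^10 + (156492*z - 201204*z^2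
    + 156492*z^3)*u^14*v^11 + (-35640 - 108864*z - 108864*z^2 - 35640*z^3)*u^13*v^12 + (-124740 +
    248832*z - 124740*z^2)*u^12*v^13)) + (((89100 + 89100*z - 178848*z^3)*u^11*v^14 + (-213840 -
    427680*z^2 - 427680*z^3)*u^10*v^15 + (-197964*z - 337932*z^2 - 197964*z^3)*u^9*v^16 +
    (-202176 - 248832*z - 248832*z^2 - 202176*z^3)*u^8*v^17 + (-109836 - 108864*z -
    109836*z^2)*u^7*v^18) + ((-78084 - 78084*z + 15552*z^3)*u^6*v^19 + (-61560 + 38880*z^2 +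
    38880*z^3)*u^5*v^20 + (41796*z + 57348*z^2 + 41796*z^3)*u^4*v^21 + (2916 + 23328*z +
    23328*z^2 + 2916*z^3)*u^3*v^22 + (1296 + 7776*z + 1296*z^2)*u^2*v^23 + (324 +
    324*z)*u*v^24))) * h5

/-! ### Invariance under `S = diag(w³, w²)`, `w⁵ = 1`, under `U` and under `-1` -/

theorem X0_S (z i5 w u v : R) (hw : w ^ 5 = 1) :
    X0 z i5 (w ^ 3 * u) (w ^ 2 * v) = X0 z i5 u v := by
  unfold X0
  linear_combination (((-93*i5 - 36*z^2*i5 - 36*z^3*i5))*u^10*(1 + w^5 + w^10 + w^15 + w^20 +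
    w^25) + ((-198*i5 - 396*z^2*i5 - 396*z^3*i5))*u^5*v^5*(1 + w^5 + w^10 + w^15 + w^20) +
    ((-57*i5 + 36*z^2*i5 + 36*z^3*i5))*v^10*(1 + w^5 + w^10 + w^15)) * hw

theorem Y0_S (z i5 w u v : R) (hw : w ^ 5 = 1) :
    Y0 z i5 (w ^ 3 * u) (w ^ 2 * v) = Y0 z i5 u v := by
  unfold Y0
  linear_combination (((108*i5 + 216*z*i5 - 108*z^2*i5 + 324*z^3*i5))*u^15*(1 + w^5 + w^10 + w^15
    + w^20 + w^25 + w^30 + w^35 + w^40) + ((972*i5 + 1944*z*i5 - 1512*z^2*i5 +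
    3456*z^3*i5))*u^10*v^5*(1 + w^5 + w^10 + w^15 + w^20 + w^25 + w^30 + w^35) + ((-2484*i5 -
    4968*z*i5 - 3456*z^2*i5 - 1512*z^3*i5))*u^5*v^10*(1 + w^5 + w^10 + w^15 + w^20 + w^25 + w^30)
    + ((216*i5 + 432*z*i5 + 324*z^2*i5 + 108*z^3*i5))*v^15*(1 + w^5 + w^10 + w^15 + w^20 + w^25))
    * hw

theorem kf_S (w u v : R) (hw : w ^ 5 = 1) : kf (w ^ 3 * u) (w ^ 2 * v) = kf u v := by
  unfold kf
  linear_combination ((1)*u^11*v*(1 + w^5 + w^10 + w^15 + w^20 + w^25 + w^30) + (11)*u^6*v^6*(1 +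
    w^5 + w^10 + w^15 + w^20 + w^25) + (-1)*u*v^11*(1 + w^5 + w^10 + w^15 + w^20)) * hw

theorem kH_S (w u v : R) (hw : w ^ 5 = 1) : kH (w ^ 3 * u) (w ^ 2 * v) = kH u v := by
  unfold kH
  linear_combination ((-1)*u^20*(1 + w^5 + w^10 + w^15 + w^20 + w^25 + w^30 + w^35 + w^40 + w^45
    + w^50 + w^55) + (228)*u^15*v^5*(1 + w^5 + w^10 + w^15 + w^20 + w^25 + w^30 + w^35 + w^40 +
    w^45 + w^50) + (-494)*u^10*v^10*(1 + w^5 + w^10 + w^15 + w^20 + w^25 + w^30 + w^35 + w^40 +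
    w^45) + (-228)*u^5*v^15*(1 + w^5 + w^10 + w^15 + w^20 + w^25 + w^30 + w^35 + w^40) +
    (-1)*v^20*(1 + w^5 + w^10 + w^15 + w^20 + w^25 + w^30 + w^35)) * hw

theorem kT_S (w u v : R) (hw : w ^ 5 = 1) : kT (w ^ 3 * u) (w ^ 2 * v) = kT u v := by
  unfold kT
  linear_combination ((1)*u^30*(1 + w^5 + w^10 + w^15 + w^20 + w^25 + w^30 + w^35 + w^40 + w^45 +
    w^50 + w^55 + w^60 + w^65 + w^70 + w^75 + w^80 + w^85) + (522)*u^25*v^5*(1 + w^5 + w^10 +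
    w^15 + w^20 + w^25 + w^30 + w^35 + w^40 + w^45 + w^50 + w^55 + w^60 + w^65 + w^70 + w^75 +
    w^80) + (-10005)*u^20*v^10*(1 + w^5 + w^10 + w^15 + w^20 + w^25 + w^30 + w^35 + w^40 + w^45 +
    w^50 + w^55 + w^60 + w^65 + w^70 + w^75) + (-10005)*u^10*v^20*(1 + w^5 + w^10 + w^15 + w^20 +
    w^25 + w^30 + w^35 + w^40 + w^45 + w^50 + w^55 + w^60 + w^65) + (-522)*u^5*v^25*(1 + w^5 +
    w^10 + w^15 + w^20 + w^25 + w^30 + w^35 + w^40 + w^45 + w^50 + w^55 + w^60) + (1)*v^30*(1 +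
    w^5 + w^10 + w^15 + w^20 + w^25 + w^30 + w^35 + w^40 + w^45 + w^50 + w^55)) * hw

theorem kf_U (u v : R) : kf (-v) u = kf u v := by unfold kf; ring

theorem kH_U (u v : R) : kH (-v) u = kH u v := by unfold kH; ring

theorem kT_U (u v : R) : kT (-v) u = kT u v := by unfold kT; ring

theorem X0_neg (z i5 u v : R) : X0 z i5 (-u) (-v) = X0 z i5 u v := by unfold X0; ring

theorem Y0_neg (z i5 u v : R) : Y0 z i5 (-u) (-v) = -Y0 z i5 u v := by unfold Y0; ring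

/-! ### Nonvanishing certificates -/

theorem nz_Y1 (u v : R) :
    (Y1 u v) *
      (1*u^9 + (-1)*u^8*v + (-3)*u^7*v^2 + 7*u^6*v^3 + (-7)*u^4*v^5 + 7*u^3*v^6 + (-4)*u^2*v^7 +
        1*u*v^8)
      = 108 * kf u v ^ 2 := by
  unfold Y1 kf; ring

theorem nz_Y2 (u v : R) :
    (Y2 u v) *
      (1*u^8*v + 4*u^7*v^2 + 7*u^6*v^3 + 7*u^5*v^4 + (-7)*u^3*v^6 + (-3)*u^2*v^7 + 1*u*v^8 +
        1*v^9)
      = 108 * kf u v ^ 2 := by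
  unfold Y2 kf; ring

theorem nz_X12 (u v : R) :
    (X1 u v - X2 u v) *
      (1*u^2 + 1*u*v + (-1)*v^2)
      = 36 * kf u v := by
  unfold X1 X2 kf; ring

theorem nz_X1SX0 (z i5 u v : R) (hz : 1 + z + z ^ 2 + z ^ 3 + z ^ 4 = 0) (h5 : 5 * i5 = 1) :
    (X1S z u v - X0 z i5 u v) *
      (((2 - z^2 - z^3)*u^12*v^2 + (5 + 5*z - 5*z^3)*u^10*v^4 + (5*z + 10*z^2 + 5*z^3)*u^9*v^5 +
        (10 + 15*z + 10*z^2)*u^8*v^6) + ((7 + 14*z^2 + 14*z^3)*u^7*v^7 + (-10 - 10*z -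
        15*z^3)*u^5*v^9 + (-10*z + 5*z^2 - 10*z^3)*u^4*v^10 + (5 - 5*z + 5*z^2)*u^3*v^11 + (3 +
        z^2 + z^3)*u^2*v^12))
      = 36 * kf u v ^ 2 := by
  unfold X1S X0 kf
  linear_combination ((((36*i5 - 36*z*i5 - 36*z^2*i5)*u^22*v^2 + (36 + 360*i5 - 36*z^2 -
    180*z^2*i5)*u^20*v^4 + (36*z + 360*z*i5 + 180*z^2*i5)*u^19*v^5 + (108 + 540*i5 + 180*z +
    360*z*i5 - 180*z^2)*u^18*v^6 + (-360 - 108*i5 + 360*z + 108*z*i5 + 180*z^2 +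
    108*z^2*i5)*u^17*v^7) + ((-360 + 360*z + 180*z^2)*u^16*v^8 + (-396 + 4140*i5 + 396*z^2 -
    2520*z^2*i5)*u^15*v^9 + (-900 - 576*z + 4140*z*i5 + 900*z^2 + 1620*z^2*i5)*u^14*v^10 + (252 +
    5760*i5 - 720*z + 4140*z*i5 - 1980*z^2)*u^13*v^11 + (-3960 - 5616*i5 - 540*z + 5616*z*i5 +
    180*z^2 + 5616*z^2*i5)*u^12*v^12)) + (((-1260 - 540*z - 2520*z^2)*u^11*v^13 + (-1548 +
    1620*i5 + 1548*z^2 - 5760*z^2*i5)*u^10*v^14 + (1800 + 972*z + 1620*z*i5 + 2700*z^2 -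
    4140*z^2*i5)*u^9*v^15 + (1296 - 2520*i5 + 720*z + 1620*z*i5 + 180*z^2)*u^8*v^16 + (360 +
    108*i5 - 360*z - 108*z*i5 - 1080*z^2 - 108*z^2*i5)*u^7*v^17) + ((-540 - 360*z -
    180*z^2)*u^6*v^18 + (-108 - 180*i5 + 108*z^2 + 540*z^2*i5)*u^5*v^19 + (72*z - 180*z*i5 +
    360*z^2*i5)*u^4*v^20 + (36 + 180*i5 - 180*z*i5)*u^3*v^21 + (36*i5 - 36*z*i5 -
    36*z^2*i5)*u^2*v^22))) * hz + (((30 + 3*z^2 + 3*z^3)*u^22*v^2 + (21 + 21*z - 57*z^3)*u^20*v^4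
    + (21*z + 78*z^2 + 21*z^3)*u^19*v^5 + (78 + 99*z + 78*z^2)*u^18*v^6 + (231 + 408*z^2 +
    408*z^3)*u^17*v^7 + (-816 - 816*z - 153*z^3)*u^15*v^9 + (-816*z - 663*z^2 -
    816*z^3)*u^14*v^10 + (-663 - 1479*z - 663*z^2)*u^13*v^11) + ((1479*u^12*v^12 + (-663 - 663*z
    - 1479*z^3)*u^10*v^14 + (-663*z + 816*z^2 - 663*z^3)*u^9*v^15 + (816 + 153*z +
    816*z^2)*u^8*v^16) + ((177 + 408*z^2 + 408*z^3)*u^7*v^17 + (-78 - 78*z - 99*z^3)*u^5*v^19 +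
    (-78*z + 21*z^2 - 78*z^3)*u^4*v^20 + (21 - 57*z + 21*z^2)*u^3*v^21 + (27 - 3*z^2 -
    3*z^3)*u^2*v^22))) * h5

theorem nz_X1X1S (z u v : R) (hz : 1 + z + z ^ 2 + z ^ 3 + z ^ 4 = 0) :
    (X1 u v - X1S z u v) *
      (((3 + z - z^2 + 2*z^3)*u^14 + (-3 - z - 4*z^2 - 2*z^3)*u^13*v + (-4 - 8*z + 3*z^2 -
        11*z^3)*u^12*v^2 + (26 + 7*z + 13*z^2 + 19*z^3)*u^11*v^3 + (-15 + 20*z - 20*z^2 +
        15*z^3)*u^10*v^4 + (-22 - 24*z - 26*z^2 - 48*z^3)*u^9*v^5 + (57 - 31*z + 26*z^2 +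
        13*z^3)*u^8*v^6) + ((11 + 22*z - 2*z^2 + 24*z^3)*u^7*v^7 + (-4 + 22*z - 2*z^2 -
        26*z^3)*u^6*v^8 + (-20 - 15*z + 15*z^2 + 20*z^3)*u^5*v^9 + (7 - 6*z - 19*z^2 -
        12*z^3)*u^4*v^10 + (-2 + 16*z + 14*z^2 + 7*z^3)*u^3*v^11 + (-6 - 12*z - 8*z^2 -
        4*z^3)*u^2*v^12 + (4 + 3*z + 2*z^2 + z^3)*u*v^13))
      = 180 * kf u v ^ 2 := by
  unfold X1 X1S kf
  linear_combination ((((-72 + 108*z - 72*z^2)*u^22*v^2 + (-216 + 144*z + 72*z^2)*u^21*v^3 + (180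
    - 576*z + 396*z^2)*u^20*v^4 + (864 - 180*z - 684*z^2)*u^19*v^5 + (-684 + 1764*z -
    180*z^2)*u^18*v^6) + ((-3096 - 648*z + 1152*z^2)*u^17*v^7 + (216 - 1584*z -
    2232*z^2)*u^16*v^8 + (5580 + 2376*z + 3744*z^2)*u^15*v^9 + (576 - 2160*z +
    1584*z^2)*u^14*v^10 + (-7596 - 3024*z - 10980*z^2)*u^13*v^11)) + (((-2736 + 2196*z +
    7956*z^2)*u^12*v^12 + (6228 + 1008*z + 2664*z^2)*u^11*v^13 + (3420 + 1908*z -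
    7128*z^2)*u^10*v^14 + (-4572 - 1800*z + 6372*z^2)*u^9*v^15 + (-108 - 972*z -
    4320*z^2)*u^8*v^16) + ((2700 + 1836*z + 2556*z^2)*u^7*v^17 + (-2592 - 1332*z -
    1476*z^2)*u^6*v^18 + (900 + 288*z + 612*z^2)*u^5*v^19 + (-72 + 180*z - 108*z^2)*u^4*v^20 +
    (72 - 72*z)*u^3*v^21 + (-36)*u^2*v^22))) * hz

theorem nz_X1X0 (z i5 u v : R) (hz : 1 + z + z ^ 2 + z ^ 3 + z ^ 4 = 0) (h5 : 5 * i5 = 1) :
    (X1 u v - X0 z i5 u v) *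
      (((2 - z^2 - z^3)*u^12*v^2 + (-5 + 5*z^2 + 5*z^3)*u^10*v^4 + (5 - 5*z^2 - 5*z^3)*u^9*v^5 +
        (5 - 10*z^2 - 10*z^3)*u^8*v^6) + ((7 + 14*z^2 + 14*z^3)*u^7*v^7 + (-15 - 10*z^2 -
        10*z^3)*u^5*v^9 + (15 + 10*z^2 + 10*z^3)*u^4*v^10 + (-10 - 5*z^2 - 5*z^3)*u^3*v^11 + (3 +
        z^2 + z^3)*u^2*v^12))
      = 36 * kf u v ^ 2 := by
  unfold X1 X0 kf
  linear_combination (((36*i5 - 36*z*i5 - 36*z^2*i5)*u^22*v^2 + (-180*i5 + 180*z*i5 +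
    180*z^2*i5)*u^20*v^4 + (180*i5 - 180*z*i5 - 180*z^2*i5)*u^19*v^5 + (360*i5 - 360*z*i5 -
    360*z^2*i5)*u^18*v^6 + (-108*i5 + 108*z*i5 + 108*z^2*i5)*u^17*v^7 + (-1620*i5 + 1620*z*i5 +
    1620*z^2*i5)*u^15*v^9 + (1620*i5 - 1620*z*i5 - 1620*z^2*i5)*u^14*v^10 + (4140*i5 - 4140*z*i5
    - 4140*z^2*i5)*u^13*v^11) + (((-5616*i5 + 5616*z*i5 + 5616*z^2*i5)*u^12*v^12 + (4140*i5 -
    4140*z*i5 - 4140*z^2*i5)*u^10*v^14 + (-4140*i5 + 4140*z*i5 + 4140*z^2*i5)*u^9*v^15 + (1620*i5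
    - 1620*z*i5 - 1620*z^2*i5)*u^8*v^16) + ((108*i5 - 108*z*i5 - 108*z^2*i5)*u^7*v^17 + (-360*i5
    + 360*z*i5 + 360*z^2*i5)*u^5*v^19 + (360*i5 - 360*z*i5 - 360*z^2*i5)*u^4*v^20 + (-180*i5 +
    180*z*i5 + 180*z^2*i5)*u^3*v^21 + (36*i5 - 36*z*i5 - 36*z^2*i5)*u^2*v^22))) * hz + (((30 +
    3*z^2 + 3*z^3)*u^22*v^2 + (-57 + 21*z^2 + 21*z^3)*u^20*v^4 + (57 - 21*z^2 - 21*z^3)*u^19*v^5
    + (21 - 78*z^2 - 78*z^3)*u^18*v^6 + (231 + 408*z^2 + 408*z^3)*u^17*v^7 + (-153 - 816*z^2 -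
    816*z^3)*u^15*v^9 + (153 + 816*z^2 + 816*z^3)*u^14*v^10 + (-816 + 663*z^2 +
    663*z^3)*u^13*v^11) + ((1479*u^12*v^12 + (-1479 - 663*z^2 - 663*z^3)*u^10*v^14 + (1479 +
    663*z^2 + 663*z^3)*u^9*v^15 + (-663 - 816*z^2 - 816*z^3)*u^8*v^16) + ((177 + 408*z^2 +
    408*z^3)*u^7*v^17 + (-99 - 78*z^2 - 78*z^3)*u^5*v^19 + (99 + 78*z^2 + 78*z^3)*u^4*v^20 + (-78
    - 21*z^2 - 21*z^3)*u^3*v^21 + (27 - 3*z^2 - 3*z^3)*u^2*v^22))) * h5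

theorem nz_X0UX0 (z i5 u v : R) (hz : 1 + z + z ^ 2 + z ^ 3 + z ^ 4 = 0) (h5 : 5 * i5 = 1) :
    (X0 z i5 (-v) u - X0 z i5 u v) *
      ((1 + 2*z^2 + 2*z^3)*u*v)
      = 36 * kf u v := by
  unfold X0 kf
  linear_combination ((-144*i5 + 144*z*i5 + 144*z^2*i5)*u^11*v + (-1584*i5 + 1584*z*i5 +
    1584*z^2*i5)*u^6*v^6 + (144*i5 - 144*z*i5 - 144*z^2*i5)*u*v^11) * hz + (36*u^11*v +
    396*u^6*v^6 + (-36)*u*v^11) * h5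

theorem nz_Y0 (z i5 u v : R) (hz : 1 + z + z ^ 2 + z ^ 3 + z ^ 4 = 0) (h5 : 5 * i5 = 1) :
    (Y0 z i5 u v) *
      ((4 + 8*z + 7*z^2 + z^3)*u^7*v^2 + (-3 - 6*z + z^2 - 7*z^3)*u^2*v^7)
      = 108 * kf u v ^ 2 := by
  unfold Y0 kf
  linear_combination ((-108*i5 + 1836*z*i5 + 324*z^2*i5)*u^22*v^2 + (-8316*i5 + 22572*z*i5 +
    1188*z^2*i5)*u^17*v^7 + (-77112*i5 + 25704*z*i5 - 25704*z^2*i5)*u^12*v^12 + (20196*i5 +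
    13068*z*i5 + 10692*z^2*i5)*u^7*v^17 + (-1188*i5 - 1404*z*i5 - 756*z^2*i5)*u^2*v^22) * hz +
    (108*u^22*v^2 + 2376*u^17*v^7 + 12852*u^12*v^12 + (-2376)*u^7*v^17 + 108*u^2*v^22) * h5

/-! ### Compatibility with ring homomorphisms -/

section Map

variable {S : Type*} [CommRing S] (φ : R →+* S)

theorem map_X0 (z i5 u v : R) : φ (X0 z i5 u v) = X0 (φ z) (φ i5) (φ u) (φ v) := by
  simp only [X0, map_add, map_sub, map_mul, map_pow, map_neg, map_ofNat]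

theorem map_Y0 (z i5 u v : R) : φ (Y0 z i5 u v) = Y0 (φ z) (φ i5) (φ u) (φ v) := by
  simp only [Y0, map_add, map_sub, map_mul, map_pow, map_neg, map_ofNat]

theorem map_X1 (u v : R) : φ (X1 u v) = X1 (φ u) (φ v) := by
  simp only [X1, map_add, map_sub, map_mul, map_pow, map_neg, map_ofNat]

theorem map_Y1 (u v : R) : φ (Y1 u v) = Y1 (φ u) (φ v) := by
  simp only [Y1, map_add, map_sub, map_mul, map_pow, map_neg, map_ofNat]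

theorem map_X2 (u v : R) : φ (X2 u v) = X2 (φ u) (φ v) := by
  simp only [X2, map_add, map_sub, map_mul, map_pow, map_neg, map_ofNat]

theorem map_Y2 (u v : R) : φ (Y2 u v) = Y2 (φ u) (φ v) := by
  simp only [Y2, map_add, map_sub, map_mul, map_pow, map_neg, map_ofNat]

end Map

end Fermat.Agent.S52.Fam.LevelAlt
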