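import Mathlib
import Fermat.Agent.S52.Fam.Defs
import Fermat.Agent.S52.Fam.Collinear
import Fermat.Agent.S52.Fam.LevelAltForms

/-!
# S52, brick (Fam) F-b, insurance version: the universal level-5 structure (helper126)

For a field `K`, `z` with `1 + z + z² + z³ + z⁴ = 0`, `i5` with `5 * i5 = 1`, `2, 3 ≠ 0`, and a
Klein point `(x, y)` of the curve `W : Y² = X³ + A X + B` (`A = 27 H(x,y)`, `B = 54 T(x,y)`,
`f(x,y) ≠ 0`), `level_alt` gives an injective homomorphism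
`g : ZMod 5 × ZMod 5 →+ W.Point` such that for every label `c ≠ 0`
`g c = (XX c z i5 x y, YY c z i5 x y)`, where `XX c`, `YY c` are explicit forms of degree
`10`, `15` in `(x, y)` defined over any commutative ring (with `map_XX`, `map_YY`).

Proof: `P = P0(p)`, `R₀ = R(p)`; `2 P0(p) = P0(U p)`, `4 P = -P`; `2 (X1,Y1) = (X2,Y2)`,
`2 (X2,Y2) = (X1,-Y1)`; `R(S p) + P0(p) = R(p)`, hence `R(Sⁿ p) = R₀ - n P`; the label `(i, j)`,
`j ≠ 0`, is `j • R(Sⁿ p)` with `n = -i j⁻¹`.  No transformation law for `T` is used.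
-/

set_option autoImplicit false

namespace Fermat.Agent.S52.Fam.LevelAlt

open WeierstrassCurve WeierstrassCurve.Affine Fermat.Agent.S52.Tr Fermat.Agent.S52.Fam

/-! ### The coordinate forms of the 24 nonzero points -/

section Labels

variable {R : Type*} [CommRing R]

/-- the exponent `n = -i j⁻¹ = -i j³` of the label `(i, j)`, `j ≠ 0` -/
def nOf (c : ZMod 5 × ZMod 5) : ℕ := (-c.1 * c.2 ^ 3).val

/-- `x`-coordinate of `i • P0(p)` -/
def XXa (i : ZMod 5) (z i5 x y : R) : R :=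
  if i = 1 then X0 z i5 x y else if i = 2 then X0 z i5 (-y) x
  else if i = 3 then X0 z i5 (-y) x else X0 z i5 x y

/-- `y`-coordinate of `i • P0(p)` -/
def YYa (i : ZMod 5) (z i5 x y : R) : R :=
  if i = 1 then Y0 z i5 x y else if i = 2 then Y0 z i5 (-y) x
  else if i = 3 then -Y0 z i5 (-y) x else -Y0 z i5 x y

/-- `x`-coordinate of `j • R(u, v)` -/
def XXb (j : ZMod 5) (u v : R) : R :=
  if j = 1 then X1 u v else if j = 2 then X2 u v else if j = 3 then X2 u v else X1 u v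

/-- `y`-coordinate of `j • R(u, v)` -/
def YYb (j : ZMod 5) (u v : R) : R :=
  if j = 1 then Y1 u v else if j = 2 then Y2 u v else if j = 3 then -Y2 u v else -Y1 u v

/-- `x`-coordinate of the point with label `c ≠ 0` -/
def XX (c : ZMod 5 × ZMod 5) (z i5 x y : R) : R :=
  if c.2 = 0 then XXa c.1 z i5 x y
  else XXb c.2 ((z ^ nOf c) ^ 3 * x) ((z ^ nOf c) ^ 2 * y)

/-- `y`-coordinate of the point with label `c ≠ 0` -/
def YY (c : ZMod 5 × ZMod 5) (z i5 x y : R) : R :=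
  if c.2 = 0 then YYa c.1 z i5 x y
  else YYb c.2 ((z ^ nOf c) ^ 3 * x) ((z ^ nOf c) ^ 2 * y)

variable {S : Type*} [CommRing S] (φ : R →+* S)

theorem map_XX (c : ZMod 5 × ZMod 5) (z i5 x y : R) :
    φ (XX c z i5 x y) = XX c (φ z) (φ i5) (φ x) (φ y) := by
  unfold XX XXa XXb
  split_ifs <;> simp only [map_X0, map_X1, map_X2, map_mul, map_pow, map_neg]

theorem map_YY (c : ZMod 5 × ZMod 5) (z i5 x y : R) :
    φ (YY c z i5 x y) = YY c (φ z) (φ i5) (φ x) (φ y) := by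
  unfold YY YYa YYb
  split_ifs <;> simp only [map_Y0, map_Y1, map_Y2, map_mul, map_pow, map_neg]

end Labels

/-! ### Points of the short curve -/

section Group

variable {K : Type*} [Field K] [DecidableEq K] (A B : K)

open Classical in
/-- the affine point `(x, y)` of `y² = x³ + A x + B` (junk value `0` off the curve) -/
noncomputable def pt (x y : K) : (shortCurve A B).Point :=
  if h : (shortCurve A B).Nonsingular x y then Point.some x y h else 0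

omit [DecidableEq K] in
theorem pt_eq {x y : K} (h : (shortCurve A B).Nonsingular x y) :
    pt A B x y = Point.some x y h := by
  unfold pt; exact dif_pos h

variable {A B}

omit [DecidableEq K] in
theorem pt_some (h2 : (2 : K) ≠ 0) (hΔ : 4 * A ^ 3 + 27 * B ^ 2 ≠ 0) {x y : K}
    (e : y ^ 2 = x ^ 3 + A * x + B) :
    pt A B x y = Point.some x y (Collinear.nonsingular_of_equation A B h2 hΔ e) :=
  pt_eq A B _

theorem pt_ne_zero (h2 : (2 : K) ≠ 0) (hΔ : 4 * A ^ 3 + 27 * B ^ 2 ≠ 0) {x y : K}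
    (e : y ^ 2 = x ^ 3 + A * x + B) : pt A B x y ≠ 0 := by
  rw [pt_some h2 hΔ e]; exact Point.some_ne_zero _

theorem neg_pt (h2 : (2 : K) ≠ 0) (hΔ : 4 * A ^ 3 + 27 * B ^ 2 ≠ 0) {x y : K}
    (e : y ^ 2 = x ^ 3 + A * x + B) : -pt A B x y = pt A B x (-y) := by
  have e' : (-y) ^ 2 = x ^ 3 + A * x + B := by rw [neg_sq]; exact e
  rw [pt_some h2 hΔ e, pt_some h2 hΔ e', Collinear.neg_some_short]

theorem pt_add (h2 : (2 : K) ≠ 0) (hΔ : 4 * A ^ 3 + 27 * B ^ 2 ≠ 0) {x₁ y₁ x₂ y₂ x₃ y₃ : K}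
    (e₁ : y₁ ^ 2 = x₁ ^ 3 + A * x₁ + B) (e₂ : y₂ ^ 2 = x₂ ^ 3 + A * x₂ + B)
    (e₃ : y₃ ^ 2 = x₃ ^ 3 + A * x₃ + B) (h12 : x₁ ≠ x₂) (h31 : x₃ ≠ x₁) (h32 : x₃ ≠ x₂)
    (hcol : (y₂ - y₁) * (x₃ - x₁) = (-y₃ - y₁) * (x₂ - x₁)) :
    pt A B x₁ y₁ + pt A B x₂ y₂ = pt A B x₃ y₃ := by
  have e₃' : (-(-y₃)) ^ 2 = x₃ ^ 3 + A * x₃ + B := by rw [neg_neg]; exact e₃
  have h₃ := Collinear.nonsingular_of_equation A B h2 hΔ e₃'
  rw [pt_some h2 hΔ e₁, pt_some h2 hΔ e₂, Collinear.chord A B (h₃ := h₃) h12 h31 h32 hcol,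
    ← pt_eq A B h₃, neg_neg]

theorem two_pt (h2 : (2 : K) ≠ 0) (hΔ : 4 * A ^ 3 + 27 * B ^ 2 ≠ 0) {x₁ y₁ x₃ y₃ : K}
    (e₁ : y₁ ^ 2 = x₁ ^ 3 + A * x₁ + B) (e₃ : y₃ ^ 2 = x₃ ^ 3 + A * x₃ + B)
    (hy₁ : y₁ ≠ 0) (h31 : x₃ ≠ x₁)
    (htan : (3 * x₁ ^ 2 + A) * (x₃ - x₁) = 2 * y₁ * (-y₃ - y₁)) :
    (2 : ℕ) • pt A B x₁ y₁ = pt A B x₃ y₃ := by
  have e₃' : (-(-y₃)) ^ 2 = x₃ ^ 3 + A * x₃ + B := by rw [neg_neg]; exact e₃
  have h₃ := Collinear.nonsingular_of_equation A B h2 hΔ e₃'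
  rw [pt_some h2 hΔ e₁, Collinear.tangent A B h2 (h₃ := h₃) hy₁ h31 htan, ← pt_eq A B h₃,
    neg_neg]

end Group

/-! ### Multiples of a point `R` with `2R = R'`, `2R' = -R` -/

theorem mult_table {G : Type*} [AddCommGroup G] {R R' : G} (h1 : (2 : ℕ) • R = R')
    (h2 : (2 : ℕ) • R' = -R) : (5 : ℕ) • R = 0 ∧ (3 : ℕ) • R = -R' ∧ (4 : ℕ) • R = -R := by
  have h4 : (4 : ℕ) • R = -R := by
    rw [show (4 : ℕ) = 2 * 2 from rfl, mul_comm, mul_smul, h1, h2]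
  have h5 : (5 : ℕ) • R = 0 := by
    rw [show (5 : ℕ) = 4 + 1 from rfl, add_smul, h4, one_smul, neg_add_cancel]
  refine ⟨h5, ?_, h4⟩
  have h : (3 : ℕ) • R + (2 : ℕ) • R = 0 := by rw [← add_smul]; exact h5
  rw [h1] at h
  exact eq_neg_of_add_eq_zero_left h

theorem smul_table {G : Type*} [AddCommGroup G] {R R' : G} (h1 : (2 : ℕ) • R = R')
    (h2 : (2 : ℕ) • R' = -R) (j : ZMod 5) (hj : j ≠ 0) :
    j.val • R = if j = 1 then R else if j = 2 then R' else if j = 3 then -R' else -R := by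
  obtain ⟨-, h3, h4⟩ := mult_table h1 h2
  have hcases : ∀ j : ZMod 5, j ≠ 0 → j = 1 ∨ j = 2 ∨ j = 3 ∨ j = 4 := by decide
  have e21 : ¬ ((2 : ZMod 5) = 1) := by decide
  have e31 : ¬ ((3 : ZMod 5) = 1) := by decide
  have e32 : ¬ ((3 : ZMod 5) = 2) := by decide
  have e41 : ¬ ((4 : ZMod 5) = 1) := by decide
  have e42 : ¬ ((4 : ZMod 5) = 2) := by decide
  have e43 : ¬ ((4 : ZMod 5) = 3) := by decide
  rcases hcases j hj with rfl | rfl | rfl | rfl
  · rw [if_pos rfl]; exact one_smul _ _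
  · rw [if_neg e21, if_pos rfl]; exact h1
  · rw [if_neg e31, if_neg e32, if_pos rfl]; exact h3
  · rw [if_neg e41, if_neg e42, if_neg e43]; exact h4

/-! ### The level structure -/

section Main

variable {K : Type*} [Field K] [DecidableEq K] {A B : K} {z i5 : K}

/-- `(u, v)` is a Klein point of the curve `(A, B)` -/
def Adm (A B u v : K) : Prop := A = 27 * kH u v ∧ B = 54 * kT u v ∧ kf u v ≠ 0

omit [DecidableEq K] in
theorem z_pow_five (hz : 1 + z + z ^ 2 + z ^ 3 + z ^ 4 = 0) : z ^ 5 = 1 := by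
  linear_combination (z - 1) * hz

omit [DecidableEq K] in
theorem ne_zero_of_cert {F M c f : K} {k : ℕ} (hc : c ≠ 0) (hf : f ≠ 0)
    (h : F * M = c * f ^ k) : F ≠ 0 := by
  intro h0
  rw [h0, zero_mul] at h
  exact mul_ne_zero hc (pow_ne_zero _ hf) h.symm

omit [DecidableEq K] in
theorem five_ne_zero_of (h5 : 5 * i5 = 1) : (5 : K) ≠ 0 := by
  intro h
  rw [h, zero_mul] at h5
  exact zero_ne_one h5

namespace Adm

variable {u v : K}

omit [DecidableEq K] in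
theorem U (h : Adm A B u v) : Adm A B (-v) u := by
  obtain ⟨hA, hB, hf⟩ := h
  exact ⟨by rw [kH_U]; exact hA, by rw [kT_U]; exact hB, by rw [kf_U]; exact hf⟩

omit [DecidableEq K] in
theorem S (h : Adm A B u v) {w : K} (hw : w ^ 5 = 1) : Adm A B (w ^ 3 * u) (w ^ 2 * v) := by
  obtain ⟨hA, hB, hf⟩ := h
  exact ⟨by rw [kH_S _ _ _ hw]; exact hA, by rw [kT_S _ _ _ hw]; exact hB,
    by rw [kf_S _ _ _ hw]; exact hf⟩

omit [DecidableEq K] in
theorem disc (h2 : (2 : K) ≠ 0) (h3 : (3 : K) ≠ 0) (h : Adm A B u v) :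
    4 * A ^ 3 + 27 * B ^ 2 ≠ 0 := by
  obtain ⟨hA, hB, hf⟩ := h
  have e : 4 * A ^ 3 + 27 * B ^ 2 = 2 ^ 8 * 3 ^ 12 * kf u v ^ 5 := by
    rw [hA, hB]; linear_combination 78732 * klein_rel u v
  rw [e]
  exact mul_ne_zero (mul_ne_zero (pow_ne_zero _ h2) (pow_ne_zero _ h3)) (pow_ne_zero _ hf)

omit [DecidableEq K] in
theorem eq0 (hz : 1 + z + z ^ 2 + z ^ 3 + z ^ 4 = 0) (h5 : 5 * i5 = 1) (h : Adm A B u v) :
    Y0 z i5 u v ^ 2 = X0 z i5 u v ^ 3 + A * X0 z i5 u v + B := by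
  obtain ⟨hA, hB, -⟩ := h
  rw [hA, hB]; exact on0 z i5 u v hz h5

omit [DecidableEq K] in
theorem eq1 (h : Adm A B u v) : Y1 u v ^ 2 = X1 u v ^ 3 + A * X1 u v + B := by
  obtain ⟨hA, hB, -⟩ := h
  rw [hA, hB]; exact on1 u v

omit [DecidableEq K] in
theorem eq2 (h : Adm A B u v) : Y2 u v ^ 2 = X2 u v ^ 3 + A * X2 u v + B := by
  obtain ⟨hA, hB, -⟩ := h
  rw [hA, hB]; exact on2 u v

end Adm

section

variable (hz : 1 + z + z ^ 2 + z ^ 3 + z ^ 4 = 0) (h5 : 5 * i5 = 1) (h2 : (2 : K) ≠ 0)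
  (h3 : (3 : K) ≠ 0) {u v : K}

include h2 h3 in
omit [DecidableEq K] in
theorem c36 : (36 : K) ≠ 0 := by
  have e : (36 : K) = 2 ^ 2 * 3 ^ 2 := by norm_num
  rw [e]; exact mul_ne_zero (pow_ne_zero _ h2) (pow_ne_zero _ h3)

include h2 h3 in
omit [DecidableEq K] in
theorem c108 : (108 : K) ≠ 0 := by
  have e : (108 : K) = 2 ^ 2 * 3 ^ 3 := by norm_num
  rw [e]; exact mul_ne_zero (pow_ne_zero _ h2) (pow_ne_zero _ h3)

include h2 h3 h5 in
omit [DecidableEq K] in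
theorem c180 : (180 : K) ≠ 0 := by
  have e : (180 : K) = 2 ^ 2 * 3 ^ 2 * 5 := by norm_num
  rw [e]
  exact mul_ne_zero (mul_ne_zero (pow_ne_zero _ h2) (pow_ne_zero _ h3)) (five_ne_zero_of h5)

include hz h5 h2 h3 in
/-- `2 P0(p) = P0(U p)` -/
theorem two_P (h : Adm A B u v) :
    (2 : ℕ) • pt A B (X0 z i5 u v) (Y0 z i5 u v) = pt A B (X0 z i5 (-v) u) (Y0 z i5 (-v) u) := by
  have hΔ := h.disc h2 h3
  refine two_pt h2 hΔ (h.eq0 hz h5) (h.U.eq0 hz h5) ?_ ?_ ?_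
  · exact ne_zero_of_cert (c108 h2 h3) h.2.2 (nz_Y0 z i5 u v hz h5)
  · exact sub_ne_zero.mp (ne_zero_of_cert (k := 1) (c36 h2 h3) h.2.2
      (by rw [pow_one]; exact nz_X0UX0 z i5 u v hz h5))
  · rw [h.1]; exact tan0 z i5 u v hz h5

include h2 h3 in
/-- `2 R(p) = (X2, Y2)(p)` -/
theorem two_R (h : Adm A B u v) :
    (2 : ℕ) • pt A B (X1 u v) (Y1 u v) = pt A B (X2 u v) (Y2 u v) := by
  have hΔ := h.disc h2 h3
  refine two_pt h2 hΔ h.eq1 h.eq2 ?_ ?_ ?_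
  · exact ne_zero_of_cert (c108 h2 h3) h.2.2 (nz_Y1 u v)
  · exact (sub_ne_zero.mp (ne_zero_of_cert (k := 1) (c36 h2 h3) h.2.2
      (by rw [pow_one]; exact nz_X12 u v))).symm
  · rw [h.1]; exact tan1 u v

include h2 h3 in
/-- `2 (X2, Y2)(p) = -R(p)` -/
theorem two_R2 (h : Adm A B u v) :
    (2 : ℕ) • pt A B (X2 u v) (Y2 u v) = -pt A B (X1 u v) (Y1 u v) := by
  have hΔ := h.disc h2 h3
  rw [neg_pt h2 hΔ h.eq1]
  refine two_pt h2 hΔ h.eq2 (by rw [neg_sq]; exact h.eq1) ?_ ?_ ?_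
  · exact ne_zero_of_cert (c108 h2 h3) h.2.2 (nz_Y2 u v)
  · exact sub_ne_zero.mp (ne_zero_of_cert (k := 1) (c36 h2 h3) h.2.2
      (by rw [pow_one]; exact nz_X12 u v))
  · rw [neg_neg, h.1]; exact tan2 u v

include hz h5 h2 h3 in
/-- `R(S p) + P0(p) = R(p)` -/
theorem chordR (h : Adm A B u v) :
    pt A B (X1 (z ^ 3 * u) (z ^ 2 * v)) (Y1 (z ^ 3 * u) (z ^ 2 * v))
        + pt A B (X0 z i5 u v) (Y0 z i5 u v) = pt A B (X1 u v) (Y1 u v) := by
  have hΔ := h.disc h2 h3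
  have e1S := (h.S (z_pow_five hz)).eq1
  rw [X1_S z u v hz, Y1_S z u v hz] at e1S ⊢
  refine pt_add h2 hΔ e1S (h.eq0 hz h5) h.eq1 ?_ ?_ ?_ ?_
  · exact sub_ne_zero.mp (ne_zero_of_cert (c36 h2 h3) h.2.2 (nz_X1SX0 z i5 u v hz h5))
  · exact sub_ne_zero.mp (ne_zero_of_cert (c180 h5 h2 h3) h.2.2 (nz_X1X1S z u v hz))
  · exact sub_ne_zero.mp (ne_zero_of_cert (c36 h2 h3) h.2.2 (nz_X1X0 z i5 u v hz h5))
  · exact chord z i5 u v hz h5

include hz h5 h2 h3 in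
/-- `R(Sⁿ p) = R(p) - n P0(p)` -/
theorem R_iter {x y : K} (h : Adm A B x y) (n : ℕ) :
    pt A B (X1 ((z ^ n) ^ 3 * x) ((z ^ n) ^ 2 * y)) (Y1 ((z ^ n) ^ 3 * x) ((z ^ n) ^ 2 * y))
      = pt A B (X1 x y) (Y1 x y) - n • pt A B (X0 z i5 x y) (Y0 z i5 x y) := by
  induction n with
  | zero => simp
  | succ n ih =>
    have hw : (z ^ n) ^ 5 = 1 := by
      rw [← pow_mul, mul_comm, pow_mul, z_pow_five hz, one_pow]
    have key := chordR hz h5 h2 h3 (h.S hw)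
    rw [X0_S z i5 (z ^ n) x y hw, Y0_S z i5 (z ^ n) x y hw, ih] at key
    have e1 : z ^ 3 * ((z ^ n) ^ 3 * x) = (z ^ (n + 1)) ^ 3 * x := by ring
    have e2 : z ^ 2 * ((z ^ n) ^ 2 * y) = (z ^ (n + 1)) ^ 2 * y := by ring
    rw [e1, e2] at key
    rw [eq_sub_of_add_eq key, succ_nsmul]
    abel

include hz h5 h2 h3 in
/-- **Level structure (insurance version of F-b).** -/
theorem level_alt {x y : K} (h : Adm A B x y) :
    ∃ g : ZMod 5 × ZMod 5 →+ (shortCurve A B).Point, Function.Injective g ∧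
      ∀ c : ZMod 5 × ZMod 5, c ≠ 0 →
        ∃ hc : (shortCurve A B).Nonsingular (XX c z i5 x y) (YY c z i5 x y),
          g c = Point.some _ _ hc := by
  have hΔ := h.disc h2 h3
  set P := pt A B (X0 z i5 x y) (Y0 z i5 x y) with hPdef
  set R0 := pt A B (X1 x y) (Y1 x y) with hR0def
  have hP2 : (2 : ℕ) • P = pt A B (X0 z i5 (-y) x) (Y0 z i5 (-y) x) := two_P hz h5 h2 h3 h
  have hP2' : (2 : ℕ) • pt A B (X0 z i5 (-y) x) (Y0 z i5 (-y) x) = -P := by
    rw [two_P hz h5 h2 h3 h.U, X0_neg, Y0_neg, hPdef, neg_pt h2 hΔ (h.eq0 hz h5)]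
  have hR2 : (2 : ℕ) • R0 = pt A B (X2 x y) (Y2 x y) := two_R h2 h3 h
  have hR2' : (2 : ℕ) • pt A B (X2 x y) (Y2 x y) = -R0 := two_R2 h2 h3 h
  obtain ⟨h5P, -, -⟩ := mult_table hP2 hP2'
  obtain ⟨h5R, -, -⟩ := mult_table hR2 hR2'
  let fP : ZMod 5 →+ (shortCurve A B).Point :=
    ZMod.lift 5 ⟨zmultiplesHom _ P, by rw [zmultiplesHom_apply, natCast_zsmul]; exact h5P⟩
  let fR : ZMod 5 →+ (shortCurve A B).Point :=
    ZMod.lift 5 ⟨zmultiplesHom _ R0, by rw [zmultiplesHom_apply, natCast_zsmul]; exact h5R⟩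
  have hfP : ∀ i : ZMod 5, fP i = i.val • P := by
    intro i
    conv_lhs => rw [← ZMod.natCast_zmod_val i, ← Int.cast_natCast]
    rw [ZMod.lift_coe]
    exact natCast_zsmul P _
  have hfR : ∀ i : ZMod 5, fR i = i.val • R0 := by
    intro i
    conv_lhs => rw [← ZMod.natCast_zmod_val i, ← Int.cast_natCast]
    rw [ZMod.lift_coe]
    exact natCast_zsmul R0 _
  -- the table of values
  have hT : ∀ c : ZMod 5 × ZMod 5, c ≠ 0 →
      (fP.coprod fR) c = pt A B (XX c z i5 x y) (YY c z i5 x y) ∧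
        YY c z i5 x y ^ 2 = XX c z i5 x y ^ 3 + A * XX c z i5 x y + B := by
    rintro ⟨i, j⟩ hc
    have hg : (fP.coprod fR) (i, j) = i.val • P + j.val • R0 := by
      rw [AddMonoidHom.coprod_apply, hfP, hfR]
    by_cases hj : j = 0
    · subst hj
      have hi : i ≠ 0 := fun hi => hc (by rw [hi]; rfl)
      have hXX : XX (i, 0) z i5 x y = XXa i z i5 x y := if_pos rfl
      have hYY : YY (i, 0) z i5 x y = YYa i z i5 x y := if_pos rfl
      rw [hXX, hYY, hg, ZMod.val_zero, zero_smul, add_zero, smul_table hP2 hP2' i hi]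
      have eU := h.U.eq0 hz h5
      have e0 := h.eq0 hz h5
      constructor
      · unfold XXa YYa
        split_ifs
        · rfl
        · rfl
        · exact neg_pt h2 hΔ eU
        · exact neg_pt h2 hΔ e0
      · unfold XXa YYa
        split_ifs
        · exact e0
        · exact eU
        · rw [neg_sq]; exact eU
        · rw [neg_sq]; exact e0
    · have hXX : XX (i, j) z i5 x y
          = XXb j ((z ^ nOf (i, j)) ^ 3 * x) ((z ^ nOf (i, j)) ^ 2 * y) := if_neg hj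
      have hYY : YY (i, j) z i5 x y
          = YYb j ((z ^ nOf (i, j)) ^ 3 * x) ((z ^ nOf (i, j)) ^ 2 * y) := if_neg hj
      have hdiv : ∀ i j : ZMod 5, j ≠ 0 → (i.val + j.val * nOf (i, j)) % 5 = 0 := by decide
      set n := nOf (i, j) with hn
      have hw : (z ^ n) ^ 5 = 1 := by
        rw [← pow_mul, mul_comm, pow_mul, z_pow_five hz, one_pow]
      have hadm := h.S hw
      have hR := R_iter hz h5 h2 h3 h n
      have hzero : (i.val + j.val * n) • P = 0 := by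
        obtain ⟨k, hk⟩ := Nat.dvd_of_mod_eq_zero (hdiv i j hj)
        rw [hk, mul_comm, mul_smul, h5P, smul_zero]
      have hg' : (fP.coprod fR) (i, j)
          = j.val • pt A B (X1 ((z ^ n) ^ 3 * x) ((z ^ n) ^ 2 * y))
              (Y1 ((z ^ n) ^ 3 * x) ((z ^ n) ^ 2 * y)) := by
        rw [hg, hR, smul_sub, smul_smul]
        have : i.val • P = (i.val + j.val * n) • P - (j.val * n) • P := by
          rw [add_smul, add_sub_cancel_right]
        rw [this, hzero]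
        abel
      rw [hXX, hYY, hg', smul_table (two_R h2 h3 hadm) (two_R2 h2 h3 hadm) j hj]
      have e1 := hadm.eq1
      have e2 := hadm.eq2
      constructor
      · unfold XXb YYb
        split_ifs
        · rfl
        · rfl
        · exact neg_pt h2 hΔ e2
        · exact neg_pt h2 hΔ e1
      · unfold XXb YYb
        split_ifs
        · exact e1
        · exact e2
        · rw [neg_sq]; exact e2
        · rw [neg_sq]; exact e1
  refine ⟨fP.coprod fR, ?_, ?_⟩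
  · rw [injective_iff_map_eq_zero]
    intro c hc
    by_contra hne
    obtain ⟨e1, e2⟩ := hT c hne
    rw [e1] at hc
    exact pt_ne_zero h2 hΔ e2 hc
  · intro c hc
    obtain ⟨e1, e2⟩ := hT c hc
    exact ⟨Collinear.nonsingular_of_equation A B h2 hΔ e2, by rw [e1, pt_some h2 hΔ e2]⟩

end

end Main

end Fermat.Agent.S52.Fam.LevelAlt
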