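import Mathlib
import Fermat.Agent.S52.Fam.Level

/-!
# S52, brick (Fam): the level-structure forms along lines and under Frobenius

Consumer lemmas for `Fam/Level.lean`, in the shape of the hypotheses of
`Equiv.equivStatement_of_level`: the forms `XX`, `YY` are polynomial along lines, commute with
the `ℓ`-power Frobenius, and a root `z` of `z^4 + z^3 + z^2 + z + 1` exists in an algebraically
closed field and is mapped to a root by Frobenius.  (helper167)
-/

set_option autoImplicit false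

namespace Fermat.Agent.S52.Fam.Level

open Polynomial

section Line

variable {K : Type*} [Field K]

/-- `XX` is polynomial along lines -/
theorem XX_poly (c : ZMod 5 × ZMod 5) (z i5 x0 y0 dx dy : K) :
    ∃ P : K[X], ∀ s : K, P.eval s = XX c z i5 (x0 + s * dx) (y0 + s * dy) := by
  refine ⟨XX c (C z) (C i5) (C x0 + X * C dx) (C y0 + X * C dy), fun s => ?_⟩
  have h := map_XX (Polynomial.evalRingHom s) c (C z) (C i5) (C x0 + X * C dx) (C y0 + X * C dy)
  simp only [coe_evalRingHom, eval_add, eval_mul, eval_C, eval_X] at h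
  exact h

/-- `YY` is polynomial along lines -/
theorem YY_poly (c : ZMod 5 × ZMod 5) (z i5 x0 y0 dx dy : K) :
    ∃ P : K[X], ∀ s : K, P.eval s = YY c z i5 (x0 + s * dx) (y0 + s * dy) := by
  refine ⟨YY c (C z) (C i5) (C x0 + X * C dx) (C y0 + X * C dy), fun s => ?_⟩
  have h := map_YY (Polynomial.evalRingHom s) c (C z) (C i5) (C x0 + X * C dx) (C y0 + X * C dy)
  simp only [coe_evalRingHom, eval_add, eval_mul, eval_C, eval_X] at h
  exact h

/-- a root of the 5th cyclotomic polynomial exists in an algebraically closed field -/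
theorem exists_zeta [IsAlgClosed K] : ∃ z : K, z ^ 4 + z ^ 3 + z ^ 2 + z + 1 = 0 := by
  have hdeg : (X ^ 4 + X ^ 3 + X ^ 2 + X + 1 : K[X]).degree = 4 := by
    compute_degree!
  obtain ⟨z, hz⟩ := IsAlgClosed.exists_root (X ^ 4 + X ^ 3 + X ^ 2 + X + 1 : K[X])
    (by rw [hdeg]; norm_num)
  refine ⟨z, ?_⟩
  simpa using hz

end Line

section Frob

variable (ℓ : ℕ) [Fact ℓ.Prime] {K : Type*} [Field K] [CharP K ℓ]

/-- `1/5` is fixed by Frobenius -/
lemma i5_pow {i5 : K} (h5 : 5 * i5 = 1) : i5 ^ ℓ = i5 := by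
  have hℓ : (5 : K) ^ ℓ = 5 := by
    have h := map_ofNat (frobenius K ℓ) 5
    rw [frobenius_def] at h
    exact h
  have h50 : (5 : K) ≠ 0 := by
    rintro e
    rw [e, zero_mul] at h5
    exact zero_ne_one h5
  have e1 : (5 : K) * i5 ^ ℓ = 1 := by
    have := congrArg (fun t => t ^ ℓ) h5
    simp only [mul_pow, one_pow, hℓ] at this
    exact this
  exact mul_left_cancel₀ h50 (e1.trans h5.symm)

/-- a root of the 5th cyclotomic polynomial is mapped to a root by Frobenius -/
theorem zeta_pow {z : K} (hz : z ^ 4 + z ^ 3 + z ^ 2 + z + 1 = 0) :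
    (z ^ ℓ) ^ 4 + (z ^ ℓ) ^ 3 + (z ^ ℓ) ^ 2 + z ^ ℓ + 1 = 0 := by
  have h := congrArg (frobenius K ℓ) hz
  rw [map_add, map_add, map_add, map_add, map_pow, map_pow, map_pow, map_one, map_zero] at h
  simp only [frobenius_def] at h
  exact h

/-- `XX` commutes with Frobenius -/
theorem XX_frob {i5 : K} (h5 : 5 * i5 = 1) (c : ZMod 5 × ZMod 5) (z x y : K) :
    XX c z i5 x y ^ ℓ = XX c (z ^ ℓ) i5 (x ^ ℓ) (y ^ ℓ) := by
  have h := map_XX (frobenius K ℓ) c z i5 x y
  simp only [frobenius_def] at h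
  rw [h, i5_pow ℓ h5]

/-- `YY` commutes with Frobenius -/
theorem YY_frob {i5 : K} (h5 : 5 * i5 = 1) (c : ZMod 5 × ZMod 5) (z x y : K) :
    YY c z i5 x y ^ ℓ = YY c (z ^ ℓ) i5 (x ^ ℓ) (y ^ ℓ) := by
  have h := map_YY (frobenius K ℓ) c z i5 x y
  simp only [frobenius_def] at h
  rw [h, i5_pow ℓ h5]

end Frob

end Fermat.Agent.S52.Fam.Level
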