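import Mathlib
import Fermat.Agent.S52.Fam.LevelPoly
import Fermat.Agent.S52.Fam.EquivStmt

/-!
# S52, brick (Fam): `EquivStatement` from the universal level structure

Instantiation of `Equiv.equivStatement_of_level` with the level structure of `Fam/Level.lean`,
for an algebraically closed field `K` over `ZMod ℓ`, `ℓ ∉ {2, 3, 5}`.  The two covariance
identities are still hypotheses here (they are `ring` identities landed separately).  (helper167)
-/

set_option autoImplicit false

namespace Fermat.Agent.S52.Fam.Level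

open Fermat.Agent.S52.Fam

/-- `EquivStatement ℓ K` for `K` algebraically closed, from the universal level structure. -/
theorem equivStatement_of_cov (ℓ : ℕ) [Fact ℓ.Prime] (K : Type*) [Field K] [DecidableEq K]
    [Algebra (ZMod ℓ) K] [IsAlgClosed K] (h2 : ℓ ≠ 2) (h3 : ℓ ≠ 3) (h5 : ℓ ≠ 5)
    (hcovH : ∀ x y m n : K,
      kH (m * x + n * wX x y) (m * y + n * wY x y) = -famC4h (-kH x y) (-kT x y) m n)
    (hcovT : ∀ x y m n : K,
      kT (m * x + n * wX x y) (m * y + n * wY x y) = -famC6h (-kH x y) (-kT x y) m n) :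
    EquivStatement ℓ K := by
  have hℓ : ℓ.Prime := Fact.out
  have hchar : CharP K ℓ := by
    have := ZMod.charP ℓ
    exact charP_of_injective_algebraMap (algebraMap (ZMod ℓ) K).injective ℓ
  have hK : ∀ q : ℕ, q.Prime → ℓ ≠ q → ((q : ℕ) : K) ≠ 0 := by
    intro q hq hne h
    rw [CharP.cast_eq_zero_iff K ℓ] at h
    exact hne ((Nat.prime_dvd_prime_iff_eq hℓ hq).mp h)
  have hK2 : (2 : K) ≠ 0 := by simpa using hK 2 Nat.prime_two h2
  have hK3 : (3 : K) ≠ 0 := by simpa using hK 3 Nat.prime_three h3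
  have hK5 : (5 : K) ≠ 0 := by simpa using hK 5 Nat.prime_five h5
  have hi5 : (5 : K) * (5 : K)⁻¹ = 1 := mul_inv_cancel₀ hK5
  have hinf : Infinite K := inferInstance
  exact Equiv.equivStatement_of_level ℓ K h2 h3 h5
    (fun z => z ^ 4 + z ^ 3 + z ^ 2 + z + 1 = 0) exists_zeta (fun z hz => zeta_pow ℓ hz)
    (fun c z x y => XX c z (5 : K)⁻¹ x y) (fun c z x y => YY c z (5 : K)⁻¹ x y)
    (fun c z x0 y0 dx dy => XX_poly c z (5 : K)⁻¹ x0 y0 dx dy)
    (fun c z x0 y0 dx dy => YY_poly c z (5 : K)⁻¹ x0 y0 dx dy)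
    (fun c z x y => XX_frob ℓ hi5 c z x y) (fun c z x y => YY_frob ℓ hi5 c z x y)
    (fun A B z x y hz hf hA hB => exists_level z (5 : K)⁻¹ hz hi5 hK2 hK3 hA hB hf)
    hcovH hcovT

end Fermat.Agent.S52.Fam.Level
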